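import Fermat.Agent.DeligneSerre.Nebentypus

/-!
# Removing the coefficients at the indices not prime to the level

From a normalised eigenform of weight one one gets one of level `N²` whose coefficients are those
of `f` at the indices prime to `N` and zero elsewhere.
-/

set_option autoImplicit false

noncomputable section

open UpperHalfPlane CongruenceSubgroup Filter Complex
open scoped MatrixGroups ModularForm Manifold Topology

namespace FLTAgent.DeligneSerre

open FLTAgent.PeriodHecke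
open ModularFormClass (qCoeff)

/-- A normalised form of weight one with character, eigen away from the level and with no
coefficients at the indices not prime to the level. -/
structure WtOne (N : ℕ) [NeZero N] where
  ε : DirichletCharacter ℂ N
  f : CuspForm (Gamma1 N) 1
  one : qCoeff f 1 = 1
  nebentypus : ∀ γ : Gamma0 N, (⇑f : ℍ → ℂ) ∣[(1 : ℤ)] (γ : SL(2, ℤ)) =
    ε (((γ : SL(2, ℤ)) 1 1 : ℤ) : ZMod N) • (⇑f : ℍ → ℂ)
  recursion : ∀ p : ℕ, p.Prime → ¬ p ∣ N → ∀ n : ℕ,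
    qCoeff f (p * n) + ε (p : ZMod N) * (if p ∣ n then qCoeff f (n / p) else 0) =
      qCoeff f p * qCoeff f n
  depleted : ∀ n : ℕ, ¬ n.Coprime N → qCoeff f n = 0

namespace WtOne

variable {N : ℕ} [NeZero N] (W : WtOne N)

theorem coe_ne_zero : (⇑W.f : ℍ → ℂ) ≠ 0 := fun h => by
  have h1 := W.one
  simp [qCoeff, h, UpperHalfPlane.qExpansion_zero] at h1

theorem eps_neg_one : W.ε (-1) = -1 := by
  set γ : Gamma0 N := ⟨-1, by simp⟩
  have h := W.nebentypus γ
  obtain ⟨τ, hτ⟩ := Function.ne_iff.mp W.coe_ne_zero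
  have h' := congrFun h τ
  rw [ModularForm.SL_slash_apply] at h'
  simp [γ, denom, zpow_neg] at h' hτ
  have : W.ε (-1) * W.f τ = (-1) * W.f τ := by rw [← h']; ring
  exact mul_right_cancel₀ hτ this

include W in
theorem one_lt : 1 < N := by
  have h0 := NeZero.ne N
  by_contra h
  obtain rfl : N = 1 := by omega
  have h1 := W.eps_neg_one
  rw [Subsingleton.elim (-1 : ZMod 1) 1, map_one] at h1
  norm_num at h1

end WtOne

variable {N : ℕ} [NeZero N]

/-- Translation by `j / N`. -/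
def transN (N : ℕ) (j : ℤ) : GL (Fin 2) ℝ :=
  Matrix.GeneralLinearGroup.mkOfDetNeZero !![1, (j : ℝ) / N; 0, 1] (by simp)

theorem transN_slash_apply (F : ℍ → ℂ) (j : ℤ) (τ : ℍ) :
    (F ∣[(1 : ℤ)] transN N j) τ = F (transN N j • τ) := by
  have hdet : ((transN N j).det : ℝ) = 1 := by
    simp [transN, Matrix.GeneralLinearGroup.mkOfDetNeZero, Matrix.det_fin_two]
  rw [ModularForm.slash_apply, σ, if_pos (by rw [hdet]; norm_num), hdet]
  simp [denom, transN, Matrix.GeneralLinearGroup.mkOfDetNeZero]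

theorem coe_transN_smul (j : ℤ) (τ : ℍ) :
    ((transN N j • τ : ℍ) : ℂ) = (τ : ℂ) + (j : ℂ) / N := by
  have hdet : 0 < ((transN N j).det : ℝ) := by
    simp [transN, Matrix.GeneralLinearGroup.mkOfDetNeZero, Matrix.det_fin_two]
  rw [UpperHalfPlane.coe_smul_of_det_pos hdet]
  simp [num, denom, transN, Matrix.GeneralLinearGroup.mkOfDetNeZero]

variable (ε : DirichletCharacter ℂ N) (f : CuspForm (Gamma1 N) 1)

/-- The weights of the translations. -/
def depWeight (j : ZMod N) : ℂ := ∑ u : (ZMod N)ˣ, ZMod.stdAddChar (-(j * (u : ZMod N)))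

/-- The form without coefficients at the indices not prime to `N`. -/
def deplete : ℍ → ℂ :=
  (N : ℂ)⁻¹ • ∑ j : ZMod N, depWeight j • ((⇑f : ℍ → ℂ) ∣[(1 : ℤ)] transN N j.val)

theorem depWeight_sq_mul {d : ZMod N} (hd : IsUnit d) (j : ZMod N) :
    depWeight (d * d * j) = depWeight j := by
  obtain ⟨d, rfl⟩ := hd
  rw [depWeight, depWeight, ← Equiv.sum_comp (Equiv.mulLeft (d * d)⁻¹)]
  refine Finset.sum_congr rfl fun u _ => ?_
  congr 2
  simp only [Equiv.coe_mulLeft, Units.val_mul, mul_inv_rev]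
  rw [show (d : ZMod N) * d * j * ((((d⁻¹ : (ZMod N)ˣ) : ZMod N) * ((d⁻¹ : (ZMod N)ˣ) : ZMod N)) * u) =
    ((d : ZMod N) * ((d⁻¹ : (ZMod N)ˣ) : ZMod N)) * ((d : ZMod N) * ((d⁻¹ : (ZMod N)ˣ) : ZMod N)) *
      (j * u) by ring, Units.mul_inv, one_mul, one_mul]

theorem transN_slash_gamma0 (hneb : ∀ γ : Gamma0 N, (⇑f : ℍ → ℂ) ∣[(1 : ℤ)] (γ : SL(2, ℤ)) =
      ε (((γ : SL(2, ℤ)) 1 1 : ℤ) : ZMod N) • (⇑f : ℍ → ℂ))
    (γ : Gamma0 (N * N)) (j : ZMod N) :
    ((⇑f : ℍ → ℂ) ∣[(1 : ℤ)] transN N j.val) ∣[(1 : ℤ)] (γ : SL(2, ℤ)) =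
      ε (((γ : SL(2, ℤ)) 1 1 : ℤ) : ZMod N) • ((⇑f : ℍ → ℂ) ∣[(1 : ℤ)] transN N
        ((((γ : SL(2, ℤ)) 1 1 : ℤ) : ZMod N) * (((γ : SL(2, ℤ)) 1 1 : ℤ) : ZMod N) * j).val) := by
  set a := mat γ 0 0
  set b := mat γ 0 1
  set c := mat γ 1 0
  set d := mat γ 1 1
  set j' : ZMod N := (d : ZMod N) * (d : ZMod N) * j
  obtain ⟨c₂, hc⟩ : ((N * N : ℕ) : ℤ) ∣ c := dvd_lower_left (N * N) γ
  push_cast at hc
  have hdet : a * d - b * c = 1 := by
    have := mat_det γ
    rwa [Matrix.det_fin_two] at this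
  obtain ⟨e, he⟩ : (N : ℤ) ∣ (j.val : ℤ) * d - a * (j'.val : ℤ) := by
    rw [← ZMod.intCast_zmod_eq_zero_iff_dvd]
    have h1 := congrArg (fun z : ℤ => (z : ZMod N)) hdet
    rw [hc] at h1
    push_cast at h1 ⊢
    simp only [ZMod.natCast_self, zero_mul, mul_zero, sub_zero] at h1
    simp only [ZMod.natCast_zmod_val, j']
    linear_combination -(j * (d : ZMod N)) * h1
  set δ : Gamma0 N := gamma0Mk N (a + N * c₂ * j.val) (b + e - c₂ * j.val * j'.val) (N * N * c₂)
    (d - N * c₂ * j'.val)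
    (by linear_combination hdet + b * hc + (N : ℤ) * c₂ * he)
    ((dvd_mul_right _ _).mul_right _)
  have hrel : transN N j.val * Matrix.SpecialLinearGroup.mapGL ℝ (γ : SL(2, ℤ)) =
      Matrix.SpecialLinearGroup.mapGL ℝ (δ : SL(2, ℤ)) * transN N j'.val := by
    apply Units.ext
    have eδ : ((δ : SL(2, ℤ)) : Matrix (Fin 2) (Fin 2) ℤ) =
        !![a + N * c₂ * j.val, b + e - c₂ * j.val * j'.val; N * N * c₂, d - N * c₂ * j'.val] :=
      mat_gamma0Mk ..
    have eγ : ((γ : SL(2, ℤ)) : Matrix (Fin 2) (Fin 2) ℤ) = !![a, b; c, d] := Matrix.eta_fin_two _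
    have hN : (N : ℝ) ≠ 0 := Nat.cast_ne_zero.mpr (NeZero.ne N)
    have he' := congrArg (fun z : ℤ => (z : ℝ)) he
    push_cast at he'
    simp only [Units.val_mul, Matrix.SpecialLinearGroup.mapGL_coe_matrix,
      Matrix.SpecialLinearGroup.map_apply_coe, RingHom.mapMatrix_apply, eδ, eγ]
    ext i k
    fin_cases i <;> fin_cases k <;>
      simp [transN, Matrix.GeneralLinearGroup.mkOfDetNeZero, Matrix.mul_apply, Fin.sum_univ_two, hc,
        -ZMod.natCast_val] <;>
      field_simp <;> first | ring1 | linear_combination he' | linear_combination -he'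
  show ((⇑f : ℍ → ℂ) ∣[(1 : ℤ)] transN N j.val) ∣[(1 : ℤ)]
    Matrix.SpecialLinearGroup.mapGL ℝ (γ : SL(2, ℤ)) = _
  rw [← SlashAction.slash_mul, hrel, SlashAction.slash_mul]
  show ((⇑f : ℍ → ℂ) ∣[(1 : ℤ)] (δ : SL(2, ℤ))) ∣[(1 : ℤ)] _ = _
  rw [hneb δ, ModularForm.smul_slash, σ, if_pos (by
    simp [transN, Matrix.GeneralLinearGroup.mkOfDetNeZero, Matrix.det_fin_two])]
  congr 1
  show ε ((mat δ 1 1 : ℤ) : ZMod N) = _
  rw [mat_gamma0Mk]
  simp [d, mat]

theorem deplete_slash (hneb : ∀ γ : Gamma0 N, (⇑f : ℍ → ℂ) ∣[(1 : ℤ)] (γ : SL(2, ℤ)) =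
      ε (((γ : SL(2, ℤ)) 1 1 : ℤ) : ZMod N) • (⇑f : ℍ → ℂ))
    (γ : Gamma0 (N * N)) :
    deplete f ∣[(1 : ℤ)] (γ : SL(2, ℤ)) =
      ε (((γ : SL(2, ℤ)) 1 1 : ℤ) : ZMod N) • deplete f := by
  have hu : IsUnit ((((γ : SL(2, ℤ)) 1 1 : ℤ) : ZMod N)) := by
    refine IsUnit.of_mul_eq_one ((((γ : SL(2, ℤ)) 0 0 : ℤ) : ZMod N)) ?_
    have hdet := congrArg (fun z : ℤ => (z : ZMod N)) (mat_det γ)
    rw [Matrix.det_fin_two] at hdet
    obtain ⟨c₂, hc⟩ : ((N * N : ℕ) : ℤ) ∣ mat γ 1 0 := dvd_lower_left (N * N) γ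
    rw [hc] at hdet
    push_cast at hdet
    simp only [ZMod.natCast_self, zero_mul, mul_zero, sub_zero] at hdet
    rw [mul_comm]
    exact hdet
  set d : ZMod N := (((γ : SL(2, ℤ)) 1 1 : ℤ) : ZMod N)
  rw [deplete, ModularForm.SL_smul_slash, SlashAction.sum_slash, smul_comm]
  congr 1
  rw [Finset.smul_sum]
  refine (Finset.sum_congr rfl fun j _ => ?_).trans
    (Equiv.sum_comp ((hu.unit * hu.unit).mulLeft) fun j =>
      ε d • (depWeight j • ((⇑f : ℍ → ℂ) ∣[(1 : ℤ)] transN N j.val)))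
  rw [ModularForm.SL_smul_slash, transN_slash_gamma0 ε f hneb γ j]
  show _ = ε d • (depWeight (d * d * j) • _)
  rw [depWeight_sq_mul hu, smul_comm]
  rfl

theorem zero_transN_slash (j : ℤ) (g : SL(2, ℤ)) :
    IsZeroAtImInfty (((⇑f : ℍ → ℂ) ∣[(1 : ℤ)] transN N j) ∣[(1 : ℤ)] g) := by
  show IsZeroAtImInfty (((⇑f : ℍ → ℂ) ∣[(1 : ℤ)] transN N j) ∣[(1 : ℤ)]
    Matrix.SpecialLinearGroup.mapGL ℝ g)
  rw [← SlashAction.slash_mul]
  set G := transN N j * Matrix.SpecialLinearGroup.mapGL ℝ g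
  have hc : IsCusp (G • OnePoint.infty) (Gamma1 N : Subgroup (GL (Fin 2) ℝ)) := by
    rw [Subgroup.IsArithmetic.isCusp_iff_isCusp_SL2Z, isCusp_SL2Z_iff, OnePoint.smul_infty_eq_ite]
    split_ifs
    · exact ⟨OnePoint.infty, rfl⟩
    · refine ⟨(((g 0 0 : ℚ) + j / N * g 1 0) / g 1 0 : ℚ), ?_⟩
      simp [G, transN, Matrix.GeneralLinearGroup.mkOfDetNeZero, Matrix.mul_apply, Fin.sum_univ_two]
  exact CuspFormClass.zero_at_cusps f hc G rfl

theorem hasSum_deplete (τ : ℍ) :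
    HasSum (fun n : ℕ => (if n.Coprime N then qCoeff f n else 0) •
      Function.Periodic.qParam 1 (τ : ℂ) ^ n) (deplete f τ) := by
  have hF := isQSeries_self f
  have hj : ∀ j : ZMod N, HasSum (fun n : ℕ =>
      depWeight j * (ZMod.stdAddChar (j * (n : ZMod N)) *
        (qCoeff f n * Function.Periodic.qParam 1 (τ : ℂ) ^ n)))
      (depWeight j * ((⇑f : ℍ → ℂ) ∣[(1 : ℤ)] transN N j.val) τ) := by
    intro j
    refine HasSum.mul_left _ ?_
    rw [transN_slash_apply]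
    refine (hasSum_qExpansion one_pos hF.periodic hF.holo hF.bdd _).congr_fun fun n => ?_
    rw [coe_transN_smul, smul_eq_mul, qCoeff,
      show j * (n : ZMod N) = (((j.val * n : ℕ) : ℤ) : ZMod N) by simp, ZMod.stdAddChar_coe]
    simp only [Function.Periodic.qParam, ← Complex.exp_nat_mul]
    rw [mul_left_comm, ← Complex.exp_add]
    congr 2
    push_cast
    ring
  have h := (hasSum_sum (s := Finset.univ) fun j _ => hj j).mul_left (N : ℂ)⁻¹
  have e : deplete f τ =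
      (N : ℂ)⁻¹ * ∑ j : ZMod N, depWeight j * ((⇑f : ℍ → ℂ) ∣[(1 : ℤ)] transN N j.val) τ := by
    simp [deplete, Finset.sum_apply]
  rw [e]
  refine h.congr_fun fun n => ?_
  simp only [← mul_assoc, ← Finset.sum_mul, smul_eq_mul]
  congr 1
  rw [mul_assoc (N : ℂ)⁻¹]
  have hs : ∑ j : ZMod N, depWeight j * ZMod.stdAddChar (j * (n : ZMod N)) =
      if IsUnit (n : ZMod N) then (N : ℂ) else 0 := by
    simp only [depWeight, Finset.sum_mul, ← AddChar.map_add_eq_mul]
    rw [Finset.sum_comm]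
    have h1 : ∀ u : (ZMod N)ˣ, ∑ j : ZMod N, ZMod.stdAddChar (-(j * (u : ZMod N)) + j * (n : ZMod N)) =
        if (n : ZMod N) = u then (N : ℂ) else 0 := fun u => by
      have := AddChar.sum_mulShift ((n : ZMod N) - u) (ZMod.isPrimitive_stdAddChar N)
      rw [ZMod.card] at this
      simp only [sub_eq_zero] at this
      rw [Nat.cast_ite, Nat.cast_zero] at this; rw [← this]
      exact Finset.sum_congr rfl fun j _ => by ring_nf
    rw [Finset.sum_congr rfl fun u _ => h1 u]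
    by_cases hu : IsUnit (n : ZMod N)
    · rw [if_pos hu, Finset.sum_eq_single hu.unit (fun u _ hne => if_neg fun e =>
        hne (Units.ext (by simp [e]))) (by simp)]
      simp
    · rw [if_neg hu]
      exact Finset.sum_eq_zero fun u _ => if_neg fun e => hu (by rw [e]; exact u.isUnit)
  rw [hs]
  by_cases hn : n.Coprime N
  · rw [if_pos hn, if_pos ((ZMod.isUnit_iff_coprime n N).mpr hn), ← mul_assoc, inv_mul_cancel₀
      (Nat.cast_ne_zero.mpr (NeZero.ne N) : (N : ℂ) ≠ 0), one_mul]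
  · rw [if_neg hn, if_neg fun h => hn ((ZMod.isUnit_iff_coprime n N).mp h), zero_mul, mul_zero]

/-- The depleted form. -/
def depleteForm (hneb : ∀ γ : Gamma0 N, (⇑f : ℍ → ℂ) ∣[(1 : ℤ)] (γ : SL(2, ℤ)) =
    ε (((γ : SL(2, ℤ)) 1 1 : ℤ) : ZMod N) • (⇑f : ℍ → ℂ)) : CuspForm (Gamma1 (N * N)) 1 where
  toFun := deplete f
  slash_action_eq' := by
    rintro _ ⟨γ, hγ, rfl⟩
    show deplete f ∣[(1 : ℤ)] γ = deplete f
    refine (deplete_slash ε f hneb ⟨γ, Gamma1_in_Gamma0 _ hγ⟩).trans ?_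
    have h1 : ((γ 1 1 : ℤ) : ZMod N) = 1 := by
      have := congrArg (ZMod.castHom (dvd_mul_right N N) (ZMod N)) ((Gamma1_mem (N * N) γ).mp hγ).2.1
      simpa using this
    show ε ((γ 1 1 : ℤ) : ZMod N) • deplete f = deplete f
    rw [h1, map_one, one_smul]
  holo' := by
    refine MDifferentiable.const_smul _ (MDifferentiable.sum fun j _ => ?_)
    exact ((ModularFormClass.holo f).slash _ _).const_smul _
  zero_at_cusps' hc := by
    rw [Subgroup.IsArithmetic.isCusp_iff_isCusp_SL2Z] at hc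
    rw [OnePoint.isZeroAt_iff_forall_SL2Z hc]
    intro g _
    rw [deplete, ModularForm.SL_smul_slash, SlashAction.sum_slash]
    show Filter.Tendsto _ atImInfty (𝓝 0)
    have h := (tendsto_finsetSum (Finset.univ : Finset (ZMod N)) fun j _ =>
      (zero_transN_slash f (j.val : ℤ) g).const_smul (depWeight j)).const_smul (N : ℂ)⁻¹
    simp only [smul_zero, Finset.sum_const_zero] at h
    refine h.congr fun τ => ?_
    simp [ModularForm.SL_smul_slash, Finset.sum_apply]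

theorem qCoeff_depleteForm (hneb : ∀ γ : Gamma0 N, (⇑f : ℍ → ℂ) ∣[(1 : ℤ)] (γ : SL(2, ℤ)) =
    ε (((γ : SL(2, ℤ)) 1 1 : ℤ) : ZMod N) • (⇑f : ℍ → ℂ)) (n : ℕ) :
    qCoeff (depleteForm ε f hneb) n = if n.Coprime N then qCoeff f n else 0 :=
  (ModularFormClass.qExpansion_coeff_unique (f := depleteForm ε f hneb) one_pos
    (by simp [strictPeriods_Gamma1]) (hasSum_deplete f) n).symm

/-- Passing to a form without bad coefficients. -/
theorem exists_depleted (hf₁ : qCoeff f 1 = 1)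
    (hT : ∀ p : ℕ, p.Prime → ¬ p ∣ N → ∀ n : ℕ,
      qCoeff f (p * n) + ε (p : ZMod N) * (if p ∣ n then qCoeff f (n / p) else 0) =
        qCoeff f p * qCoeff f n) :
    ∃ W : WtOne (N * N), ∀ p : ℕ, p.Prime → ¬ p ∣ N →
      qCoeff W.f p = qCoeff f p ∧ W.ε (p : ZMod (N * N)) = ε (p : ZMod N) := by
  have hneb := nebentypus_of_recursion f ε hT
  set ε' := DirichletCharacter.changeLevel (dvd_mul_right N N) ε
  have hε' : ∀ z : ℤ, IsUnit ((z : ℤ) : ZMod (N * N)) → ε' (z : ZMod (N * N)) = ε (z : ZMod N) := by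
    intro z hz
    rw [show ε' = DirichletCharacter.changeLevel (dvd_mul_right N N) ε from rfl, ← hz.unit_spec,
      DirichletCharacter.changeLevel_eq_cast_of_dvd ε _ hz.unit, IsUnit.unit_spec,
      ZMod.cast_intCast (dvd_mul_right N N)]
  have hcop : ∀ n : ℕ, n.Coprime (N * N) ↔ n.Coprime N := fun n =>
    ⟨Nat.Coprime.coprime_mul_right_right, fun h => h.mul_right h⟩
  have hεp : ∀ p : ℕ, p.Prime → ¬ p ∣ N → ε' (p : ZMod (N * N)) = ε (p : ZMod N) := fun p hp hpN => by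
    have hu : IsUnit ((p : ℕ) : ZMod (N * N)) :=
      (ZMod.isUnit_iff_coprime _ _).mpr ((hcop p).mpr ((hp.coprime_iff_not_dvd).mpr hpN))
    simpa using hε' p (by simpa using hu)
  refine ⟨{ ε := ε'
            f := depleteForm ε f hneb
            one := by rw [qCoeff_depleteForm, if_pos (Nat.coprime_one_left N), hf₁]
            nebentypus := fun γ => ?_
            recursion := fun p hp hpN n => ?_
            depleted := fun n hn => by rw [qCoeff_depleteForm, if_neg (fun h => hn ((hcop n).mpr h))] },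
    fun p hp hpN => ⟨by
      rw [qCoeff_depleteForm, if_pos ((hp.coprime_iff_not_dvd).mpr hpN)], hεp p hp hpN⟩⟩
  · show deplete f ∣[(1 : ℤ)] (γ : SL(2, ℤ)) = _
    rw [deplete_slash ε f hneb γ, hε' _ ?_]
    · rfl
    refine IsUnit.of_mul_eq_one ((((γ : SL(2, ℤ)) 0 0 : ℤ) : ZMod (N * N))) ?_
    have hdet := congrArg (fun z : ℤ => (z : ZMod (N * N))) (mat_det γ)
    rw [Matrix.det_fin_two] at hdet
    push_cast at hdet
    rw [mat_low γ, mul_zero, sub_zero] at hdet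
    exact (mul_comm _ _).trans hdet
  · have hp' : ¬ p ∣ N := fun h => hpN (h.mul_right N)
    rw [hεp p hp hp']
    have hpc : p.Coprime N := (hp.coprime_iff_not_dvd).mpr hp'
    simp only [qCoeff_depleteForm, if_pos hpc]
    have hdiv : p ∣ n → ((n / p).Coprime N ↔ n.Coprime N) := fun hd => by
      conv_rhs => rw [← Nat.mul_div_cancel' hd]
      rw [Nat.coprime_mul_iff_left, and_iff_right hpc]
    by_cases hn : n.Coprime N
    · rw [if_pos hn, if_pos (hpc.mul_left hn)]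
      by_cases hd : p ∣ n
      · rw [if_pos hd, if_pos ((hdiv hd).mpr hn)]
        simpa [hd] using hT p hp hp' n
      · rw [if_neg hd]
        simpa [hd] using hT p hp hp' n
    · rw [if_neg hn, if_neg fun h => hn (Nat.Coprime.coprime_mul_left h)]
      by_cases hd : p ∣ n
      · rw [if_pos hd, if_neg fun h => hn ((hdiv hd).mp h)]
        simp
      · rw [if_neg hd]
        simp

end FLTAgent.DeligneSerre
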