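import Fermat.Agent.DeligneSerre.Interface
import Fermat.Agent.DeligneSerre.Depletion

/-!
# The passage from weight one to weight two modulo a prime

The statement of the package which multiplies a form of weight one by an Eisenstein series of
weight one congruent to a constant modulo a prime over `l`.
-/

set_option autoImplicit false

noncomputable section

open CongruenceSubgroup

namespace FLTAgent.DeligneSerre

open ModularFormClass (qCoeff)

/-- Package B: a congruence system of weight two for a form of weight one and a large prime. -/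
def TargetCongrSystem : Prop :=
  ∀ (N : ℕ) [NeZero N] (W : WtOne N) (R : Subring ℂ), Module.Finite ℤ R →
    ∀ (hR : ∀ n : ℕ, qCoeff W.f n ∈ R) (hε : ∀ x : ZMod N, W.ε x ∈ R),
    ∀ (l : ℕ), l.Prime → 5 ≤ l → ¬ l ∣ N → ∀ (a : ℕ) [NeZero (N * l * a)],
      ∃ (k : Type) (_ : Field k) (_ : Finite k) (_ : CharP k l) (ι : R →+* k)
        (S : CongrSystem (N * l * a) k),
        ∀ p : ℕ, p.Prime → ¬ p ∣ N * l * a →
          S.b p = ι ⟨_, hR p⟩ ∧ (p : k) * S.φ ⟨_, S.chr_mem p⟩ = ι ⟨_, hε p⟩

end FLTAgent.DeligneSerre
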