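import Fermat.Agent.DeligneSerre.Depletion
import Fermat.Agent.Frobenius.Density

/-!
# The mean square of the eigenvalues of a form of weight one

Bessel's inequality and the bound `|f(τ)| √(Im τ) ≤ C` give `∑_{n < M} |a_n|² = O(M)`, hence
`∑ |a_n|² n^{-s} = O(1/(s - 1))`, and the squarefree indices give
`∑_p |a_p|² p^{-s} ≤ -log (s - 1) + O(1)` for truncated values of `|a_p|²`.
-/

set_option autoImplicit false

noncomputable section

open UpperHalfPlane CongruenceSubgroup Filter Complex MeasureTheory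
open scoped MatrixGroups ModularForm Manifold Topology Real

namespace FLTAgent.DeligneSerre

open ModularFormClass (qCoeff)

variable {N : ℕ} [NeZero N]

/-- The point `u + iy`. -/
def rowPt (y : ℝ) (hy : 0 < y) (u : ℝ) : ℍ := ⟨(u : ℂ) + (y : ℂ) * Complex.I, by simpa using hy⟩

theorem bessel_bound (f : CuspForm (Gamma1 N) 1) :
    ∃ C : ℝ, 0 < C ∧ ∀ y : ℝ, 0 < y → ∀ S : Finset ℕ,
      ∑ n ∈ S, ‖qCoeff f n‖ ^ 2 * Real.exp (-4 * π * n * y) ≤ C / y := by
  obtain ⟨C₀, hC₀⟩ := CuspFormClass.exists_bound (k := 1) f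
  refine ⟨C₀ ^ 2 + 1, by positivity, fun y hy S => ?_⟩
  have hF := isQSeries_self f
  set g : ℝ → ℂ := fun u => f (rowPt y hy u)
  have hgc : Continuous g := by
    refine hF.holo.continuous.comp (UpperHalfPlane.isEmbedding_coe.continuous_iff.mpr ?_)
    show Continuous fun u : ℝ => (u : ℂ) + (y : ℂ) * Complex.I
    fun_prop
  have hg1 : g 0 = g (0 + 1) := by
    have h := hF.periodic ((y : ℂ) * Complex.I)
    have e1 : rowPt y hy (0 + 1) = ofComplex ((y : ℂ) * Complex.I + 1) := by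
      ext
      rw [ofComplex_apply_of_im_pos (by simpa using hy)]
      simp [rowPt, add_comm]
    have e2 : rowPt y hy 0 = ofComplex ((y : ℂ) * Complex.I) := by
      ext
      rw [ofComplex_apply_of_im_pos (by simpa using hy)]
      simp [rowPt]
    simp only [g, e1, e2]
    exact h.symm
  set G : C(AddCircle (1 : ℝ), ℂ) :=
    ⟨AddCircle.liftIco 1 0 g, AddCircle.liftIco_continuous hg1 hgc.continuousOn⟩
  have hGbound : ∀ x : AddCircle (1 : ℝ), ‖G x‖ ≤ |C₀| / y ^ ((1 : ℝ) / 2) := by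
    intro x
    have hb := fun u : ℝ => hC₀ (rowPt y hy u)
    obtain ⟨u, hu, rfl⟩ : ∃ u ∈ Set.Ico (0 : ℝ) (0 + 1), (u : AddCircle (1 : ℝ)) = x :=
      ⟨_, (AddCircle.equivIco 1 0 x).2, AddCircle.coe_equivIco⟩
    show ‖AddCircle.liftIco 1 0 g (u : AddCircle (1 : ℝ))‖ ≤ _
    rw [AddCircle.liftIco_coe_apply hu]
    refine (hb u).trans ?_
    simp only [rowPt, UpperHalfPlane.im, Complex.add_im, Complex.ofReal_im, zero_add,
      Complex.mul_im, Complex.I_re, Complex.I_im, Complex.ofReal_re, mul_one, mul_zero, add_zero,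
      Int.cast_one]
    exact div_le_div_of_nonneg_right (le_abs_self _) (Real.rpow_nonneg hy.le _)
  have hcoeff : ∀ n : ℕ, fourierCoeff (⇑G) (n : ℤ) =
      qCoeff f n * (Real.exp (-2 * π * n * y) : ℂ) := by
    intro n
    rw [fourierCoeff_eq_intervalIntegral _ _ 0, zero_add, one_div_one, one_smul, qCoeff,
      qExpansion_coeff_eq_intervalIntegral one_pos hF.periodic hF.holo hF.bdd n hy]
    rw [Complex.ofReal_one, div_one, one_mul, ← intervalIntegral.integral_mul_const]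
    refine intervalIntegral.integral_congr fun u hu => ?_
    rw [Set.uIcc_of_le zero_le_one] at hu
    simp only [smul_eq_mul]
    have hval : G (u : AddCircle (1 : ℝ)) = f (rowPt y hy u) := by
      show AddCircle.liftIco 1 0 g (u : AddCircle (1 : ℝ)) = g u
      rcases eq_or_lt_of_le hu.2 with h1 | h1
      · subst h1
        have e : ((1 : ℝ) : AddCircle (1 : ℝ)) = ((0 : ℝ) : AddCircle (1 : ℝ)) := by simp
        rw [e, AddCircle.liftIco_coe_apply (by simp), hg1, zero_add]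
      · exact AddCircle.liftIco_coe_apply ⟨hu.1, by linarith⟩
    rw [hval, fourier_coe_apply, Function.Periodic.qParam, ← Complex.exp_nat_mul, one_div,
      ← Complex.exp_neg, Complex.ofReal_exp]
    conv_rhs => rw [mul_assoc, mul_comm (f _), ← mul_assoc, ← Complex.exp_add]
    congr 1
    congr 1
    push_cast
    ring_nf
    simp only [UpperHalfPlane.coe_I, Complex.I_sq]
    ring
  set F := ContinuousMap.toLp (E := ℂ) 2 AddCircle.haarAddCircle ℂ G
  have hpar := (tsum_sq_fourierCoeff F)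
  have hint : ∫ t, ‖(F : AddCircle (1 : ℝ) → ℂ) t‖ ^ 2 ∂AddCircle.haarAddCircle ≤ (C₀ ^ 2 + 1) / y := by
    have hae : (fun t => ‖(F : AddCircle (1 : ℝ) → ℂ) t‖ ^ 2) =ᵐ[AddCircle.haarAddCircle]
        fun t => ‖G t‖ ^ 2 := by
      filter_upwards [ContinuousMap.coeFn_toLp (p := 2) (𝕜 := ℂ) AddCircle.haarAddCircle G] with t ht
      simp only [F, ht]
    rw [integral_congr_ae hae]
    refine (integral_mono_of_nonneg (Eventually.of_forall fun _ => sq_nonneg _)
      (integrable_const ((C₀ ^ 2 + 1) / y)) (Eventually.of_forall fun t => ?_)).trans (by simp)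
    refine (pow_le_pow_left₀ (norm_nonneg _) (hGbound t) 2).trans ?_
    rw [div_pow, sq_abs, ← Real.rpow_natCast (y ^ _) 2, ← Real.rpow_mul hy.le]
    norm_num
    exact div_le_div_of_nonneg_right (by linarith) hy.le
  have hsum : Summable fun i : ℤ => ‖fourierCoeff (F : AddCircle (1 : ℝ) → ℂ) i‖ ^ 2 :=
    (hasSum_sq_fourierCoeff F).summable
  refine le_trans ?_ hint
  rw [← hpar]
  refine le_trans (le_of_eq ?_) (hsum.sum_le_tsum (S.map Nat.castEmbedding) fun _ _ => sq_nonneg _)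
  rw [Finset.sum_map]
  refine Finset.sum_congr rfl fun n _ => ?_
  rw [Nat.castEmbedding_apply, fourierCoeff_toLp, hcoeff, norm_mul, mul_pow, Complex.norm_real,
    Real.norm_of_nonneg (Real.exp_pos _).le, ← Real.exp_nat_mul]
  congr 2
  push_cast
  ring

theorem sum_sq_le (f : CuspForm (Gamma1 N) 1) :
    ∃ D : ℝ, 0 < D ∧ ∀ M : ℕ, ∑ n ∈ Finset.range M, ‖qCoeff f n‖ ^ 2 ≤ D * M := by
  obtain ⟨C, hC, h⟩ := bessel_bound f
  refine ⟨Real.exp (4 * π) * C, by positivity, fun M => ?_⟩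
  rcases Nat.eq_zero_or_pos M with rfl | hM
  · simp
  have hb := h (1 / (M : ℝ)) (by positivity) (Finset.range M)
  rw [div_div_eq_mul_div, div_one] at hb
  refine le_trans ?_ ((mul_le_mul_of_nonneg_left hb (Real.exp_pos (4 * π)).le).trans (le_of_eq (by ring)))
  rw [Finset.mul_sum]
  refine Finset.sum_le_sum fun n hn => ?_
  rw [mul_left_comm, ← Real.exp_add]
  refine le_mul_of_one_le_right (sq_nonneg _) (Real.one_le_exp ?_)
  have hnM : (n : ℝ) ≤ M := by exact_mod_cast (Finset.mem_range.mp hn).le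
  have : (n : ℝ) * (1 / M) ≤ 1 := by rw [mul_one_div, div_le_one (by positivity)]; exact hnM
  nlinarith [Real.pi_pos]

theorem series_sq_le (f : CuspForm (Gamma1 N) 1) :
    ∃ D : ℝ, 0 < D ∧ ∀ s : ℝ, 1 < s → s ≤ 2 → ∀ S : Finset ℕ,
      ∑ n ∈ S, ‖qCoeff f n‖ ^ 2 * (n : ℝ) ^ (-s) ≤ D / (s - 1) := by
  obtain ⟨D, hD, hM⟩ := sum_sq_le f
  refine ⟨16 * D, by positivity, fun s hs hs2 S => ?_⟩
  obtain ⟨K, hK⟩ : ∃ K : ℕ, S ⊆ Finset.range (2 ^ K) :=
    ⟨S.sup id + 1, fun n hn => Finset.mem_range.mpr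
      (lt_of_le_of_lt (Finset.le_sup (f := id) hn) ((Nat.lt_succ_self _).trans Nat.lt_two_pow_self))⟩
  refine le_trans (Finset.sum_le_sum_of_subset_of_nonneg hK fun n _ _ =>
    mul_nonneg (sq_nonneg _) (Real.rpow_nonneg (Nat.cast_nonneg _) _)) ?_
  set t : ℝ := (2 : ℝ) ^ (-(s - 1)) with ht
  have ht0 : 0 < t := by positivity
  have hdec : ∀ K : ℕ, ∑ n ∈ Finset.range (2 ^ K), ‖qCoeff f n‖ ^ 2 * (n : ℝ) ^ (-s) ≤
      2 * D * ∑ k ∈ Finset.range K, t ^ k := by
    intro K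
    induction K with
    | zero =>
      rw [show (2 : ℕ) ^ 0 = 1 from rfl, Finset.sum_range_one, Nat.cast_zero,
        Real.zero_rpow (by linarith), mul_zero]
      simp
    | succ K ih =>
      rw [← Finset.sum_range_add_sum_Ico _ (Nat.pow_le_pow_right (by norm_num) (Nat.le_succ K)),
        Finset.sum_range_succ _ K, mul_add]
      refine add_le_add ih ?_
      have hle : ∑ n ∈ Finset.Ico (2 ^ K) (2 ^ (K + 1)), ‖qCoeff f n‖ ^ 2 * (n : ℝ) ^ (-s) ≤
          (((2 : ℕ) ^ K : ℕ) : ℝ) ^ (-s) * (D * ((2 : ℕ) ^ (K + 1) : ℕ)) := by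
        refine le_trans ?_ (mul_le_mul_of_nonneg_left (hM _) (by positivity))
        rw [Finset.mul_sum]
        refine (Finset.sum_le_sum fun n hn => ?_).trans (Finset.sum_le_sum_of_subset_of_nonneg
          (fun n hn => Finset.mem_range.mpr (Finset.mem_Ico.mp hn).2) fun n _ _ => by positivity)
        rw [mul_comm]
        refine mul_le_mul_of_nonneg_right (Real.rpow_le_rpow_of_nonpos (by positivity) ?_
          (by linarith)) (sq_nonneg _)
        exact_mod_cast (Finset.mem_Ico.mp hn).1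
      refine hle.trans (le_of_eq ?_)
      push_cast
      rw [ht, ← Real.rpow_natCast (2 : ℝ) K, ← Real.rpow_mul_natCast (by norm_num : (0 : ℝ) ≤ 2),
        ← Real.rpow_mul (by norm_num : (0 : ℝ) ≤ 2), pow_succ, ← Real.rpow_natCast (2 : ℝ) K]
      rw [show (2 : ℝ) ^ ((K : ℝ) * -s) * (D * ((2 : ℝ) ^ (K : ℝ) * 2)) =
        2 * D * ((2 : ℝ) ^ ((K : ℝ) * -s) * (2 : ℝ) ^ (K : ℝ)) by ring,
        ← Real.rpow_add (by norm_num : (0 : ℝ) < 2)]
      congr 2
      ring
  refine (hdec K).trans ?_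
  have ht1 : t ≤ 1 - (s - 1) / 8 := by
    have hlog : (1 : ℝ) / 2 ≤ Real.log 2 := by
      have := Real.log_two_gt_d9; linarith
    have h1 : t = Real.exp (-((s - 1) * Real.log 2)) := by
      rw [ht, Real.rpow_def_of_pos two_pos]; ring_nf
    set x := (s - 1) * Real.log 2
    have hx0 : 0 ≤ x := mul_nonneg (by linarith) (by linarith)
    have h2 : Real.exp (-x) ≤ 1 / (1 + x) := by
      rw [Real.exp_neg, one_div]
      exact inv_anti₀ (by linarith) (by linarith [Real.add_one_le_exp x])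
    refine h1 ▸ h2.trans ?_
    rw [div_le_iff₀ (by linarith)]
    have hxlo : (s - 1) / 2 ≤ x := by nlinarith
    nlinarith
  have hgeom : ∑ k ∈ Finset.range K, t ^ k ≤ 8 / (s - 1) := by
    have hlt : t < 1 := by linarith
    refine le_trans ((summable_geometric_of_lt_one ht0.le hlt).sum_le_tsum _ fun k _ => by positivity) ?_
    rw [tsum_geometric_of_lt_one ht0.le hlt, inv_le_comm₀ (by linarith) (by
      exact div_pos (by norm_num) (by linarith)), inv_div]
    linarith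
  calc 2 * D * ∑ k ∈ Finset.range K, t ^ k ≤ 2 * D * (8 / (s - 1)) :=
        mul_le_mul_of_nonneg_left hgeom (by positivity)
    _ = 16 * D / (s - 1) := by ring

namespace WtOne

variable (W : WtOne N)

theorem qCoeff_prime_mul {p : ℕ} (hp : p.Prime) (hpN : ¬ p ∣ N) {m : ℕ} (hm : ¬ p ∣ m) :
    qCoeff W.f (p * m) = qCoeff W.f p * qCoeff W.f m := by
  simpa [hm] using W.recursion p hp hpN m

theorem prod_eq_qCoeff (T : Finset Nat.Primes) (hT : ∀ p ∈ T, ¬ (p : ℕ) ∣ N) :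
    qCoeff W.f (∏ p ∈ T, (p : ℕ)) = ∏ p ∈ T, qCoeff W.f p := by
  induction T using Finset.induction with
  | empty => simpa using W.one
  | insert q U hq ih =>
    rw [Finset.prod_insert hq, Finset.prod_insert hq, ← ih fun p hp => hT p (Finset.mem_insert_of_mem hp),
      W.qCoeff_prime_mul q.2 (hT q (Finset.mem_insert_self q U))]
    intro hd
    obtain ⟨r, hr, hqr⟩ := (Prime.dvd_finsetProd_iff (Nat.prime_iff.mp q.2) _).mp hd
    exact hq ((Nat.Primes.coe_nat_injective ((Nat.prime_dvd_prime_iff_eq q.2 r.2).mp hqr)) ▸ hr)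

/-- **Rankin's bound.** -/
theorem rankin_primes (b : Nat.Primes → ℝ) (B : ℝ) (h0 : ∀ p, 0 ≤ b p) (hB : ∀ p, b p ≤ B)
    (hN : ∀ p : Nat.Primes, (p : ℕ) ∣ N → b p = 0)
    (hle : ∀ p : Nat.Primes, b p ≤ ‖qCoeff W.f p‖ ^ 2) :
    ∃ C : ℝ, ∀ᶠ s in 𝓝[>] (1 : ℝ),
      ∑' p : Nat.Primes, b p * (p : ℝ) ^ (-s) ≤ -Real.log (s - 1) + C := by
  obtain ⟨D, hD, hser⟩ := series_sq_le W.f
  have hsum2 : Summable fun p : Nat.Primes => ((p : ℝ) ^ (-(2 : ℝ))) :=
    Frobenius.summable_primes_rpow (by norm_num)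
  refine ⟨Real.log D + B ^ 2 * ∑' p : Nat.Primes, (p : ℝ) ^ (-(2 : ℝ)), ?_⟩
  filter_upwards [self_mem_nhdsWithin,
    nhdsWithin_le_nhds (Iic_mem_nhds (show (1 : ℝ) < 2 by norm_num))] with s hs hs2
  simp only [Set.mem_Ioi] at hs
  simp only [Set.mem_Iic] at hs2
  have hnn : 0 ≤ fun p : Nat.Primes => b p * (p : ℝ) ^ (-s) := fun p =>
    mul_nonneg (h0 p) (Real.rpow_nonneg (Nat.cast_nonneg _) _)
  refine Real.tsum_le_of_sum_le hnn fun T => ?_
  set T₀ := T.filter fun p : Nat.Primes => ¬ (p : ℕ) ∣ N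
  have hT₀ : ∑ p ∈ T, b p * (p : ℝ) ^ (-s) = ∑ p ∈ T₀, b p * (p : ℝ) ^ (-s) :=
    (Finset.sum_filter_of_ne (f := fun p : Nat.Primes => b p * (p : ℝ) ^ (-s))
      (p := fun p : Nat.Primes => ¬ (p : ℕ) ∣ N) fun p _ hne hd => hne (by rw [hN p hd, zero_mul])).symm
  set x : Nat.Primes → ℝ := fun p => ‖qCoeff W.f p‖ ^ 2 * (p : ℝ) ^ (-s)
  have hprod : ∏ p ∈ T₀, (1 + x p) ≤ D / (s - 1) := by
    classical
    rw [Finset.prod_one_add]
    have hinj : Set.InjOn (fun U : Finset Nat.Primes => ∏ p ∈ U, (p : ℕ)) T₀.powerset := by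
      intro U _ V _ h
      simp only at h
      ext p
      have key : ∀ U : Finset Nat.Primes, p ∈ U ↔ (p : ℕ) ∣ ∏ q ∈ U, (q : ℕ) := fun U =>
        ⟨fun hp => Finset.dvd_prod_of_mem _ hp, fun hd => by
          obtain ⟨r, hr, hpr⟩ := (Prime.dvd_finsetProd_iff (Nat.prime_iff.mp p.2) _).mp hd
          exact (Nat.Primes.coe_nat_injective ((Nat.prime_dvd_prime_iff_eq p.2 r.2).mp hpr)) ▸ hr⟩
      rw [key U, key V, h]
    refine le_trans (le_of_eq ?_) (hser s hs hs2
      (T₀.powerset.image fun U : Finset Nat.Primes => ∏ p ∈ U, (p : ℕ)))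
    rw [Finset.sum_image hinj]
    refine Finset.sum_congr rfl fun U hU => ?_
    rw [W.prod_eq_qCoeff U fun p hp => (Finset.mem_filter.mp (Finset.mem_powerset.mp hU hp)).2,
      norm_prod, ← Finset.prod_pow, Nat.cast_prod,
      ← Real.finsetProd_rpow _ _ (fun p _ => Nat.cast_nonneg _) (-s), ← Finset.prod_mul_distrib]
  have hx0 : ∀ p, 0 ≤ x p := fun p => mul_nonneg (sq_nonneg _) (Real.rpow_nonneg (Nat.cast_nonneg _) _)
  have hlog : ∑ p ∈ T₀, Real.log (1 + x p) ≤ Real.log D - Real.log (s - 1) := by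
    rw [← Real.log_prod fun p _ => (by linarith [hx0 p] : (1 : ℝ) + x p ≠ 0),
      ← Real.log_div hD.ne' (by linarith)]
    exact Real.log_le_log (Finset.prod_pos fun p _ => by linarith [hx0 p]) hprod
  have hterm : ∀ p ∈ T₀, b p * (p : ℝ) ^ (-s) ≤ Real.log (1 + x p) + B ^ 2 * (p : ℝ) ^ (-(2 : ℝ)) := by
    intro p _
    set z := b p * (p : ℝ) ^ (-s)
    have hz : 0 ≤ z := hnn p
    have h1 : Real.log (1 + z) ≤ Real.log (1 + x p) :=
      Real.log_le_log (by linarith) (add_le_add le_rfl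
        (mul_le_mul_of_nonneg_right (hle p) (Real.rpow_nonneg (Nat.cast_nonneg _) _)))
    have h2 : z - z ^ 2 ≤ Real.log (1 + z) := by
      refine le_trans ?_ (Real.one_sub_inv_le_log_of_pos (by linarith))
      rw [le_sub_iff_add_le, ← le_sub_iff_add_le', inv_le_iff_one_le_mul₀ (by linarith)]
      nlinarith [pow_nonneg hz 3]
    have h3 : z ^ 2 ≤ B ^ 2 * (p : ℝ) ^ (-(2 : ℝ)) := by
      rw [mul_pow, ← Real.rpow_natCast ((p : ℝ) ^ (-s)) 2, ← Real.rpow_mul (Nat.cast_nonneg _)]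
      refine mul_le_mul (pow_le_pow_left₀ (h0 p) (hB p) 2) ?_ (Real.rpow_nonneg (Nat.cast_nonneg _) _)
        (sq_nonneg _)
      exact Real.rpow_le_rpow_of_exponent_le (by exact_mod_cast p.2.one_lt.le) (by push_cast; linarith)
    linarith
  rw [hT₀]
  refine (Finset.sum_le_sum hterm).trans ?_
  rw [Finset.sum_add_distrib, ← Finset.mul_sum]
  have := mul_le_mul_of_nonneg_left
    (hsum2.sum_le_tsum T₀ fun p _ => Real.rpow_nonneg (Nat.cast_nonneg _) _) (sq_nonneg B)
  linarith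

end WtOne

end FLTAgent.DeligneSerre
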