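import Fermat.Agent.DeligneSerre.Conjugates
import Fermat.Agent.DeligneSerre.Rankin
import Fermat.Prelude.Thm_CuspForm_intLattice_fg

/-!
# Integrality of the eigenvalues and the finitely many frequent values

The product with the series of weight three has coefficients in a finitely generated `ℤ`-module,
hence so has the form, whose eigenvalues therefore generate a ring finite over `ℤ`. Rankin's bound
for the finitely many conjugate systems shows that a finite set of values occurs outside a set of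
primes of small density.
-/

set_option autoImplicit false

noncomputable section

open UpperHalfPlane CongruenceSubgroup Filter
open scoped MatrixGroups ModularForm Manifold Topology Pointwise

namespace FLTAgent.DeligneSerre

open ModularFormClass (qCoeff)

/-- An embedding of a field of algebraic numbers extends to the complex numbers. -/
theorem exists_extend_embedding (K : IntermediateField ℚ ℂ) [FiniteDimensional ℚ K]
    (φ : K →+* ℂ) : ∃ σ : ℂ →+* ℂ, ∀ x : K, σ x = φ x := by
  let A := algebraicClosure ℚ ℂ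
  haveI : Algebra.IsAlgebraic ℚ A := algebraicClosure.isAlgebraic ℚ ℂ
  haveI : IsAlgClosed A := (algebraicClosure.isAlgClosure ℚ ℂ).isAlgClosed
  have hK : K ≤ A := fun x hx =>
    mem_algebraicClosure_iff.mpr (IntermediateField.isAlgebraic_iff.mp
      (Algebra.IsAlgebraic.isAlgebraic (⟨x, hx⟩ : K)))
  haveI : Normal ℚ A := ⟨fun x => IsAlgClosed.splits _⟩
  let φA : K →ₐ[ℚ] A := AlgHom.codRestrict φ.toRatAlgHom A.toSubalgebra fun x =>
    mem_algebraicClosure_iff.mpr ((Algebra.IsAlgebraic.isAlgebraic x).algHom φ.toRatAlgHom)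
  letI : Algebra K A := (IntermediateField.inclusion hK).toRingHom.toAlgebra
  haveI : IsScalarTower ℚ K A := IsScalarTower.of_algHom (IntermediateField.inclusion hK)
  let ψ : A →ₐ[ℚ] A := φA.liftNormal A
  obtain ⟨s, hs⟩ := exists_isTranscendenceBasis A ℂ
  obtain ⟨σ, hσ, -⟩ := CuspForms.exists_ringHom_extend _ hs
    (AlgEquiv.ofBijective ψ (Algebra.IsAlgebraic.algHom_bijective ψ)).toRingEquiv (Equiv.refl _)
  refine ⟨σ, fun x => ?_⟩
  have h := hσ (algebraMap K A x)
  have h2 : ψ (algebraMap K A x) = φA x := AlgHom.liftNormal_commutes φA A x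
  exact h.trans (congrArg Subtype.val h2)

theorem eventually_log_sub_one_nonpos : ∀ᶠ s in 𝓝[>] (1 : ℝ), Real.log (s - 1) ≤ 0 := by
  filter_upwards [self_mem_nhdsWithin,
    nhdsWithin_le_nhds (Iic_mem_nhds (show (1 : ℝ) < 2 by norm_num))] with s hs hs2
  simp only [Set.mem_Ioi] at hs
  simp only [Set.mem_Iic] at hs2
  exact Real.log_nonpos (by linarith) (by linarith)

namespace WtOne

variable {N : ℕ} [NeZero N] (W : WtOne N)

/-- The ring generated by the values of the character. -/
def epsRing : Subalgebra ℤ ℂ := Algebra.adjoin ℤ (Set.range W.ε)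

theorem isIntegral_eps (x : ZMod N) : IsIntegral ℤ (W.ε x) := by
  by_cases hx : IsUnit x
  · obtain ⟨u, rfl⟩ := hx
    refine ⟨Polynomial.X ^ N.totient - 1,
      Polynomial.monic_X_pow_sub_C 1 (Nat.totient_pos.mpr (NeZero.pos N)).ne', ?_⟩
    simp [← map_pow, ← Units.val_pow_eq_pow_val, ZMod.pow_totient]
  · rw [MulChar.map_nonunit W.ε hx]
    exact isIntegral_zero

theorem fg_epsRing : (Subalgebra.toSubmodule W.epsRing).FG :=
  fg_adjoin_of_finite (Set.finite_range _) (by rintro _ ⟨x, rfl⟩; exact W.isIntegral_eps x)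

theorem oddCoeff_mem (n : ℕ) : oddCoeff (W.ε⁻¹) n ∈ W.epsRing :=
  sum_mem fun x _ => mul_mem (by
    rw [MulChar.inv_apply]
    exact Algebra.subset_adjoin ⟨_, rfl⟩) (pow_mem (natCast_mem _ _) 2)

theorem exists_fg_module : ∃ M : Submodule ℤ ℂ, M.FG ∧
    ∀ (n : ℕ), ∀ r ∈ W.epsRing, r * qCoeff W.f n ∈ M := by
  classical
  obtain ⟨gens, hgens⟩ := CuspForm.intLattice_fg N 4
  set g := W.isCuspidal_timesEis.toCuspForm
  have hg : g ∈ Submodule.span ℂ (gens : Set (CuspForm (Gamma0 N) 4)) := by
    have h := CuspForms.hasIntegralStructure N 4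
    rw [CuspForm.HasIntegralStructure, ← hgens, Submodule.span_span_of_tower] at h
    rw [h]
    trivial
  obtain ⟨c, hc⟩ := Submodule.mem_span_finset'.mp hg
  set C := Submodule.span ℤ (Set.range c)
  set M := Subalgebra.toSubmodule W.epsRing * C
  have hQ : ∀ n, qCoeff W.timesEis n ∈ C := by
    intro n
    have h := congrArg (CuspForms.qcLin N 4 n) hc
    rw [map_sum] at h
    simp only [map_smul, CuspForms.qcLin_apply, smul_eq_mul] at h
    show qCoeff g n ∈ C
    rw [← h]
    refine sum_mem fun i _ => ?_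
    have hi : (i : CuspForm (Gamma0 N) 4) ∈ CuspForm.intLattice N 4 :=
      hgens ▸ Submodule.subset_span i.2
    obtain ⟨m, hm⟩ := (CuspForms.mem_intLattice_iff _).mp hi n
    rw [hm, mul_comm, ← zsmul_eq_mul]
    exact C.smul_mem _ (Submodule.subset_span ⟨i, rfl⟩)
  refine ⟨M, W.fg_epsRing.mul (Submodule.fg_span (Set.finite_range c)), ?_⟩
  intro n
  induction n using Nat.strong_induction_on with
  | _ n ih =>
    intro r hr
    have hmul : qCoeff W.timesEis (n + 1) = ∑ x ∈ Finset.HasAntidiagonal.antidiagonal (n + 1),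
        qCoeff W.f x.1 * oddCoeff (W.ε⁻¹) x.2 := by
      show PowerSeries.coeff (n + 1) (qExpansion 1 W.timesEis) = _
      rw [W.qExpansion_timesEis, PowerSeries.coeff_mul]
      exact Finset.sum_congr rfl fun x _ => by
        rw [← qCoeff_oddEis _ W.inv_eps_neg_one W.one_lt]; rfl
    rw [← Finset.add_sum_erase _ _ (show (n, 1) ∈ Finset.HasAntidiagonal.antidiagonal (n + 1) by simp),
      oddCoeff_one, mul_one] at hmul
    rw [show qCoeff W.f n = qCoeff W.timesEis (n + 1) -
      ∑ x ∈ (Finset.HasAntidiagonal.antidiagonal (n + 1)).erase (n, 1),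
        qCoeff W.f x.1 * oddCoeff (W.ε⁻¹) x.2 by rw [hmul]; ring, mul_sub, Finset.mul_sum]
    refine sub_mem (Submodule.mul_mem_mul hr (hQ _)) (sum_mem fun x hx => ?_)
    obtain ⟨hne, hx⟩ := Finset.mem_erase.mp hx
    obtain ⟨i, j⟩ := x
    rw [Finset.HasAntidiagonal.mem_antidiagonal] at hx
    rcases Nat.eq_zero_or_pos j with rfl | hj
    · simp [oddCoeff_zero]
    have hi : i < n := by
      rcases Nat.lt_or_ge i n with h | h
      · exact h
      · exact absurd (Prod.ext (by omega) (by omega) : ((i, j) : ℕ × ℕ) = (n, 1)) hne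
    rw [mul_comm (qCoeff W.f i), ← mul_assoc]
    exact ih i hi _ (mul_mem hr (W.oddCoeff_mem j))

/-- The ring generated by the eigenvalues and the values of the character. -/
def heckeRing : Subalgebra ℤ ℂ :=
  Algebra.adjoin ℤ (Set.range W.ε ∪ {z | ∃ p : ℕ, p.Prime ∧ ¬ p ∣ N ∧ z = qCoeff W.f p})

theorem eps_mem (x : ZMod N) : W.ε x ∈ W.heckeRing := Algebra.subset_adjoin (Or.inl ⟨x, rfl⟩)

theorem qCoeff_mem (n : ℕ) : qCoeff W.f n ∈ W.heckeRing := by
  induction n using Nat.strong_induction_on with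
  | _ n ih =>
    by_cases hn : n.Coprime N
    swap
    · rw [W.depleted n hn]; exact zero_mem _
    rcases Nat.lt_or_ge n 2 with h2 | h2
    · interval_cases n
      · exact absurd (by simpa using hn : N = 1) W.one_lt.ne'
      · rw [W.one]; exact one_mem _
    · set q := n.minFac
      have hq := Nat.minFac_prime (n := n) (by omega)
      obtain ⟨m, hm⟩ := Nat.minFac_dvd n
      have hqN : ¬ q ∣ N := fun hd => hq.not_dvd_one (hn ▸ Nat.dvd_gcd (Nat.minFac_dvd n) hd)
      have hm0 : 0 < m := Nat.pos_of_ne_zero fun e => by rw [e, mul_zero] at hm; omega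
      have hmn : m < n := by nlinarith [hq.two_le]
      have h1 := W.recursion q hq hqN m
      rw [hm, eq_sub_of_add_eq h1]
      refine sub_mem (mul_mem (Algebra.subset_adjoin (Or.inr ⟨q, hq, hqN, rfl⟩)) (ih m hmn))
        (mul_mem (W.eps_mem _) ?_)
      split_ifs
      · exact ih _ (lt_of_le_of_lt (Nat.div_le_self _ _) hmn)
      · exact zero_mem _

theorem fg_heckeRing : (Subalgebra.toSubmodule W.heckeRing).FG := by
  obtain ⟨M, hM, hmem⟩ := W.exists_fg_module
  set S := Submodule.span ℤ (Set.range fun x : ZMod N × ℕ => W.ε x.1 * qCoeff W.f x.2)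
  have hSM : S ≤ M := by
    refine Submodule.span_le.mpr ?_
    rintro _ ⟨⟨x, n⟩, rfl⟩
    exact hmem n _ (Algebra.subset_adjoin ⟨x, rfl⟩)
  have hone : (1 : ℂ) ∈ S := Submodule.subset_span ⟨(1, 1), by simp [W.one]⟩
  have hstab : ∀ r ∈ W.heckeRing, ∀ y ∈ S, r * y ∈ S := by
    intro r hr
    induction hr using Algebra.adjoin_induction with
    | mem z hz =>
      intro y hy
      induction hy using Submodule.span_induction with
      | mem w hw =>
        obtain ⟨⟨x, n⟩, rfl⟩ := hw
        rcases hz with ⟨x', rfl⟩ | ⟨p, hp, hpN, rfl⟩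
        · exact Submodule.subset_span ⟨(x' * x, n), by simp only [map_mul]; ring⟩
        · have h := W.recursion p hp hpN n
          show qCoeff W.f p * (W.ε x * qCoeff W.f n) ∈ S
          rw [mul_left_comm, ← h, mul_add]
          refine add_mem (Submodule.subset_span ⟨(x, p * n), rfl⟩) ?_
          split_ifs
          · exact Submodule.subset_span ⟨(x * p, n / p), by simp only [map_mul]; ring⟩
          · simp
      | zero => simp
      | add _ _ _ _ hu hv => rw [mul_add]; exact add_mem hu hv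
      | smul c w _ hw => rw [mul_smul_comm]; exact S.smul_mem c hw
    | algebraMap c =>
      intro y hy
      rw [← Algebra.smul_def]
      exact S.smul_mem c hy
    | add x y _ _ hx hy => intro w hw; rw [add_mul]; exact add_mem (hx w hw) (hy w hw)
    | mul x y _ _ hx hy => intro w hw; rw [mul_assoc]; exact hx _ (hy w hw)
  exact hM.of_le fun r hr => hSM (mul_one r ▸ hstab r hr 1 hone)

theorem isIntegral_qCoeff (n : ℕ) : IsIntegral ℤ (qCoeff W.f n) :=
  IsIntegral.of_mem_of_fg W.heckeRing W.fg_heckeRing _ (W.qCoeff_mem n)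

/-- The indicator of a proposition. -/
def indR (P : Prop) : ℝ := open Classical in if P then 1 else 0

omit [NeZero N] in
theorem indR_pos {P : Prop} (h : P) : indR P = 1 := by
  classical
  simp [indR, h]

omit [NeZero N] in
theorem indR_neg {P : Prop} (h : ¬ P) : indR P = 0 := by
  classical
  simp [indR, h]

omit [NeZero N] in
theorem indR_nonneg (P : Prop) : 0 ≤ indR P := by
  by_cases h : P <;> simp [indR_pos, indR_neg, h]

omit [NeZero N] in
theorem indR_le_one (P : Prop) : indR P ≤ 1 := by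
  by_cases h : P <;> simp [indR_pos, indR_neg, h]

/-- The series of the indicator of a set of primes. -/
def primeSum (P : Nat.Primes → Prop) (s : ℝ) : ℝ :=
  ∑' p : Nat.Primes, indR (P p) * (p : ℝ) ^ (-s)

theorem large_primes_le (R : ℝ) (hR : 0 < R) :
    ∃ C : ℝ, ∀ᶠ s in 𝓝[>] (1 : ℝ),
      primeSum (fun p => ¬ (p : ℕ) ∣ N ∧ R < ‖qCoeff W.f p‖) s ≤
        (-Real.log (s - 1)) / R ^ 2 + C := by
  classical
  obtain ⟨C, hC⟩ := W.rankin_primes
    (fun p => if ¬ (p : ℕ) ∣ N ∧ R < ‖qCoeff W.f p‖ then R ^ 2 else 0) (R ^ 2)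
    (fun p => by split_ifs <;> positivity)
    (fun p => by split_ifs <;> nlinarith)
    (fun p hp => if_neg fun h => h.1 hp)
    (fun p => by
      split_ifs with h
      · exact pow_le_pow_left₀ hR.le h.2.le 2
      · positivity)
  refine ⟨C / R ^ 2, ?_⟩
  filter_upwards [hC] with s hs
  rw [← add_div, le_div_iff₀ (by positivity), primeSum, ← tsum_mul_right]
  refine le_trans (le_of_eq (tsum_congr fun p => ?_)) hs
  by_cases h : ¬ (p : ℕ) ∣ N ∧ R < ‖qCoeff W.f p‖
  · rw [indR_pos h, if_pos h]; ring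
  · rw [indR_neg h, if_neg h]; ring

theorem summable_indicator (P : Nat.Primes → Prop) {s : ℝ} (hs : 1 < s) :
    Summable fun p : Nat.Primes => indR (P p) * (p : ℝ) ^ (-s) :=
  Summable.of_nonneg_of_le (fun p => mul_nonneg (indR_nonneg _) (Real.rpow_nonneg (Nat.cast_nonneg _) _))
    (fun p => mul_le_of_le_one_left (Real.rpow_nonneg (Nat.cast_nonneg _) _) (indR_le_one _))
    (Frobenius.summable_primes_rpow hs)

/-- **Few values.** Outside a set of primes of small upper density the eigenvalue lies in a finite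
set. -/
theorem exists_values {ee : ℝ} (hee : 0 < ee) :
    ∃ (V : Finset ℂ) (C : ℝ), ∀ᶠ s in 𝓝[>] (1 : ℝ),
      primeSum (fun p => ¬ (p : ℕ) ∣ N ∧ qCoeff W.f p ∉ V) s ≤ ee * (-Real.log (s - 1)) + C := by
  classical
  set Sys := (finite_systems N).toFinset
  have hV : ∀ b ∈ Sys, ∃ V : WtOne N, b = fun n => qCoeff V.f n := fun b hb =>
    (finite_systems N).mem_toFinset.mp hb
  haveI : Nonempty (WtOne N) := ⟨W⟩
  choose! V hV using hV
  obtain ⟨R, hR, hRe⟩ : ∃ R : ℝ, 0 < R ∧ (Sys.card : ℝ) / R ^ 2 ≤ ee := by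
    refine ⟨(Sys.card : ℝ) / ee + 1, by positivity, ?_⟩
    rw [div_le_iff₀ (by positivity)]
    have h : (Sys.card : ℝ) / ee * ee = Sys.card := div_mul_cancel₀ _ hee.ne'
    nlinarith [sq_nonneg ((Sys.card : ℝ) / ee), div_nonneg (Nat.cast_nonneg Sys.card) hee.le]
  obtain ⟨T, hT⟩ := W.fg_heckeRing
  set K : IntermediateField ℚ ℂ := IntermediateField.adjoin ℚ (T : Set ℂ)
  haveI : FiniteDimensional ℚ K := IntermediateField.finiteDimensional_adjoin fun x hx =>
    (IsIntegral.of_mem_of_fg W.heckeRing W.fg_heckeRing x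
      (show x ∈ Subalgebra.toSubmodule W.heckeRing from hT ▸ Submodule.subset_span hx)).tower_top
  haveI : NumberField K := NumberField.mk
  have hK : ∀ n, qCoeff W.f n ∈ K := fun n => by
    have h : qCoeff W.f n ∈ Submodule.span ℤ (T : Set ℂ) := hT ▸ W.qCoeff_mem n
    exact (Submodule.span_le (p := K.toSubalgebra.toSubring.toAddSubgroup.toIntSubmodule)).mpr
      (fun x hx => IntermediateField.subset_adjoin ℚ _ hx) h
  have hfin := NumberField.Embeddings.finite_of_norm_le K ℂ R
  set Good := hfin.toFinset.image fun x : K => (x : ℂ)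
  choose! C hC using fun b (_ : b ∈ Sys) => (V b).large_primes_le R hR
  refine ⟨Good, ∑ b ∈ Sys, C b, ?_⟩
  filter_upwards [(Filter.eventually_all_finset Sys).mpr hC, self_mem_nhdsWithin,
    eventually_log_sub_one_nonpos] with s hs hs1 hlog
  simp only [Set.mem_Ioi] at hs1
  have hcov : ∀ p : Nat.Primes, (¬ (p : ℕ) ∣ N ∧ qCoeff W.f p ∉ Good) →
      ∃ b ∈ Sys, ¬ (p : ℕ) ∣ N ∧ R < ‖qCoeff (V b).f p‖ := by
    rintro p ⟨hpN, hp⟩
    by_contra hall
    push Not at hall
    refine hp (Finset.mem_image.mpr ⟨⟨_, hK p⟩, hfin.mem_toFinset.mpr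
      ⟨(isIntegral_algebraMap_iff (algebraMap K ℂ).injective).mp (W.isIntegral_qCoeff p), fun φ => ?_⟩, rfl⟩)
    obtain ⟨σ, hσ⟩ := exists_extend_embedding K φ
    obtain ⟨W', hW'⟩ := W.exists_conj σ
    have hb : (fun n => qCoeff W'.f n) ∈ Sys := (finite_systems N).mem_toFinset.mpr ⟨W', rfl⟩
    have h1 := hall _ hb hpN
    have h2 : qCoeff (V fun n => qCoeff W'.f n).f p = qCoeff W'.f p := (congrFun (hV _ hb) p).symm
    rw [h2, hW' p] at h1
    rw [← hσ]
    exact h1
  calc primeSum (fun p => ¬ (p : ℕ) ∣ N ∧ qCoeff W.f p ∉ Good) s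
      ≤ ∑ b ∈ Sys, primeSum (fun p => ¬ (p : ℕ) ∣ N ∧ R < ‖qCoeff (V b).f p‖) s := by
        simp only [primeSum]
        refine le_trans ?_ (le_of_eq (Summable.tsum_finsetSum fun b _ => summable_indicator _ hs1))
        refine (summable_indicator _ hs1).tsum_le_tsum (fun p => ?_)
          (summable_sum fun b _ => summable_indicator _ hs1)
        rw [← Finset.sum_mul]
        refine mul_le_mul_of_nonneg_right ?_ (Real.rpow_nonneg (Nat.cast_nonneg _) _)
        by_cases hp : ¬ (p : ℕ) ∣ N ∧ qCoeff W.f p ∉ Good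
        · obtain ⟨b, hb, h1⟩ := hcov p hp
          rw [indR_pos hp, ← indR_pos h1]
          exact Finset.single_le_sum
            (f := fun b => indR (¬ (p : ℕ) ∣ N ∧ R < ‖qCoeff (V b).f p‖)) (fun b _ => indR_nonneg _) hb
        · rw [indR_neg hp]
          exact Finset.sum_nonneg fun b _ => indR_nonneg _
    _ ≤ ∑ b ∈ Sys, ((-Real.log (s - 1)) / R ^ 2 + C b) := Finset.sum_le_sum hs
    _ ≤ ee * (-Real.log (s - 1)) + ∑ b ∈ Sys, C b := by
        rw [Finset.sum_add_distrib, Finset.sum_const, nsmul_eq_mul]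
        refine add_le_add ?_ le_rfl
        rw [mul_div_left_comm, mul_comm]
        exact mul_le_mul_of_nonneg_right hRe (by linarith)

end WtOne

end FLTAgent.DeligneSerre
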