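import Fermat.Agent.DeligneSerre.Finite
import Fermat.Agent.DeligneSerre.Integral
import Fermat.Agent.DeligneSerre.CongrInterface
import Fermat.Agent.Reducible.Cyclotomic
import Fermat.Prelude.Def_GaloisRep_ComplexConjugation

/-!
# The residual images and their lifts

For a large prime the residual image attached to a form of weight one has bounded order, and its
trace and determinant lift to a complex pseudo-character of a finite group.
-/

set_option autoImplicit false

noncomputable section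

namespace FLTAgent.DeligneSerre

open Filter FLTAgent.EigenReps Matrix
open scoped Topology
open ModularFormClass (qCoeff)

local notation "QQb" => AlgebraicClosure ℚ
local notation "GG" => (AlgebraicClosure ℚ ≃ₐ[ℚ] AlgebraicClosure ℚ)

section Cyclo

variable {N : ℕ} [NeZero N]

/-- A Frobenius element at a prime not dividing `N` raises `N`-th roots of unity to that power. -/
theorem frobenius_zeta {ℓ : ℕ} (hℓ : ℓ.Prime) (hℓN : ¬ ℓ ∣ N) {V : ValuationSubring QQb}
    (hV : V.LiesOverPrime ℓ) {τ : GG} (hτ : V.IsFrobeniusAt τ ℓ) {ζ : QQb} (hζ : ζ ^ N = 1) :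
    τ ζ = ζ ^ ℓ := by
  have hζ0 : ζ ≠ 0 := fun h => by rw [h, zero_pow (NeZero.ne N)] at hζ; exact zero_ne_one hζ
  have hint : ∀ η : QQb, η ^ N = 1 → η ∈ V := fun η hη => by
    have hi : IsIntegral ℤ η :=
      IsIntegral.of_pow (NeZero.pos N) (by rw [hη]; exact isIntegral_one)
    simpa using Frobenius.integralClosure_le V ⟨η, hi⟩
  have h := ((Frobenius.isFrobeniusAt_iff V τ ℓ).mp hτ).2 ζ (hint ζ hζ)
  have hη : (ζ⁻¹) ^ ℓ ∈ V := pow_mem (hint _ (by rw [inv_pow, hζ, inv_one])) ℓ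
  have hne := Reducible.natCast_notMem_nonunits hℓ hV hℓN
  have h1 : τ ζ * (ζ⁻¹) ^ ℓ - 1 ∈ V.nonunits := by
    rw [show τ ζ * (ζ⁻¹) ^ ℓ - 1 = (τ ζ - ζ ^ ℓ) * (ζ⁻¹) ^ ℓ by
      rw [sub_mul, inv_pow, mul_inv_cancel₀ (pow_ne_zero _ hζ0)]]
    rw [← SetLike.mem_coe, ← ValuationSubring.image_maximalIdeal] at h ⊢
    obtain ⟨u, hu, hu'⟩ := h
    exact ⟨u * ⟨_, hη⟩, Ideal.mul_mem_right _ _ hu, by rw [← hu']; rfl⟩
  have h2 := Reducible.eq_one_of_sub_one_mem_nonunits (p := N)
    (by rw [mul_pow, ← map_pow, hζ, map_one, one_mul, ← pow_mul, mul_comm, pow_mul, inv_pow, hζ,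
      inv_one, one_pow]) hne h1
  rw [inv_pow] at h2
  exact (mul_inv_eq_one₀ (pow_ne_zero _ hζ0)).mp h2

omit [NeZero N] in
theorem frobenius_zeta_pow {ℓ : ℕ} {τ : GG} {ζ : QQb} (h : τ ζ = ζ ^ ℓ) (j : ℕ) :
    (τ ^ j) ζ = ζ ^ ℓ ^ j := by
  induction j with
  | zero => simp
  | succ j ih => rw [pow_succ, AlgEquiv.mul_apply, h, map_pow, ih, ← pow_mul, ← pow_succ]

/-- Complex conjugation inverts roots of unity. -/
theorem complexConjugation_zeta {ζ : QQb} (hζ : ζ ^ N = 1) : complexConjugation ζ = ζ⁻¹ := by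
  apply complexEmbedding.toRingHom.injective
  show complexEmbedding (complexConjugation ζ) = complexEmbedding ζ⁻¹
  rw [complexEmbedding_complexConjugation, map_inv₀]
  have h1 : ‖complexEmbedding ζ‖ = 1 :=
    Complex.norm_eq_one_of_pow_eq_one (n := N) (by rw [← map_pow, hζ, map_one]) (NeZero.ne N)
  exact (Complex.inv_eq_conj h1).symm

/-- A multiplicative function with the values of a character at the Frobenius elements takes only
values of the character, and `-1` at complex conjugation if the character is odd. -/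
theorem det_values {k : Type*} [CommMonoid k] (δ : GG →* k) (L₀ : IntermediateField ℚ QQb)
    [FiniteDimensional ℚ L₀] (hL₀ : ∀ σ : GG, (∀ x ∈ L₀, σ x = x) → δ σ = 1) (S : Finset ℕ)
    (hS : ∀ ℓ : ℕ, ℓ.Prime → ℓ ∉ S → ¬ ℓ ∣ N) (χ : ZMod N →* k)
    (hδ : ∀ ℓ : ℕ, ℓ.Prime → ℓ ∉ S → ∀ V : ValuationSubring QQb, V.LiesOverPrime ℓ →
      ∀ τ : GG, V.IsFrobeniusAt τ ℓ → δ τ = χ ℓ) :
    (∀ σ, ∃ x, δ σ = χ x) ∧ δ complexConjugation = χ (-1) := by
  have : NeZero (N : QQb) := ⟨Nat.cast_ne_zero.mpr (NeZero.ne N)⟩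
  obtain ⟨ζ, hζ⟩ := HasEnoughRootsOfUnity.exists_primitiveRoot QQb N
  have : FiniteDimensional ℚ (IntermediateField.adjoin ℚ ({ζ} : Set QQb)) :=
    IntermediateField.adjoin.finiteDimensional (AlgebraicClosure.isAlgebraic ℚ |>.isAlgebraic ζ).isIntegral
  have key : ∀ σ, ∃ ℓ j : ℕ, δ σ = χ ((ℓ : ZMod N) ^ j) ∧ σ ζ = ζ ^ ℓ ^ j := by
    intro σ
    obtain ⟨ℓ, V, τ, j, hℓ, hℓS, hV, hτ, hσ⟩ := Frobenius.exists_frobenius_pow_eqOn
      (L₀ ⊔ IntermediateField.adjoin ℚ ({ζ} : Set QQb)) σ S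
    refine ⟨ℓ, j, ?_, ?_⟩
    · have h1 : δ ((τ ^ j)⁻¹ * σ) = 1 := hL₀ _ fun x hx => by
        rw [AlgEquiv.mul_apply, hσ x ((le_sup_left : L₀ ≤ _) hx)]
        exact (τ ^ j).symm_apply_apply x
      rw [map_pow, ← hδ ℓ hℓ hℓS V hV τ hτ, ← map_pow]
      calc δ σ = δ (τ ^ j * ((τ ^ j)⁻¹ * σ)) := by rw [mul_inv_cancel_left]
        _ = δ (τ ^ j) := by rw [map_mul, h1, mul_one]
    · rw [hσ ζ ((le_sup_right : _ ≤ L₀ ⊔ _) (IntermediateField.subset_adjoin ℚ _ rfl))]
      exact frobenius_zeta_pow (frobenius_zeta hℓ (hS ℓ hℓ hℓS) hV hτ hζ.pow_eq_one) j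
  refine ⟨fun σ => ?_, ?_⟩
  · obtain ⟨ℓ, j, h, -⟩ := key σ
    exact ⟨_, h⟩
  · obtain ⟨ℓ, j, h, hc⟩ := key complexConjugation
    rw [complexConjugation_zeta hζ.pow_eq_one] at hc
    replace hc : ζ ^ (ℓ ^ j + 1) = 1 := by
      rw [pow_succ, ← hc, inv_mul_cancel₀ (hζ.ne_zero (NeZero.ne N))]
    rw [hζ.pow_eq_one_iff_dvd, ← ZMod.natCast_eq_zero_iff] at hc
    rw [h]
    congr 1
    push_cast at hc
    exact eq_neg_of_add_eq_zero_left hc

end Cyclo

/-- An element killed modulo a prime over `l` by some homomorphism. -/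
def Vanish (R : Subring ℂ) (l : ℕ) (x : ℂ) : Prop :=
  ∃ (hx : x ∈ R) (k : Type) (_ : Field k) (_ : CharP k l) (ι : R →+* k), ι ⟨x, hx⟩ = 0

/-- A given nonzero element is killed only for finitely many primes. -/
theorem exists_bound_vanish (R : Subring ℂ) (hR : Module.Finite ℤ R) (E : Finset ℂ) :
    ∃ B : ℕ, ∀ l : ℕ, B < l → ∀ x ∈ E, Vanish R l x → x = 0 := by
  classical
  have h1 : ∀ x : ℂ, ∃ b : ℕ, x ≠ 0 → ∀ l, b < l → ¬ Vanish R l x := by
    intro x
    refine ⟨((minpoly ℤ x).coeff 0).natAbs, fun hx0 l hl => ?_⟩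
    rintro ⟨hx, k, _, _, ι, hι⟩
    have hint : IsIntegral ℤ x :=
      (IsIntegral.of_finite ℤ (⟨x, hx⟩ : R)).map R.subtype.toIntAlgHom
    have hc0 : (minpoly ℤ x).coeff 0 ≠ 0 := fun h0 => by
      refine minpoly.coeff_zero_ne_zero (hint.tower_top (A := ℚ)) hx0 ?_
      rw [minpoly.isIntegrallyClosed_eq_field_fractions' ℚ hint, Polynomial.coeff_map, h0, map_zero]
    have hz : Polynomial.aeval (⟨x, hx⟩ : R) (minpoly ℤ x) = 0 := by
      apply R.subtype_injective
      rw [← RingHom.toIntAlgHom_apply R.subtype, ← Polynomial.aeval_algHom_apply, map_zero]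
      exact minpoly.aeval ℤ x
    have h := congrArg ι.toIntAlgHom hz
    rw [← Polynomial.aeval_algHom_apply, map_zero, RingHom.toIntAlgHom_apply, hι,
      ← Polynomial.coeff_zero_eq_aeval_zero'] at h
    rw [eq_intCast, CharP.intCast_eq_zero_iff k l, Int.natCast_dvd] at h
    exact absurd (Nat.le_of_dvd (Int.natAbs_pos.mpr hc0) h) (not_le.mpr hl)
  choose b hb using h1
  refine ⟨E.sup b, fun l hl x hx hv => ?_⟩
  by_contra h0
  exact hb x h0 l ((Finset.le_sup hx).trans_lt hl) hv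

/-- The trace and determinant of a matrix of order dividing `n` come from the `n`-th roots of
unity. -/
theorem trace_of_pow_eq_one {k : Type*} [Field k] {n : ℕ} [NeZero n] {z : k}
    (hz : IsPrimitiveRoot z n) {m : Matrix (Fin 2) (Fin 2) k} (hm : m ^ n = 1) :
    ∃ i < n, ∃ j < n, m.trace = z ^ i + z ^ j := by
  let φ := algebraMap k (AlgebraicClosure k)
  obtain ⟨a, ha⟩ : ∃ a, a * a - φ m.trace * a + φ m.det = 0 := by
    obtain ⟨a, ha⟩ := IsAlgClosed.exists_root
      (Polynomial.X * Polynomial.X - Polynomial.C (φ m.trace) * Polynomial.X +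
        Polynomial.C (φ m.det))
      (by
        have : (Polynomial.X * Polynomial.X - Polynomial.C (φ m.trace) * Polynomial.X +
          Polynomial.C (φ m.det)).degree = 2 := by compute_degree!
        simp [this])
    exact ⟨a, by simpa [Polynomial.IsRoot] using ha⟩
  have root : ∀ a, a * a - φ m.trace * a + φ m.det = 0 → ∃ i < n, a = φ z ^ i := by
    intro a ha
    set m' : Matrix (Fin 2) (Fin 2) (AlgebraicClosure k) := m.map φ
    have hdet : (m' - a • 1).det = 0 := by
      rw [← ha, Matrix.det_fin_two, Matrix.det_fin_two, Matrix.trace_fin_two]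
      simp [m']
      ring
    obtain ⟨v, hv, hmv⟩ := Matrix.exists_mulVec_eq_zero_iff.mpr hdet
    have hv1 : m' *ᵥ v = a • v := by
      rw [Matrix.sub_mulVec, Matrix.smul_mulVec, Matrix.one_mulVec, sub_eq_zero] at hmv
      exact hmv
    have hpow : ∀ j : ℕ, (m' ^ j) *ᵥ v = a ^ j • v := by
      intro j
      induction j with
      | zero => simp
      | succ j ih =>
        rw [pow_succ, ← Matrix.mulVec_mulVec, hv1, Matrix.mulVec_smul, ih, smul_smul, ← pow_succ']
    have hn : m' ^ n = 1 := by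
      rw [show m' = φ.mapMatrix m from rfl, ← map_pow, hm, map_one]
    have h1 := hpow n
    rw [hn, Matrix.one_mulVec] at h1
    have han : a ^ n = 1 := by
      by_contra hne
      refine hv (smul_eq_zero.mp (?_ : (a ^ n - 1) • v = 0) |>.resolve_left (sub_ne_zero.mpr hne))
      rw [sub_smul, one_smul, ← h1, sub_self]
    obtain ⟨i, hi, h2⟩ := (hz.map_of_injective φ.injective).eq_pow_of_pow_eq_one han
    exact ⟨i, hi, h2.symm⟩
  obtain ⟨i, hi, h1⟩ := root a ha
  obtain ⟨j, hj, h2⟩ := root (φ m.trace - a) (by linear_combination ha)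
  refine ⟨i, hi, j, hj, φ.injective ?_⟩
  rw [map_add, map_pow, map_pow, ← h1, ← h2, add_sub_cancel]

variable {N : ℕ} [NeZero N] (W : WtOne N) (R : Subring ℂ)
  (hR : ∀ n : ℕ, qCoeff W.f n ∈ R) (hε : ∀ x : ZMod N, W.ε x ∈ R)

/-- The residual image attached to a form of weight one and a prime. -/
structure Red (l a : ℕ) where
  k : Type
  [instField : Field k]
  [instFinite : Finite k]
  [instCharP : CharP k l]
  ι : R →+* k
  G : Type
  [instGroup : Group G]
  [instFintype : Fintype G]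
  π : GG →* G
  surj : Function.Surjective π
  L : IntermediateField ℚ QQb
  finite_level : FiniteDimensional ℚ L
  level : ∀ σ : GG, (∀ x ∈ L, σ x = x) → π σ = 1
  ρ : G →* Matrix (Fin 2) (Fin 2) k
  injective : Function.Injective ρ
  span : ∀ i j, (fun g => ρ g i j) ∈
    Submodule.span k (Set.range fun w : G => fun g => (ρ (w * g)).trace)
  det_mem : ∀ g, ∃ x, (ρ g).det = ι ⟨_, hε x⟩
  conj_trace : (ρ (π complexConjugation)).trace = 0
  conj_det : (ρ (π complexConjugation)).det = -1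
  inertia : ∀ p : ℕ, p.Prime → ¬ p ∣ N * l * a → ∀ V : ValuationSubring QQb, V.LiesOverPrime p →
    ∀ σ ∈ V.inertiaSubgroupIn ℚ, π σ = 1
  frobenius : ∀ p : ℕ, p.Prime → ¬ p ∣ N * l * a → ∀ V : ValuationSubring QQb, V.LiesOverPrime p →
    ∀ σ : GG, V.IsFrobeniusAt σ p →
      (ρ (π σ)).trace = ι ⟨_, hR p⟩ ∧ (ρ (π σ)).det = ι ⟨_, hε p⟩

attribute [instance] Red.instField Red.instFinite Red.instCharP Red.instGroup Red.instFintype

/-- The residual image exists. -/
theorem exists_red (hres : ResidualOfWeightTwoCongruence) (hB : TargetCongrSystem)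
    (hfin : Module.Finite ℤ R) {l : ℕ} (hl : l.Prime) (hl5 : 5 ≤ l) (hlN : ¬ l ∣ N) {a : ℕ}
    (ha : a = 4 ∨ a = 9) : Nonempty (Red W R hR hε l a) := by
  classical
  have : NeZero (N * l * a) :=
    ⟨by rcases ha with rfl | rfl <;> simp [NeZero.ne N, hl.ne_zero]⟩
  have : NeZero a := ⟨by rcases ha with rfl | rfl <;> norm_num⟩
  obtain ⟨k, _, _, _, ι, S, hS⟩ := hB N W R hfin hR hε l hl hl5 hlN a
  have : Fact l.Prime := ⟨hl⟩
  obtain ⟨r₀, ⟨L, hL, hfix⟩, hfrob⟩ := hres (N * l * a)
    (by rcases ha with rfl | rfl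
        · exact Or.inl (dvd_mul_left _ _)
        · exact Or.inr (dvd_mul_left _ _))
    k l (by omega) ((dvd_mul_left l N).trans (dvd_mul_right _ _)) S
  have := hL
  let r : GG →* Matrix (Fin 2) (Fin 2) k := (Units.coeHom _).comp r₀
  set T := (N * l * a).primeFactors
  have hT : ∀ p : ℕ, p.Prime → p ∉ T → ¬ p ∣ N * l * a := fun p hp h hd =>
    h (Nat.mem_primeFactors.mpr ⟨hp, hd, NeZero.ne _⟩)
  have hdet : ∀ p : ℕ, p.Prime → ¬ p ∣ N * l * a → ∀ V : ValuationSubring QQb,
      V.LiesOverPrime p → ∀ σ : GG, V.IsFrobeniusAt σ p →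
      (r σ).trace = ι ⟨_, hR p⟩ ∧ (r σ).det = ι ⟨_, hε p⟩ := fun p hp hpd V hV σ hσ => by
    obtain ⟨h1, h2⟩ := (hfrob p hp hpd V hV).2 σ hσ
    exact ⟨h1.trans (hS p hp hpd).1, h2.trans (hS p hp hpd).2⟩
  let χ : ZMod N →* k :=
    { toFun := fun x => ι ⟨_, hε x⟩
      map_one' := by
        rw [show (⟨_, hε 1⟩ : R) = 1 from Subtype.ext (map_one W.ε), map_one]
      map_mul' := fun x y => by
        rw [← map_mul]; exact congrArg ι (Subtype.ext (map_mul W.ε x y)) }
  obtain ⟨hval, hc⟩ := det_values (Matrix.detMonoidHom.comp r) L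
    (fun σ hσ => by simp [r, hfix σ hσ]) T
    (fun p hp h hd => hT p hp h ((hd.trans (dvd_mul_right N l)).trans (dvd_mul_right _ a))) χ
    fun p hp h V hV σ hσ => (hdet p hp (hT p hp h) V hV σ hσ).2
  have hcdet : (r complexConjugation).det = -1 := by
    refine hc.trans ?_
    show ι ⟨_, hε (-1)⟩ = -1
    rw [show (⟨_, hε (-1)⟩ : R) = -1 from Subtype.ext W.eps_neg_one, map_neg, map_one]
  have hctr : (r complexConjugation).trace = 0 := trace_eq_zero_of_involution
    (by rw [← map_mul, complexConjugation_mul_self, map_one]) hcdet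
  have h2 : (1 : k) ≠ -1 := fun h => by
    have h2 : ((2 : ℕ) : k) = 0 := by push_cast; linear_combination h
    have := Nat.le_of_dvd two_pos ((CharP.cast_eq_zero_iff k l 2).mp h2)
    omega
  obtain ⟨σss, htr, hd, hspan⟩ := exists_rep_of_split (charOfHom r) complexConjugation h2
    (by simp [hctr]) (by simp [hcdet])
  simp only [charOfHom_tr, charOfHom_det] at htr hd hspan
  have htriv : ∀ σ, r σ = 1 → σss σ = 1 := fun σ hσ => Matrix.ext fun i j => by
    have hall : ∀ F ∈ Submodule.span k (Set.range fun w : GG => fun g => (r (w * g)).trace),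
        F σ = F 1 := by
      intro F hF
      induction hF using Submodule.span_induction with
      | mem F hF => obtain ⟨w, rfl⟩ := hF; simp [hσ]
      | zero => rfl
      | add x y _ _ hx hy => simp only [Pi.add_apply, hx, hy]
      | smul c x _ hx => simp only [Pi.smul_apply, hx]
    simpa using hall _ (hspan i j)
  let u : GG →* (Matrix (Fin 2) (Fin 2) k)ˣ := σss.toHomUnits
  have hu1 : ∀ σ, σss σ = 1 → u.rangeRestrict σ = 1 := fun σ hσ =>
    Subtype.ext (Units.ext hσ)
  have : Fintype u.range := Fintype.ofFinite _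
  set π := u.rangeRestrict
  have hπ : ∀ σ, ((π σ : (Matrix (Fin 2) (Fin 2) k)ˣ) : Matrix (Fin 2) (Fin 2) k) = σss σ :=
    fun _ => rfl
  let ρ : u.range →* Matrix (Fin 2) (Fin 2) k := (Units.coeHom _).comp u.range.subtype
  refine ⟨{
    k := k
    ι := ι
    G := u.range
    π := π
    surj := u.rangeRestrict_surjective
    L := L
    finite_level := hL
    level := fun σ hσ => hu1 σ (htriv σ (by simp [r, hfix σ hσ]))
    ρ := ρ
    injective := fun _ _ h => Subgroup.subtype_injective _ (Units.ext h)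
    span := ?_
    det_mem := fun g => ?_
    conj_trace := (htr _).trans hctr
    conj_det := (hd _).trans hcdet
    inertia := fun p hp hpd V hV σ hσ =>
      hu1 σ (htriv σ (by simp [r, (hfrob p hp hpd V hV).1 σ hσ]))
    frobenius := fun p hp hpd V hV σ hσ =>
      ⟨(htr σ).trans (hdet p hp hpd V hV σ hσ).1, (hd σ).trans (hdet p hp hpd V hV σ hσ).2⟩ }⟩
  · intro i j
    set sec := Function.surjInv u.rangeRestrict_surjective
    have hsec : ∀ g, π (sec g) = g := Function.surjInv_eq _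
    have h := Submodule.mem_map_of_mem (f := LinearMap.funLeft k k sec) (hspan i j)
    rw [Submodule.map_span] at h
    refine Submodule.span_mono ?_ ((congrArg (· ∈ Submodule.span k _) (funext fun g => ?_)).mp h)
    · rintro _ ⟨_, ⟨w, rfl⟩, rfl⟩
      refine ⟨π w, funext fun g => ?_⟩
      show (ρ (π w * g)).trace = (r (w * sec g)).trace
      rw [← hsec g, ← map_mul, hsec]
      exact htr _
    · show σss (sec g) i j = ρ g i j
      rw [← hπ, hsec]
      rfl
  · obtain ⟨σ, rfl⟩ := u.rangeRestrict_surjective g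
    obtain ⟨x, hx⟩ := hval σ
    exact ⟨x, (hd σ).trans hx⟩

variable {W R hR hε}

theorem Red.trace_inv_mul {l a : ℕ} (X : Red W R hR hε l a) (g : X.G) :
    (X.ρ g).det * (X.ρ g⁻¹).trace = (X.ρ g).trace := by
  simpa using (charOfHom X.ρ).det_mul_tr_inv g

/-- The residual image is bounded independently of the prime. -/
theorem Red.card_le {l a : ℕ} [NeZero (N * l * a)] (X : Red W R hR hε l a) (V : Finset ℂ) (C : ℝ)
    (hV : ∀ᶠ s in 𝓝[>] (1 : ℝ),
      WtOne.primeSum (fun p => ¬ (p : ℕ) ∣ N ∧ qCoeff W.f p ∉ V) s ≤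
        (1 / 16) * (-Real.log (s - 1)) + C) :
    Fintype.card X.G ≤ 2 * (V.card * (N + 1) + 1) ^ 4 := by
  classical
  have := X.finite_level
  set V' : Finset X.k := (V.subtype (· ∈ R)).image fun v => X.ι ⟨v.1, v.2⟩
  set E' : Finset X.k := insert 1 (Finset.univ.image fun x : ZMod N => X.ι ⟨_, hε x⟩)
  set T : Finset X.k := insert 0 ((E' ×ˢ V').image fun q => q.1 * q.2)
  set good : Finset X.G :=
    Finset.univ.filter fun g => (X.ρ g).trace ∈ V' ∨ (X.ρ g⁻¹).trace ∈ V'
  have hgood : ∀ g ∈ good, (X.ρ g).trace ∈ T := by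
    intro g hg
    rcases (Finset.mem_filter.mp hg).2 with h | h
    · exact Finset.mem_insert_of_mem (Finset.mem_image.mpr
        ⟨(1, _), Finset.mem_product.mpr ⟨Finset.mem_insert_self _ _, h⟩, one_mul _⟩)
    · obtain ⟨x, hx⟩ := X.det_mem g
      exact Finset.mem_insert_of_mem (Finset.mem_image.mpr ⟨(_, _), Finset.mem_product.mpr
        ⟨Finset.mem_insert_of_mem (Finset.mem_image_of_mem _ (Finset.mem_univ x)), h⟩,
        by rw [← hx]; exact X.trace_inv_mul g⟩)
  have h1 := card_le_of_traces X.ρ X.injective X.span good T hgood (Finset.insert_nonempty _ _)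
  have hT : T.card ≤ V.card * (N + 1) + 1 := by
    refine (Finset.card_insert_le _ _).trans (Nat.succ_le_succ (Finset.card_image_le.trans ?_))
    rw [Finset.card_product, mul_comm]
    refine Nat.mul_le_mul (Finset.card_image_le.trans ?_)
      ((Finset.card_insert_le _ _).trans (Nat.succ_le_succ (Finset.card_image_le.trans (by simp))))
    rw [Finset.card_subtype]
    exact Finset.card_filter_le _ _
  -- few elements are bad
  let f : X.G → ℝ := fun g => if g ∈ good then 0 else 1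
  have hconj : ∀ x g : X.G, (X.ρ (x * g * x⁻¹)).trace = (X.ρ g).trace := fun x g => by
    have := (charOfHom X.ρ).tr_comm (x * g) x⁻¹
    simpa [mul_assoc] using this
  have hf := mean_le X.π X.surj X.L X.level (N * l * a).primeFactors f 1
    (fun g => by simp only [f]; split_ifs <;> norm_num)
    (fun g => by simp only [f]; split_ifs <;> norm_num)
    (fun x g => by
      simp only [f, good, Finset.mem_filter, Finset.mem_univ, true_and]
      rw [show (x * g * x⁻¹)⁻¹ = x * g⁻¹ * x⁻¹ by group, hconj, hconj])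
    (fun g => by
      simp only [f, good, Finset.mem_filter, Finset.mem_univ, true_and, inv_inv]
      exact if_congr or_comm rfl rfl)
    (fun p => WtOne.indR (¬ (p : ℕ) ∣ N ∧ qCoeff W.f p ∉ V)) 1
    (fun p => WtOne.indR_nonneg _) (fun p => WtOne.indR_le_one _) (1 / 16) C hV
    (fun p hp Vp hVp σ hσ => by
      simp only [f]
      split_ifs with h
      · exact WtOne.indR_nonneg _
      · have hpd : ¬ (p : ℕ) ∣ N * l * a := fun hd =>
          hp (Nat.mem_primeFactors.mpr ⟨p.2, hd, NeZero.ne _⟩)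
        refine le_of_eq (WtOne.indR_pos ⟨fun hd => hpd ((hd.trans (dvd_mul_right N l)).trans
          (dvd_mul_right _ a)), fun hmem => h ?_⟩).symm
        refine Finset.mem_filter.mpr ⟨Finset.mem_univ _, Or.inl ?_⟩
        rw [(X.frobenius p p.2 hpd Vp hVp σ hσ).1]
        exact Finset.mem_image.mpr ⟨⟨_, hR p⟩, Finset.mem_subtype.mpr hmem, rfl⟩)
  have hsum : ∑ g, f g = ((Fintype.card X.G - good.card : ℕ) : ℝ) := by
    simp [f, Finset.sum_ite, ← Finset.card_univ_sdiff, Finset.sdiff_eq_filter]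
  rw [hsum, div_le_iff₀ (Nat.cast_pos.mpr Nat.card_pos), Nat.card_eq_fintype_card] at hf
  have h2 : 16 * (Fintype.card X.G - good.card) ≤ Fintype.card X.G := by
    have : ((16 * (Fintype.card X.G - good.card) : ℕ) : ℝ) ≤ (Fintype.card X.G : ℝ) := by
      rw [Nat.cast_mul]; push_cast at hf ⊢; linarith
    exact_mod_cast this
  have h3 := Nat.pow_le_pow_left hT 4
  omega

end FLTAgent.DeligneSerre
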