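import Fermat.Agent.X0Fn.Field
import Fermat.Agent.Curves.FunctionField
import Fermat.Agent.PeriodHecke.Families
import Fermat.Prelude.Def_ModularCurve_X0ModL
import Fermat.Prelude.Def_GaloisRep_Residual
import Fermat.Prelude.Def_EllipticCurve_FrobeniusTrace

/-!
# The geometric interface for Galois representations of weight two systems on `Γ₁(M)`

Everything is phrased with functions. `Field1` is the function field of `X₁(M)` over an algebraic
closure of `ℚ`, inside Laurent series, so that Galois acts on coefficients. `KummerTheory` relates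
functions with divisor divisible by `n` to homomorphisms of `Γ₁(M)` killing parabolic and elliptic
elements. `GoodReduction1` says that such a function with constant reduction is a power.
`GaloisTorsion` is the resulting Galois action on `Hpar Γ₁(M) (ZMod n)` with the congruence relation.
The propositions at the end are the statements to be proved by the packages.
-/

set_option autoImplicit false

noncomputable section

open CongruenceSubgroup UpperHalfPlane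
open scoped MatrixGroups ModularForm Manifold

namespace FLTAgent.DeligneSerre

open FLTAgent.X0Fn FLTAgent.PeriodHecke AlgebraicCurve

local notation "LL" => AlgebraicClosure ℚ
local notation "GG" => (AlgebraicClosure ℚ ≃ₐ[ℚ] AlgebraicClosure ℚ)
local notation "Cx" => Additive ℂˣ
local notation "M2" => Matrix (Fin 2) (Fin 2) ℤ

/-! ### Diamonds and the Hecke families of `Γ₁(M)` -/

variable (M : ℕ)

theorem conj_mem_Gamma1 (γ : Gamma0 M) (δ : Gamma1 M) :
    (γ : SL(2, ℤ)) * δ * (γ : SL(2, ℤ))⁻¹ ∈ Gamma1 M := by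
  set δ' : Gamma0 M := ⟨δ, Gamma1_in_Gamma0 M δ.2⟩
  have hδ : δ' ∈ Gamma1' M := by
    rw [Gamma1_to_Gamma0_mem]
    exact (Gamma1_mem M _).mp δ.2
  have h : γ * δ' * γ⁻¹ ∈ Gamma1' M := (MonoidHom.normal_ker (Gamma0Map M)).conj_mem δ' hδ γ
  rw [Gamma1_to_Gamma0_mem] at h
  exact (Gamma1_mem M _).mpr h

/-- Conjugation by an element of `Γ₀(M)` on `Γ₁(M)`. -/
def conjGamma1 (γ : Gamma0 M) : Gamma1 M →* Gamma1 M where
  toFun δ := ⟨(γ : SL(2, ℤ)) * δ * (γ : SL(2, ℤ))⁻¹, conj_mem_Gamma1 M γ δ⟩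
  map_one' := Subtype.ext (by simp)
  map_mul' a b := Subtype.ext (by simp [mul_assoc])

theorem trace_conjGamma1 (γ : Gamma0 M) (δ : Gamma1 M) :
    (mat (conjGamma1 M γ δ)).trace = (mat δ).trace := by
  show (((γ : SL(2, ℤ)) * δ * (γ : SL(2, ℤ))⁻¹ : SL(2, ℤ)) : M2).trace =
    ((δ : SL(2, ℤ)) : M2).trace
  rw [Matrix.SpecialLinearGroup.coe_mul, Matrix.trace_mul_comm, ← Matrix.SpecialLinearGroup.coe_mul,
    inv_mul_cancel_left]

variable {A : Type*} [AddCommGroup A]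

/-- The diamond operator of an element of `Γ₀(M)`: `δ ↦ φ (γ δ γ⁻¹)`. -/
def diamond (γ : Gamma0 M) : Hpar (Gamma1 M) A →+ Hpar (Gamma1 M) A where
  toFun φ := ⟨φ.1.comp (conjGamma1 M γ).toAdditive, fun δ hδ => by
    show φ.1 (Additive.ofMul (conjGamma1 M γ δ)) = 0
    exact φ.2 _ (by rw [trace_conjGamma1]; exact hδ)⟩
  map_zero' := rfl
  map_add' _ _ := rfl

theorem diamond_apply (γ : Gamma0 M) (φ : Hpar (Gamma1 M) A) (δ : Gamma1 M) :
    (diamond M γ φ).1 (Additive.ofMul δ) = φ.1 (Additive.ofMul (conjGamma1 M γ δ)) := rfl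

theorem exists_gammaLower (d : ℕ) (hd : d.Coprime M) :
    ∃ γ : Gamma0 M, ((γ : SL(2, ℤ)) 1 1 : ℤ) = d := by
  obtain ⟨u, v, huv⟩ := Int.isCoprime_iff_nat_coprime.mpr (by simpa using hd : (d : ℤ).natAbs.Coprime (M : ℤ).natAbs)
  exact ⟨gamma0Mk M u (-v) M d (by linear_combination huv) dvd_rfl, rfl⟩

variable {M}

/-- An element of `Γ₀(M)` whose lower right entry is `d`. -/
def gammaLower (d : ℕ) (hd : d.Coprime M) : Gamma0 M := (exists_gammaLower M d hd).choose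

theorem gammaLower_entry (d : ℕ) (hd : d.Coprime M) :
    ((gammaLower d hd : SL(2, ℤ)) 1 1 : ℤ) = d := (exists_gammaLower M d hd).choose_spec

theorem entries_mod {P Q R S : M2} (h : P * Q = R * S) (hP : (P 1 0 : ZMod M) = 0)
    (hR : (R 1 0 : ZMod M) = 0) :
    (P 1 1 : ZMod M) * (Q 1 1 : ZMod M) = (R 1 1 : ZMod M) * (S 1 1 : ZMod M) := by
  have h11 := congrArg (fun Z : M2 => ((Z 1 1 : ℤ) : ZMod M)) h
  simpa [Matrix.mul_apply, Fin.sum_univ_two, hP, hR] using h11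

variable {p : ℕ} [Fact p.Prime]

theorem coprime_of_not_dvd (hp : ¬ p ∣ M) : p.Coprime M :=
  ((Fact.out : p.Prime).coprime_iff_not_dvd).mpr hp

/-- The corrections turning the representatives of `T_p` on `Γ₀(M)` into those on `Γ₁(M)`. -/
def corr1 (hp : ¬ p ∣ M) : HeckeIdx M p → Gamma0 M
  | ⟨none, _⟩ => gammaLower p (coprime_of_not_dvd hp)
  | ⟨some _, _⟩ => 1

/-- The representatives of `T_p` on `Γ₁(M)`. -/
def heckeRep1 (hp : ¬ p ∣ M) (i : HeckeIdx M p) : M2 := mat (corr1 hp i) * heckeRep M p i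

theorem heckeRep_low (i : HeckeIdx M p) : (heckeRep M p i 1 0 : ℤ) = 0 := by
  rcases HeckeIdx.cases M p i with ⟨_, rfl⟩ | ⟨j, rfl⟩ <;> simp [heckeRep, idxSome]

theorem mat_low (γ : Gamma0 M) : (mat γ 1 0 : ZMod M) = 0 := Gamma0_mem.mp γ.2

theorem heckeRep1_diag (hp : ¬ p ∣ M) (i : HeckeIdx M p) :
    (heckeRep1 hp i 1 0 : ZMod M) = 0 ∧ (heckeRep1 hp i 1 1 : ZMod M) = p := by
  refine ⟨?_, ?_⟩
  · simp [heckeRep1, Matrix.mul_apply, Fin.sum_univ_two, mat_low, heckeRep_low]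
  · simp only [heckeRep1, Matrix.mul_apply, Fin.sum_univ_two]
    push_cast
    rw [mat_low, zero_mul, zero_add]
    rcases HeckeIdx.cases M p i with ⟨_, rfl⟩ | ⟨j, rfl⟩
    · simp [corr1, heckeRep, mat, gammaLower_entry]
    · simp [corr1, heckeRep, idxSome, mat]

/-- The Hecke operator `T_p` on `Γ₁(M)`, with representatives `(1 j; 0 p)` and `γ_p diag(p, 1)`. -/
def heckeFam1 (hp : ¬ p ∣ M) : HeckeFamily (Gamma1 M) (HeckeIdx M p) where
  α := heckeRep1 hp
  det_ne i := by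
    rw [heckeRep1, Matrix.det_mul, mat_det, one_mul]
    exact (heckeFam M p).det_ne i
  exists_rel γ i := by
    set γ₀ : Gamma0 M := ⟨γ, Gamma1_in_Gamma0 M γ.2⟩
    obtain ⟨j, δ, h⟩ := (heckeFam M p).exists_rel γ₀ i
    rw [heckeFam_α] at h
    set e : Gamma0 M := corr1 hp i * δ * (corr1 hp j)⁻¹
    have he : heckeRep1 hp i * mat γ₀ = mat e * heckeRep1 hp j := by
      simp only [e, heckeRep1, mat_mul, mul_assoc]
      rw [← mul_assoc (mat (corr1 hp j)⁻¹), ← mat_mul, inv_mul_cancel, mat_one, one_mul, h]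
    have hu : IsUnit (p : ZMod M) := (ZMod.unitOfCoprime p (coprime_of_not_dvd hp)).isUnit
    have h11 : (mat e 1 1 : ZMod M) = 1 := by
      have h1 := entries_mod he (heckeRep1_diag hp i).1 (mat_low e)
      rw [(heckeRep1_diag hp i).2, (heckeRep1_diag hp j).2] at h1
      have hγ : (mat γ₀ 1 1 : ZMod M) = 1 := ((Gamma1_mem M _).mp γ.2).2.1
      rw [hγ, mul_one] at h1
      exact hu.mul_right_cancel (h1.symm.trans (one_mul _).symm)
    have hmem : e ∈ Gamma1' M := by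
      rw [Gamma1_mem']
      exact h11
    rw [Gamma1_to_Gamma0_mem] at hmem
    exact ⟨j, ⟨(e : SL(2, ℤ)), (Gamma1_mem M _).mpr hmem⟩, he⟩
  inj δ i j h := by
    set δ₀ : Gamma0 M := ⟨δ, Gamma1_in_Gamma0 M δ.2⟩
    refine (heckeFam M p).inj ((corr1 hp j)⁻¹ * δ₀ * corr1 hp i) i j ?_
    rw [heckeFam_α]
    have h' : mat δ₀ * heckeRep1 hp i = heckeRep1 hp j := h
    simp only [heckeRep1] at h'
    rw [mat_mul, mat_mul, mul_assoc, mul_assoc, h', ← mul_assoc, ← mat_mul, inv_mul_cancel,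
      mat_one, one_mul]

/-! ### Functions of level `Γ₁(M)` -/

variable (M) [NeZero M]

/-- Holomorphic `Γ₁(M)`-invariant functions meromorphic at all cusps. -/
def W1 : Subalgebra ℂ (ℍ → ℂ) where
  carrier := {f | MDiff f ∧ (∀ γ ∈ Gamma1 M, ∀ τ, f (γ • τ) = f τ) ∧
    ∀ g : SL(2, ℤ), (fun τ => f (g • τ)) ∈ PerL (M : ℝ)}
  mul_mem' := by
    rintro f f' ⟨h1, h2, h3⟩ ⟨k1, k2, k3⟩
    exact ⟨h1.mul k1, fun γ hγ τ => by simp only [Pi.mul_apply, h2 γ hγ, k2 γ hγ],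
      fun g => mul_mem (h3 g) (k3 g)⟩
  add_mem' := by
    rintro f f' ⟨h1, h2, h3⟩ ⟨k1, k2, k3⟩
    exact ⟨h1.add k1, fun γ hγ τ => by simp only [Pi.add_apply, h2 γ hγ, k2 γ hγ],
      fun g => add_mem (h3 g) (k3 g)⟩
  algebraMap_mem' c :=
    ⟨mdifferentiable_const, fun _ _ _ => rfl, fun _ => (PerL (M : ℝ)).algebraMap_mem c⟩

variable {M}

theorem W1_le_PerL : W1 M ≤ PerL (M : ℝ) := fun f hf => by simpa using hf.2.2 1

variable (M) in
/-- Expansion at `∞` in `q_M`. -/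
def expW1 : W1 M →ₐ[ℂ] LaurentSeries ℂ :=
  (expL (M : ℝ)).comp (Subalgebra.inclusion W1_le_PerL)

/-- `a / b` has the expansion `x`. -/
def Represents (κ : LL →+* ℂ) (x : LaurentSeries LL) (a b : W1 M) : Prop :=
  b ≠ 0 ∧ iota (N := M) κ x * expW1 M b = expW1 M a

/-- `R` transforms under `Γ₁(M)` by `χ`. -/
def HasChar1 (R : ℍ → ℂ) (χ : Additive (Gamma1 M) →+ Cx) : Prop :=
  ∀ (γ : Gamma1 M) (τ : ℍ),
    R ((γ : SL(2, ℤ)) • τ) = ((χ (Additive.ofMul γ)).toMul : ℂˣ) * R τ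

/-- `x` has an `n`-th root on the upper half plane transforming by `χ`. -/
def IsCharFn1 (κ : LL →+* ℂ) (n : ℕ) (x : LaurentSeries LL) (χ : Additive (Gamma1 M) →+ Cx) :
    Prop :=
  ∃ (R : Hol) (a b : W1 M), Represents κ x a b ∧
    (R : ℍ → ℂ) ^ n = (a : ℍ → ℂ) * (b : ℍ → ℂ) ^ (n - 1) ∧ HasChar1 (R : ℍ → ℂ) χ

variable (M)

/-- The function field of `X₁(M)` over an algebraic closure of `ℚ`. -/
structure Field1 (κ : LL →+* ℂ) where
  F : IntermediateField LL (LaurentSeries LL)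
  isFunctionField : Curves.IsFunctionField LL F
  mem_iff : ∀ x, x ∈ F ↔ ∃ a b : W1 M, Represents κ x a b
  j_mem : ModularCurve.jqModC LL ∈ F
  finrank_j : Module.finrank
      (IntermediateField.adjoin LL {(⟨_, j_mem⟩ : F)}) F =
    Nat.card (SL(2, ℤ) ⧸ (Gamma1 M ⊔ Subgroup.zpowers (-1 : SL(2, ℤ))))
  stable : ∀ (σ : GG), ∀ x ∈ F, ModularCurve.coeffMap (σ : LL →+* LL) x ∈ F
  dia : Gamma0 M → (F ≃ₐ[LL] F)
  dia_represents : ∀ (γ : Gamma0 M) (x : F) (a b : W1 M),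
    Represents κ (x : LaurentSeries LL) a b → ∃ a' b' : W1 M,
      (∀ τ, (a' : ℍ → ℂ) τ = (a : ℍ → ℂ) ((γ : SL(2, ℤ)) • τ)) ∧
      (∀ τ, (b' : ℍ → ℂ) τ = (b : ℍ → ℂ) ((γ : SL(2, ℤ)) • τ)) ∧
      Represents κ (dia γ x : LaurentSeries LL) a' b'
  dia_galois : ∀ (γ : Gamma0 M) (σ : GG) (x : F),
    (dia γ ⟨_, stable σ x x.2⟩ : LaurentSeries LL) =
      ModularCurve.coeffMap (σ : LL →+* LL) (dia γ x : LaurentSeries LL)

variable {M}

/-- Every function is, up to a constant, a quotient of two series which are primitive at the places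
over primes not dividing the level. -/
def Scaled1 {κ : LL →+* ℂ} (D : Field1 M κ) : Prop :=
  ∀ ℓ : ℕ, ℓ.Prime → ¬ ℓ ∣ M → ∀ V : ValuationSubring LL, V.LiesOverPrime ℓ →
    ∀ x : D.F, x ≠ 0 → ∃ (c : LL) (y y₁ : LaurentSeries V), c ≠ 0 ∧
      ModularCurve.coeffMap V.subtype y =
        HahnSeries.C c * (x : LaurentSeries LL) * ModularCurve.coeffMap V.subtype y₁ ∧
      ModularCurve.coeffMap (IsLocalRing.residue V) y ≠ 0 ∧
      ModularCurve.coeffMap (IsLocalRing.residue V) y₁ ≠ 0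

/-- A function with divisor divisible by `m` and constant reduction is an `m`-th power up to a
constant, if the residue characteristic divides neither `m` nor the level. -/
def ConstantReduction1 {κ : LL →+* ℂ} (D : Field1 M κ) : Prop :=
  ∀ ℓ : ℕ, ℓ.Prime → ¬ ℓ ∣ M → ∀ V : ValuationSubring LL, V.LiesOverPrime ℓ →
    ∀ m : ℕ, ¬ ℓ ∣ m → ∀ x : D.F, x ≠ 0 → (∀ v : Place LL D.F, (m : ℤ) ∣ v.ord x) →
      ∀ (y y' : LaurentSeries V) (c : IsLocalRing.ResidueField V), c ≠ 0 →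
        ModularCurve.coeffMap V.subtype y =
          (x : LaurentSeries LL) * ModularCurve.coeffMap V.subtype y' →
        ModularCurve.coeffMap (IsLocalRing.residue V) y' ≠ 0 →
        ModularCurve.coeffMap (IsLocalRing.residue V) y =
          HahnSeries.C c * ModularCurve.coeffMap (IsLocalRing.residue V) y' →
        ∃ (h : D.F) (a : LL), (x : LaurentSeries LL) = HahnSeries.C a * (h : LaurentSeries LL) ^ m

/-- Good reduction away from the level. -/
def GoodReduction1 {κ : LL →+* ℂ} (D : Field1 M κ) : Prop :=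
  Scaled1 D ∧ ConstantReduction1 D

/-- Functions with divisor divisible by `n` and homomorphisms killing parabolic and elliptic
elements. -/
def KummerTheory {κ : LL →+* ℂ} (D : Field1 M κ) : Prop :=
  (∀ n : ℕ, n ≠ 0 → ∀ x : D.F, x ≠ 0 →
    ((∀ v : Place LL D.F, (n : ℤ) ∣ v.ord x) ↔
      ∃ χ ∈ Hpar (Gamma1 M) Cx, IsCharFn1 κ n (x : LaurentSeries LL) χ)) ∧
  ∀ n : ℕ, n ≠ 0 → ∀ χ ∈ Hpar (Gamma1 M) Cx, n • χ = 0 →
    ∃ x : D.F, x ≠ 0 ∧ IsCharFn1 κ n (x : LaurentSeries LL) χ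

/-! ### The Galois action on torsion -/

variable (M)

/-- A Galois action on the homomorphisms modulo `n`, commuting with the operators and satisfying
`T_ℓ = F + ℓ ⟨ℓ⟩ F⁻¹`. -/
structure GaloisTorsion (n : ℕ) where
  act : GG →* AddMonoid.End (Hpar (Gamma1 M) (ZMod n))
  level : ∃ L : IntermediateField ℚ LL, FiniteDimensional ℚ L ∧
    ∀ σ : GG, (∀ a ∈ L, σ a = a) → act σ = 1
  comm_diamond : ∀ (σ : GG) (γ : Gamma0 M) (φ : Hpar (Gamma1 M) (ZMod n)),
    act σ (diamond M γ φ) = diamond M γ (act σ φ)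
  comm_hecke : ∀ (σ : GG) (q : ℕ) [Fact q.Prime] (hq : ¬ q ∣ M), ¬ q ∣ n →
    ∀ φ : Hpar (Gamma1 M) (ZMod n),
      act σ ((heckeFam1 hq).heckePar φ) = (heckeFam1 hq).heckePar (act σ φ)
  inertia : ∀ ℓ : ℕ, ℓ.Prime → ¬ ℓ ∣ M * n → ∀ V : ValuationSubring LL, V.LiesOverPrime ℓ →
    ∀ σ ∈ V.inertiaSubgroupIn ℚ, act σ = 1
  frobenius : ∀ (ℓ : ℕ) [Fact ℓ.Prime] (hℓ : ¬ ℓ ∣ M), ¬ ℓ ∣ n →
    ∀ V : ValuationSubring LL, V.LiesOverPrime ℓ → ∀ σ : GG, V.IsFrobeniusAt σ ℓ →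
      ∀ φ : Hpar (Gamma1 M) (ZMod n),
        (heckeFam1 hℓ).heckePar φ = act σ φ +
          ℓ • diamond M (gammaLower ℓ (coprime_of_not_dvd hℓ)) (act σ⁻¹ φ)

/-- Torsion with its Galois action, for every exponent. -/
def HasGaloisTorsion : Prop := ∀ n : ℕ, n ≠ 0 → Nonempty (GaloisTorsion M n)

omit [NeZero M] in
/-- The levels used: divisible by `4` or by `9`. -/
def AuxLevel : Prop := 4 ∣ M ∨ 9 ∣ M

/-! ### Weight two systems modulo a prime -/

/-- The data of an eigen system modulo a prime: a form with Nebentypus `chr` whose coefficients in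
`O` satisfy the Hecke recursion with eigenvalues `b` modulo the kernel of `φ`. -/
structure CongrSystem (k : Type) [Field k] where
  O : Subring ℂ
  φ : O →+* k
  g : CuspForm (Gamma1 M) 2
  chr : DirichletCharacter ℂ M
  b : ℕ → k
  nebentypus : ∀ γ : Gamma0 M, (⇑g : ℍ → ℂ) ∣[(2 : ℤ)] (γ : SL(2, ℤ)) =
    chr (((γ : SL(2, ℤ)) 1 1 : ℤ) : ZMod M) • (⇑g : ℍ → ℂ)
  coeff_mem : ∀ n : ℕ, ModularFormClass.qCoeff g n ∈ O
  chr_mem : ∀ a : ZMod M, chr a ∈ O
  one_coeff : φ ⟨_, coeff_mem 1⟩ = 1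
  recursion : ∀ p : ℕ, p.Prime → ¬ p ∣ M → ∀ n : ℕ,
    φ ⟨_, coeff_mem (p * n)⟩ +
        (p : k) * φ ⟨_, chr_mem p⟩ * (if p ∣ n then φ ⟨_, coeff_mem (n / p)⟩ else 0) =
      b p * φ ⟨_, coeff_mem n⟩

/-- The residual representation attached to a congruence system. -/
def ResidualOfWeightTwoCongruence : Prop :=
  ∀ (M : ℕ) [NeZero M], AuxLevel M → ∀ (k : Type) [Field k] [Finite k] (l : ℕ) [Fact l.Prime]
    [CharP k l], l ≠ 2 → l ∣ M → ∀ S : CongrSystem M k,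
    ∃ ρ : GG →* GL (Fin 2) k, GaloisFactorsThroughFiniteLevel ρ ∧
      ∀ p : ℕ, p.Prime → ¬ p ∣ M → ∀ V : ValuationSubring LL, V.LiesOverPrime p →
        (∀ σ ∈ V.inertiaSubgroupIn ℚ, ρ σ = 1) ∧
        ∀ σ : GG, V.IsFrobeniusAt σ p →
          ((ρ σ : GL (Fin 2) k) : Matrix (Fin 2) (Fin 2) k).trace = S.b p ∧
          ((ρ σ : GL (Fin 2) k) : Matrix (Fin 2) (Fin 2) k).det =
            (p : k) * S.φ ⟨_, S.chr_mem p⟩

/-! ### The statements of the packages -/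

/-- Package C1a. -/
def TargetField1 : Prop :=
  ∀ (M : ℕ) [NeZero M] (κ : LL →+* ℂ), AuxLevel M → Nonempty (Field1 M κ)

/-- Package C1b. -/
def TargetGoodReduction1 : Prop :=
  ∀ (M : ℕ) [NeZero M] (κ : LL →+* ℂ), AuxLevel M → ∀ D : Field1 M κ, GoodReduction1 D

/-- Package C2. -/
def TargetKummerTheory : Prop :=
  ∀ (M : ℕ) [NeZero M] (κ : LL →+* ℂ) (D : Field1 M κ), AuxLevel M → KummerTheory D

/-- Package C3. -/
def TargetGaloisTorsion : Prop :=
  ∀ (M : ℕ) [NeZero M] (κ : LL →+* ℂ) (D : Field1 M κ), AuxLevel M → KummerTheory D →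
    GoodReduction1 D → HasGaloisTorsion M

/-- Package C4. -/
def TargetResidual : Prop :=
  (∀ (M : ℕ) [NeZero M], AuxLevel M → HasGaloisTorsion M) → ResidualOfWeightTwoCongruence

end FLTAgent.DeligneSerre
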