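import Fermat.Agent.DeligneSerre.TorsionKummer
import Fermat.Agent.DeligneSerre.Interface

/-!
Functions with divisor divisible by `n` on the curve of level `Γ₁(M)` and homomorphisms of
`Γ₁(M)` killing parabolic and elliptic elements.
-/

set_option autoImplicit false

noncomputable section

open CongruenceSubgroup UpperHalfPlane
open scoped MatrixGroups

set_option synthInstance.maxHeartbeats 400000
set_option maxHeartbeats 1600000

namespace FLTAgent.DeligneSerre.Tors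

open FLTAgent.X0Fn (Hol iota)
open FLTAgent.PeriodHecke (Hpar mat)
open AlgebraicCurve

local notation "LL" => AlgebraicClosure ℚ
local notation "Cx" => Additive ℂˣ

/-- The group `±Γ₁(M)`. -/
abbrev gammaPM (M : ℕ) : Subgroup SL(2, ℤ) :=
  Gamma1 M ⊔ Subgroup.zpowers (-1 : SL(2, ℤ))

variable {M : ℕ}

theorem gamma1_le_pm : Gamma1 M ≤ gammaPM M := le_sup_left

theorem neg_one_mem_pm : (-1 : SL(2, ℤ)) ∈ gammaPM M :=
  (le_sup_right : _ ≤ gammaPM M) (Subgroup.mem_zpowers _)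

theorem mem_pm {γ : SL(2, ℤ)} (h : γ ∈ gammaPM M) : γ ∈ Gamma1 M ∨ -γ ∈ Gamma1 M := by
  let S : Subgroup SL(2, ℤ) :=
    { carrier := {γ | γ ∈ Gamma1 M ∨ -γ ∈ Gamma1 M}
      mul_mem' := fun {a b} ha hb => by
        rcases ha with ha | ha <;> rcases hb with hb | hb
        · exact Or.inl (mul_mem ha hb)
        · exact Or.inr (by rw [← mul_neg]; exact mul_mem ha hb)
        · exact Or.inr (by rw [← neg_mul]; exact mul_mem ha hb)
        · exact Or.inl (by rw [← neg_mul_neg]; exact mul_mem ha hb)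
      one_mem' := Or.inl (one_mem _)
      inv_mem' := fun {a} ha => by
        rcases ha with ha | ha
        · exact Or.inl (inv_mem ha)
        · refine Or.inr ?_
          have h := inv_mem ha
          rwa [show (-a : SL(2, ℤ))⁻¹ = -a⁻¹ from
            inv_eq_of_mul_eq_one_right (by rw [neg_mul_neg, mul_inv_cancel])] at h }
  have hle : gammaPM M ≤ S := sup_le (fun γ hγ => Or.inl hγ) (by
    rw [Subgroup.zpowers_le]
    exact Or.inr (by rw [neg_neg]; exact one_mem _))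
  exact hle h

variable [NeZero M]

instance isLevel_pm : IsLevel M (gammaPM M) where
  gamma_le γ hγ := gamma1_le_pm (by
    rw [Gamma1_mem]
    obtain ⟨h1, h2, h3, h4⟩ := Gamma_mem.1 hγ
    exact ⟨h1, h4, h3⟩)
  T_mem := gamma1_le_pm (by rw [Gamma1_mem]; simp [ModularGroup.coe_T])
  neg_one_mem := neg_one_mem_pm

instance finiteIndex_pm : (gammaPM M).FiniteIndex := finiteIndex_of_isLevel M _

/-- An invariant function of `±Γ₁(M)` as one of `Γ₁(M)`. -/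
def toW1 : W M (gammaPM M) →ₐ[ℂ] W1 M :=
  Subalgebra.inclusion fun _ hf => ⟨hf.1, fun γ hγ => hf.2.1 γ (gamma1_le_pm hγ), hf.2.2⟩

/-- An invariant function of `Γ₁(M)` as one of `±Γ₁(M)`. -/
def ofW1 : W1 M →ₐ[ℂ] W M (gammaPM M) :=
  Subalgebra.inclusion fun f hf => ⟨hf.1, fun γ hγ τ => by
    rcases mem_pm hγ with h | h
    · exact hf.2.1 γ h τ
    · have := hf.2.1 _ h τ
      rwa [ModularGroup.SL_neg_smul] at this, hf.2.2⟩

theorem expW1_toW1 (f : W M (gammaPM M)) : expW1 M (toW1 f) = expW M (gammaPM M) f :=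
  congrArg (X0Fn.expL (M : ℝ)) (Subtype.ext rfl)

theorem expW_ofW1 (f : W1 M) : expW M (gammaPM M) (ofW1 f) = expW1 M f :=
  congrArg (X0Fn.expL (M : ℝ)) (Subtype.ext rfl)

theorem toW1_ne_zero {f : W M (gammaPM M)} (hf : f ≠ 0) : toW1 f ≠ 0 :=
  (map_ne_zero_iff _ (Subalgebra.inclusion_injective _)).2 hf

theorem ofW1_ne_zero {f : W1 M} (hf : f ≠ 0) : ofW1 f ≠ 0 :=
  (map_ne_zero_iff _ (Subalgebra.inclusion_injective _)).2 hf

variable {κ : LL →+* ℂ}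

theorem isModel (D : Field1 M κ) : IsModel M (gammaPM M) κ D.F := by
  have hj : ModularCurve.coeffEmb LL ModularCurve.jq = ModularCurve.jqModC LL :=
    ModularCurve.coeffMap_jqModC _
  have hjm : ModularCurve.coeffEmb LL ModularCurve.jq ∈ D.F := hj ▸ D.j_mem
  refine ⟨fun x hx => ?_, hjm, ?_⟩
  · obtain ⟨a, b, hb, h⟩ := (D.mem_iff x).1 hx
    exact ⟨ofW1 a, ofW1 b, ofW1_ne_zero hb, by rw [expW_ofW1, expW_ofW1]; exact h⟩
  · have e : (⟨_, hjm⟩ : D.F) = ⟨_, D.j_mem⟩ := Subtype.ext hj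
    rw [e]
    exact D.finrank_j

/-- The values at `±γ` agree. -/
theorem hom_eq_of_pm {A : Type*} [AddCommGroup A] {χ : Additive (Gamma1 M) →+ A}
    (hχ : χ ∈ Hpar (Gamma1 M) A) {a b : Gamma1 M}
    (h : (b : SL(2, ℤ)) = a ∨ (b : SL(2, ℤ)) = -(a : SL(2, ℤ))) :
    χ (Additive.ofMul b) = χ (Additive.ofMul a) := by
  rcases h with h | h
  · rw [Subtype.ext h]
  · have h1 : χ (Additive.ofMul (b * a⁻¹)) = 0 := hχ _ (by
      have e : ((b * a⁻¹ : Gamma1 M) : SL(2, ℤ)) = -1 := by simp [h]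
      show (((b * a⁻¹ : Gamma1 M) : SL(2, ℤ)) : Matrix (Fin 2) (Fin 2) ℤ).trace ^ 2 ≤ 4
      rw [e]
      simp [Matrix.trace_fin_two])
    rwa [ofMul_mul, ofMul_inv, map_add, map_neg, add_neg_eq_zero] at h1

theorem exists_pm_rep (γ : gammaPM M) :
    ∃ a : Gamma1 M, (γ : SL(2, ℤ)) = a ∨ (γ : SL(2, ℤ)) = -(a : SL(2, ℤ)) := by
  rcases mem_pm γ.2 with h | h
  · exact ⟨⟨_, h⟩, Or.inl rfl⟩
  · exact ⟨⟨_, h⟩, Or.inr (neg_neg _).symm⟩

/-- An element of `Γ₁(M)` equal up to sign. -/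
def pmRep (γ : gammaPM M) : Gamma1 M := (exists_pm_rep γ).choose

theorem pmRep_spec (γ : gammaPM M) :
    (γ : SL(2, ℤ)) = pmRep γ ∨ (γ : SL(2, ℤ)) = -(pmRep γ : SL(2, ℤ)) :=
  (exists_pm_rep γ).choose_spec

theorem hom_pmRep {A : Type*} [AddCommGroup A] {χ : Additive (Gamma1 M) →+ A}
    (hχ : χ ∈ Hpar (Gamma1 M) A) {γ : gammaPM M} {a : Gamma1 M}
    (h : (γ : SL(2, ℤ)) = a ∨ (γ : SL(2, ℤ)) = -(a : SL(2, ℤ))) :
    χ (Additive.ofMul (pmRep γ)) = χ (Additive.ofMul a) := by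
  refine hom_eq_of_pm hχ ?_
  rcases pmRep_spec γ with e | e <;> rcases h with f | f
  · exact Or.inl (e.symm.trans f)
  · exact Or.inr (e.symm.trans f)
  · exact Or.inr (by rw [← f, e, neg_neg])
  · exact Or.inl (neg_injective (e.symm.trans f))

/-- Extension of a homomorphism to `±Γ₁(M)`. -/
def extPM {A : Type*} [AddCommGroup A] (χ : Additive (Gamma1 M) →+ A)
    (hχ : χ ∈ Hpar (Gamma1 M) A) : Additive (gammaPM M) →+ A :=
  AddMonoidHom.mk' (fun γ => χ (Additive.ofMul (pmRep γ.toMul))) fun γ δ => by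
    rw [← map_add χ, ← ofMul_mul]
    refine hom_pmRep hχ ?_
    rw [toMul_add]
    rcases pmRep_spec γ.toMul with e | e <;> rcases pmRep_spec δ.toMul with f | f
    · exact Or.inl (by rw [Subgroup.coe_mul, Subgroup.coe_mul, e, f])
    · exact Or.inr (by rw [Subgroup.coe_mul, Subgroup.coe_mul, e, f, mul_neg])
    · exact Or.inr (by rw [Subgroup.coe_mul, Subgroup.coe_mul, e, f, neg_mul])
    · exact Or.inl (by rw [Subgroup.coe_mul, Subgroup.coe_mul, e, f, neg_mul_neg])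

theorem extPM_mem {A : Type*} [AddCommGroup A] {χ : Additive (Gamma1 M) →+ A}
    (hχ : χ ∈ Hpar (Gamma1 M) A) : extPM χ hχ ∈ Hpar (gammaPM M) A := fun γ hγ => by
  show χ (Additive.ofMul (pmRep γ)) = 0
  refine hχ _ (le_of_eq_of_le ?_ hγ)
  show (((pmRep γ : Gamma1 M) : SL(2, ℤ)) : Matrix (Fin 2) (Fin 2) ℤ).trace ^ 2 =
    ((γ : SL(2, ℤ)) : Matrix (Fin 2) (Fin 2) ℤ).trace ^ 2
  rcases pmRep_spec γ with e | e <;> simp [e, Matrix.trace_neg]

/-- Restriction to `Γ₁(M)`. -/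
def resPM {A : Type*} [AddCommGroup A] (χ : Additive (gammaPM M) →+ A) :
    Additive (Gamma1 M) →+ A :=
  χ.comp (Subgroup.inclusion gamma1_le_pm).toAdditive

theorem resPM_mem {A : Type*} [AddCommGroup A] {χ : Additive (gammaPM M) →+ A}
    (hχ : χ ∈ Hpar (gammaPM M) A) : resPM χ ∈ Hpar (Gamma1 M) A :=
  fun γ hγ => hχ (Subgroup.inclusion gamma1_le_pm γ) hγ

theorem resPM_extPM {A : Type*} [AddCommGroup A] {χ : Additive (Gamma1 M) →+ A}
    (hχ : χ ∈ Hpar (Gamma1 M) A) : resPM (extPM χ hχ) = χ :=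
  AddMonoidHom.ext fun γ => hom_pmRep hχ (a := γ.toMul) (Or.inl rfl)

theorem isCharFn1_of_isCharFn {n : ℕ} {x : LaurentSeries LL}
    {χ : Additive (gammaPM M) →+ Cx} (h : IsCharFn M κ n x χ) :
    IsCharFn1 κ n x (resPM χ) := by
  obtain ⟨R, ⟨A, B, hB, hAB, hR⟩, hc⟩ := h
  exact ⟨R, toW1 A, toW1 B, ⟨toW1_ne_zero hB, by rw [expW1_toW1, expW1_toW1]; exact hAB⟩,
    congrArg Subtype.val hR, fun γ τ => hc (Subgroup.inclusion gamma1_le_pm γ) τ⟩

theorem isCharFn_of_isCharFn1 {n : ℕ} {x : LaurentSeries LL}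
    {χ : Additive (Gamma1 M) →+ Cx} (hχ : χ ∈ Hpar (Gamma1 M) Cx) (h : IsCharFn1 κ n x χ) :
    IsCharFn M κ n x (extPM χ hχ) := by
  obtain ⟨R, a, b, ⟨hb, hab⟩, hR, hc⟩ := h
  refine ⟨R, ⟨ofW1 a, ofW1 b, ofW1_ne_zero hb, by rw [expW_ofW1, expW_ofW1]; exact hab,
    Subtype.ext hR⟩, fun γ τ => ?_⟩
  show _ = (((χ (Additive.ofMul (pmRep γ))).toMul : ℂˣ) : ℂ) * (R : ℍ → ℂ) τ
  rw [← hc (pmRep γ) τ]
  rcases pmRep_spec γ with e | e <;> simp [e]

/-- Package C2. -/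
theorem targetKummerTheory : TargetKummerTheory := by
  intro M _ κ D _
  have hF := isModel D
  refine ⟨fun n hn x hx => ⟨fun hdiv => ?_, fun ⟨χ, hχ, h⟩ v => ?_⟩, fun n hn χ hχ hnχ => ?_⟩
  · obtain ⟨χ, hχ, -, h⟩ := hF.exists_isCharFn hx hn hdiv
    exact ⟨resPM χ, resPM_mem hχ, isCharFn1_of_isCharFn h⟩
  · exact hF.dvd_ord_of_isCharFn hx hn (isCharFn_of_isCharFn1 hχ h) (extPM_mem hχ) v
  · have hn' : n • extPM χ hχ = 0 := AddMonoidHom.ext fun γ => by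
      exact DFunLike.congr_fun hnχ (Additive.ofMul (pmRep γ.toMul))
    obtain ⟨x, hx, h⟩ := hF.exists_fn_of_char (extPM_mem hχ) hn hn'
    exact ⟨x, hx, resPM_extPM hχ ▸ isCharFn1_of_isCharFn h⟩

end FLTAgent.DeligneSerre.Tors
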