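import Fermat.Agent.TorsionHom.RootHom

/-!
Homomorphisms with values in the integers modulo `n` on a subgroup of finite index.
-/

set_option autoImplicit false

noncomputable section

open scoped MatrixGroups

namespace FLTAgent.DeligneSerre.Tors

open FLTAgent.PeriodHecke (Hpar mapHpar)
open FLTAgent.TorsionHom (rootHom rootHom_injective exists_rootHom)

variable (n : ℕ) [NeZero n] {Γ : Subgroup SL(2, ℤ)}

theorem finite_hom [Γ.FiniteIndex] (A : Type*) [AddCommGroup A] [Finite A] :
    Finite (Additive Γ →+ A) := by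
  haveI : Group.FG SL(2, ℤ) :=
    ⟨⟨{ModularGroup.S, ModularGroup.T}, by
      simpa using SpecialLinearGroup.SL2Z_generators⟩⟩
  haveI : Group.FG Γ := Subgroup.fg_of_index_ne_zero (H := Γ)
  obtain ⟨s, hs⟩ := Group.fg_def.1 (inferInstance : Group.FG Γ)
  refine Finite.of_injective (fun φ : Additive Γ →+ A => fun x : s => φ (Additive.ofMul (x : Γ)))
    fun φ ψ h => ?_
  refine AddMonoidHom.toMultiplicativeRight.injective (MonoidHom.eq_of_eqOn_dense hs ?_)
  intro x hx
  exact congrArg Multiplicative.ofAdd (congrFun h ⟨x, hx⟩)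

theorem mapHpar_root_injective : Function.Injective (mapHpar (Γ := Γ) (rootHom n)) := fun _ _ h =>
  Subtype.ext (AddMonoidHom.ext fun γ => rootHom_injective n
    (DFunLike.congr_fun (congrArg Subtype.val h) γ))

theorem nsmul_mapHpar_root (φ : Hpar Γ (ZMod n)) : n • mapHpar (rootHom n) φ = 0 := by
  rw [← map_nsmul, show n • φ = 0 from Subtype.ext (AddMonoidHom.ext fun γ => by simp), map_zero]

theorem exists_mapHpar_root {χ : Hpar Γ (Additive ℂˣ)} (h : n • χ = 0) :
    ∃ φ, mapHpar (rootHom n) φ = χ := by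
  have hv : ∀ γ, n • χ.1 γ = 0 := fun γ =>
    DFunLike.congr_fun (congrArg Subtype.val h) γ
  choose a ha using fun γ => exists_rootHom n (hv γ)
  refine ⟨⟨AddMonoidHom.mk' a fun γ δ => rootHom_injective n (by rw [map_add, ha, ha, ha, map_add]),
    fun γ hγ => rootHom_injective n ?_⟩, Subtype.ext (AddMonoidHom.ext fun γ => ha γ)⟩
  rw [map_zero]
  exact (ha _).trans (χ.2 γ hγ)

theorem finite_killed [Γ.FiniteIndex] :
    {χ : Additive Γ →+ Additive ℂˣ | χ ∈ Hpar Γ (Additive ℂˣ) ∧ n • χ = 0}.Finite := by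
  haveI := finite_hom (Γ := Γ) (ZMod n)
  refine (Set.finite_range fun φ : Hpar Γ (ZMod n) => (mapHpar (rootHom n) φ).1).subset ?_
  rintro χ ⟨hχ, hn⟩
  obtain ⟨φ, hφ⟩ := exists_mapHpar_root n (χ := ⟨χ, hχ⟩) (Subtype.ext hn)
  exact ⟨φ, congrArg Subtype.val hφ⟩

end FLTAgent.DeligneSerre.Tors
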