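import Fermat.Agent.DeligneSerre.Exists
import Fermat.Agent.DeligneSerre.Residual.Target
import Fermat.Agent.DeligneSerre.Field.Target
import Fermat.Agent.DeligneSerre.TorsionTarget
import Fermat.Agent.DeligneSerre.Galois.Target

/-!
# The theorem of Deligne and Serre from the two remaining packages

The residual representations follow from good reduction, and with the congruence systems they give
the representation attached to a form of weight one.
-/

set_option autoImplicit false

noncomputable section

namespace FLTAgent.DeligneSerre

open ModularFormClass (qCoeff)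

local notation "QQb" => AlgebraicClosure ℚ
local notation "GG" => (AlgebraicClosure ℚ ≃ₐ[ℚ] AlgebraicClosure ℚ)

/-- The residual representations from good reduction. -/
theorem residual_of_goodReduction (hR : TargetGoodReduction1) : ResidualOfWeightTwoCongruence :=
  Resid.targetResidual fun M _ hA => by
    obtain ⟨D⟩ := targetField1 M Kronecker.complexEmb hA
    exact targetGaloisTorsion M Kronecker.complexEmb D hA
      (Tors.targetKummerTheory M Kronecker.complexEmb D hA) (hR M Kronecker.complexEmb hA D)

/-- The representation of a form of weight one, from good reduction and congruence systems. -/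
theorem exists_galoisRep_of_packages (hR : TargetGoodReduction1) (hB : TargetCongrSystem)
    (N : ℕ) [NeZero N] (ε : DirichletCharacter ℂ N)
    (f : CuspForm (CongruenceSubgroup.Gamma1 N) 1) (hf₁ : qCoeff f 1 = 1)
    (hT : ∀ p : ℕ, p.Prime → ¬ p ∣ N → ∀ n : ℕ,
      qCoeff f (p * n) + ε (p : ZMod N) * (if p ∣ n then qCoeff f (n / p) else 0) =
        qCoeff f p * qCoeff f n) :
    ∃ ρ : GG →* GL (Fin 2) ℂ, GaloisFactorsThroughFiniteLevel ρ ∧
      (Deformation.matrixRepresentation ρ).IsIrreducible ∧
      ∀ p : ℕ, p.Prime → ¬ p ∣ N →
        ∀ U : ValuationSubring QQb, U.LiesOverPrime p →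
          (∀ σ ∈ U.inertiaSubgroupIn ℚ, ρ σ = 1) ∧
          ∀ σ : GG, U.IsFrobeniusAt σ p →
            ((ρ σ : GL (Fin 2) ℂ) : Matrix (Fin 2) (Fin 2) ℂ).trace = qCoeff f p ∧
            ((ρ σ : GL (Fin 2) ℂ) : Matrix (Fin 2) (Fin 2) ℂ).det = ε (p : ZMod N) :=
  exists_galoisRep_of_targets (residual_of_goodReduction hR) hB ε f hf₁ hT

end FLTAgent.DeligneSerre
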