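import Fermat.Agent.DeligneSerre.EulerTwist
import Fermat.Agent.Frobenius.Density

/-!
# The theorem of Chebotarev for an element and its inverse, after crossing with a cyclotomic field

Let `χ` be a character of a Galois group with `χ(Frob_p) = p` modulo `r`, injective on the cyclic
group generated by `σ`. Then the Frobenius elements are equidistributed between the union of the
classes of `σ` and `σ⁻¹` and its complement, in the sense of Dirichlet series.
-/

set_option autoImplicit false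

noncomputable section

namespace FLTAgent.DeligneSerre

open NumberField Filter FLTAgent.Frobenius
open scoped Classical Topology

variable {L : Type} [Field L] [NumberField L] [IsGalois ℚ L]

local notation "Gal₀" => (L ≃ₐ[ℚ] L)

omit [IsGalois ℚ L] in
theorem hasFrobAverage_sum {frob : Nat.Primes → Gal₀} {ι : Type*} (s : Finset ι) {f : ι → Gal₀ → ℝ}
    (hf : ∀ i ∈ s, HasFrobAverage frob (f i)) (c : ι → ℝ) :
    HasFrobAverage frob (fun g => ∑ i ∈ s, c i * f i g) := by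
  induction s using Finset.induction with
  | empty => simpa using (HasFrobAverage.zero (frob := frob))
  | insert a t ha ih =>
    have h : (fun g => ∑ i ∈ insert a t, c i * f i g) =
        fun g => (∑ i ∈ t, c i * f i g) + c a * f a g := funext fun g => by
      rw [Finset.sum_insert ha, add_comm]
    rw [h]
    exact (ih fun i hi => hf i (Finset.mem_insert_of_mem hi)).add_smul
      (hf a (Finset.mem_insert_self a t)) (c a)

/-- The Frobenius data outside a finite set. -/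
def FrobData (frob : Nat.Primes → L ≃ₐ[ℚ] L) (bad : Finset Nat.Primes) : Prop :=
  ∀ p ∉ bad, InertiaTrivial L p ∧
    ∃ Q : Ideal (𝓞 L), Q.IsPrime ∧ ((p : ℕ) : 𝓞 L) ∈ Q ∧ IsFrobMod p (frob p) Q

/-- `χ` sends Frobenius elements to primes modulo `r`, outside a finite set. -/
def IsCyclotomicChar {r : ℕ} (χ : (L ≃ₐ[ℚ] L) →* (ZMod r)ˣ) (bad : Finset Nat.Primes) : Prop :=
  ∀ p ∉ bad, ∀ (φ : L ≃ₐ[ℚ] L) (Q : Ideal (𝓞 L)), Q.IsPrime → ((p : ℕ) : 𝓞 L) ∈ Q →
    IsFrobMod p φ Q → (χ φ : ZMod r) = ((p : ℕ) : ZMod r)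

/-- Fixed points on the cosets of `H`. -/
def fixH (H : Subgroup Gal₀) (g : Gal₀) : ℝ := (Nat.card {c : Gal₀ ⧸ H // g • c = c} : ℝ)

variable {r : ℕ} [NeZero r] (χ : (L ≃ₐ[ℚ] L) →* (ZMod r)ˣ)

/-- Fixed points twisted by a Dirichlet character. -/
def twistFix (H : Subgroup Gal₀) (ψ : DirichletCharacter ℂ r) (g : Gal₀) : ℝ :=
  fixH H g * (ψ (χ g : ZMod r)).re

omit [IsGalois ℚ L] in
theorem fixed_iff (H : Subgroup Gal₀) (g x : Gal₀) :
    g • (QuotientGroup.mk x : Gal₀ ⧸ H) = QuotientGroup.mk x ↔ x⁻¹ * g * x ∈ H := by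
  rw [MulAction.Quotient.smul_mk, eq_comm, QuotientGroup.eq, smul_eq_mul, mul_assoc]

omit [IsGalois ℚ L] in
theorem fixH_ne_zero_iff (H : Subgroup Gal₀) (g : Gal₀) :
    fixH H g ≠ 0 ↔ ∃ x : Gal₀, x⁻¹ * g * x ∈ H := by
  rw [fixH, Nat.cast_ne_zero, Nat.card_ne_zero]
  refine ⟨fun ⟨⟨⟨c, hc⟩⟩, _⟩ => ?_, fun ⟨x, hx⟩ =>
    ⟨⟨⟨QuotientGroup.mk x, (fixed_iff H g x).mpr hx⟩⟩, inferInstance⟩⟩
  obtain ⟨x, rfl⟩ := QuotientGroup.mk_surjective c
  exact ⟨x, (fixed_iff H g x).mp hc⟩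

omit [IsGalois ℚ L] in
theorem fixH_conj (H : Subgroup Gal₀) (x g : Gal₀) : fixH H (x * g * x⁻¹) = fixH H g := by
  rw [fixH, fixH, Nat.cast_inj]
  exact card_fixed_eq_of_sameDivision (X := Gal₀ ⧸ H) ⟨x⁻¹, by simp [mul_assoc]⟩

omit [IsGalois ℚ L] in
theorem fixH_inv (H : Subgroup Gal₀) (g : Gal₀) : fixH H g⁻¹ = fixH H g := by
  rw [fixH, fixH, Nat.cast_inj]
  exact card_fixed_eq_of_sameDivision (X := Gal₀ ⧸ H) ⟨1, by simp [Subgroup.zpowers_inv]⟩

omit [IsGalois ℚ L] [NeZero r] in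
theorem chi_conj (x g : Gal₀) : χ (x * g * x⁻¹) = χ g := by
  rw [map_mul, map_mul, map_inv, mul_comm (χ x), mul_inv_cancel_right]

omit [IsGalois ℚ L] in
theorem sum_twistFix_eq_zero (H : Subgroup Gal₀) (ψ : DirichletCharacter ℂ r) {σ₀ : Gal₀}
    (hσ₀ : σ₀ ∈ H) (hψ : ψ (χ σ₀ : ZMod r) ≠ 1) : ∑ g, twistFix χ H ψ g = 0 := by
  let ν : Gal₀ → ℂ := fun g => ψ (χ g : ZMod r)
  have : Fintype (Gal₀ ⧸ H) := Fintype.ofFinite _
  have hfix : ∀ g, (fixH H g : ℂ) = ∑ c : Gal₀ ⧸ H, if g • c = c then (1 : ℂ) else 0 := by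
    intro g
    rw [fixH, Nat.card_eq_fintype_card, Fintype.card_subtype, Finset.sum_boole]
    simp
  have h0 : ∑ g, (fixH H g : ℂ) * ν g = 0 := by
    simp only [hfix, Finset.sum_mul, ite_mul, one_mul, zero_mul]
    rw [Finset.sum_comm]
    refine Finset.sum_eq_zero fun c _ => ?_
    obtain ⟨x, rfl⟩ := QuotientGroup.mk_surjective c
    rw [← Equiv.sum_comp (MulAut.conj x).toEquiv]
    have h1 : ∀ g : Gal₀, (if (MulAut.conj x).toEquiv g • (QuotientGroup.mk x : Gal₀ ⧸ H) =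
        QuotientGroup.mk x then ν ((MulAut.conj x).toEquiv g) else 0) =
          if g ∈ H then ν g else 0 := fun g => by
      have hc : (MulAut.conj x).toEquiv g = x * g * x⁻¹ := rfl
      simp only [hc, fixed_iff, ν, chi_conj]
      simp [mul_assoc]
    rw [Finset.sum_congr rfl fun g _ => h1 g]
    refine eq_zero_of_mul_eq_self_left hψ ?_
    rw [Finset.mul_sum]
    conv_rhs => rw [← Equiv.sum_comp (Equiv.mulLeft σ₀)]
    refine Finset.sum_congr rfl fun g _ => ?_
    simp only [Equiv.coe_mulLeft, H.mul_mem_cancel_left hσ₀, mul_ite, mul_zero, ν, map_mul,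
      Units.val_mul]
  have h := congrArg Complex.re h0
  rw [Complex.re_sum, Complex.zero_re] at h
  rw [← h]
  exact Finset.sum_congr rfl fun g _ => (Complex.re_ofReal_mul _ _).symm

omit [IsGalois ℚ L] in
theorem twistFix_trivial (H : Subgroup Gal₀) (ψ : DirichletCharacter ℂ r)
    (hψ : ∀ h ∈ H, ψ (χ h : ZMod r) = 1) : twistFix χ H ψ = fixH H := by
  funext g
  rw [twistFix]
  by_cases h0 : fixH H g = 0
  · rw [h0, zero_mul]
  obtain ⟨x, hx⟩ := (fixH_ne_zero_iff H g).mp h0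
  have := hψ _ hx
  rw [show x⁻¹ * g * x = x⁻¹ * g * x⁻¹⁻¹ by rw [inv_inv], chi_conj] at this
  rw [this, Complex.one_re, mul_one]

/-- The upper bound for a twist which is nontrivial on the subgroup. -/
theorem exists_twist_upper {frob : Nat.Primes → Gal₀} {bad : Finset Nat.Primes}
    (hfrob : FrobData frob bad) (hχ : IsCyclotomicChar χ bad) (H : Subgroup Gal₀)
    (ψ : DirichletCharacter ℂ r) {σ₀ : Gal₀} (hσ₀ : σ₀ ∈ H) (hψ : ψ (χ σ₀ : ZMod r) ≠ 1) :
    ∃ C : ℝ, ∀ᶠ s in 𝓝[>] (1 : ℝ),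
      ∑' p : Nat.Primes, twistFix χ H ψ (frob p) * (p : ℝ) ^ (-s) ≤ C := by
  set K := IntermediateField.fixedField H
  have hwit : ∀ S : Finset ℕ, ∃ p, p.Prime ∧ p ∉ S ∧ idealCount K p ≠ 0 ∧
      ψ (p : ZMod r) ≠ 1 := by
    intro S
    obtain ⟨p, hp, hpS, hun, Q, φ, hQ, hpQ, hφ, x, hx⟩ :=
      exists_frobenius_sameDivision σ₀ (S ∪ bad.image fun q : Nat.Primes => (q : ℕ))
    rw [Finset.mem_union, not_or] at hpS
    have hbad : (⟨p, hp⟩ : Nat.Primes) ∉ bad := fun h => hpS.2 (Finset.mem_image.mpr ⟨_, h, rfl⟩)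
    refine ⟨p, hp, hpS.1, ?_, ?_⟩
    · rw [idealCount_fixedField H hp hun hQ hpQ hφ, Nat.card_ne_zero]
      have hmem : x * φ * x⁻¹ ∈ H :=
        (Subgroup.zpowers_le.mpr hσ₀) (hx ▸ Subgroup.mem_zpowers _)
      exact ⟨⟨⟨QuotientGroup.mk x⁻¹, (fixed_iff H φ x⁻¹).mpr (by rwa [inv_inv])⟩⟩, inferInstance⟩
    · rw [← hχ ⟨p, hp⟩ hbad φ Q hQ hpQ hφ]
      intro h1
      let ν : Gal₀ →* ℂ := ψ.toMonoidHom.comp ((Units.coeHom _).comp χ)
      have hν : ν (x * φ * x⁻¹) = 1 := by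
        show ψ (χ (x * φ * x⁻¹) : ZMod r) = 1
        rw [chi_conj]
        exact h1
      obtain ⟨k, hk⟩ := Submonoid.mem_powers_iff _ _ |>.mp
        (mem_powers_iff_mem_zpowers.mpr (hx ▸ Subgroup.mem_zpowers σ₀ :
          σ₀ ∈ Subgroup.zpowers (x * φ * x⁻¹)))
      refine hψ ?_
      show ν σ₀ = 1
      rw [← hk, map_pow, hν, one_pow]
  obtain ⟨C, hC⟩ := twisted_primes_le K ψ hwit
  refine ⟨C + ∑ p ∈ bad, |twistFix χ H ψ (frob p) -
    (idealCount K p : ℝ) * (ψ ((p : ℕ) : ZMod r)).re|, ?_⟩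
  filter_upwards [hC, self_mem_nhdsWithin] with s hs1 hs
  simp only [Set.mem_Ioi] at hs
  have hA := summable_comp_frob frob (twistFix χ H ψ) hs
  have hB : Summable fun p : Nat.Primes =>
      (idealCount K p : ℝ) * (ψ ((p : ℕ) : ZMod r)).re * (p : ℝ) ^ (-s) := by
    refine Summable.of_norm_bounded (summable_idealCount_primes K hs) fun p => ?_
    rw [norm_mul, norm_mul, Real.norm_natCast,
      Real.norm_of_nonneg (Real.rpow_nonneg (Nat.cast_nonneg _) _)]
    refine mul_le_mul_of_nonneg_right (mul_le_of_le_one_right (Nat.cast_nonneg _) ?_)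
      (Real.rpow_nonneg (Nat.cast_nonneg _) _)
    exact (Complex.abs_re_le_norm _).trans (ψ.norm_le_one _)
  have hd : ∑' p : Nat.Primes, twistFix χ H ψ (frob p) * (p : ℝ) ^ (-s) -
      ∑' p : Nat.Primes, (idealCount K p : ℝ) * (ψ ((p : ℕ) : ZMod r)).re * (p : ℝ) ^ (-s) ≤
      ∑ p ∈ bad, |twistFix χ H ψ (frob p) -
        (idealCount K p : ℝ) * (ψ ((p : ℕ) : ZMod r)).re| := by
    rw [← hA.tsum_sub hB, tsum_eq_sum (s := bad) fun p hp => ?_]
    · refine Finset.sum_le_sum fun p _ => ?_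
      rw [← sub_mul]
      refine (le_abs_self _).trans ?_
      rw [abs_mul, abs_of_nonneg (Real.rpow_nonneg (Nat.cast_nonneg _) _)]
      exact mul_le_of_le_one_right (abs_nonneg _) (natCast_rpow_neg_le_one _ (by linarith))
    · obtain ⟨hun, Q, hQ, hpQ, hφ⟩ := hfrob p hp
      rw [twistFix, idealCount_fixedField H p.2 hun hQ hpQ hφ, hχ p hp _ Q hQ hpQ hφ, fixH, sub_self]
  linarith

omit [IsGalois ℚ L] in
theorem sum_re_char (u : (ZMod r)ˣ) :
    ∑ ψ : DirichletCharacter ℂ r, (ψ (u : ZMod r)).re = if u = 1 then (r.totient : ℝ) else 0 := by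
  rw [← Complex.re_sum, DirichletCharacter.sum_characters_eq]
  by_cases h : u = 1
  · simp [h]
  · rw [if_neg h, if_neg (by simpa using h)]
    simp

/-- Twists which are nontrivial on the subgroup average to zero. -/
theorem hasFrobAverage_twist {frob : Nat.Primes → Gal₀} {bad : Finset Nat.Primes}
    (hfrob : FrobData frob bad) (hχ : IsCyclotomicChar χ bad) (H : Subgroup Gal₀)
    (ψ : DirichletCharacter ℂ r) : HasFrobAverage frob (twistFix χ H ψ) := by
  have hfix : ∀ H : Subgroup Gal₀, HasFrobAverage frob (fixH H) := fun H =>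
    hasFrobAverage_fix bad hfrob H
  by_cases hψ : ∀ h ∈ H, ψ (χ h : ZMod r) = 1
  · rw [twistFix_trivial χ H ψ hψ]; exact hfix H
  push Not at hψ
  set N := Finset.univ.filter fun ψ : DirichletCharacter ℂ r =>
    ¬ ∀ h ∈ H, ψ (χ h : ZMod r) = 1 with hN
  have hψN : ψ ∈ N := by
    simp only [hN, Finset.mem_filter, Finset.mem_univ, true_and, not_forall]
    obtain ⟨h, h1, h2⟩ := hψ
    exact ⟨h, h1, h2⟩
  have hzero : ∀ ψ' ∈ N, ∑ g, twistFix χ H ψ' g = 0 := by
    intro ψ' h'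
    simp only [hN, Finset.mem_filter, Finset.mem_univ, true_and, not_forall] at h'
    obtain ⟨h, h1, h2⟩ := h'
    exact sum_twistFix_eq_zero χ H ψ' h1 h2
  have hup : ∀ ψ' ∈ N, ∃ C : ℝ, ∀ᶠ s in 𝓝[>] (1 : ℝ),
      ∑' p : Nat.Primes, twistFix χ H ψ' (frob p) * (p : ℝ) ^ (-s) ≤ C := by
    intro ψ' h'
    simp only [hN, Finset.mem_filter, Finset.mem_univ, true_and, not_forall] at h'
    obtain ⟨h, h1, h2⟩ := h'
    exact exists_twist_upper χ hfrob hχ H ψ' h1 h2
  -- the sum over the nontrivial twists is a function of divisions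
  set F : Gal₀ → ℝ := fun g => ∑ ψ' ∈ N, twistFix χ H ψ' g with hF
  have hsum : HasFrobAverage frob F := by
    have hdiv : HasFrobAverage frob fun g => if χ g = 1 then fixH H g else 0 := by
      refine hasFrobAverage_of_division hfix (Nat.card Gal₀ + 1) _
        (fun g hg => absurd (Nat.le_trans hg (orderOf_le_card (x := g))) (by omega)) ?_
      rintro g h ⟨x, hx⟩
      have hfeq : fixH H g = fixH H h := by
        rw [fixH, fixH, card_fixed_eq_of_sameDivision (X := Gal₀ ⧸ H) ⟨x, hx⟩]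
      have hker : χ g = 1 ↔ χ h = 1 := by
        rw [← chi_conj χ x g, ← MonoidHom.mem_ker, ← MonoidHom.mem_ker, ← Subgroup.zpowers_le, hx,
          Subgroup.zpowers_le]
      simp only [hker, hfeq]
    have heq : F = fun g => 0 + ((r.totient : ℝ) * (if χ g = 1 then fixH H g else 0) +
        (-((Finset.univ \ N).card : ℝ)) * fixH H g) := by
      funext g
      have h1 := Finset.sum_sdiff (s₁ := N) (f := fun ψ' => twistFix χ H ψ' g)
        (Finset.subset_univ N)
      have h2 : ∑ ψ' ∈ Finset.univ \ N, twistFix χ H ψ' g =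
          ((Finset.univ \ N).card : ℝ) * fixH H g := by
        rw [← nsmul_eq_mul, ← Finset.sum_const]
        refine Finset.sum_congr rfl fun ψ' h' => ?_
        simp only [hN, Finset.mem_sdiff, Finset.mem_filter, Finset.mem_univ, true_and, not_not] at h'
        rw [twistFix_trivial χ H ψ' h']
      have h3 : ∑ ψ' : DirichletCharacter ℂ r, twistFix χ H ψ' g =
          (r.totient : ℝ) * (if χ g = 1 then fixH H g else 0) := by
        simp only [twistFix, ← Finset.mul_sum, sum_re_char]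
        split_ifs <;> ring
      simp only [hF]
      linarith
    rw [heq]
    have h := hasFrobAverage_sum (frob := frob) (Finset.univ : Finset (Fin 2))
      (f := ![fun g => if χ g = 1 then fixH H g else 0, fixH H])
      (fun i _ => by fin_cases i <;> simp [hdiv, hfix H])
      ![(r.totient : ℝ), -((Finset.univ \ N).card : ℝ)]
    simpa [Fin.sum_univ_two] using h
  obtain ⟨C₀, hC₀⟩ := hsum
  choose! C hC using hup
  refine ⟨|C ψ| + (C₀ + ∑ ψ' ∈ N.erase ψ, |C ψ'|), ?_⟩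
  filter_upwards [hC₀, (Filter.eventually_all_finset N).mpr hC, self_mem_nhdsWithin] with s h0 hall hs
  simp only [Set.mem_Ioi] at hs
  rw [hzero ψ hψN, zero_div, zero_mul, add_zero]
  have hFzero : ∑ g, F g = 0 := by
    simp only [hF]
    rw [Finset.sum_comm, Finset.sum_eq_zero hzero]
  rw [hFzero, zero_div, zero_mul, add_zero] at h0
  have hsplit : ∑' p : Nat.Primes, F (frob p) * (p : ℝ) ^ (-s) =
      ∑ ψ' ∈ N, ∑' p : Nat.Primes, twistFix χ H ψ' (frob p) * (p : ℝ) ^ (-s) := by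
    rw [← Summable.tsum_finsetSum fun ψ' _ => summable_comp_frob frob (twistFix χ H ψ') hs]
    exact tsum_congr fun p => Finset.sum_mul _ _ _
  rw [hsplit, ← Finset.add_sum_erase _ _ hψN, abs_le] at h0
  have hothers : ∑ ψ' ∈ N.erase ψ, ∑' p : Nat.Primes, twistFix χ H ψ' (frob p) * (p : ℝ) ^ (-s) ≤
      ∑ ψ' ∈ N.erase ψ, |C ψ'| :=
    Finset.sum_le_sum fun ψ' h' => (hall ψ' (Finset.mem_of_mem_erase h')).trans (le_abs_self _)
  have hpos : 0 ≤ ∑ ψ' ∈ N.erase ψ, |C ψ'| := Finset.sum_nonneg fun _ _ => abs_nonneg _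
  have hψle := (hall ψ hψN).trans (le_abs_self _)
  exact abs_le.mpr ⟨by linarith [h0.1, abs_nonneg (C ψ)], by linarith [h0.1, h0.2]⟩

/-- The indicator of the classes of `σ` and `σ⁻¹`. -/
def pairInd (σ g : Gal₀) : ℝ :=
  (if IsConj σ g then 1 else 0) + (if IsConj σ⁻¹ g then 1 else 0)

/-- The equidistribution for `σ` and `σ⁻¹`. -/
theorem hasFrobAverage_pair {frob : Nat.Primes → Gal₀} {bad : Finset Nat.Primes}
    (hfrob : FrobData frob bad) (hχ : IsCyclotomicChar χ bad) {σ : Gal₀}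
    (hinj : orderOf (χ σ) = orderOf σ) : HasFrobAverage frob (pairInd σ) := by
  set H := Subgroup.zpowers σ
  have hsum := hasFrobAverage_sum (frob := frob) (Finset.univ : Finset (DirichletCharacter ℂ r))
    (fun ψ _ => hasFrobAverage_twist χ hfrob hχ H ψ) fun ψ => (ψ (χ σ : ZMod r)).re
  have hkey : ∀ g : Gal₀, fixH H g ≠ 0 → (IsConj σ g ↔ χ g = χ σ) := by
    intro g hg
    refine ⟨fun h => ?_, fun h => ?_⟩
    · obtain ⟨c, hc⟩ := isConj_iff.mp h
      rw [← hc, chi_conj]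
    · obtain ⟨x, hx⟩ := (fixH_ne_zero_iff H g).mp hg
      obtain ⟨k, hk : σ ^ k = x⁻¹ * g * x⟩ := hx
      have h1 : χ σ ^ k = χ σ ^ (1 : ℤ) := by
        rw [zpow_one, ← map_zpow, hk, show x⁻¹ * g * x = x⁻¹ * g * x⁻¹⁻¹ by rw [inv_inv], chi_conj, h]
      rw [zpow_eq_zpow_iff_modEq, hinj, ← zpow_eq_zpow_iff_modEq, zpow_one, hk] at h1
      exact isConj_iff.mpr ⟨x, by rw [← h1]; group⟩
  have hφ : (0 : ℝ) < (r.totient : ℝ) :=
    Nat.cast_pos.mpr (Nat.totient_pos.mpr (Nat.pos_of_ne_zero (NeZero.ne r)))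
  have hfσ : 0 < fixH H σ := by
    refine lt_of_le_of_ne (Nat.cast_nonneg _) (Ne.symm ((fixH_ne_zero_iff H σ).mpr ⟨1, ?_⟩))
    simp [H]
  have heq : pairInd σ = fun g => 0 + (2 / (r.totient * fixH H σ)) *
      ∑ ψ : DirichletCharacter ℂ r, (ψ (χ σ : ZMod r)).re * twistFix χ H ψ g := by
    funext g
    have hre : ∀ u v : (ZMod r)ˣ, ∑ ψ : DirichletCharacter ℂ r,
        (ψ (u : ZMod r)).re * (ψ (v : ZMod r)).re =
        (r.totient : ℝ) / 2 * ((if u * v = 1 then 1 else 0) + (if u * v⁻¹ = 1 then 1 else 0)) := by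
      intro u v
      have h1 : ∀ ψ : DirichletCharacter ℂ r, (ψ (u : ZMod r)).re * (ψ (v : ZMod r)).re =
          (1 / 2 : ℝ) * (ψ ((u * v : (ZMod r)ˣ) : ZMod r)).re +
            (1 / 2 : ℝ) * (ψ ((u * v⁻¹ : (ZMod r)ˣ) : ZMod r)).re := by
        intro ψ
        have hinv : ψ ((v⁻¹ : (ZMod r)ˣ) : ZMod r) =
            (starRingEnd ℂ) (ψ (v : ZMod r)) := by
          rw [map_units_inv, Complex.inv_eq_conj]
          exact ψ.unit_norm_eq_one v
        rw [Units.val_mul, Units.val_mul, map_mul, map_mul, hinv]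
        simp only [Complex.mul_re, Complex.conj_re, Complex.conj_im]
        ring
      simp only [h1, Finset.sum_add_distrib, ← Finset.mul_sum, sum_re_char]
      split_ifs <;> ring
    have hfac : ∑ ψ : DirichletCharacter ℂ r, (ψ (χ σ : ZMod r)).re * twistFix χ H ψ g =
        fixH H g * ((r.totient : ℝ) / 2 *
          ((if χ σ * χ g = 1 then 1 else 0) + (if χ σ * (χ g)⁻¹ = 1 then 1 else 0))) := by
      rw [← hre, Finset.mul_sum]
      exact Finset.sum_congr rfl fun ψ _ => by rw [twistFix]; ring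
    rw [hfac, zero_add, pairInd]
    by_cases hg : fixH H g = 0
    · have hno : ∀ τ : Gal₀, fixH H τ = fixH H σ → ¬ IsConj τ g := by
        intro τ hτ h
        obtain ⟨c, hc⟩ := isConj_iff.mp h
        rw [← hc, fixH_conj, hτ] at hg
        exact hfσ.ne' hg
      rw [if_neg (hno σ rfl), if_neg (hno σ⁻¹ (fixH_inv H σ)), hg]
      ring
    have e1 : (χ σ * χ g = 1) ↔ IsConj σ⁻¹ g := by
      have hg' : fixH H g⁻¹ ≠ 0 := by rwa [fixH_inv]
      rw [mul_eq_one_iff_inv_eq, inv_eq_iff_eq_inv, ← map_inv, eq_comm, ← hkey _ hg',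
        isConj_iff, isConj_iff]
      exact exists_congr fun c => by rw [← inv_inj, mul_inv_rev, mul_inv_rev, inv_inv, inv_inv, mul_assoc]
    have e2 : (χ σ * (χ g)⁻¹ = 1) ↔ IsConj σ g := by
      rw [mul_inv_eq_one, eq_comm, hkey _ hg]
    have hval : IsConj σ g ∨ IsConj σ⁻¹ g → fixH H g = fixH H σ := by
      rintro (h | h) <;> obtain ⟨c, hc⟩ := isConj_iff.mp h <;> rw [← hc, fixH_conj]
      exact fixH_inv H σ
    simp only [e1, e2]
    by_cases hc : IsConj σ g ∨ IsConj σ⁻¹ g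
    · rw [hval hc]
      field_simp
      ring
    · rw [not_or] at hc
      rw [if_neg hc.1, if_neg hc.2]
      ring
  rw [heq]
  exact HasFrobAverage.zero.add_smul hsum _

end FLTAgent.DeligneSerre
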