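import Fermat.Agent.DeligneSerre.Chebotarev
import Fermat.Agent.Frobenius.Global

/-!
# The lower bound in the theorem of Chebotarev for finite quotients of the absolute Galois group

Crossing with cyclotomic fields of degree divisible by high powers of the order of the group turns
the equidistribution for pairs of inverse classes into a lower bound for every nonnegative class
function invariant under inversion.
-/

set_option autoImplicit false

noncomputable section

namespace FLTAgent.DeligneSerre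

open NumberField Filter FLTAgent.Frobenius
open scoped Classical Topology Pointwise

local notation "QQb" => AlgebraicClosure ℚ
local notation "GG" => (AlgebraicClosure ℚ ≃ₐ[ℚ] AlgebraicClosure ℚ)

local instance isAlgebraicQQbC : Algebra.IsAlgebraic ℚ (AlgebraicClosure ℚ) :=
  AlgebraicClosure.isAlgebraic ℚ

local instance isAlgClosureQQbC : IsAlgClosure ℚ (AlgebraicClosure ℚ) :=
  ⟨inferInstance, inferInstance⟩

local instance normalQQbC : Normal ℚ (AlgebraicClosure ℚ) := IsAlgClosure.normal ℚ _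

/-- In a cyclic group, elements whose order is not divisible by `a` are rare. -/
theorem card_not_dvd_orderOf_le {C : Type*} [Group C] [Fintype C] [IsCyclic C] {a k : ℕ}
    (ha : a ≠ 0) (hk : a ^ (k + 1) ∣ Fintype.card C) :
    ((Finset.univ.filter fun c : C => ¬ a ∣ orderOf c).card : ℝ) ≤
      a * Fintype.card C / 2 ^ k := by
  set m := Fintype.card C
  have hm : m ≠ 0 := Fintype.card_ne_zero
  have hsub : (Finset.univ.filter fun c : C => ¬ a ∣ orderOf c) ⊆
      a.primeFactors.biUnion fun q => Finset.univ.filter fun c : C => c ^ (m / q ^ k) = 1 := by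
    intro c hc
    rw [Finset.mem_filter] at hc
    have hc2 := hc.2
    have hne : orderOf c ≠ 0 := (orderOf_pos c).ne'
    rw [← Nat.factorization_le_iff_dvd ha hne, Finsupp.le_def] at hc2
    push Not at hc2
    obtain ⟨q, hq⟩ := hc2
    have hqa : q ∈ a.primeFactors := by
      rw [← Nat.support_factorization, Finsupp.mem_support_iff]; omega
    have hqp := Nat.prime_of_mem_primeFactors hqa
    refine Finset.mem_biUnion.mpr ⟨q, hqa, Finset.mem_filter.mpr ⟨Finset.mem_univ _, ?_⟩⟩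
    have hqm : q ^ k ∣ m := ((pow_dvd_pow_of_dvd (Nat.dvd_of_mem_primeFactors hqa) k).trans
      (pow_dvd_pow a (Nat.le_succ k))).trans hk
    rw [← orderOf_dvd_iff_pow_eq_one, Nat.dvd_div_iff_mul_dvd hqm,
      ← Nat.factorization_le_iff_dvd (mul_ne_zero (pow_ne_zero _ hqp.ne_zero) hne) hm,
      Nat.factorization_mul (pow_ne_zero _ hqp.ne_zero) hne, hqp.factorization_pow, Finsupp.le_def]
    intro t
    have hord : (orderOf c).factorization t ≤ m.factorization t :=
      (Finsupp.le_def.mp ((Nat.factorization_le_iff_dvd hne hm).mpr (orderOf_dvd_card))) t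
    rw [Finsupp.add_apply, Finsupp.single_apply]
    split_ifs with ht
    · subst ht
      have h1 := (Finsupp.le_def.mp ((Nat.factorization_le_iff_dvd (pow_ne_zero _ ha) hm).mpr hk)) q
      rw [Nat.factorization_pow] at h1
      simp only [Finsupp.smul_apply, smul_eq_mul] at h1
      have h2 : k + a.factorization q ≤ (k + 1) * a.factorization q := by nlinarith
      omega
    · simpa using hord
  refine (Nat.cast_le.mpr ((Finset.card_le_card hsub).trans Finset.card_biUnion_le)).trans ?_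
  push_cast
  refine (Finset.sum_le_card_nsmul _ _ ((m : ℝ) / 2 ^ k) fun q hq => ?_).trans ?_
  · have hqp := Nat.prime_of_mem_primeFactors hq
    have hpos : 0 < m / q ^ k := Nat.div_pos (Nat.le_of_dvd (Nat.pos_of_ne_zero hm)
      (((pow_dvd_pow_of_dvd (Nat.dvd_of_mem_primeFactors hq) k).trans
        (pow_dvd_pow a (Nat.le_succ k))).trans hk)) (pow_pos hqp.pos k)
    refine (Nat.cast_le.mpr (IsCyclic.card_pow_eq_one_le hpos)).trans ?_
    refine Nat.cast_div_le.trans ?_
    push_cast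
    exact div_le_div_of_nonneg_left (Nat.cast_nonneg _) (by positivity)
      (pow_le_pow_left₀ (by norm_num) (by exact_mod_cast hqp.two_le) k)
  · rw [nsmul_eq_mul, mul_div_assoc]
    refine mul_le_mul_of_nonneg_right (Nat.cast_le.mpr ?_) (by positivity)
    exact (Finset.card_le_card fun q hq =>
      Finset.mem_Icc.mpr ⟨(Nat.prime_of_mem_primeFactors hq).pos,
        Nat.le_of_mem_primeFactors hq⟩).trans (Nat.card_Icc 1 a).le

/-- A class function supported on elements of full cyclotomic order has Frobenius averages. -/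
theorem hasFrobAverage_good {L : Type} [Field L] [NumberField L] [IsGalois ℚ L] {r : ℕ} [NeZero r]
    (χ : (L ≃ₐ[ℚ] L) →* (ZMod r)ˣ) {frob : Nat.Primes → L ≃ₐ[ℚ] L} {bad : Finset Nat.Primes}
    (hfrob : FrobData frob bad) (hχ : IsCyclotomicChar χ bad) (F : (L ≃ₐ[ℚ] L) → ℝ)
    (hgood : ∀ g, F g ≠ 0 → orderOf (χ g) = orderOf g)
    (hconj : ∀ x g, F (x * g * x⁻¹) = F g) (hinv : ∀ g, F g⁻¹ = F g) : HasFrobAverage frob F := by
  set P := Finset.univ.filter fun σ : L ≃ₐ[ℚ] L => F σ ≠ 0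
  let w : (L ≃ₐ[ℚ] L) → ℝ := fun σ =>
    F σ / (2 * ((Finset.univ.filter fun x => IsConj σ x).card : ℝ))
  have h := hasFrobAverage_sum (frob := frob) P
    (fun σ hσ => hasFrobAverage_pair χ hfrob hχ (hgood σ (Finset.mem_filter.mp hσ).2)) w
  have hF : ∀ {σ g}, IsConj σ g → F σ = F g := fun {σ g} h => by
    obtain ⟨c, rfl⟩ := isConj_iff.mp h
    exact (hconj c σ).symm
  have hcard : ∀ {σ g : L ≃ₐ[ℚ] L}, IsConj σ g →
      (Finset.univ.filter fun x => IsConj σ x) = Finset.univ.filter fun x => IsConj g x :=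
    fun h => Finset.filter_congr fun x _ => ⟨fun h' => h.symm.trans h', fun h' => h.trans h'⟩
  have hone : ∀ g, ∑ σ ∈ P, w σ * (if IsConj σ g then 1 else 0) = F g / 2 := by
    intro g
    rw [Finset.sum_subset (Finset.subset_univ P) fun σ _ hσ => by
      simp only [P, Finset.mem_filter, Finset.mem_univ, true_and, not_not] at hσ
      simp [w, hσ]]
    simp only [mul_ite, mul_one, mul_zero, ← Finset.sum_filter]
    have h1 : ∀ σ ∈ Finset.univ.filter (fun σ : L ≃ₐ[ℚ] L => IsConj σ g),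
        w σ = F g / (2 * ((Finset.univ.filter fun x => IsConj g x).card : ℝ)) := fun σ hσ => by
      have hc := (Finset.mem_filter.mp hσ).2
      simp only [w, hF hc, hcard hc]
    rw [Finset.sum_congr rfl h1, Finset.sum_const, nsmul_eq_mul,
      Finset.filter_congr (p := fun σ => IsConj σ g) (q := fun x => IsConj g x)
        fun x _ => ⟨IsConj.symm, IsConj.symm⟩]
    have hne : (((Finset.univ.filter fun x => IsConj g x).card : ℕ) : ℝ) ≠ 0 :=
      Nat.cast_ne_zero.mpr (Finset.card_ne_zero.mpr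
        ⟨g, Finset.mem_filter.mpr ⟨Finset.mem_univ _, IsConj.refl g⟩⟩)
    field_simp
  have heq : F = fun g => ∑ σ ∈ P, w σ * pairInd σ g := by
    funext g
    simp only [pairInd, mul_add, Finset.sum_add_distrib, hone]
    have hswap : ∀ σ : L ≃ₐ[ℚ] L, IsConj σ⁻¹ g ↔ IsConj σ g⁻¹ := fun σ => by
      rw [isConj_iff, isConj_iff]
      refine exists_congr fun c => ?_
      rw [← inv_inj, mul_inv_rev, mul_inv_rev, inv_inv, inv_inv, mul_assoc]
    simp only [hswap, hone, hinv]
    ring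
  rwa [heq]

/-- Summing over a surjective homomorphism. -/
theorem sum_comp_surjective {G H : Type*} [Group G] [Fintype G] [Group H] [Fintype H] (φ : G →* H)
    (hφ : Function.Surjective φ) (u : H → ℝ) :
    ∑ τ, u (φ τ) = (Nat.card G : ℝ) / Nat.card H * ∑ h, u h := by
  have hc : ∀ h : H, (Finset.univ.filter fun τ => φ τ = h).card =
      (Finset.univ.filter fun τ => φ τ = 1).card := fun h =>
    MonoidHom.card_fiber_eq_of_mem_range φ (hφ h) ⟨1, map_one φ⟩
  have hcard : (Nat.card G : ℝ) = Nat.card H * (Finset.univ.filter fun τ => φ τ = 1).card := by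
    rw [Nat.card_eq_fintype_card, Nat.card_eq_fintype_card, ← Finset.card_univ,
      Finset.card_eq_sum_card_fiberwise (f := φ) (t := Finset.univ) fun _ _ => Finset.mem_univ _,
      Finset.sum_congr rfl fun h _ => hc h, Finset.sum_const, Finset.card_univ, smul_eq_mul,
      Nat.cast_mul]
  rw [hcard, mul_div_cancel_left₀ _ (Nat.cast_ne_zero.mpr Nat.card_pos.ne'), Finset.mul_sum,
    ← Finset.sum_fiberwise Finset.univ φ fun τ => u (φ τ)]
  refine Finset.sum_congr rfl fun h _ => ?_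
  rw [Finset.sum_congr rfl fun τ hτ => by rw [(Finset.mem_filter.mp hτ).2], Finset.sum_const,
    hc h, nsmul_eq_mul]

/-- The restriction of a Frobenius at a place is a Frobenius modulo the prime below it. -/
theorem isFrobMod_restrict (M : IntermediateField ℚ QQb) [Normal ℚ M] [NumberField M]
    {V : ValuationSubring QQb} {p : ℕ} (hV : V.LiesOverPrime p) {τ : GG}
    (hτ : V.IsFrobeniusAt τ p) :
    ∃ Q : Ideal (𝓞 M), Q.IsPrime ∧ (p : 𝓞 M) ∈ Q ∧
      IsFrobMod p (AlgEquiv.restrictNormalHom M τ) Q := by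
  let ιM : 𝓞 M →+* integralClosure ℤ QQb :=
    RingHom.codRestrict ((algebraMap M QQb).comp (algebraMap (𝓞 M) M))
      (integralClosure ℤ QQb).toSubring
      (fun b => (RingOfIntegers.isIntegral_coe b).map (IsScalarTower.toAlgHom ℤ M QQb))
  refine ⟨(centre V).comap ιM, Ideal.IsPrime.comap _, ?_, ?_⟩
  · rw [Ideal.mem_comap, map_natCast, mem_centre_iff]
    simpa [ValuationSubring.LiesOverPrime] using hV
  · intro b
    rw [Ideal.mem_comap, mem_centre_iff]
    have h := ((isFrobeniusAt_iff V τ p).mp hτ).2 _ (integralClosure_le V (ιM b))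
    show (((ιM (AlgEquiv.restrictNormalHom M τ • b - b ^ p)) : integralClosure ℤ QQb) : QQb) ∈
      V.nonunits
    rw [map_sub, map_pow]
    have h2 : ((ιM (AlgEquiv.restrictNormalHom M τ • b) : integralClosure ℤ QQb) : QQb) =
        τ (ιM b : QQb) := AlgEquiv.restrictNormal_commutes τ M (b : M)
    push_cast
    rw [h2]
    exact h

/-- The cyclotomic character is compatible with Frobenius elements. -/
theorem isCyclotomicChar_autToPow {L : Type} [Field L] [NumberField L] {r : ℕ} [NeZero r]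
    (hr : r.Prime) {μ : L} (hμ : IsPrimitiveRoot μ r) (bad : Finset Nat.Primes)
    (hbad : ∀ p : Nat.Primes, (p : ℕ) = r → p ∈ bad) :
    IsCyclotomicChar (hμ.autToPow ℚ) bad := by
  intro p hp φ Q hQ hpQ hφ
  have hpr : (p : ℕ) ≠ r := fun h => hp (hbad p h)
  have hint : IsIntegral ℤ μ := hμ.isIntegral (Nat.pos_of_ne_zero (NeZero.ne r))
  let b : 𝓞 L := ⟨μ, hint⟩
  have hb : IsPrimitiveRoot b r :=
    IsPrimitiveRoot.of_map_of_injective (f := algebraMap (𝓞 L) L) hμ
      RingOfIntegers.coe_injective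
  set v : ℕ := ((hμ.autToPow ℚ φ : (ZMod r)ˣ) : ZMod r).val
  have hact : φ • b = b ^ v := by
    apply RingOfIntegers.coe_injective
    show φ μ = _
    rw [map_pow]
    exact (hμ.autToPow_spec ℚ φ).symm
  have hsub := hφ b
  rw [hact] at hsub
  have hpow : ∀ i : ℕ, b ^ i = b ^ (i % r) := fun i =>
    (pow_mod_orderOf b i).symm.trans (by rw [← hb.eq_orderOf])
  rw [hpow (p : ℕ)] at hsub
  by_contra hne
  have hvp : v % r ≠ (p : ℕ) % r := fun h => hne <| by
    rw [← ZMod.natCast_zmod_val ((hμ.autToPow ℚ φ : (ZMod r)ˣ) : ZMod r)]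
    exact (ZMod.natCast_eq_natCast_iff' _ _ _).mpr h
  -- so the prime divides `1 - b ^ j`, hence `r`
  obtain ⟨j, hj0, hjr, hj⟩ : ∃ j, 0 < j ∧ j < r ∧ (1 - b ^ j) ∈ Q := by
    have hcl : ∀ x y : ℕ, x < y → y < r → b ^ y - b ^ x ∈ Q →
        ∃ j, 0 < j ∧ j < r ∧ (1 - b ^ j) ∈ Q := by
      intro x y hxy hyr h
      refine ⟨y - x, by omega, by omega, (hQ.mem_or_mem (?_ : b ^ x * (1 - b ^ (y - x)) ∈ Q)).resolve_left
        fun hx => hQ.ne_top (Ideal.eq_top_of_isUnit_mem _ hx ((hb.isUnit (NeZero.ne r)).pow x))⟩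
      rw [mul_sub, mul_one, ← pow_add, Nat.add_sub_cancel' hxy.le, ← neg_sub]
      exact neg_mem h
    rw [hpow v] at hsub
    have h1 := Nat.mod_lt v (Nat.pos_of_ne_zero (NeZero.ne r))
    have h2 := Nat.mod_lt (p : ℕ) (Nat.pos_of_ne_zero (NeZero.ne r))
    rcases lt_or_gt_of_ne hvp with h | h
    · exact hcl _ _ h h2 (by rw [← neg_sub]; exact neg_mem hsub)
    · exact hcl _ _ h h1 hsub
  obtain ⟨r', rfl⟩ : ∃ r', r = r' + 1 := ⟨r - 1, by omega⟩
  have hrQ : ((r' + 1 : ℕ) : 𝓞 L) ∈ Q := by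
    rw [Nat.cast_add_one, ← hb.prod_one_sub_pow_eq_order]
    refine Q.mem_of_dvd (Finset.dvd_prod_of_mem _ (Finset.mem_range.mpr (show j - 1 < r' by omega))) ?_
    rwa [Nat.sub_add_cancel hj0]
  have h1 : ((Nat.gcd (p : ℕ) (r' + 1) : ℕ) : 𝓞 L) ∈ Q := by
    have hbez : ((Nat.gcd (p : ℕ) (r' + 1) : ℤ) : 𝓞 L) = _ := congrArg (Int.cast (R := 𝓞 L))
      (Nat.gcd_eq_gcd_ab (p : ℕ) (r' + 1))
    rw [Int.cast_natCast] at hbez
    rw [hbez]
    push_cast
    exact add_mem (Ideal.mul_mem_right _ _ hpQ) (Ideal.mul_mem_right _ _ (by exact_mod_cast hrQ))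
  rw [(Nat.coprime_primes p.2 hr).mpr hpr, Nat.cast_one] at h1
  exact hQ.ne_top ((Ideal.eq_top_iff_one Q).mpr h1)

theorem tendsto_log_sub_one : Tendsto (fun s : ℝ => Real.log (s - 1)) (𝓝[>] 1) atBot := by
  refine Real.tendsto_log_nhdsGT_zero.comp (tendsto_nhdsWithin_iff.mpr ⟨?_, ?_⟩)
  · have : Tendsto (fun s : ℝ => s - 1) (𝓝 1) (𝓝 (1 - 1)) :=
      (continuous_id.sub continuous_const).tendsto 1
    rw [sub_self] at this
    exact this.mono_left nhdsWithin_le_nhds
  · filter_upwards [self_mem_nhdsWithin] with s hs using sub_pos.mpr (Set.mem_Ioi.mp hs)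

/-- **Chebotarev, lower bound.** For a nonnegative class function invariant under inversion the
Dirichlet series over Frobenius elements is at least its mean times `-log (s - 1)`. -/
theorem frobenius_series_lower {G : Type*} [Group G] [Fintype G] (ρ : GG →* G)
    (hsurj : Function.Surjective ρ) (L₀ : IntermediateField ℚ QQb) [FiniteDimensional ℚ L₀]
    (hL₀ : ∀ σ : GG, (∀ x ∈ L₀, σ x = x) → ρ σ = 1) (fr : Nat.Primes → GG) (S : Finset ℕ)
    (hfr : ∀ p : Nat.Primes, (p : ℕ) ∉ S →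
      ∃ V : ValuationSubring QQb, V.LiesOverPrime p ∧ V.IsFrobeniusAt (fr p) p)
    (f : G → ℝ) (h0 : ∀ g, 0 ≤ f g) (hconj : ∀ x g, f (x * g * x⁻¹) = f g)
    (hinv : ∀ g, f g⁻¹ = f g) {δ : ℝ} (hδ : 0 < δ) :
    ∀ᶠ s in 𝓝[>] (1 : ℝ), ((∑ g, f g) / Nat.card G - δ) * (-Real.log (s - 1)) ≤
      ∑' p : Nat.Primes, f (ρ (fr p)) * (p : ℝ) ^ (-s) := by
  let N := IntermediateField.normalClosure ℚ L₀ QQb
  have : Normal ℚ N := normalClosure.normal ℚ L₀ QQb
  have : NumberField N := NumberField.mk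
  set a := Nat.card (N ≃ₐ[ℚ] N)
  have ha : a ≠ 0 := Nat.card_pos.ne'
  set B := ∑ g, f g
  have hB : 0 ≤ B := Finset.sum_nonneg fun g _ => h0 g
  obtain ⟨k, hk⟩ : ∃ k : ℕ, 2 * B * a / δ < (2 : ℝ) ^ k := pow_unbounded_of_one_lt _ (by norm_num)
  obtain ⟨r, hr, -, hr1⟩ := Nat.exists_prime_gt_modEq_one 2 (pow_ne_zero (k + 1) ha)
  haveI : NeZero r := ⟨hr.ne_zero⟩
  haveI : Fact r.Prime := ⟨hr⟩
  obtain ⟨ζ, hζ⟩ := HasEnoughRootsOfUnity.exists_primitiveRoot QQb r
  let C := IntermediateField.adjoin ℚ {ζ}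
  haveI : IsCyclotomicExtension {r} ℚ C := hζ.intermediateField_adjoin_isCyclotomicExtension ℚ
  haveI : IsGalois ℚ C := IsCyclotomicExtension.isGalois {r} ℚ C
  haveI : FiniteDimensional ℚ C := IsCyclotomicExtension.finiteDimensional {r} ℚ C
  let M : IntermediateField ℚ QQb := N ⊔ C
  haveI : FiniteDimensional ℚ M := IntermediateField.finiteDimensional_sup N C
  have hCn : Normal ℚ C := IsGalois.to_normal
  haveI : Normal ℚ M := @IntermediateField.normal_sup ℚ QQb _ _ _ N C ‹Normal ℚ N› hCn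
  haveI : NumberField M := NumberField.mk
  haveI : IsGalois ℚ M := {}
  let res : GG →* (M ≃ₐ[ℚ] M) := AlgEquiv.restrictNormalHom M
  have hres : Function.Surjective res :=
    AlgEquiv.restrictNormalHom_surjective (AlgebraicClosure ℚ) (F := ℚ) (K₁ := M)
  have hresc : ∀ (γ : GG) (x : M), ((res γ x : M) : QQb) = γ (x : QQb) :=
    fun γ x => AlgEquiv.restrictNormal_commutes γ M x
  have hfixM : ∀ {γ : GG}, res γ = 1 → ∀ x ∈ M, γ x = x := fun {γ} h x hx => by
    rw [← hresc γ ⟨x, hx⟩, h]; rfl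
  have hker : res.ker ≤ ρ.ker := fun γ hγ => hL₀ γ fun x hx =>
    hfixM hγ x ((le_sup_left : N ≤ M) (IntermediateField.le_normalClosure L₀ hx))
  let π : (M ≃ₐ[ℚ] M) →* G := res.liftOfSurjective hres ⟨ρ, hker⟩
  have hπ : ∀ γ, π (res γ) = ρ γ := fun γ =>
    res.liftOfRightInverse_comp_apply _ _ ⟨ρ, hker⟩ γ
  let μ : M := ⟨ζ, (le_sup_right : C ≤ M) (IntermediateField.mem_adjoin_simple_self ℚ ζ)⟩
  have hμ : IsPrimitiveRoot μ r :=
    IsPrimitiveRoot.of_map_of_injective (f := algebraMap M QQb) hζ (algebraMap M QQb).injective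
  set χ := hμ.autToPow ℚ
  obtain ⟨S₀, hS₀⟩ := exists_inertiaTrivial M
  let bad : Finset Nat.Primes := (S₀ ∪ S ∪ {r}).subtype Nat.Prime
  have hbad : ∀ p ∉ bad, (p : ℕ) ∉ S₀ ∧ (p : ℕ) ∉ S := fun p hp => by
    have hp' : (p : ℕ) ∉ S₀ ∪ S ∪ {r} := fun h => hp (Finset.mem_subtype.mpr h)
    simp only [Finset.mem_union, not_or] at hp'
    exact hp'.1
  have hfrob : FrobData (fun p => res (fr p)) bad := fun p hp => by
    obtain ⟨V, hV, hτ⟩ := hfr p (hbad p hp).2
    exact ⟨hS₀ p p.2 (hbad p hp).1, isFrobMod_restrict M hV hτ⟩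
  have hχ : IsCyclotomicChar χ bad := isCyclotomicChar_autToPow hr hμ bad fun p hp =>
    Finset.mem_subtype.mpr (by simp [hp])
  -- the cyclotomic character is onto
  have hχsurj : Function.Surjective χ := by
    intro u
    have hprim : IsPrimitiveRoot (ζ ^ (u : ZMod r).val) r :=
      hζ.pow_of_coprime _ (ZMod.val_coe_unit_coprime u)
    have hmin : minpoly ℚ (ζ ^ (u : ZMod r).val) = minpoly ℚ ζ :=
      (Polynomial.cyclotomic_eq_minpoly_rat hprim hr.pos).symm.trans
        (Polynomial.cyclotomic_eq_minpoly_rat hζ hr.pos)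
    obtain ⟨γ, hγ⟩ := (Normal.minpoly_eq_iff_mem_orbit QQb).mp hmin
    refine ⟨res γ, Units.ext (ZMod.val_injective r ?_)⟩
    refine hμ.pow_inj (ZMod.val_lt _) (ZMod.val_lt _) ?_
    rw [hμ.autToPow_spec ℚ (res γ)]
    exact Subtype.ext (by rw [hresc]; simpa using hγ)
  have hgood : ∀ τ, a ∣ orderOf (χ τ) → orderOf (χ τ) = orderOf τ := by
    intro τ hτ
    refine Nat.dvd_antisymm (orderOf_map_dvd χ τ) (orderOf_dvd_iff_pow_eq_one.mpr ?_)
    obtain ⟨γ, rfl⟩ := hres τ
    set o := orderOf (χ (res γ))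
    rw [← map_pow]
    have h1 : ∀ x ∈ N, (γ ^ o) x = x := by
      intro x hx
      have hN : AlgEquiv.restrictNormalHom N (γ ^ o) = 1 := by
        rw [map_pow, ← orderOf_dvd_iff_pow_eq_one]
        exact (orderOf_dvd_natCard _).trans hτ
      exact (AlgEquiv.restrictNormal_commutes (γ ^ o) N ⟨x, hx⟩).symm.trans
        (congrArg (fun e : N ≃ₐ[ℚ] N => ((e ⟨x, hx⟩ : N) : QQb)) hN)
    have h2 : (γ ^ o) ζ = ζ := by
      have hc : χ (res (γ ^ o)) = 1 := by rw [map_pow, map_pow, pow_orderOf_eq_one]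
      have h3 := hμ.autToPow_spec ℚ (res (γ ^ o))
      rw [hc, Units.val_one, ZMod.val_one, pow_one] at h3
      exact ((hresc _ μ).symm.trans (congrArg Subtype.val h3.symm))
    refine AlgEquiv.ext fun x => Subtype.ext ?_
    rw [hresc]
    have hle : M ≤ IntermediateField.fixedField (Subgroup.zpowers (γ ^ o)) := by
      refine sup_le (fun y hy => ?_) (IntermediateField.adjoin_simple_le_iff.mpr ?_) <;>
        rintro ⟨g, hg⟩
      · exact (Subgroup.zpowers_le.mpr (MulAction.mem_stabilizer_iff.mpr (h1 y hy)) hg :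
          g ∈ MulAction.stabilizer GG y)
      · exact (Subgroup.zpowers_le.mpr (MulAction.mem_stabilizer_iff.mpr h2) hg :
          g ∈ MulAction.stabilizer GG ζ)
    exact hle x.2 ⟨γ ^ o, Subgroup.mem_zpowers _⟩
  -- the good part of the class function
  let F : (M ≃ₐ[ℚ] M) → ℝ := fun τ => if a ∣ orderOf (χ τ) then f (π τ) else 0
  have hF := hasFrobAverage_good χ hfrob hχ F
    (fun τ hτ => hgood τ (by by_contra h; exact hτ (if_neg h)))
    (fun x τ => by simp only [F, chi_conj]; simp only [map_mul, map_inv, hconj])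
    (fun τ => by simp only [F, map_inv, orderOf_inv, hinv])
  -- its mean

  have hπsurj : Function.Surjective π := fun g => by
    obtain ⟨γ, rfl⟩ := hsurj g; exact ⟨res γ, hπ γ⟩
  haveI : IsCyclic (ZMod r)ˣ := inferInstance
  have hak : a ^ (k + 1) ∣ Fintype.card (ZMod r)ˣ := by
    rw [ZMod.card_units_eq_totient, Nat.totient_prime hr]
    exact (Nat.modEq_iff_dvd' hr.one_le).mp hr1.symm
  have hcardM : (0 : ℝ) < Nat.card (M ≃ₐ[ℚ] M) := Nat.cast_pos.mpr Nat.card_pos
  have hcnt : ((Finset.univ.filter fun τ : (M ≃ₐ[ℚ] M) => ¬ a ∣ orderOf (χ τ)).card : ℝ) ≤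
      (Nat.card (M ≃ₐ[ℚ] M) : ℝ) * (a / 2 ^ k) := by
    have h := sum_comp_surjective χ hχsurj fun u => if ¬ a ∣ orderOf u then 1 else 0
    rw [Finset.sum_boole, Finset.sum_boole] at h
    rw [h, div_mul_eq_mul_div, mul_div_assoc]
    refine mul_le_mul_of_nonneg_left ?_ hcardM.le
    rw [div_le_iff₀ (Nat.cast_pos.mpr Nat.card_pos), Nat.card_eq_fintype_card, div_mul_eq_mul_div]
    exact card_not_dvd_orderOf_le ha hak
  have hmean : B / Nat.card G - δ / 2 ≤ (∑ τ, F τ) / Nat.card (M ≃ₐ[ℚ] M) := by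
    have h := sum_comp_surjective π hπsurj f
    rw [le_div_iff₀ hcardM]
    have hsplit : ∑ τ, f (π τ) ≤ ∑ τ, F τ +
        ((Finset.univ.filter fun τ : (M ≃ₐ[ℚ] M) => ¬ a ∣ orderOf (χ τ)).card : ℝ) * B := by
      rw [← nsmul_eq_mul, ← Finset.sum_const, Finset.sum_filter, ← Finset.sum_add_distrib]
      refine Finset.sum_le_sum fun τ _ => ?_
      simp only [F]
      split_ifs
      · simp
      · simpa using Finset.single_le_sum (fun g _ => h0 g) (Finset.mem_univ (π τ))
    have hsmall : (a : ℝ) / 2 ^ k * B ≤ δ / 2 := by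
      rw [div_lt_iff₀ hδ] at hk
      rw [div_mul_eq_mul_div, div_le_iff₀ (by positivity)]
      linarith
    have : (B / Nat.card G) * Nat.card (M ≃ₐ[ℚ] M) = ∑ τ, f (π τ) := by rw [h]; ring
    nlinarith [mul_le_mul_of_nonneg_right hcnt hB, mul_le_mul_of_nonneg_left hsmall hcardM.le]
  obtain ⟨c, hc⟩ := hF
  filter_upwards [hc, self_mem_nhdsWithin,
    tendsto_log_sub_one.eventually (eventually_le_atBot (min 0 (-(2 * c / δ))))] with s h1 hs hlog
  simp only [Set.mem_Ioi] at hs
  have hle : ∑' p : Nat.Primes, F (res (fr p)) * (p : ℝ) ^ (-s) ≤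
      ∑' p : Nat.Primes, f (ρ (fr p)) * (p : ℝ) ^ (-s) := by
    have hsum : Summable fun p : Nat.Primes => f (ρ (fr p)) * (p : ℝ) ^ (-s) := by
      simpa only [hπ] using summable_comp_frob (fun p => res (fr p)) (fun τ => f (π τ)) hs
    refine (summable_comp_frob (fun p => res (fr p)) F hs).tsum_le_tsum (fun p => ?_) hsum
    refine mul_le_mul_of_nonneg_right ?_ (Real.rpow_nonneg (Nat.cast_nonneg _) _)
    show (if a ∣ orderOf (χ (res (fr p))) then f (π (res (fr p))) else 0) ≤ f (ρ (fr p))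
    rw [hπ]
    split_ifs
    · exact le_rfl
    · exact h0 _
  have h2 := (abs_le.mp h1).1
  have h3 : Real.log (s - 1) ≤ 0 := hlog.trans (min_le_left _ _)
  have h4 : 2 * c ≤ -Real.log (s - 1) * δ := by
    have := hlog.trans (min_le_right _ _)
    rw [le_neg, div_le_iff₀ hδ] at this
    linarith
  nlinarith [mul_le_mul_of_nonneg_right hmean (neg_nonneg.mpr h3)]

end FLTAgent.DeligneSerre
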