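import Fermat.Agent.DeligneSerre.OddEis
import Fermat.Agent.DeligneSerre.Depletion
import Fermat.Agent.CuspForms.IntegralStructure

/-!
# Conjugates of forms of weight one

Multiplication by the weight three series of the inverse character lands in weight four on `Γ₀(N)`;
a suitable power of the form lands in `Γ₀(N)` too. Conjugating both gives the conjugate form.
-/

set_option autoImplicit false

noncomputable section

open UpperHalfPlane CongruenceSubgroup Filter
open scoped MatrixGroups ModularForm Manifold Topology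

namespace FLTAgent.DeligneSerre

open FLTAgent.CuspForms (IsForm IsCuspidal)
open ModularFormClass (qCoeff)

/-- A root of a holomorphic function which is a quotient of holomorphic functions is holomorphic. -/
theorem exists_quotient_root {Q E P : ℍ → ℂ} (hQ : MDiff Q) (hE : MDiff E) (hP : MDiff P)
    (hE0 : E ≠ 0) {m : ℕ} (hm : m ≠ 0) (h : Q ^ m = P * E ^ m) :
    ∃ G : ℍ → ℂ, MDiff G ∧ G * E = Q ∧ G ^ m = P := by
  obtain ⟨τ₀, hτ₀⟩ := Function.ne_iff.mp hE0
  let q : ℂ → ℂ := fun z => Q (ofComplex z) / E (ofComplex z)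
  let G : ℍ → ℂ := fun τ => limUnder (𝓝[≠] (τ : ℂ)) q
  have hEd := UpperHalfPlane.mdifferentiable_iff.mp hE
  have hQd := UpperHalfPlane.mdifferentiable_iff.mp hQ
  have hPd := UpperHalfPlane.mdifferentiable_iff.mp hP
  have hat : ∀ {F : ℂ → ℂ}, DifferentiableOn ℂ F upperHalfPlaneSet → ∀ z : ℂ, 0 < z.im →
      DifferentiableAt ℂ F z := fun {F} hF z hz =>
    (hF z hz).differentiableAt (isOpen_upperHalfPlaneSet.mem_nhds hz)
  have hqd : ∀ z : ℂ, 0 < z.im → E (ofComplex z) ≠ 0 → DifferentiableAt ℂ q z :=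
    fun z hz hne => (hat hQd z hz).div (hat hEd z hz) hne
  have hqm : ∀ z : ℂ, E (ofComplex z) ≠ 0 → q z ^ m = P (ofComplex z) := by
    intro z hne
    have := congrFun h (ofComplex z)
    simp only [Pi.pow_apply, Pi.mul_apply] at this
    simp only [q, div_pow, this]
    exact mul_div_cancel_right₀ _ (pow_ne_zero m hne)
  have hloc : ∀ τ : ℍ, DifferentiableAt ℂ (G ∘ ofComplex) (τ : ℂ) := by
    intro τ
    have hev : ∀ᶠ z in 𝓝[≠] (τ : ℂ), (E ∘ ofComplex) z ≠ 0 := by
      rcases (hEd.analyticAt (isOpen_upperHalfPlaneSet.mem_nhds τ.im_pos)).eventually_eq_zero_or_eventually_ne_zero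
        with h0 | h0
      · exfalso
        have hzero : Set.EqOn (E ∘ ofComplex) 0 upperHalfPlaneSet :=
          AnalyticOnNhd.eqOn_zero_of_preconnected_of_eventuallyEq_zero
            (hEd.analyticOnNhd isOpen_upperHalfPlaneSet)
            (convex_halfSpace_im_gt 0).isPreconnected τ.im_pos h0
        have := hzero τ₀.im_pos
        simp only [Function.comp_apply, ofComplex_apply, Pi.zero_apply] at this
        exact hτ₀ this
      · exact h0
    rw [eventually_nhdsWithin_iff, Metric.eventually_nhds_iff] at hev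
    obtain ⟨δ, hδ, hev⟩ := hev
    obtain ⟨r, hr, hrH⟩ := Metric.isOpen_iff.mp isOpen_upperHalfPlaneSet (τ : ℂ) τ.im_pos
    set s := min δ r / 2 with hs_def
    have hs : 0 < s := by positivity
    have hsδ : s < δ := by have := min_le_left δ r; rw [hs_def]; linarith
    have hsr : s < r := by have := min_le_right δ r; rw [hs_def]; linarith
    have hU : ∀ z ∈ Metric.closedBall (τ : ℂ) s, 0 < z.im := fun z hz =>
      hrH (lt_of_le_of_lt (Metric.mem_closedBall.mp hz) hsr)
    have hUne : ∀ z ∈ Metric.closedBall (τ : ℂ) s \ {(τ : ℂ)}, E (ofComplex z) ≠ 0 := fun z hz =>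
      hev (lt_of_le_of_lt (Metric.mem_closedBall.mp hz.1) hsδ) hz.2
    have hd : DifferentiableOn ℂ q (Metric.ball (τ : ℂ) s \ {(τ : ℂ)}) := fun z hz =>
      (hqd z (hU z (Metric.ball_subset_closedBall hz.1))
        (hUne z ⟨Metric.ball_subset_closedBall hz.1, hz.2⟩)).differentiableWithinAt
    obtain ⟨C, hC⟩ := ((isCompact_closedBall (τ : ℂ) s).image_of_continuousOn
      ((hPd.continuousOn.mono hU).norm)).bddAbove
    have hb : BddAbove (norm ∘ q '' (Metric.ball (τ : ℂ) s \ {(τ : ℂ)})) := by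
      refine ⟨C + 1, ?_⟩
      rintro _ ⟨z, hz, rfl⟩
      have h1 : ‖q z‖ ^ m ≤ C := by
        rw [← norm_pow, hqm z (hUne z ⟨Metric.ball_subset_closedBall hz.1, hz.2⟩)]
        exact hC ⟨z, Metric.ball_subset_closedBall hz.1, rfl⟩
      by_contra hlt
      push Not at hlt
      simp only [Function.comp_apply] at hlt
      have hC0 : 0 ≤ C := le_trans (pow_nonneg (norm_nonneg _) m) h1
      have := le_self_pow₀ (show 1 ≤ ‖q z‖ by linarith) hm
      linarith
    have hupd := Complex.differentiableOn_update_limUnder_of_bddAbove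
      (Metric.ball_mem_nhds (τ : ℂ) hs) hd hb
    have heq : Set.EqOn (G ∘ ofComplex) (Function.update q (τ : ℂ) (limUnder (𝓝[≠] (τ : ℂ)) q))
        (Metric.ball (τ : ℂ) s) := by
      intro z hz
      have hzim := hU z (Metric.ball_subset_closedBall hz)
      simp only [Function.comp_apply, G, ofComplex_apply_of_im_pos hzim]
      rcases eq_or_ne z (τ : ℂ) with rfl | hne
      · simp
      · rw [Function.update_of_ne hne]
        exact Tendsto.limUnder_eq ((hqd z hzim
          (hUne z ⟨Metric.ball_subset_closedBall hz, hne⟩)).continuousAt.tendsto.mono_left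
            nhdsWithin_le_nhds)
    exact ((hupd.congr heq).differentiableAt (Metric.ball_mem_nhds _ hs))
  have hGhol : MDiff G := UpperHalfPlane.mdifferentiable_iff.mpr fun z hz =>
    (hloc ⟨z, hz⟩).differentiableWithinAt
  have hGE : G * E = Q := by
    have hmd : MDiff (G * E - Q) := (hGhol.mul hE).sub hQ
    have : G * E - Q = 0 := by
      refine UpperHalfPlane.eq_zero_of_frequently hmd (τ := τ₀) (Filter.Eventually.frequently ?_)
      filter_upwards [nhdsWithin_le_nhds (hE.continuous.continuousAt.eventually_ne hτ₀)] with z hz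
      have hz' : E (ofComplex (z : ℂ)) ≠ 0 := by rwa [ofComplex_apply]
      have hG : G z = q z := Tendsto.limUnder_eq
        ((hqd z z.im_pos hz').continuousAt.tendsto.mono_left nhdsWithin_le_nhds)
      simp only [Pi.sub_apply, Pi.mul_apply, hG, q, ofComplex_apply, Pi.zero_apply]
      rw [div_mul_cancel₀ _ hz, sub_self]
    exact sub_eq_zero.mp this
  refine ⟨G, hGhol, hGE, ?_⟩
  have h0 : (G ^ m - P) * E ^ m = 0 := by
    rw [sub_mul, ← mul_pow, hGE, h, sub_self]
  rcases (UpperHalfPlane.mul_eq_zero_iff ((hGhol.pow m).sub hP) (hE.pow m)).mp h0 with h1 | h1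
  · exact sub_eq_zero.mp h1
  · have := congrFun h1 τ₀
    simp only [Pi.pow_apply, Pi.zero_apply] at this
    exact absurd this (pow_ne_zero _ hτ₀)

theorem isQSeries_of_isForm {N : ℕ} {k : ℤ} {F : ℍ → ℂ} (h : IsForm N k F) : IsQSeries F :=
  ⟨h.periodic, h.holo, h.bdd_infty⟩

namespace IsQSeries

variable {F G : ℍ → ℂ}

theorem mul (hF : IsQSeries F) (hG : IsQSeries G) : IsQSeries (F * G) where
  periodic z := by
    have h1 := hF.periodic z
    have h2 := hG.periodic z
    simp only [Function.comp_apply, Pi.mul_apply] at h1 h2 ⊢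
    rw [h1, h2]
  holo := hF.holo.mul hG.holo
  bdd := hF.bdd.mul hG.bdd

theorem qExpansion_mul (hF : IsQSeries F) (hG : IsQSeries G) :
    qExpansion 1 (F * G) = qExpansion 1 F * qExpansion 1 G :=
  UpperHalfPlane.qExpansion_mul hF.analyticAt hG.analyticAt

theorem one : IsQSeries (1 : ℍ → ℂ) :=
  ⟨fun _ => rfl, mdifferentiable_const, Filter.const_boundedAtFilter _ _⟩

theorem pow (hF : IsQSeries F) : ∀ m : ℕ, IsQSeries (F ^ m)
  | 0 => by rw [pow_zero]; exact one
  | m + 1 => by rw [pow_succ]; exact (hF.pow m).mul hF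

theorem qExpansion_pow (hF : IsQSeries F) : ∀ m : ℕ, qExpansion 1 (F ^ m) = qExpansion 1 F ^ m
  | 0 => by rw [pow_zero, pow_zero, UpperHalfPlane.qExpansion_one]
  | m + 1 => by rw [pow_succ, pow_succ, (hF.pow m).qExpansion_mul hF, hF.qExpansion_pow m]

theorem ext (hF : IsQSeries F) (hG : IsQSeries G) (h : qExpansion 1 F = qExpansion 1 G) : F = G :=
  eq_of_forall_qCoeff_eq hF.periodic hF.holo hF.bdd hG.periodic hG.holo hG.bdd fun n => by
    simp only [qCoeff, h]

end IsQSeries

namespace WtOne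

variable {N : ℕ} [NeZero N] (W : WtOne N)

theorem inv_eps_neg_one : (W.ε⁻¹ : DirichletCharacter ℂ N) (-1) = -1 := by
  rw [MulChar.inv_apply_eq_inv', W.eps_neg_one, inv_neg, inv_one]

theorem isUnit_lowerRight (γ : Gamma0 N) : IsUnit ((((γ : SL(2, ℤ)) 1 1 : ℤ) : ZMod N)) := by
  refine IsUnit.of_mul_eq_one ((((γ : SL(2, ℤ)) 0 0 : ℤ) : ZMod N)) ?_
  have hdet := congrArg (fun z : ℤ => (z : ZMod N)) (PeriodHecke.mat_det γ)
  rw [Matrix.det_fin_two] at hdet
  push_cast at hdet
  rw [mat_low γ, mul_zero, sub_zero] at hdet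
  exact (mul_comm _ _).trans hdet

/-- The product with the series of weight three. -/
def timesEis : ℍ → ℂ := (⇑W.f : ℍ → ℂ) * oddEis (W.ε⁻¹)

theorem isCuspidal_timesEis : IsCuspidal N 4 W.timesEis where
  holo := (ModularFormClass.holo W.f).mul (mdiff_oddEis _)
  slash γ hγ := by
    rw [timesEis, show (4 : ℤ) = 1 + 3 from rfl, ModularForm.mul_slash_SL2, W.nebentypus ⟨γ, hγ⟩,
      oddEis_slash _ ⟨γ, hγ⟩, smul_mul_smul_comm, ← MulChar.mul_apply, mul_inv_cancel,
      MulChar.one_apply (isUnit_lowerRight ⟨γ, hγ⟩), one_smul]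
  bdd γ := by
    rw [timesEis, show (4 : ℤ) = 1 + 3 from rfl, ModularForm.mul_slash_SL2]
    exact (ModularFormClass.bdd_at_infty_slash W.f γ).mul (bdd_slash_oddEis _ γ)
  zero γ := by
    rw [timesEis, show (4 : ℤ) = 1 + 3 from rfl, ModularForm.mul_slash_SL2]
    exact (CuspFormClass.zero_at_infty_slash W.f γ).mul_boundedAtFilter (bdd_slash_oddEis _ γ)

theorem qExpansion_timesEis :
    qExpansion 1 W.timesEis = qExpansion 1 (⇑W.f) * qExpansion 1 (oddEis (W.ε⁻¹)) :=
  (isQSeries_self W.f).qExpansion_mul (isQSeries_oddEis _)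

theorem pow_slash (F : ℍ → ℂ) (γ : SL(2, ℤ)) (m : ℕ) :
    (F ^ m) ∣[(m : ℤ)] γ = (F ∣[(1 : ℤ)] γ) ^ m := by
  induction m with
  | zero =>
    funext τ
    simp [ModularForm.SL_slash_apply]
  | succ m ih => rw [pow_succ, pow_succ, Nat.cast_succ, ModularForm.mul_slash_SL2, ih]

theorem isCuspidal_pow_totient : IsCuspidal N (N.totient : ℤ) ((⇑W.f : ℍ → ℂ) ^ N.totient) where
  holo := (ModularFormClass.holo W.f).pow _
  slash γ hγ := by
    rw [pow_slash, W.nebentypus ⟨γ, hγ⟩, smul_pow, ← map_pow]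
    obtain ⟨u, hu⟩ := isUnit_lowerRight (N := N) ⟨γ, hγ⟩
    rw [← hu, ← Units.val_pow_eq_pow_val, ZMod.pow_totient, Units.val_one, map_one, one_smul]
  bdd γ := by
    rw [pow_slash]
    obtain ⟨k, hk⟩ := Nat.exists_eq_succ_of_ne_zero (Nat.totient_pos.mpr (NeZero.pos N)).ne'
    have hb : IsBoundedAtImInfty ((⇑W.f : ℍ → ℂ) ∣[(1 : ℤ)] γ) :=
      ModularFormClass.bdd_at_infty_slash W.f γ
    clear hk
    induction N.totient with
    | zero => rw [pow_zero]; exact Filter.const_boundedAtFilter _ _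
    | succ j ih => rw [pow_succ]; exact ih.mul hb
  zero γ := by
    rw [pow_slash]
    have h := (CuspFormClass.zero_at_infty_slash W.f γ).pow N.totient
    rwa [zero_pow (Nat.totient_pos.mpr (NeZero.pos N)).ne'] at h

/-- **Conjugate forms.** -/
theorem exists_conj (σ : ℂ →+* ℂ) :
    ∃ W' : WtOne N, ∀ n, qCoeff W'.f n = σ (qCoeff W.f n) := by
  set ε' : DirichletCharacter ℂ N := W.ε.ringHomComp σ
  have hε' : ∀ a, ε' a = σ (W.ε a) := fun a => rfl
  have hψ' : ∀ a, (ε'⁻¹ : DirichletCharacter ℂ N) a = σ ((W.ε⁻¹ : DirichletCharacter ℂ N) a) :=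
    fun a => by rw [MulChar.inv_apply_eq_inv', MulChar.inv_apply_eq_inv', hε', map_inv₀]
  have hodd : (ε'⁻¹ : DirichletCharacter ℂ N) (-1) = -1 := by
    rw [hψ', W.inv_eps_neg_one, map_neg, map_one]
  obtain ⟨Q', hQ', hQeq⟩ := CuspForms.exists_conj_cuspidal W.isCuspidal_timesEis σ
  obtain ⟨P', hP', hPeq⟩ := CuspForms.exists_conj_cuspidal W.isCuspidal_pow_totient σ
  set E := oddEis (W.ε⁻¹)
  set E' := oddEis (ε'⁻¹)
  have hEq : qExpansion 1 E' = PowerSeries.map σ (qExpansion 1 E) := by
    ext n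
    rw [PowerSeries.coeff_map]
    show qCoeff E' n = σ (qCoeff E n)
    rw [qCoeff_oddEis _ hodd W.one_lt, qCoeff_oddEis _ W.inv_eps_neg_one W.one_lt, oddCoeff,
      oddCoeff, map_sum]
    exact Finset.sum_congr rfl fun x _ => by rw [map_mul, hψ', map_pow, map_natCast σ]
  have hEne : qExpansion 1 E' ≠ 0 := by
    intro h0
    have h1 := congrArg (PowerSeries.coeff 1) h0
    rw [map_zero, show PowerSeries.coeff 1 (qExpansion 1 E') = qCoeff E' 1 from rfl,
      qCoeff_oddEis _ hodd W.one_lt, oddCoeff_one] at h1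
    exact one_ne_zero h1
  have hE0 : E' ≠ 0 := fun h => hEne (by rw [h, UpperHalfPlane.qExpansion_zero])
  set m := N.totient
  have hm : m ≠ 0 := (Nat.totient_pos.mpr (NeZero.pos N)).ne'
  have hQs := isQSeries_of_isForm hQ'.toIsForm
  have hPs := isQSeries_of_isForm hP'.toIsForm
  have hEs := isQSeries_oddEis (ε'⁻¹)
  have hF := isQSeries_self W.f
  have hrel : Q' ^ m = P' * E' ^ m := by
    refine (hQs.pow m).ext (hPs.mul (hEs.pow m)) ?_
    rw [hQs.qExpansion_pow, hPs.qExpansion_mul (hEs.pow m), hEs.qExpansion_pow, hQeq, hPeq, hEq,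
      W.qExpansion_timesEis, hF.qExpansion_pow, ← map_pow, ← map_pow, ← map_mul, mul_pow]
  obtain ⟨G, hG, hGE, hGP⟩ := exists_quotient_root hQ'.holo hEs.holo hP'.holo hE0 hm hrel
  have hneb : ∀ γ : Gamma0 N, G ∣[(1 : ℤ)] (γ : SL(2, ℤ)) =
      ε' (((γ : SL(2, ℤ)) 1 1 : ℤ) : ZMod N) • G := by
    intro γ
    have h1 := hQ'.slash γ γ.2
    rw [← hGE, show (4 : ℤ) = 1 + 3 from rfl, ModularForm.mul_slash_SL2, oddEis_slash,
      mul_smul_comm] at h1
    set d := (((γ : SL(2, ℤ)) 1 1 : ℤ) : ZMod N)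
    have h2 : (G ∣[(1 : ℤ)] (γ : SL(2, ℤ)) - ε' d • G) * E' = 0 := by
      have h3 := congrArg (fun F : ℍ → ℂ => ε' d • F) h1
      simp only [smul_smul, ← MulChar.mul_apply, mul_inv_cancel] at h3
      rw [MulChar.one_apply (isUnit_lowerRight γ), one_smul] at h3
      rw [sub_mul, smul_mul_assoc]
      exact sub_eq_zero.mpr h3
    rcases (UpperHalfPlane.mul_eq_zero_iff ((hG.slash 1 _).sub (hG.const_smul _)) hEs.holo).mp h2
      with h | h
    · exact sub_eq_zero.mp h
    · exact absurd h hE0
  have hzero : ∀ γ : SL(2, ℤ), IsZeroAtImInfty (G ∣[(1 : ℤ)] γ) := by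
    intro γ
    have h1 := hP'.zero γ
    rw [← hGP, pow_slash] at h1
    rw [IsZeroAtImInfty, ZeroAtFilter, Metric.tendsto_nhds] at h1 ⊢
    intro e he
    filter_upwards [h1 _ (pow_pos he m)] with τ hτ
    rw [dist_zero_right] at hτ ⊢
    rw [Pi.pow_apply, norm_pow] at hτ
    exact lt_of_pow_lt_pow_left₀ m he.le hτ
  let f' : CuspForm (Gamma1 N) 1 :=
    { toFun := G
      slash_action_eq' := by
        rintro _ ⟨γ, hγ, rfl⟩
        show G ∣[(1 : ℤ)] γ = G
        refine (hneb ⟨γ, Gamma1_in_Gamma0 N hγ⟩).trans ?_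
        rw [((Gamma1_mem N γ).mp hγ).2.1, map_one, one_smul]
      holo' := hG
      zero_at_cusps' := fun hc => by
        rw [Subgroup.IsArithmetic.isCusp_iff_isCusp_SL2Z] at hc
        rw [OnePoint.isZeroAt_iff_forall_SL2Z hc]
        exact fun γ _ => hzero γ }
  have hcoeff : ∀ n, qCoeff f' n = σ (qCoeff W.f n) := by
    intro n
    have hGs : IsQSeries G := isQSeries_self f'
    have h := hGs.qExpansion_mul hEs
    rw [hGE, hQeq, W.qExpansion_timesEis, map_mul, ← hEq] at h
    have h' := (mul_right_cancel₀ hEne h).symm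
    show PowerSeries.coeff n (qExpansion 1 G) = _
    rw [h', PowerSeries.coeff_map]
    rfl
  refine ⟨⟨ε', f', by rw [hcoeff, W.one, map_one], hneb, fun p hp hpN n => ?_,
    fun n hn => by rw [hcoeff, W.depleted n hn, map_zero]⟩, hcoeff⟩
  have h := congrArg σ (W.recursion p hp hpN n)
  rw [map_add, map_mul, map_mul] at h
  simp only [hcoeff, hε']
  rw [← h]
  split_ifs <;> simp

/-- A form is determined by its character and its prime coefficients. -/
theorem qCoeff_ext (W' : WtOne N) (hε : W.ε = W'.ε)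
    (h : ∀ p : ℕ, p.Prime → ¬ p ∣ N → qCoeff W.f p = qCoeff W'.f p) (n : ℕ) :
    qCoeff W.f n = qCoeff W'.f n := by
  induction n using Nat.strong_induction_on with
  | _ n ih =>
    by_cases hn : n.Coprime N
    swap
    · rw [W.depleted n hn, W'.depleted n hn]
    rcases Nat.lt_or_ge n 2 with h2 | h2
    · interval_cases n
      · exact absurd (by simpa using hn : N = 1) W.one_lt.ne'
      · rw [W.one, W'.one]
    · set q := n.minFac
      have hq := Nat.minFac_prime (n := n) (by omega)
      obtain ⟨m, hm⟩ := Nat.minFac_dvd n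
      have hqN : ¬ q ∣ N := fun hd => hq.not_dvd_one (hn ▸ Nat.dvd_gcd (Nat.minFac_dvd n) hd)
      have hm0 : 0 < m := Nat.pos_of_ne_zero fun e => by rw [e, mul_zero] at hm; omega
      have hmn : m < n := by nlinarith [hq.two_le]
      have h1 := W.recursion q hq hqN m
      have h1' := W'.recursion q hq hqN m
      have hd' : qCoeff W.f (m / q) = qCoeff W'.f (m / q) :=
        ih _ (lt_of_le_of_lt (Nat.div_le_self _ _) hmn)
      rw [hd', hε, h q hq hqN, ih m hmn, ← h1'] at h1
      rw [hm]
      exact add_right_cancel h1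

/-- The operator of the recursion on sequences. -/
def seqT (e : ℂ) (p : ℕ) : (ℕ → ℂ) →ₗ[ℂ] (ℕ → ℂ) where
  toFun x n := x (p * n) + e * (if p ∣ n then x (n / p) else 0)
  map_add' x y := funext fun n => by
    simp only [Pi.add_apply]; split_ifs <;> ring
  map_smul' c x := funext fun n => by
    simp only [Pi.smul_apply, smul_eq_mul, RingHom.id_apply]; split_ifs <;> ring

theorem seqT_apply {p : ℕ} (hp : p.Prime) (hpN : ¬ p ∣ N) :
    seqT (W.ε (p : ZMod N)) p (fun n => qCoeff W.f n) =
      qCoeff W.f p • fun n => qCoeff W.f n :=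
  funext fun n => W.recursion p hp hpN n

/-- Systems with the same character are linearly independent. -/
theorem eq_zero_of_relation {ι : Type*} (V : ι → WtOne N) (hinj : Function.Injective fun i n => qCoeff (V i).f n)
    (hε : ∀ i j, (V i).ε = (V j).ε) (s : Finset ι) :
    ∀ c : ι → ℂ, (∀ n, ∑ i ∈ s, c i * qCoeff (V i).f n = 0) → ∀ i ∈ s, c i = 0 := by
  classical
  induction s using Finset.induction with
  | empty => intro c _ i hi; simp at hi
  | insert a t ha ih =>
    intro c hc
    have ht : ∀ i ∈ t, c i = 0 := by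
      intro i hi
      by_contra hne
      obtain ⟨p, hp, hpN, hpne⟩ : ∃ p : ℕ, p.Prime ∧ ¬ p ∣ N ∧
          qCoeff (V i).f p ≠ qCoeff (V a).f p := by
        by_contra hall
        push Not at hall
        have heq := hinj (a₁ := i) (a₂ := a) (funext fun n =>
          qCoeff_ext (V i) (V a) (hε i a) hall n)
        exact ha (heq ▸ hi)
      refine hne ?_
      have h := ih (fun j => c j * (qCoeff (V j).f p - qCoeff (V a).f p)) (fun n => ?_) i hi
      · exact (mul_eq_zero.mp h).resolve_right (sub_ne_zero.mpr hpne)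
      have h1 : ∑ j ∈ insert a t, c j • (fun n => qCoeff (V j).f n) = 0 := funext fun n => by
        simpa [Finset.sum_apply] using hc n
      have h2 := congrFun (congrArg (seqT ((V a).ε (p : ZMod N)) p) h1) n
      rw [map_sum, map_zero] at h2
      simp only [map_smul] at h2
      rw [Finset.sum_congr rfl fun j _ => by rw [hε a j, (V j).seqT_apply hp hpN]] at h2
      simp only [Finset.sum_apply, Pi.smul_apply, smul_eq_mul, Pi.zero_apply,
        Finset.sum_insert ha] at h2
      have h3 := hc n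
      rw [Finset.sum_insert ha] at h3
      calc ∑ j ∈ t, c j * (qCoeff (V j).f p - qCoeff (V a).f p) * qCoeff (V j).f n
          = ∑ j ∈ t, c j * (qCoeff (V j).f p * qCoeff (V j).f n) -
              qCoeff (V a).f p * ∑ j ∈ t, c j * qCoeff (V j).f n := by
            rw [Finset.mul_sum, ← Finset.sum_sub_distrib]
            exact Finset.sum_congr rfl fun j _ => by ring
        _ = 0 := by linear_combination h2 - qCoeff (V a).f p * h3
    intro i hi
    rcases Finset.mem_insert.mp hi with rfl | hi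
    · have h := hc 1
      rw [Finset.sum_insert ha, Finset.sum_eq_zero fun j hj => by rw [ht j hj, zero_mul], add_zero,
        (V i).one, mul_one] at h
      exact h
    · exact ht i hi

/-- There are only finitely many systems of a given level. -/
theorem finite_systems (N : ℕ) [NeZero N] :
    {a : ℕ → ℂ | ∃ W : WtOne N, a = fun n => qCoeff W.f n}.Finite := by
  classical
  have hfin : ∀ ε : DirichletCharacter ℂ N,
      {a : ℕ → ℂ | ∃ W : WtOne N, W.ε = ε ∧ a = fun n => qCoeff W.f n}.Finite := by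
    intro ε
    set B := ((4 : ℤ) * (Gamma0 N).index).toNat / 12
    by_contra hinf
    obtain ⟨s, hs, hcard⟩ := Set.Infinite.exists_subset_card_eq hinf (B + 2)
    choose V hVε hV using fun a : s => hs a.2
    have hinj : Function.Injective fun i n => qCoeff (V i).f n := fun i j h =>
      Subtype.ext ((hV i).trans (h.trans (hV j).symm))
    let T : s → Fin (B + 1) → ℂ := fun i j => qCoeff ((V i).timesEis) j
    have hdep : ¬ LinearIndependent ℂ T := fun hli => by
      have := hli.fintype_card_le_finrank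
      simp [Fintype.card_coe, hcard] at this
    obtain ⟨c, hc, i₀, hi₀⟩ := Fintype.not_linearIndependent_iff.mp hdep
    let g : s → CuspForm (Gamma0 N) 4 := fun i => (V i).isCuspidal_timesEis.toCuspForm
    have hg0 : ∑ i, c i • g i = 0 := by
      refine CuspForms.eq_zero_of_qCoeff_le fun n hn => ?_
      rw [← CuspForms.qcLin_apply, map_sum]
      simpa [Finset.sum_apply, T, g] using congrFun hc ⟨n, Nat.lt_succ_of_le hn⟩
    have hq : ∑ i, c i • qExpansion 1 (⇑(V i).f) = 0 := by
      refine (mul_eq_zero.mp (?_ : _ * qExpansion 1 (oddEis (ε⁻¹)) = 0)).resolve_right ?_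
      · rw [Finset.sum_mul]
        ext n
        have h1 := congrArg (CuspForms.qcLin N 4 n) hg0
        rw [map_sum, map_zero] at h1
        simp only [map_smul, CuspForms.qcLin_apply, smul_eq_mul] at h1
        rw [map_sum, map_zero]
        refine Eq.trans (Finset.sum_congr rfl fun i _ => ?_) h1
        rw [smul_mul_assoc, map_smul, smul_eq_mul, ← hVε i, ← (V i).qExpansion_timesEis]
        rfl
      · intro h0
        obtain ⟨i⟩ : Nonempty s := ⟨i₀⟩
        have h1 := congrArg (PowerSeries.coeff 1) h0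
        rw [map_zero, ← hVε i, show PowerSeries.coeff 1 (qExpansion 1 (oddEis ((V i).ε⁻¹))) =
          qCoeff (oddEis ((V i).ε⁻¹)) 1 from rfl,
          qCoeff_oddEis _ (V i).inv_eps_neg_one (V i).one_lt, oddCoeff_one] at h1
        exact one_ne_zero h1
    refine hi₀ (eq_zero_of_relation V hinj (fun i j => (hVε i).trans (hVε j).symm) Finset.univ c
      (fun n => ?_) i₀ (Finset.mem_univ _))
    have := congrArg (PowerSeries.coeff n) hq
    rw [map_sum, map_zero] at this
    simp only [map_smul, smul_eq_mul] at this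
    exact this
  haveI : Finite (DirichletCharacter ℂ N) := inferInstance
  refine (Set.finite_iUnion hfin).subset ?_
  rintro a ⟨W, rfl⟩
  exact Set.mem_iUnion.mpr ⟨W.ε, W, rfl, rfl⟩

end WtOne

end FLTAgent.DeligneSerre
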