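import Fermat.Agent.DeligneSerre.IdealSum

/-!
# Upper bound for twisted sums over primes of degree one

If a Dirichlet character is not trivial on the norms of the primes of degree one, then
`∑_p a_K(p) Re ψ(p) p^{-s}` is bounded above as `s` tends to `1` from the right.
-/

set_option autoImplicit false

noncomputable section

namespace FLTAgent.DeligneSerre

open NumberField Module Ideal Filter FLTAgent.Frobenius
open scoped Classical Topology nonZeroDivisors

variable {K : Type} [Field K] [NumberField K] {m : ℕ} [NeZero m] (ψ : DirichletCharacter ℂ m)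

variable (K) in
/-- The coefficients of the twisted zeta function. -/
def twistTerm (s : ℝ) (n : ℕ) : ℂ :=
  (idealCount K n : ℂ) * (ψ (n : ZMod m) * (((n : ℝ) ^ (-s) : ℝ) : ℂ))

theorem norm_twistTerm_le (s : ℝ) (n : ℕ) :
    ‖twistTerm K ψ s n‖ ≤ (idealCount K n : ℝ) * (n : ℝ) ^ (-s) := by
  rw [twistTerm, norm_mul, Complex.norm_natCast]
  exact mul_le_mul_of_nonneg_left (norm_char_mul_rpow_le ψ n s) (Nat.cast_nonneg _)

theorem tsum_twistTerm {s : ℝ} (hs : 1 < s) :
    ∑' n, twistTerm K ψ s n = ∑' I : Ideal (𝓞 K), idealTerm ψ s I := by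
  set e := Equiv.sigmaFiberEquiv fun I : Ideal (𝓞 K) => absNorm I
  haveI := fun n => Frobenius.finite_idealsOfNorm K n
  have hsum : Summable fun q => idealTerm ψ s (e q) :=
    e.summable_iff.mpr (summable_idealTerm ψ hs)
  rw [← e.tsum_eq, hsum.tsum_sigma]
  refine tsum_congr fun n => ?_
  haveI : Fintype {I : Ideal (𝓞 K) // absNorm I = n} := Fintype.ofFinite _
  rw [tsum_fintype, Finset.sum_congr rfl fun I _ => show idealTerm ψ s (e ⟨n, I⟩) =
    ψ (n : ZMod m) * (((n : ℝ) ^ (-s) : ℝ) : ℂ) by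
      simp only [e, Equiv.sigmaFiberEquiv_apply, idealTerm, I.2]]
  rw [Finset.sum_const, Finset.card_univ, ← Nat.card_eq_fintype_card, twistTerm, idealCount,
    nsmul_eq_mul]

theorem twistTerm_mul (s : ℝ) {a b : ℕ} (h : a.Coprime b) :
    twistTerm K ψ s (a * b) = twistTerm K ψ s a * twistTerm K ψ s b := by
  simp only [twistTerm, idealCount_mul K h, Nat.cast_mul, map_mul,
    Real.mul_rpow (Nat.cast_nonneg a) (Nat.cast_nonneg b), Complex.ofReal_mul]
  ring

/-- For small `z` one has `log ‖1 + z‖ ≥ re z - 4 ‖z‖²`. -/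
theorem re_sub_le_log_norm {z : ℂ} (hz : ‖z‖ ≤ 1 / 4) :
    z.re - 4 * ‖z‖ ^ 2 ≤ Real.log ‖1 + z‖ ∧ |Real.log ‖1 + z‖| ≤ 2 * ‖z‖ := by
  have hx := abs_le.mp ((Complex.abs_re_le_norm z).trans hz)
  have hlo : 1 - ‖z‖ ≤ ‖1 + z‖ := by
    have h := norm_sub_le (1 + z) z
    rw [add_sub_cancel_right, norm_one] at h
    linarith
  have hhi : ‖1 + z‖ ≤ 1 + ‖z‖ := (norm_add_le _ _).trans (by rw [norm_one])
  have hpos : 0 < ‖1 + z‖ := by linarith
  refine ⟨?_, ?_⟩
  · have h1 : 1 + 2 * z.re ≤ ‖1 + z‖ ^ 2 := by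
      rw [← Complex.normSq_eq_norm_sq, Complex.normSq_apply]
      simp only [Complex.add_re, Complex.one_re, Complex.add_im, Complex.one_im]
      nlinarith [mul_self_nonneg z.re, mul_self_nonneg (0 + z.im)]
    have h2 : 0 < 1 + 2 * z.re := by linarith
    have h3 := Real.log_le_log h2 h1
    rw [Real.log_pow, Nat.cast_ofNat] at h3
    have h4 := Real.one_sub_inv_le_log_of_pos h2
    have h5 : 2 * z.re - 8 * ‖z‖ ^ 2 ≤ 1 - (1 + 2 * z.re)⁻¹ := by
      have hsq : z.re ^ 2 ≤ ‖z‖ ^ 2 := by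
        rw [← Complex.normSq_eq_norm_sq, Complex.normSq_apply]
        nlinarith [mul_self_nonneg z.im]
      have hkey : (1 + 2 * z.re)⁻¹ ≤ 1 - 2 * z.re + 8 * z.re ^ 2 := by
        rw [inv_le_iff_one_le_mul₀ h2]
        nlinarith [sq_nonneg z.re, mul_nonneg (sq_nonneg z.re) h2.le]
      linarith
    linarith
  · have hz0 := norm_nonneg z
    have hu := Real.log_le_sub_one_of_pos hpos
    have hl := Real.one_sub_inv_le_log_of_pos hpos
    have h6 : ‖1 + z‖⁻¹ ≤ 1 + 2 * ‖z‖ := by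
      rw [inv_le_iff_one_le_mul₀ hpos]
      nlinarith
    exact abs_le.mpr ⟨by linarith, by linarith⟩

variable (K) in
/-- The upper bound. -/
theorem twisted_primes_le
    (h : ∀ S : Finset ℕ, ∃ p, p.Prime ∧ p ∉ S ∧ idealCount K p ≠ 0 ∧ ψ (p : ZMod m) ≠ 1) :
    ∃ C : ℝ, ∀ᶠ s in 𝓝[>] (1 : ℝ),
      ∑' p : Nat.Primes, (idealCount K p : ℝ) * (ψ ((p : ℕ) : ZMod m)).re * (p : ℝ) ^ (-s) ≤ C := by
  set d := Module.finrank ℤ (𝓞 K) with hd
  set M : ℝ := ∑' j : ℕ, ((j : ℝ) + 3) ^ d * (1 / 2) ^ j with hM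
  set A : ℝ := (2 : ℝ) ^ d + M with hA
  have hM0 : 0 ≤ M := tsum_nonneg fun j => by positivity
  have hA0 : 0 ≤ A := by positivity
  -- remove the small primes
  set B : ℕ := ⌈4 * A⌉₊ + 2 with hB
  set m' : ℕ := m * B.factorial with hm'
  haveI : NeZero m' := ⟨mul_ne_zero (NeZero.ne m) (Nat.factorial_ne_zero B)⟩
  set ψ' : DirichletCharacter ℂ m' := DirichletCharacter.changeLevel (Dvd.intro _ rfl) ψ
  have hψ' : ∀ p : ℕ, p.Coprime m' → ψ' (p : ZMod m') = ψ (p : ZMod m) := fun p hp => by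
    rw [show (p : ZMod m') = ((p : ℤ) : ZMod m') by simp,
      DirichletCharacter.changeLevel_eq_cast_of_dvd' _ _
        (Int.isCoprime_iff_nat_coprime.mpr (show ((p : ℤ).natAbs).Coprime ((m' : ℕ) : ℤ).natAbs from
          hp))]
    simp
  -- the ideal of prime norm
  obtain ⟨p₀, hp₀, hp₀S, hc₀, hψ₀⟩ := h (m'.primeFactors)
  have hp₀m : p₀.Coprime m' := hp₀.coprime_iff_not_dvd.mpr fun hdvd =>
    hp₀S (Nat.mem_primeFactors.mpr ⟨hp₀, hdvd, NeZero.ne m'⟩)
  obtain ⟨⟨I, hI⟩⟩ : Nonempty {I : Ideal (𝓞 K) // absNorm I = p₀} :=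
    (Nat.card_ne_zero.mp hc₀).1
  have hI0 : I ≠ ⊥ := fun h0 => hp₀.ne_zero (by rw [← hI, h0, absNorm_bot])
  obtain ⟨C, hC⟩ := twisted_sum_bounded ψ' ⟨I, mem_nonZeroDivisors_of_ne_zero hI0⟩
    (by simpa [hI] using hp₀m) (by simpa [hI, hψ' p₀ hp₀m] using hψ₀)
  set Z : ℝ := ∑' p : Nat.Primes, (p : ℝ) ^ (-2 : ℝ)
  set D : Finset Nat.Primes := (m'.primeFactors).subtype Nat.Prime
  refine ⟨max C 0 + (4 * A ^ 2 + M) * Z + D.card * 2 ^ d, ?_⟩
  filter_upwards [hC, self_mem_nhdsWithin] with s hs0 hs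
  simp only [Set.mem_Ioi] at hs
  set f : ℕ → ℂ := twistTerm K ψ' s with hf
  have hnsum : Summable fun n => ‖f n‖ := Summable.of_nonneg_of_le (fun _ => norm_nonneg _)
    (fun n => norm_twistTerm_le ψ' s n) (summable_idealCount K hs)
  have hprod := EulerProduct.eulerProduct_hasProd (f := f)
    (by simp [f, twistTerm, idealCount_one]) (fun {a b} h => twistTerm_mul ψ' s h) hnsum
    (by simp [f, twistTerm, Real.zero_rpow (show -s ≠ 0 by linarith)])
  set F : Nat.Primes → ℂ := fun p => ∑' e, f ((p : ℕ) ^ e) with hF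
  set a : Nat.Primes → ℝ := fun p =>
    (idealCount K p : ℝ) * (ψ' ((p : ℕ) : ZMod m')).re * (p : ℝ) ^ (-s) with ha
  set q : Nat.Primes → ℝ := fun p => (p : ℝ) ^ (-2 : ℝ) with hq
  have hqs : Summable q := summable_primes_rpow one_lt_two
  have hq0 : ∀ p, 0 ≤ q p := fun p => Real.rpow_nonneg (Nat.cast_nonneg _) _
  -- the local factors
  have hloc : ∀ p : Nat.Primes, a p - (4 * A ^ 2 + M) * q p ≤ Real.log ‖F p‖ ∧
      |Real.log ‖F p‖| ≤ 2 * (A * (p : ℝ) ^ (-s)) ∧ 0 < ‖F p‖ := by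
    intro p
    set x : ℝ := (p : ℝ) ^ (-s) with hx
    have hx0 : 0 ≤ x := Real.rpow_nonneg (Nat.cast_nonneg _) _
    have hse : Summable fun e : ℕ => ‖f ((p : ℕ) ^ e)‖ :=
      hnsum.comp_injective (Nat.pow_right_injective p.2.two_le)
    by_cases hdvd : (p : ℕ) ∣ m'
    · have h0 : ψ' ((p : ℕ) : ZMod m') = 0 := MulChar.map_nonunit _ fun hu =>
        p.2.coprime_iff_not_dvd.mp ((ZMod.isUnit_iff_coprime _ _).mp hu) hdvd
      have h1 : F p = 1 := by
        rw [hF]
        simp only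
        rw [tsum_eq_single 0 fun e he => ?_]
        · simp [f, twistTerm, idealCount_one]
        · obtain ⟨e, rfl⟩ := Nat.exists_eq_succ_of_ne_zero he
          simp [f, twistTerm, pow_succ, h0]
      simp only [h1, norm_one, Real.log_one, abs_zero, zero_lt_one, and_true, ha, h0, Complex.zero_re,
        mul_zero, zero_mul, zero_sub, Left.neg_nonpos_iff]
      exact ⟨by positivity, by positivity⟩
    have hpB : B < p := by
      by_contra hle
      exact hdvd (dvd_mul_of_dvd_right (Nat.dvd_factorial p.2.pos (not_lt.mp hle)) m)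
    have hxB : x ≤ ((B : ℝ))⁻¹ := by
      refine (Real.rpow_le_rpow_of_exponent_le (by exact_mod_cast p.2.one_lt.le)
        (by linarith : -s ≤ -1)).trans ?_
      rw [Real.rpow_neg_one]
      exact inv_anti₀ (by positivity) (by exact_mod_cast hpB.le)
    have hxhalf : x ≤ 1 / 2 := hxB.trans (by
      rw [one_div]
      exact inv_anti₀ two_pos (by exact_mod_cast Nat.le_add_left 2 _))
    set r : ℂ := ∑' e, f ((p : ℕ) ^ (e + 2)) with hr
    have hsplit : F p = 1 + ((idealCount K p : ℂ) * (ψ' ((p : ℕ) : ZMod m') * (x : ℂ)) + r) := by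
      rw [hF]
      simp only
      rw [← (Summable.of_norm hse).sum_add_tsum_nat_add 2, Finset.sum_range_succ,
        Finset.sum_range_one, hr, add_assoc]
      simp [f, twistTerm, idealCount_one, x]
    have hxq : x ^ 2 ≤ q p := by
      rw [hx, ← Real.rpow_natCast ((p : ℝ) ^ (-s)), ← Real.rpow_mul (Nat.cast_nonneg _)]
      exact Real.rpow_le_rpow_of_exponent_le (by exact_mod_cast p.2.one_lt.le) (by push_cast; linarith)
    have hMsum : Summable fun j : ℕ => ((j : ℝ) + 3) ^ d * (1 / 2 : ℝ) ^ j := by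
      have hg : Summable fun j : ℕ => (j : ℝ) ^ d * (1 / 2 : ℝ) ^ j :=
        summable_pow_mul_geometric_of_norm_lt_one d (by norm_num)
      refine (((summable_nat_add_iff 3).mpr hg).mul_left 8).congr fun j => ?_
      push_cast
      rw [pow_add (1 / 2 : ℝ) j 3]
      ring
    have hterm : ∀ j : ℕ, ‖f ((p : ℕ) ^ (j + 2))‖ ≤ (((j : ℝ) + 3) ^ d * (1 / 2) ^ j) * x ^ 2 := by
      intro j
      refine (norm_twistTerm_le ψ' s _).trans ?_
      have hcnt : (idealCount K ((p : ℕ) ^ (j + 2)) : ℝ) ≤ ((j : ℝ) + 3) ^ d := by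
        calc (idealCount K ((p : ℕ) ^ (j + 2)) : ℝ) ≤ (((j + 2 + 1) ^ d : ℕ) : ℝ) := by
              exact_mod_cast idealCount_prime_pow_le K p.2 (j + 2)
          _ = _ := by push_cast; ring
      have hpow : (((p : ℕ) ^ (j + 2) : ℕ) : ℝ) ^ (-s) = x ^ j * x ^ 2 := by
        rw [← pow_add, hx, Nat.cast_pow, ← Real.rpow_natCast, ← Real.rpow_natCast,
          ← Real.rpow_mul (Nat.cast_nonneg _), ← Real.rpow_mul (Nat.cast_nonneg _), mul_comm]
      rw [hpow, mul_assoc]
      exact mul_le_mul hcnt (mul_le_mul_of_nonneg_right (pow_le_pow_left₀ hx0 hxhalf j) (sq_nonneg x))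
        (by positivity) (by positivity)
    have hr' : ‖r‖ ≤ M * x ^ 2 := by
      have h2 : Summable fun e => ‖f ((p : ℕ) ^ (e + 2))‖ := (summable_nat_add_iff 2).mpr hse
      refine (norm_tsum_le_tsum_norm h2).trans ?_
      rw [hM, ← tsum_mul_right]
      exact h2.tsum_le_tsum hterm (hMsum.mul_right _)
    set z : ℂ := (idealCount K p : ℂ) * (ψ' ((p : ℕ) : ZMod m') * (x : ℂ)) + r with hz
    have hzA : ‖z‖ ≤ A * x := by
      refine (norm_add_le _ _).trans ?_
      rw [norm_mul, norm_mul, Complex.norm_natCast, Complex.norm_real, Real.norm_of_nonneg hx0, hA,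
        add_mul]
      refine add_le_add (mul_le_mul (idealCount_prime_le K p.2)
        (mul_le_of_le_one_left hx0 (ψ'.norm_le_one _)) (by positivity) (by positivity))
        (hr'.trans (mul_le_mul_of_nonneg_left ?_ hM0))
      nlinarith
    have hz4 : ‖z‖ ≤ 1 / 4 := by
      refine hzA.trans ((mul_le_mul_of_nonneg_left hxB hA0).trans ?_)
      rw [← div_eq_mul_inv, div_le_iff₀ (by positivity), hB]
      push_cast
      linarith [Nat.le_ceil (4 * A)]
    obtain ⟨h1, h2⟩ := re_sub_le_log_norm hz4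
    rw [← hsplit] at h1 h2
    refine ⟨?_, h2.trans (by linarith), ?_⟩
    · have hre : a p - M * x ^ 2 ≤ z.re := by
        have h3 := (abs_le.mp ((Complex.abs_re_le_norm r).trans hr')).1
        simp only [ha, hz, Complex.add_re, Complex.mul_re, Complex.natCast_re, Complex.natCast_im,
          Complex.mul_im, Complex.ofReal_re, Complex.ofReal_im]
        linarith
      have hz2 : ‖z‖ ^ 2 ≤ A ^ 2 * x ^ 2 := by
        rw [← mul_pow]; exact pow_le_pow_left₀ (norm_nonneg _) hzA 2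
      nlinarith [mul_le_mul_of_nonneg_left hxq (by positivity : 0 ≤ 4 * A ^ 2 + M)]
    · rw [hsplit]
      have h5 := norm_sub_le (1 + z) z
      rw [add_sub_cancel_right, norm_one] at h5
      linarith
  have hls : Summable fun p => Real.log ‖F p‖ :=
    Summable.of_norm_bounded (((summable_primes_rpow hs).mul_left A).mul_left 2) fun p =>
      (hloc p).2.1
  have hexp : Real.exp (∑' p, Real.log ‖F p‖) = ‖∑' n, f n‖ := by
    have h := hls.hasSum.rexp
    rw [show (Real.exp ∘ fun p => Real.log ‖F p‖) = fun p => ‖F p‖ from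
      funext fun p => Real.exp_log (hloc p).2.2] at h
    exact h.unique hprod.norm
  have hlogC : ∑' p, Real.log ‖F p‖ ≤ max C 0 := by
    rw [hf, tsum_twistTerm ψ' hs] at hexp
    have h1 : Real.exp (∑' p, Real.log ‖F p‖) ≤ C := hexp.le.trans hs0
    linarith [Real.add_one_le_exp (∑' p, Real.log ‖F p‖), le_max_left C 0]
  have hasum : Summable a := by
    refine Summable.of_norm_bounded (summable_idealCount_primes K hs) fun p => ?_
    rw [ha, norm_mul, norm_mul, Real.norm_natCast,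
      Real.norm_of_nonneg (Real.rpow_nonneg (Nat.cast_nonneg _) _)]
    refine mul_le_mul_of_nonneg_right (mul_le_of_le_one_right (Nat.cast_nonneg _) ?_)
      (Real.rpow_nonneg (Nat.cast_nonneg _) _)
    exact (Complex.abs_re_le_norm _).trans (ψ'.norm_le_one _)
  have h1 : ∑' p, a p ≤ max C 0 + (4 * A ^ 2 + M) * Z := by
    have h2 : ∑' p, a p - (4 * A ^ 2 + M) * Z ≤ ∑' p, Real.log ‖F p‖ := by
      rw [← tsum_mul_left, ← hasum.tsum_sub (hqs.mul_left _)]
      exact (hasum.sub (hqs.mul_left _)).tsum_le_tsum (fun p => (hloc p).1) hls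
    linarith
  -- restore the primes dividing the level
  set b : Nat.Primes → ℝ := fun p =>
    (idealCount K p : ℝ) * (ψ ((p : ℕ) : ZMod m)).re * (p : ℝ) ^ (-s) with hb
  have hbsum : Summable b := by
    refine Summable.of_norm_bounded (summable_idealCount_primes K hs) fun p => ?_
    rw [hb, norm_mul, norm_mul, Real.norm_natCast,
      Real.norm_of_nonneg (Real.rpow_nonneg (Nat.cast_nonneg _) _)]
    refine mul_le_mul_of_nonneg_right (mul_le_of_le_one_right (Nat.cast_nonneg _) ?_)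
      (Real.rpow_nonneg (Nat.cast_nonneg _) _)
    exact (Complex.abs_re_le_norm _).trans (ψ.norm_le_one _)
  have h3 : ∑' p, b p - ∑' p, a p ≤ D.card * 2 ^ d := by
    rw [← hbsum.tsum_sub hasum, tsum_eq_sum (s := D) fun p hp => ?_]
    · refine (Finset.sum_le_card_nsmul D _ ((2 : ℝ) ^ d) fun p _ => ?_).trans
        (le_of_eq (by rw [nsmul_eq_mul]))
      have hc := idealCount_prime_le K p.2
      have hxp : 0 ≤ (p : ℝ) ^ (-s) ∧ (p : ℝ) ^ (-s) ≤ 1 :=
        ⟨Real.rpow_nonneg (Nat.cast_nonneg _) _, natCast_rpow_neg_le_one _ (by linarith)⟩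
      by_cases hdvd : (p : ℕ) ∣ m'
      · have h0 : ψ' ((p : ℕ) : ZMod m') = 0 := MulChar.map_nonunit _ fun hu =>
          p.2.coprime_iff_not_dvd.mp ((ZMod.isUnit_iff_coprime _ _).mp hu) hdvd
        simp only [ha, hb, h0, Complex.zero_re, mul_zero, zero_mul, sub_zero]
        calc _ ≤ (idealCount K p : ℝ) * 1 * 1 := by
              refine mul_le_mul ?_ hxp.2 hxp.1 (by positivity)
              exact mul_le_mul_of_nonneg_left ((le_abs_self _).trans
                ((Complex.abs_re_le_norm _).trans (ψ.norm_le_one _))) (Nat.cast_nonneg _)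
          _ ≤ _ := by rw [mul_one, mul_one]; exact hc
      · rw [show b p - a p = 0 by
          simp only [ha, hb, hψ' p (p.2.coprime_iff_not_dvd.mpr hdvd), sub_self]]
        positivity
    · have hdvd : ¬ (p : ℕ) ∣ m' := fun h => hp (Finset.mem_subtype.mpr
        (Nat.mem_primeFactors.mpr ⟨p.2, h, NeZero.ne m'⟩))
      simp only [ha, hb, hψ' p (p.2.coprime_iff_not_dvd.mpr hdvd), sub_self]
  linarith

end FLTAgent.DeligneSerre
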