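import Fermat.Agent.DeligneSerre.Lift
import Fermat.Agent.DeligneSerre.Rankin
import Fermat.Prelude.Def_Deformations_MatrixRepresentation

/-!
# The Galois representation of a form of weight one

The lifts of the residual images at all large primes have the same trace, which is the trace of an
irreducible complex representation unramified away from the level.
-/

set_option autoImplicit false

noncomputable section

namespace FLTAgent.DeligneSerre

open Filter FLTAgent.EigenReps Matrix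
open scoped Topology
open ModularFormClass (qCoeff)

local notation "QQb" => AlgebraicClosure ℚ
local notation "GG" => (AlgebraicClosure ℚ ≃ₐ[ℚ] AlgebraicClosure ℚ)

variable {N : ℕ} [NeZero N] (W : WtOne N)

/-- The differences which have to survive modulo the prime. -/
def liftSet (T₀ E₀ V : Finset ℂ) : Finset ℂ :=
  (T₀ ×ˢ E₀ ×ˢ T₀ ×ˢ T₀ ×ˢ T₀).image
      (fun q => q.1 + q.2.1 * q.2.2.1 - q.2.2.2.1 * q.2.2.2.2) ∪
    (E₀ ×ˢ E₀ ×ˢ E₀).image (fun q => q.1 * q.2.1 - q.2.2) ∪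
    (E₀ ×ˢ E₀).image (fun q => q.1 - q.2) ∪
    (V ×ˢ T₀).image (fun q => q.1 - q.2) ∪ T₀.image (fun t => t - 2) ∪ T₀

/-- A lift of a residual image to a complex pseudo-character. -/
structure Run (A : ℕ) (R : Subring ℂ) (V : Finset ℂ) (l a : ℕ) where
  G : Type
  [instGroup : Group G]
  [instFintype : Fintype G]
  card_le : Fintype.card G ≤ A
  π : GG →* G
  surj : Function.Surjective π
  L : IntermediateField ℚ QQb
  finite_level : FiniteDimensional ℚ L
  level : ∀ σ : GG, (∀ x ∈ L, σ x = x) → π σ = 1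
  P : PseudoChar G ℂ
  conj_trace : P.tr (π complexConjugation) = 0
  conj_det : P.det (π complexConjugation) = -1
  inertia : ∀ p : ℕ, p.Prime → ¬ p ∣ N * l * a → ∀ U : ValuationSubring QQb, U.LiesOverPrime p →
    ∀ σ ∈ U.inertiaSubgroupIn ℚ, π σ = 1
  det_frobenius : ∀ p : ℕ, p.Prime → ¬ p ∣ N * l * a → ∀ U : ValuationSubring QQb,
    U.LiesOverPrime p → ∀ σ : GG, U.IsFrobeniusAt σ p → P.det (π σ) = W.ε p
  vanish : ∀ p : ℕ, p.Prime → ¬ p ∣ N * l * a → ∀ U : ValuationSubring QQb, U.LiesOverPrime p →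
    ∀ σ : GG, U.IsFrobeniusAt σ p → Vanish R l (qCoeff W.f p - P.tr (π σ))
  trace_frobenius : ∀ p : ℕ, p.Prime → ¬ p ∣ N * l * a → ∀ U : ValuationSubring QQb,
    U.LiesOverPrime p → ∀ σ : GG, U.IsFrobeniusAt σ p → qCoeff W.f p ∈ V →
      P.tr (π σ) = qCoeff W.f p

attribute [instance] Run.instGroup Run.instFintype

variable {W}

/-- A residual image gives a lift. -/
theorem exists_run {R : Subring ℂ} {hR : ∀ n : ℕ, qCoeff W.f n ∈ R} {hε : ∀ x : ZMod N, W.ε x ∈ R}
    {l a : ℕ} (hl : l.Prime) (X : Red W R hR hε l a) {A : ℕ} (hA : Fintype.card X.G ≤ A)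
    (hlA : A < l) {z : ℂ} (hz : IsPrimitiveRoot z A.factorial) (hzR : z ∈ R) (V : Finset ℂ)
    (hlift : ∀ x ∈ liftSet ((Finset.range A.factorial ×ˢ Finset.range A.factorial).image
        fun q => z ^ q.1 + z ^ q.2) (Finset.univ.image W.ε) V,
      Vanish R l x → x = 0) :
    Nonempty (Run W A R V l a) := by
  classical
  set n := A.factorial
  set T₀ : Finset ℂ := (Finset.range n ×ˢ Finset.range n).image fun q => z ^ q.1 + z ^ q.2
  set E₀ : Finset ℂ := Finset.univ.image W.ε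
  have : NeZero n := ⟨A.factorial_ne_zero⟩
  have : NeZero (n : X.k) := ⟨fun h =>
    absurd ((Nat.Prime.dvd_factorial hl).mp ((CharP.cast_eq_zero_iff X.k l _).mp h)) (not_le.mpr hlA)⟩
  let zR : R := ⟨z, hzR⟩
  have hzk : IsPrimitiveRoot (X.ι zR) n := by
    have h1 : IsPrimitiveRoot zR n :=
      IsPrimitiveRoot.of_map_of_injective (f := R.subtype) hz R.subtype_injective
    have h2 := (h1.isRoot_cyclotomic A.factorial_pos).map (f := X.ι)
    rw [Polynomial.map_cyclotomic] at h2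
    exact Polynomial.isRoot_cyclotomic_iff.mp h2
  have hexT : ∀ g : X.G, ∃ t : R, (t : ℂ) ∈ T₀ ∧ X.ι t = (X.ρ g).trace := by
    intro g
    have hg : X.ρ g ^ n = 1 := by
      rw [← map_pow, orderOf_dvd_iff_pow_eq_one.mp
        (Nat.dvd_factorial (orderOf_pos g) ((orderOf_le_card_univ).trans hA)), map_one]
    obtain ⟨i, hi, j, hj, h⟩ := trace_of_pow_eq_one hzk hg
    exact ⟨zR ^ i + zR ^ j, Finset.mem_image.mpr
      ⟨(i, j), Finset.mem_product.mpr ⟨Finset.mem_range.mpr hi, Finset.mem_range.mpr hj⟩, by simp [zR]⟩,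
      by rw [h, map_add, map_pow, map_pow]⟩
  choose T hT₀ hT using hexT
  have hexD : ∀ g : X.G, ∃ d : R, (d : ℂ) ∈ E₀ ∧ X.ι d = (X.ρ g).det := fun g => by
    obtain ⟨x, hx⟩ := X.det_mem g
    exact ⟨⟨_, hε x⟩, Finset.mem_image_of_mem _ (Finset.mem_univ x), hx.symm⟩
  choose D hD₀ hD using hexD
  have hone : ((1 : R) : ℂ) ∈ E₀ :=
    Finset.mem_image.mpr ⟨1, Finset.mem_univ _, by simp⟩
  have hεm : ∀ x : ZMod N, W.ε x ∈ E₀ := fun x => Finset.mem_image_of_mem _ (Finset.mem_univ x)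
  have key : ∀ x : R, (x : ℂ) ∈ liftSet T₀ E₀ V → X.ι x = 0 → x = 0 := fun x hx h0 =>
    Subtype.ext (hlift x hx ⟨x.2, X.k, inferInstance, inferInstance, X.ι, h0⟩)
  have hDmul : ∀ g h, D (g * h) = D g * D h := fun g h => by
    refine (sub_eq_zero.mp (key (D g * D h - D (g * h)) ?_ ?_)).symm
    · simp only [liftSet, Finset.mem_union, Finset.mem_image, Finset.mem_product]
      exact Or.inl (Or.inl (Or.inl (Or.inl (Or.inr
        ⟨((D g : ℂ), (D h : ℂ), (D (g * h) : ℂ)), ⟨hD₀ g, hD₀ h, hD₀ _⟩, by simp⟩))))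
    · rw [map_sub, map_mul, hD, hD, hD, map_mul, Matrix.det_mul, sub_self]
  have hdiff : ∀ d d' : R, (d : ℂ) ∈ E₀ → (d' : ℂ) ∈ E₀ → X.ι d = X.ι d' → d = d' :=
    fun d d' h h' he => by
      refine sub_eq_zero.mp (key (d - d') ?_ (by rw [map_sub, he, sub_self]))
      simp only [liftSet, Finset.mem_union, Finset.mem_image, Finset.mem_product]
      exact Or.inl (Or.inl (Or.inl (Or.inr ⟨((d : ℂ), (d' : ℂ)), ⟨h, h'⟩, by simp⟩)))
  have hD1 : D 1 = 1 := hdiff _ _ (hD₀ 1) hone (by rw [hD, map_one, Matrix.det_one, map_one])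
  have hT2 : T 1 = 2 := by
    refine sub_eq_zero.mp (key (T 1 - 2) ?_ ?_)
    · simp only [liftSet, Finset.mem_union, Finset.mem_image]
      exact Or.inl (Or.inr ⟨(T 1 : ℂ), hT₀ 1, congrArg ((T 1 : ℂ) - ·) (map_ofNat R.subtype 2).symm⟩)
    · rw [map_sub, hT, map_one, Matrix.trace_one, map_ofNat]; simp
  have hmul : ∀ g h, T (g * h) + D h * T (g * h⁻¹) = T g * T h := fun g h => by
    refine sub_eq_zero.mp (key (T (g * h) + D h * T (g * h⁻¹) - T g * T h) ?_ ?_)
    · simp only [liftSet, Finset.mem_union, Finset.mem_image, Finset.mem_product]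
      exact Or.inl (Or.inl (Or.inl (Or.inl (Or.inl
        ⟨((T (g * h) : ℂ), (D h : ℂ), (T (g * h⁻¹) : ℂ), (T g : ℂ), (T h : ℂ)),
          ⟨hT₀ _, hD₀ _, hT₀ _, hT₀ _, hT₀ _⟩, by simp⟩))))
    · rw [map_sub, map_add, map_mul, map_mul, hT, hD, hT, hT, hT, sub_eq_zero]
      exact (charOfHom X.ρ).tr_mul g h
  let P : PseudoChar X.G ℂ :=
    { tr := fun g => (T g : ℂ)
      det :=
        { toFun := fun g => (D g : ℂ)
          map_one' := by rw [hD1]; rfl
          map_mul' := fun g h => by rw [hDmul]; rfl }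
      tr_one := by rw [hT2]; exact map_ofNat R.subtype 2
      tr_mul := fun g h => by simpa using congrArg (fun x : R => (x : ℂ)) (hmul g h) }
  refine ⟨{
    G := X.G
    card_le := hA
    π := X.π
    surj := X.surj
    L := X.L
    finite_level := X.finite_level
    level := X.level
    P := P
    conj_trace := ?_
    conj_det := ?_
    inertia := X.inertia
    det_frobenius := fun p hp hpd U hU σ hσ => ?_
    vanish := fun p hp hpd U hU σ hσ => ?_
    trace_frobenius := fun p hp hpd U hU σ hσ hV => ?_ }⟩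
  · refine congrArg Subtype.val (key (T (X.π complexConjugation)) ?_ ?_)
    · exact Finset.mem_union_right _ (hT₀ _)
    · rw [hT]; exact X.conj_trace
  · show (D (X.π complexConjugation) : ℂ) = -1
    rw [hdiff _ ⟨_, hε (-1)⟩ (hD₀ _) (hεm _) (by
      rw [hD, X.conj_det, show (⟨_, hε (-1)⟩ : R) = -1 from Subtype.ext W.eps_neg_one, map_neg,
        map_one])]
    exact W.eps_neg_one
  · show (D (X.π σ) : ℂ) = W.ε p
    rw [hdiff _ ⟨_, hε p⟩ (hD₀ _) (hεm _) (by rw [hD]; exact (X.frobenius p hp hpd U hU σ hσ).2)]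
  · refine ⟨sub_mem (hR p) (T (X.π σ)).2, X.k, inferInstance, inferInstance, X.ι, ?_⟩
    show X.ι (⟨_, hR p⟩ - T (X.π σ)) = 0
    rw [map_sub, hT, (X.frobenius p hp hpd U hU σ hσ).1, sub_self]
  · refine (sub_eq_zero.mp (congrArg Subtype.val (key (⟨_, hR p⟩ - T (X.π σ)) ?_ ?_))).symm
    · simp only [liftSet, Finset.mem_union, Finset.mem_image, Finset.mem_product]
      exact Or.inl (Or.inl (Or.inr
        ⟨(qCoeff W.f p, (T (X.π σ) : ℂ)), ⟨hV, hT₀ _⟩, by simp⟩))
    · rw [map_sub, hT, (X.frobenius p hp hpd U hU σ hσ).1, sub_self]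

theorem Run.trace_conj {A : ℕ} {R : Subring ℂ} {V : Finset ℂ} {l a : ℕ} (Y : Run W A R V l a)
    (x g : Y.G) : Y.P.tr (x * g * x⁻¹) = Y.P.tr g ∧ Y.P.det (x * g * x⁻¹) = Y.P.det g := by
  refine ⟨?_, ?_⟩
  · rw [Y.P.tr_comm, inv_mul_cancel_left]
  · rw [map_mul, map_mul, mul_right_comm, Y.P.det_mul_inv, one_mul]

/-- Two lifts have the same trace. -/
theorem Run.trace_eq {A : ℕ} {R : Subring ℂ} {V : Finset ℂ} {C : ℝ}
    (hV : ∀ᶠ s in 𝓝[>] (1 : ℝ),
      WtOne.primeSum (fun p => ¬ (p : ℕ) ∣ N ∧ qCoeff W.f p ∉ V) s ≤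
        (1 / (2 * (A : ℝ) ^ 2)) * (-Real.log (s - 1)) + C)
    {l a l' a' : ℕ} [NeZero (N * l * a)] [NeZero (N * l' * a')] (Y : Run W A R V l a)
    (Y' : Run W A R V l' a') (σ : GG) :
    Y.P.tr (Y.π σ) = Y'.P.tr (Y'.π σ) := by
  classical
  by_contra hne
  have := Y.finite_level
  have := Y'.finite_level
  let u : GG →* Y.G × Y'.G := Y.π.prod Y'.π
  have : Fintype u.range := Fintype.ofFinite _
  let Agree : u.range → Prop := fun h =>
    Y.P.tr h.1.1 = Y'.P.tr h.1.2 ∧ Y.P.det h.1.1 = Y'.P.det h.1.2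
  let f : u.range → ℝ := fun h => if Agree h then 0 else 1
  have hinv : ∀ h, Agree h → Agree h⁻¹ := by
    rintro h ⟨h1, h2⟩
    have e1 := Y.P.det_mul_inv h.1.1
    have e2 := Y'.P.det_mul_inv h.1.2
    have t1 := Y.P.det_mul_tr_inv h.1.1
    have t2 := Y'.P.det_mul_tr_inv h.1.2
    have hd : Y.P.det h.1.1⁻¹ = Y'.P.det h.1.2⁻¹ := by
      rw [h2] at e1
      linear_combination Y'.P.det h.1.2⁻¹ * e1 - Y.P.det h.1.1⁻¹ * e2
    refine ⟨?_, hd⟩
    show Y.P.tr h.1.1⁻¹ = Y'.P.tr h.1.2⁻¹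
    rw [h2, h1] at t1
    linear_combination Y'.P.det h.1.2⁻¹ * t1 - Y'.P.det h.1.2⁻¹ * t2 -
      (Y.P.tr h.1.1⁻¹ - Y'.P.tr h.1.2⁻¹) * e2
  set S := (N * l * a).primeFactors ∪ (N * l' * a').primeFactors
  have hm := mean_le u.rangeRestrict u.rangeRestrict_surjective (Y.L ⊔ Y'.L)
    (fun τ hτ => Subtype.ext (Prod.ext (Y.level τ fun x hx => hτ x ((le_sup_left : Y.L ≤ _) hx))
      (Y'.level τ fun x hx => hτ x ((le_sup_right : Y'.L ≤ _) hx))))
    S f 1
    (fun g => by simp only [f]; split_ifs <;> norm_num)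
    (fun g => by simp only [f]; split_ifs <;> norm_num)
    (fun x g => by
      refine if_congr ?_ rfl rfl
      show Y.P.tr (x.1.1 * g.1.1 * x.1.1⁻¹) = Y'.P.tr (x.1.2 * g.1.2 * x.1.2⁻¹) ∧
        Y.P.det (x.1.1 * g.1.1 * x.1.1⁻¹) = Y'.P.det (x.1.2 * g.1.2 * x.1.2⁻¹) ↔ _
      rw [(Y.trace_conj _ _).1, (Y.trace_conj _ _).2, (Y'.trace_conj _ _).1,
        (Y'.trace_conj _ _).2])
    (fun g => if_congr ⟨fun h => by simpa using hinv _ h, hinv g⟩ rfl rfl)
    (fun p => WtOne.indR (¬ (p : ℕ) ∣ N ∧ qCoeff W.f p ∉ V)) 1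
    (fun p => WtOne.indR_nonneg _) (fun p => WtOne.indR_le_one _) _ C hV
    (fun p hp U hU τ hτ => by
      simp only [f]
      split_ifs with h
      · exact WtOne.indR_nonneg _
      · simp only [S, Finset.mem_union, not_or] at hp
        have hd : ¬ (p : ℕ) ∣ N * l * a := fun hd =>
          hp.1 (Nat.mem_primeFactors.mpr ⟨p.2, hd, NeZero.ne _⟩)
        have hd' : ¬ (p : ℕ) ∣ N * l' * a' := fun hd =>
          hp.2 (Nat.mem_primeFactors.mpr ⟨p.2, hd, NeZero.ne _⟩)
        refine le_of_eq (WtOne.indR_pos ⟨fun hN => hd ((hN.trans (dvd_mul_right N l)).trans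
          (dvd_mul_right _ a)), fun hmem => h ⟨?_, ?_⟩⟩).symm
        · exact (Y.trace_frobenius p p.2 hd U hU τ hτ hmem).trans
            (Y'.trace_frobenius p p.2 hd' U hU τ hτ hmem).symm
        · exact (Y.det_frobenius p p.2 hd U hU τ hτ).trans
            (Y'.det_frobenius p p.2 hd' U hU τ hτ).symm)
  have hcard : (Nat.card u.range : ℝ) ≤ (A : ℝ) ^ 2 := by
    have h : Nat.card u.range ≤ A ^ 2 := by
      refine (Nat.card_le_card_of_injective _ Subtype.val_injective).trans ?_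
      rw [Nat.card_prod, Nat.card_eq_fintype_card, Nat.card_eq_fintype_card, sq]
      exact Nat.mul_le_mul Y.card_le Y'.card_le
    exact_mod_cast h
  have h1 : 1 ≤ ∑ g, f g := by
    refine le_trans ?_ (Finset.single_le_sum (f := f) (fun g _ => by
      simp only [f]; split_ifs <;> norm_num) (Finset.mem_univ (u.rangeRestrict σ)))
    simp only [f]
    rw [if_neg fun h => hne h.1]
  have hpos : (0 : ℝ) < Nat.card u.range := Nat.cast_pos.mpr Nat.card_pos
  rw [div_le_iff₀ hpos, div_mul_eq_mul_div, one_mul, le_div_iff₀ (by nlinarith)] at hm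
  nlinarith

/-- A representation without common eigenvector is irreducible. -/
theorem irreducible_of_no_eigenvector (ρ : GG →* GL (Fin 2) ℂ)
    (h : ∀ v : Fin 2 → ℂ, v ≠ 0 →
      ∃ g, ∀ c : ℂ, ((ρ g : GL (Fin 2) ℂ) : Matrix (Fin 2) (Fin 2) ℂ) *ᵥ v ≠ c • v) :
    (Deformation.matrixRepresentation ρ).IsIrreducible := by
  have : Nontrivial (Subrepresentation (Deformation.matrixRepresentation ρ)) :=
    ⟨⊥, ⊤, fun h => bot_ne_top (α := Submodule ℂ (Fin 2 → ℂ))
      (congrArg Subrepresentation.toSubmodule h)⟩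
  refine ⟨fun S => ?_⟩
  by_contra hS
  push Not at hS
  have hbot : S.toSubmodule ≠ ⊥ := fun h => hS.1 (Subrepresentation.toSubmodule_injective h)
  have htop : S.toSubmodule ≠ ⊤ := fun h => hS.2 (Subrepresentation.toSubmodule_injective h)
  obtain ⟨v, hv, hv0⟩ := (Submodule.ne_bot_iff _).mp hbot
  obtain ⟨g, hg⟩ := h v hv0
  have h1 : Module.finrank ℂ S.toSubmodule = 1 := by
    have := Submodule.finrank_lt htop
    have h0 : 0 < Module.finrank ℂ S.toSubmodule := by
      rw [pos_iff_ne_zero, Ne, Submodule.finrank_eq_zero]; exact hbot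
    simp at this
    omega
  have hspan : Submodule.span ℂ {v} = S.toSubmodule :=
    Submodule.eq_of_le_of_finrank_le ((Submodule.span_singleton_le_iff_mem _ _).mpr hv)
      (by rw [h1, finrank_span_singleton hv0])
  have hgv := S.apply_mem_toSubmodule g hv
  rw [← hspan, Submodule.mem_span_singleton, Deformation.matrixRepresentation_apply] at hgv
  obtain ⟨c, hc⟩ := hgv
  exact hg c hc.symm

/-- A reducible image has mean square trace at least two. -/
theorem mean_trace_sq {G : Type*} [Group G] [Fintype G] (r : G →* Matrix (Fin 2) (Fin 2) ℂ)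
    {v : Fin 2 → ℂ} (hv : v ≠ 0) (h : ∀ g, ∃ c : ℂ, r g *ᵥ v = c • v) :
    (∀ g, ‖(r g).trace‖ ≤ 2) ∧ 2 ≤ (∑ g, ‖(r g).trace‖ ^ 2) / Nat.card G := by
  classical
  choose c hc using h
  have hinj : ∀ a b : ℂ, a • v = b • v → a = b := fun a b hab => smul_left_injective ℂ hv hab
  let χ : G →* ℂ :=
    { toFun := c
      map_one' := hinj _ _ (by rw [← hc, map_one, Matrix.one_mulVec, one_smul])
      map_mul' := fun g g' => hinj _ _ (by
        rw [← hc, map_mul, ← Matrix.mulVec_mulVec, hc, Matrix.mulVec_smul, hc, smul_smul,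
          mul_comm]) }
  let δ : G →* ℂ := Matrix.detMonoidHom.comp r
  let χ' : G →* ℂ :=
    { toFun := fun g => δ g * χ g⁻¹
      map_one' := by simp
      map_mul' := fun g g' => by rw [map_mul, _root_.mul_inv_rev, map_mul]; ring }
  have hnorm : ∀ (φ : G →* ℂ) g, ‖φ g‖ = 1 := fun φ g =>
    Complex.norm_eq_one_of_pow_eq_one (n := Fintype.card G)
      (by rw [← map_pow, pow_card_eq_one, map_one]) Fintype.card_ne_zero
  have htr : ∀ g, (r g).trace = χ g + χ' g := by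
    intro g
    have hne : χ g * χ g⁻¹ = 1 := by rw [← map_mul, mul_inv_cancel, map_one]
    have hdet : (r g - χ g • 1).det = 0 :=
      Matrix.exists_mulVec_eq_zero_iff.mp ⟨v, hv, by
        rw [Matrix.sub_mulVec, Matrix.smul_mulVec, Matrix.one_mulVec, hc]; exact sub_self _⟩
    show (r g).trace = χ g + (r g).det * χ g⁻¹
    rw [Matrix.det_fin_two] at hdet
    simp at hdet
    rw [Matrix.trace_fin_two, Matrix.det_fin_two]
    linear_combination χ g⁻¹ * (-hdet) - (r g 0 0 + r g 1 1 - χ g) * hne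
  have hle : ∀ g, ‖(r g).trace‖ ≤ 2 := fun g => by
    rw [htr]
    refine (norm_add_le _ _).trans ?_
    rw [hnorm, hnorm]
    norm_num
  refine ⟨hle, ?_⟩
  let ψ : G →* ℂ :=
    { toFun := fun g => χ g * χ' g⁻¹
      map_one' := by simp
      map_mul' := fun g g' => by rw [map_mul, _root_.mul_inv_rev, map_mul]; ring }
  have hsq : ∀ g, ‖(r g).trace‖ ^ 2 = 2 + 2 * (ψ g).re := by
    intro g
    have hconj : χ' g⁻¹ = (starRingEnd ℂ) (χ' g) := by
      rw [← Complex.inv_eq_conj (hnorm χ' g)]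
      exact eq_inv_of_mul_eq_one_left (by rw [← map_mul, inv_mul_cancel, map_one])
    rw [htr, ← Complex.normSq_eq_norm_sq, Complex.normSq_add, Complex.normSq_eq_norm_sq,
      Complex.normSq_eq_norm_sq, hnorm, hnorm]
    show _ = 2 + 2 * (χ g * χ' g⁻¹).re
    rw [hconj]
    ring
  rw [le_div_iff₀ (Nat.cast_pos.mpr Nat.card_pos), Finset.sum_congr rfl fun g _ => hsq g,
    Finset.sum_add_distrib, Finset.sum_const, Finset.card_univ, ← Finset.mul_sum, ← Complex.re_sum,
    Nat.card_eq_fintype_card, nsmul_eq_mul, mul_comm]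
  have h0 : 0 ≤ (∑ g, ψ g).re := by
    by_cases h1 : ψ = 1
    · simp [h1]
    · simp [sum_hom_units_eq_zero ψ h1]
  linarith

/-- **The theorem of Deligne and Serre** for a depleted form, from the residual representations. -/
theorem exists_galoisRep_wtOne (hres : ResidualOfWeightTwoCongruence) (hB : TargetCongrSystem)
    (W : WtOne N) :
    ∃ ρ : GG →* GL (Fin 2) ℂ, GaloisFactorsThroughFiniteLevel ρ ∧
      (Deformation.matrixRepresentation ρ).IsIrreducible ∧
      ∀ p : ℕ, p.Prime → ¬ p ∣ N →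
        ∀ U : ValuationSubring QQb, U.LiesOverPrime p →
          (∀ σ ∈ U.inertiaSubgroupIn ℚ, ρ σ = 1) ∧
          ∀ σ : GG, U.IsFrobeniusAt σ p →
            ((ρ σ : GL (Fin 2) ℂ) : Matrix (Fin 2) (Fin 2) ℂ).trace = qCoeff W.f p ∧
            ((ρ σ : GL (Fin 2) ℂ) : Matrix (Fin 2) (Fin 2) ℂ).det = W.ε (p : ZMod N) := by
  classical
  obtain ⟨V₁, C₁, hV₁⟩ := W.exists_values (show (0 : ℝ) < 1 / 16 by norm_num)
  set A := 2 * (V₁.card * (N + 1) + 1) ^ 4
  have hA : 0 < A := by positivity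
  set n := A.factorial
  set z : ℂ := Complex.exp (2 * Real.pi * Complex.I / n)
  have hz : IsPrimitiveRoot z n := Complex.isPrimitiveRoot_exp n A.factorial_ne_zero
  set R : Subring ℂ := (W.heckeRing ⊔ Algebra.adjoin ℤ {z}).toSubring
  have hzR : z ∈ R := (le_sup_right : Algebra.adjoin ℤ {z} ≤ W.heckeRing ⊔ _)
    (Algebra.self_mem_adjoin_singleton ℤ z)
  have hR : ∀ m, qCoeff W.f m ∈ R := fun m =>
    (le_sup_left : W.heckeRing ≤ W.heckeRing ⊔ _) (W.qCoeff_mem m)
  have hε : ∀ x, W.ε x ∈ R := fun x =>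
    (le_sup_left : W.heckeRing ≤ W.heckeRing ⊔ _) (W.eps_mem x)
  have hfin : Module.Finite ℤ R := by
    have h : (Subalgebra.toSubmodule (W.heckeRing ⊔ Algebra.adjoin ℤ {z})).FG := by
      rw [← Subalgebra.mul_toSubmodule]
      exact W.fg_heckeRing.mul (hz.isIntegral A.factorial_pos).fg_adjoin_singleton
    exact Module.Finite.iff_fg.mpr h
  have hA2 : (0 : ℝ) < 1 / (2 * (A : ℝ) ^ 2) := by positivity
  obtain ⟨V, C, hV⟩ := W.exists_values hA2
  obtain ⟨B, hBd⟩ := exists_bound_vanish R hfin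
    (liftSet ((Finset.range n ×ˢ Finset.range n).image fun q => z ^ q.1 + z ^ q.2)
      (Finset.univ.image W.ε) V)
  have hrun : ∀ l : ℕ, l.Prime → B + A + N + 5 < l → ∀ a : ℕ, a = 4 ∨ a = 9 →
      Nonempty (Run W A R V l a) := by
    intro l hl hlb a ha
    obtain ⟨X⟩ := exists_red W R hR hε hres hB hfin hl (by omega)
      (fun h => by have := Nat.le_of_dvd (NeZero.pos N) h; omega) ha
    have : NeZero (N * l * a) :=
      ⟨by rcases ha with rfl | rfl <;> simp [NeZero.ne N, hl.ne_zero]⟩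
    exact exists_run hl X (X.card_le V₁ C₁ hV₁) (by omega) hz hzR V (hBd l (by omega))
  obtain ⟨l₀, hl₀, hl₀p⟩ := Nat.exists_infinite_primes (B + A + N + 5 + 1)
  obtain ⟨Y⟩ := hrun l₀ hl₀p (by omega) 4 (Or.inl rfl)
  have : NeZero (N * l₀ * 4) := ⟨by simp [NeZero.ne N, hl₀p.ne_zero]⟩
  obtain ⟨r, htr, hdet, hspan⟩ := exists_rep_of_split Y.P (Y.π complexConjugation)
    (show (1 : ℂ) ≠ -1 by norm_num) (by rw [Y.conj_trace]; ring) (by rw [Y.conj_det]; ring)
  set ρ : GG →* GL (Fin 2) ℂ := (r.comp Y.π).toHomUnits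
  have hρ : ∀ σ, ((ρ σ : GL (Fin 2) ℂ) : Matrix (Fin 2) (Fin 2) ℂ) = r (Y.π σ) := fun _ => rfl
  have main : ∀ p : ℕ, p.Prime → ¬ p ∣ N → ∀ U : ValuationSubring QQb, U.LiesOverPrime p →
      (∀ σ ∈ U.inertiaSubgroupIn ℚ, r (Y.π σ) = 1) ∧
      ∀ σ : GG, U.IsFrobeniusAt σ p →
        (r (Y.π σ)).trace = qCoeff W.f p ∧ (r (Y.π σ)).det = W.ε (p : ZMod N) := by
    intro p hp hpN U hU
    obtain ⟨a, ha, hpa⟩ : ∃ a, (a = 4 ∨ a = 9) ∧ ¬ p ∣ a := by
      by_cases h2 : p = 2
      · exact ⟨9, Or.inr rfl, by subst h2; norm_num⟩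
      · exact ⟨4, Or.inl rfl, fun h => h2 ((Nat.prime_dvd_prime_iff_eq hp Nat.prime_two).mp
          (hp.dvd_of_dvd_pow (show p ∣ 2 ^ 2 from h)))⟩
    have hcop : ∀ l : ℕ, l.Prime → p < l → ¬ p ∣ N * l * a := fun l hl hpl h => by
      rcases hp.dvd_mul.mp h with h | h
      · rcases hp.dvd_mul.mp h with h | h
        · exact hpN h
        · have := (Nat.prime_dvd_prime_iff_eq hp hl).mp h; omega
      · exact hpa h
    refine ⟨fun σ hσ => ?_, fun σ hσ => ?_⟩
    · obtain ⟨l, hl, hlp⟩ := Nat.exists_infinite_primes (B + A + N + p + 5 + 1)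
      obtain ⟨Z⟩ := hrun l hlp (by omega) a ha
      have : NeZero (N * l * a) :=
        ⟨by rcases ha with rfl | rfl <;> simp [NeZero.ne N, hlp.ne_zero]⟩
      have hZ : Z.π σ = 1 := Z.inertia p hp (hcop l hlp (by omega)) U hU σ hσ
      refine Matrix.ext fun i j => ?_
      have hall : ∀ F ∈ Submodule.span ℂ (Set.range fun w : Y.G => fun g => Y.P.tr (w * g)),
          F (Y.π σ) = F 1 := by
        intro F hF
        induction hF using Submodule.span_induction with
        | mem F hF =>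
          obtain ⟨w, rfl⟩ := hF
          obtain ⟨w, rfl⟩ := Y.surj w
          show Y.P.tr (Y.π w * Y.π σ) = Y.P.tr (Y.π w * 1)
          rw [mul_one, ← map_mul, Y.trace_eq hV Z, Y.trace_eq hV Z, map_mul, hZ, mul_one]
        | zero => rfl
        | add x y _ _ hx hy => simp only [Pi.add_apply, hx, hy]
        | smul c x _ hx => simp only [Pi.smul_apply, hx]
      simpa using hall _ (hspan i j)
    · obtain ⟨B', hB'⟩ := exists_bound_vanish R hfin {qCoeff W.f p - (r (Y.π σ)).trace}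
      obtain ⟨l, hl, hlp⟩ := Nat.exists_infinite_primes (B + B' + A + N + p + 5 + 1)
      obtain ⟨Z⟩ := hrun l hlp (by omega) a ha
      have : NeZero (N * l * a) :=
        ⟨by rcases ha with rfl | rfl <;> simp [NeZero.ne N, hlp.ne_zero]⟩
      have hd := hcop l hlp (by omega)
      have ht : ∀ τ, Z.P.tr (Z.π τ) = Y.P.tr (Y.π τ) := fun τ => Z.trace_eq hV Y τ
      refine ⟨(sub_eq_zero.mp (hB' l (by omega) _ (Finset.mem_singleton_self _) ?_)).symm, ?_⟩
      · rw [htr, ← ht]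
        exact Z.vanish p hp hd U hU σ hσ
      · rw [hdet, ← Z.det_frobenius p hp hd U hU σ hσ]
        have e1 := Y.P.det_eq (Y.π σ)
        have e2 := Z.P.det_eq (Z.π σ)
        rw [← map_mul, ← ht, ← ht] at e1
        rw [← map_mul] at e2
        linear_combination (e2 - e1) / 2
  refine ⟨ρ, ⟨Y.L, Y.finite_level, fun σ hσ => Units.ext (by rw [hρ, Y.level σ hσ, map_one]; rfl)⟩,
    irreducible_of_no_eigenvector ρ fun v hv => ?_,
    fun p hp hpN U hU => ⟨fun σ hσ => Units.ext (by rw [hρ, (main p hp hpN U hU).1 σ hσ]; rfl),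
      (main p hp hpN U hU).2⟩⟩
  by_contra hall
  push Not at hall
  have hinv : ∀ g : Y.G, ∃ c : ℂ, r g *ᵥ v = c • v := fun g => by
    obtain ⟨σ, rfl⟩ := Y.surj g
    exact hall σ
  obtain ⟨hb2, hmean⟩ := mean_trace_sq r hv hinv
  obtain ⟨C', hC'⟩ := W.rankin_primes
    (fun p => if (p : ℕ) ∣ N then 0 else min (‖qCoeff W.f p‖ ^ 2) 4) 4
    (fun p => by split_ifs <;> positivity)
    (fun p => by split_ifs <;> [norm_num; exact min_le_right _ _])
    (fun p hp => if_pos hp)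
    (fun p => by
      split_ifs
      · positivity
      · exact min_le_left _ _)
  have := Y.finite_level
  have hm := mean_le Y.π Y.surj Y.L Y.level N.primeFactors (fun g => ‖(r g).trace‖ ^ 2) 4
    (fun g => by positivity)
    (fun g => by nlinarith [hb2 g, norm_nonneg (r g).trace])
    (fun x g => by rw [htr, htr, (Y.trace_conj x g).1])
    (fun g => by
      have hd : ‖Y.P.det g‖ = 1 := Complex.norm_eq_one_of_pow_eq_one (n := Fintype.card Y.G)
        (by rw [← map_pow, pow_card_eq_one, map_one]) Fintype.card_ne_zero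
      rw [htr, htr, ← Y.P.det_mul_tr_inv g, norm_mul, hd, one_mul])
    (fun p => if (p : ℕ) ∣ N then 0 else min (‖qCoeff W.f p‖ ^ 2) 4) 4
    (fun p => by split_ifs <;> positivity)
    (fun p => by split_ifs <;> [norm_num; exact min_le_right _ _]) 1 C'
    (by filter_upwards [hC'] with s hs; linarith)
    (fun p hp U hU σ hσ => by
      have hpN : ¬ (p : ℕ) ∣ N := fun h => hp (Nat.mem_primeFactors.mpr ⟨p.2, h, NeZero.ne N⟩)
      rw [if_neg hpN, ((main p p.2 hpN U hU).2 σ hσ).1]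
      refine le_min le_rfl ?_
      rw [← ((main p p.2 hpN U hU).2 σ hσ).1]
      nlinarith [hb2 (Y.π σ), norm_nonneg (r (Y.π σ)).trace])
  linarith

/-- **The theorem of Deligne and Serre**, from the residual representations. -/
theorem exists_galoisRep_of_targets (hres : ResidualOfWeightTwoCongruence)
    (hB : TargetCongrSystem) (ε : DirichletCharacter ℂ N)
    (f : CuspForm (CongruenceSubgroup.Gamma1 N) 1) (hf₁ : qCoeff f 1 = 1)
    (hT : ∀ p : ℕ, p.Prime → ¬ p ∣ N → ∀ n : ℕ,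
      qCoeff f (p * n) + ε (p : ZMod N) * (if p ∣ n then qCoeff f (n / p) else 0) =
        qCoeff f p * qCoeff f n) :
    ∃ ρ : GG →* GL (Fin 2) ℂ, GaloisFactorsThroughFiniteLevel ρ ∧
      (Deformation.matrixRepresentation ρ).IsIrreducible ∧
      ∀ p : ℕ, p.Prime → ¬ p ∣ N →
        ∀ U : ValuationSubring QQb, U.LiesOverPrime p →
          (∀ σ ∈ U.inertiaSubgroupIn ℚ, ρ σ = 1) ∧
          ∀ σ : GG, U.IsFrobeniusAt σ p →
            ((ρ σ : GL (Fin 2) ℂ) : Matrix (Fin 2) (Fin 2) ℂ).trace = qCoeff f p ∧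
            ((ρ σ : GL (Fin 2) ℂ) : Matrix (Fin 2) (Fin 2) ℂ).det = ε (p : ZMod N) := by
  obtain ⟨W, hW⟩ := exists_depleted ε f hf₁ hT
  have : NeZero (N * N) := ⟨mul_ne_zero (NeZero.ne N) (NeZero.ne N)⟩
  obtain ⟨ρ, h1, h2, h3⟩ := exists_galoisRep_wtOne hres hB W
  refine ⟨ρ, h1, h2, fun p hp hpN U hU => ?_⟩
  obtain ⟨h4, h5⟩ := h3 p hp (fun h => hpN ((hp.dvd_mul.mp h).elim id id)) U hU
  exact ⟨h4, fun σ hσ => by rw [(h5 σ hσ).1, (h5 σ hσ).2, (hW p hp hpN).1, (hW p hp hpN).2]; exact ⟨rfl, rfl⟩⟩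

end FLTAgent.DeligneSerre
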