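import Fermat.Agent.DeligneSerre.ChebotarevGalois
import Fermat.Agent.EigenReps.Split

/-!
# Tools for finite images

Traces determine a semisimple image, few trace values give a small image, and an upper bound for
the series over Frobenius elements bounds the mean of a class function.
-/

set_option autoImplicit false

noncomputable section

namespace FLTAgent.DeligneSerre

open Filter FLTAgent.EigenReps Matrix
open scoped Topology

local notation "QQb" => AlgebraicClosure ℚ
local notation "GG" => (AlgebraicClosure ℚ ≃ₐ[ℚ] AlgebraicClosure ℚ)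

section Algebraic

variable {G k : Type*} [Group G] [CommRing k]

/-- The pseudo-character of a representation. -/
def charOfHom (ρ : G →* Matrix (Fin 2) (Fin 2) k) : PseudoChar G k where
  tr g := (ρ g).trace
  det := Matrix.detMonoidHom.comp ρ
  tr_one := by simp
  tr_mul g h := by
    show (ρ (g * h)).trace + (ρ h).det * (ρ (g * h⁻¹)).trace = (ρ g).trace * (ρ h).trace
    have h1 : ρ h * ρ h⁻¹ = 1 := by rw [← map_mul, mul_inv_cancel, map_one]
    have hadj : (ρ h).det • ρ h⁻¹ = (ρ h).adjugate := by
      rw [← one_mul (ρ h⁻¹), ← smul_mul_assoc, ← adjugate_mul, mul_assoc, h1, mul_one]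
    rw [map_mul, map_mul, ← smul_eq_mul (ρ h).det, ← Matrix.trace_smul, ← mul_smul_comm, hadj,
      Matrix.adjugate_fin_two]
    simp [Matrix.trace_fin_two, Matrix.mul_apply, Fin.sum_univ_two]
    ring

@[simp] theorem charOfHom_tr (ρ : G →* Matrix (Fin 2) (Fin 2) k) (g : G) :
    (charOfHom ρ).tr g = (ρ g).trace := rfl

@[simp] theorem charOfHom_det (ρ : G →* Matrix (Fin 2) (Fin 2) k) (g : G) :
    (charOfHom ρ).det g = (ρ g).det := rfl

end Algebraic

/-- An involution of determinant `-1` has trace zero. -/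
theorem trace_eq_zero_of_involution {k : Type*} [Field k] {m : Matrix (Fin 2) (Fin 2) k}
    (h : m * m = 1) (hd : m.det = -1) : m.trace = 0 := by
  have e : ∀ i j, (m * m) i j = (1 : Matrix (Fin 2) (Fin 2) k) i j := fun i j => by rw [h]
  have e00 := e 0 0
  have e01 := e 0 1
  have e10 := e 1 0
  have e11 := e 1 1
  simp [Matrix.mul_apply, Fin.sum_univ_two] at e00 e01 e10 e11
  rw [Matrix.det_fin_two] at hd
  rw [Matrix.trace_fin_two]
  by_contra hne
  have h0 : m 0 0 * (m 0 0 + m 1 1) = 0 := by linear_combination e00 + hd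
  have h1 : m 1 1 * (m 0 0 + m 1 1) = 0 := by linear_combination e11 + hd
  rcases mul_eq_zero.mp h0 with h0 | h0
  · rcases mul_eq_zero.mp h1 with h1 | h1
    · exact hne (by rw [h0, h1, add_zero])
    · exact hne h1
  · exact hne h0

/-- A representation whose entries are combinations of translates of its trace has small image if
most traces lie in a small set. -/
theorem card_le_of_traces {G : Type*} [Group G] [Fintype G] {k : Type*} [Field k]
    (ρ : G →* Matrix (Fin 2) (Fin 2) k) (hinj : Function.Injective ρ)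
    (hspan : ∀ i j, (fun g => ρ g i j) ∈
      Submodule.span k (Set.range fun w : G => fun g => (ρ (w * g)).trace))
    (good : Finset G) (X : Finset k) (hX : ∀ g ∈ good, (ρ g).trace ∈ X) (hX0 : X.Nonempty) :
    Fintype.card G ≤ X.card ^ 4 + 4 * (Fintype.card G - good.card) := by
  classical
  set u : G → G → k := fun w g => (ρ (w * g)).trace
  obtain ⟨b, hb, hbspan, hbli⟩ := exists_linearIndependent k (Set.range u)
  have hbfin : b.Finite := (Set.finite_range u).subset hb
  have := hbfin.fintype
  let entries : Fin 2 × Fin 2 → (G → k) := fun q g => ρ g q.1 q.2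
  have hle : Submodule.span k b ≤ Submodule.span k (Set.range entries) := by
    rw [hbspan, Submodule.span_le]
    rintro _ ⟨w, rfl⟩
    have h : u w = ∑ q : Fin 2 × Fin 2, ρ w q.2 q.1 • entries q := by
      funext g
      simp only [u, map_mul, Matrix.trace_fin_two, Matrix.mul_apply, Fin.sum_univ_two,
        Fintype.sum_prod_type, Finset.sum_apply, Pi.smul_apply, smul_eq_mul, entries]
      ring
    rw [h]
    exact Submodule.sum_mem _ fun q _ => Submodule.smul_mem _ _ (Submodule.subset_span ⟨q, rfl⟩)
  have hcard : Fintype.card b ≤ 4 := by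
    refine le_trans (le_of_eq ?_) ((Submodule.finrank_mono hle).trans
      ((finrank_range_le_card (R := k) entries).trans (by simp)))
    rw [finrank_span_set_eq_card hbli, Set.toFinset_card]
  have hw : ∀ x : b, ∃ w : G, u w = (x : G → k) := fun x => hb x.2
  choose w hw using hw
  set S' : Finset G := Finset.univ.filter fun g => ∀ x : b, w x * g ∈ good
  have h1 : S'.card ≤ X.card ^ 4 := by
    refine le_trans ?_ (Nat.pow_le_pow_right hX0.card_pos hcard)
    rw [show X.card ^ Fintype.card b = (Fintype.piFinset fun _ : b => X).card by simp]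
    refine Finset.card_le_card_of_injOn (fun g x => u (w x) g) (fun g hg => ?_) ?_
    · exact Fintype.mem_piFinset.mpr fun x => hX _ ((Finset.mem_filter.mp hg).2 x)
    · intro g _ g' _ he
      refine hinj (Matrix.ext fun i j => ?_)
      have hall : ∀ F ∈ Submodule.span k b, F g = F g' := by
        intro F hF
        induction hF using Submodule.span_induction with
        | mem F hF =>
          have h := congrFun he ⟨F, hF⟩
          simp only [hw] at h
          exact h
        | zero => rfl
        | add x y _ _ hx hy => simp only [Pi.add_apply, hx, hy]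
        | smul c x _ hx => simp only [Pi.smul_apply, hx]
      exact hall _ (hbspan ▸ hspan i j)
  have h2 : Finset.univ \ S' ⊆ Finset.univ.biUnion fun x : b =>
      (Finset.univ \ good).image fun h => (w x)⁻¹ * h := by
    intro g hg
    simp only [S', Finset.mem_sdiff, Finset.mem_univ, Finset.mem_filter, true_and, not_forall] at hg
    obtain ⟨x, hx⟩ := hg
    exact Finset.mem_biUnion.mpr ⟨x, Finset.mem_univ _,
      Finset.mem_image.mpr ⟨w x * g, by simp [hx], by simp⟩⟩
  have h3 : (Finset.univ \ S').card ≤ 4 * (Fintype.card G - good.card) := by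
    refine (Finset.card_le_card h2).trans (Finset.card_biUnion_le.trans ?_)
    refine (Finset.sum_le_card_nsmul _ _ (Fintype.card G - good.card) fun x _ =>
      Finset.card_image_le.trans (by rw [Finset.card_univ_sdiff])).trans ?_
    rw [Finset.card_univ, smul_eq_mul]
    exact Nat.mul_le_mul_right _ hcard
  rw [Finset.card_univ_sdiff] at h3
  omega

/-- An upper bound for the series over Frobenius elements bounds the mean. -/
theorem mean_le {G : Type*} [Group G] [Fintype G] (π : GG →* G) (hπ : Function.Surjective π)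
    (L₀ : IntermediateField ℚ QQb) [FiniteDimensional ℚ L₀]
    (hL₀ : ∀ σ : GG, (∀ x ∈ L₀, σ x = x) → π σ = 1) (S : Finset ℕ)
    (f : G → ℝ) (B : ℝ) (h0 : ∀ g, 0 ≤ f g) (hB : ∀ g, f g ≤ B)
    (hconj : ∀ x g, f (x * g * x⁻¹) = f g) (hinv : ∀ g, f g⁻¹ = f g)
    (b : Nat.Primes → ℝ) (B' : ℝ) (hb0 : ∀ p, 0 ≤ b p) (hbB : ∀ p, b p ≤ B') (c C : ℝ)
    (hb : ∀ᶠ s in 𝓝[>] (1 : ℝ),
      ∑' p : Nat.Primes, b p * (p : ℝ) ^ (-s) ≤ c * (-Real.log (s - 1)) + C)
    (hle : ∀ p : Nat.Primes, (p : ℕ) ∉ S → ∀ V : ValuationSubring QQb, V.LiesOverPrime p →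
      ∀ σ : GG, V.IsFrobeniusAt σ p → f (π σ) ≤ b p) :
    (∑ g, f g) / Nat.card G ≤ c := by
  classical
  have hex : ∀ p : Nat.Primes, ∃ σ : GG,
      ∃ V : ValuationSubring QQb, V.LiesOverPrime p ∧ V.IsFrobeniusAt σ p := fun p => by
    obtain ⟨V, hV⟩ := Frobenius.exists_liesOverPrime (p : ℕ) p.2
    obtain ⟨σ, hσ⟩ := Frobenius.exists_isFrobeniusAt V p p.2 hV
    exact ⟨σ, V, hV, hσ⟩
  choose fr hfr using hex
  set m := (∑ g, f g) / Nat.card G
  by_contra hlt
  push Not at hlt
  have hlow := frobenius_series_lower π hπ L₀ hL₀ fr S (fun p _ => hfr p) f h0 hconj hinv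
    (δ := (m - c) / 2) (by linarith)
  set bad : Finset Nat.Primes := S.subtype Nat.Prime
  have hB0 : 0 ≤ B := (h0 1).trans (hB 1)
  have hbnd : ∀ᶠ s in 𝓝[>] (1 : ℝ), (m - c) / 2 * (-Real.log (s - 1)) ≤ C + bad.card * B := by
    filter_upwards [hlow, hb, self_mem_nhdsWithin] with s h1 h2 hs
    simp only [Set.mem_Ioi] at hs
    have hP := Frobenius.summable_primes_rpow hs
    have hr : ∀ p : Nat.Primes, 0 ≤ (p : ℝ) ^ (-s) := fun p => Real.rpow_nonneg (Nat.cast_nonneg _) _
    have sb : Summable fun p : Nat.Primes => b p * (p : ℝ) ^ (-s) :=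
      Summable.of_nonneg_of_le (fun p => mul_nonneg (hb0 p) (hr p))
        (fun p => mul_le_mul_of_nonneg_right (hbB p) (hr p)) (hP.mul_left B')
    have sf : Summable fun p : Nat.Primes => f (π (fr p)) * (p : ℝ) ^ (-s) :=
      Summable.of_nonneg_of_le (fun p => mul_nonneg (h0 _) (hr p))
        (fun p => mul_le_mul_of_nonneg_right (hB _) (hr p)) (hP.mul_left B)
    have se : Summable fun p : Nat.Primes => if p ∈ bad then B else 0 :=
      summable_of_ne_finset_zero (s := bad) fun p hp => if_neg hp
    have h3 : ∑' p : Nat.Primes, f (π (fr p)) * (p : ℝ) ^ (-s) ≤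
        ∑' p : Nat.Primes, b p * (p : ℝ) ^ (-s) + bad.card * B := by
      have h4 : ∑' p : Nat.Primes, (if p ∈ bad then B else 0) = bad.card * B := by
        rw [tsum_eq_sum (s := bad) fun p hp => if_neg hp, Finset.sum_congr rfl fun p hp => if_pos hp,
          Finset.sum_const, nsmul_eq_mul]
      rw [← h4, ← sb.tsum_add se]
      refine sf.tsum_le_tsum (fun p => ?_) (sb.add se)
      by_cases hp : p ∈ bad
      · rw [if_pos hp]
        refine le_add_of_nonneg_of_le (mul_nonneg (hb0 p) (hr p)) ?_
        exact (mul_le_of_le_one_right (h0 _) (Real.rpow_le_one_of_one_le_of_nonpos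
          (Nat.one_le_cast.mpr p.2.one_le) (by linarith))).trans (hB _)
      · rw [if_neg hp, add_zero]
        obtain ⟨V, hV, hσ⟩ := hfr p
        exact mul_le_mul_of_nonneg_right
          (hle p (fun h => hp (Finset.mem_subtype.mpr h)) V hV _ hσ) (hr p)
    nlinarith
  obtain ⟨s, hs1, hs2⟩ := (hbnd.and (tendsto_log_sub_one.eventually
    (eventually_le_atBot (-((C + bad.card * B) / ((m - c) / 2)) - 1)))).exists
  have hpos : 0 < (m - c) / 2 := by linarith
  have h5 : (m - c) / 2 * ((C + bad.card * B) / ((m - c) / 2) + 1) ≤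
      (m - c) / 2 * (-Real.log (s - 1)) := mul_le_mul_of_nonneg_left (by linarith) hpos.le
  rw [mul_add, mul_div_cancel₀ _ hpos.ne', mul_one] at h5
  linarith

end FLTAgent.DeligneSerre
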