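import Fermat.Agent.DeligneSerre.Translate

/-!
# Twisted zeta functions stay bounded at `1`

If a Dirichlet character is not trivial on the norm of some ideal prime to its modulus, then the sum
of `ψ(N I) N I^{-s}` over all ideals stays bounded as `s` tends to `1` from the right.
-/

set_option autoImplicit false

noncomputable section

set_option maxHeartbeats 400000

namespace FLTAgent.DeligneSerre

open NumberField Module Ideal Filter FLTAgent.Frobenius
open scoped Classical Topology nonZeroDivisors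

variable {K : Type} [Field K] [NumberField K]

/-! ### Sums over all ideals -/

variable (K) in
/-- The series of norms of ideals converges for `s > 1`. -/
theorem summable_absNorm {s : ℝ} (hs : 1 < s) :
    Summable fun I : Ideal (𝓞 K) => (absNorm I : ℝ) ^ (-s) := by
  haveI := fun n => Frobenius.finite_idealsOfNorm K n
  refine (Equiv.sigmaFiberEquiv fun I : Ideal (𝓞 K) => absNorm I).summable_iff.mp
    ((summable_sigma_of_nonneg fun x => Real.rpow_nonneg (Nat.cast_nonneg _) _).mpr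
      ⟨fun n => Summable.of_finite, (summable_idealCount K hs).congr fun n => ?_⟩)
  haveI : Fintype {I : Ideal (𝓞 K) // absNorm I = n} := Fintype.ofFinite _
  rw [tsum_fintype, idealCount, Nat.card_eq_fintype_card, ← nsmul_eq_mul, ← Finset.card_univ,
    ← Finset.sum_const]
  exact Finset.sum_congr rfl fun I _ => by
    simp only [Function.comp_apply, Equiv.sigmaFiberEquiv_apply, I.2]

variable {m : ℕ} [NeZero m] (ψ : DirichletCharacter ℂ m)

/-- The term of an ideal. -/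
def idealTerm (s : ℝ) (I : Ideal (𝓞 K)) : ℂ :=
  ψ (absNorm I : ZMod m) * (((absNorm I : ℝ) ^ (-s) : ℝ) : ℂ)

theorem norm_idealTerm_le (s : ℝ) (I : Ideal (𝓞 K)) :
    ‖idealTerm ψ s I‖ ≤ (absNorm I : ℝ) ^ (-s) := norm_char_mul_rpow_le ψ _ _

theorem summable_idealTerm {s : ℝ} (hs : 1 < s) : Summable (idealTerm (K := K) ψ s) :=
  Summable.of_norm_bounded (summable_absNorm K hs) fun I => norm_idealTerm_le ψ s I

theorem idealTerm_bot {s : ℝ} (hs : 0 < s) : idealTerm (K := K) ψ s ⊥ = 0 := by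
  simp [idealTerm, Real.zero_rpow (show -s ≠ 0 by linarith)]

/-! ### Principal multiples of an ideal -/

variable (J : (Ideal (𝓞 K))⁰)

/-- The ideals in the class inverse to that of `J`. -/
abbrev InvClass : Type := {I : (Ideal (𝓞 K))⁰ // ClassGroup.mk0 I = (ClassGroup.mk0 J)⁻¹}

/-- A generator of `I J`. -/
def genOf (X : InvClass J) : 𝓞 K := (ClassGroup.mk0_eq_mk0_inv_iff.mp X.2).choose

theorem genOf_ne_zero (X : InvClass J) : genOf J X ≠ 0 :=
  (ClassGroup.mk0_eq_mk0_inv_iff.mp X.2).choose_spec.1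

theorem span_genOf (X : InvClass J) :
    span {genOf J X} = (J : Ideal (𝓞 K)) * (X.1 : Ideal (𝓞 K)) := by
  rw [mul_comm]
  exact (ClassGroup.mk0_eq_mk0_inv_iff.mp X.2).choose_spec.2.symm

/-- The elements of `J` as unit multiples of the generators. -/
def unitMul (p : InvClass J × (𝓞 K)ˣ) : (J : Ideal (𝓞 K)) :=
  ⟨(p.2 : 𝓞 K) * genOf J p.1, (J : Ideal (𝓞 K)).mul_mem_left _ (by
    exact Ideal.mul_le_left ((span_genOf J p.1).le (Ideal.subset_span rfl)))⟩

theorem span_unitMul (p : InvClass J × (𝓞 K)ˣ) :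
    span {((unitMul J p : (J : Ideal (𝓞 K))) : 𝓞 K)} =
      (J : Ideal (𝓞 K)) * (p.1.1 : Ideal (𝓞 K)) := by
  rw [unitMul, Ideal.span_singleton_mul_left_unit p.2.isUnit, span_genOf]

theorem J_ne_bot : (J : Ideal (𝓞 K)) ≠ ⊥ := nonZeroDivisors.coe_ne_zero J

theorem qnorm_unitMul (p : InvClass J × (𝓞 K)ˣ) :
    qnorm (J : Ideal (𝓞 K)) ((unitMul J p : (J : Ideal (𝓞 K))) : 𝓞 K) =
      absNorm (p.1.1 : Ideal (𝓞 K)) :=
  qnorm_eq_of_span (J_ne_bot J) (span_unitMul J p)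

theorem unitMul_injective : Function.Injective (unitMul J) := by
  intro p q h
  have h1 := span_unitMul J p
  rw [h, span_unitMul] at h1
  have hI : p.1 = q.1 := Subtype.ext (Subtype.ext (mul_left_cancel₀ (J_ne_bot J) h1.symm))
  refine Prod.ext hI (Units.ext (mul_right_cancel₀ (genOf_ne_zero J p.1) ?_))
  have h2 := congrArg Subtype.val h
  simp only [unitMul, hI] at h2 ⊢
  exact h2

theorem exists_unitMul {b : (J : Ideal (𝓞 K))} (hb : (b : 𝓞 K) ≠ 0) :
    b ∈ Set.range (unitMul J) := by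
  obtain ⟨I, hI⟩ : (J : Ideal (𝓞 K)) ∣ span {(b : 𝓞 K)} :=
    Ideal.dvd_iff_le.mpr ((span_singleton_le_iff_mem _).mpr b.2)
  have hI0 : I ≠ ⊥ := fun h => hb (by
    rwa [h, Ideal.mul_bot, span_singleton_eq_bot] at hI)
  let X : InvClass J := ⟨⟨I, mem_nonZeroDivisors_of_ne_zero hI0⟩,
    ClassGroup.mk0_eq_mk0_inv_iff.mpr ⟨b, hb, by rw [hI, mul_comm]⟩⟩
  have h : span {genOf J X} = span {(b : 𝓞 K)} := by rw [span_genOf, hI]
  obtain ⟨u, hu⟩ := Ideal.span_singleton_eq_span_singleton.mp h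
  exact ⟨⟨X, u⟩, Subtype.ext (by rw [unitMul]; simp only [← hu]; ring)⟩

theorem support_subset_range {M : Type*} [Zero M] {F : 𝓞 K → M} (hF : F 0 = 0) :
    Function.support (fun b : (J : Ideal (𝓞 K)) => F (b : 𝓞 K)) ⊆ Set.range (unitMul J) :=
  fun b hb => exists_unitMul J fun h => hb (by simp only [h, hF])

/-- The weighted majorant on the comparable elements. -/
def majorant (B : ℝ) (J : Ideal (𝓞 K)) (b : 𝓞 K) : ℝ :=
  if Comparable B (b : K) then (qnorm J b : ℝ) ^ (-tExp K) else 0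

theorem summable_majorant (B : ℝ) :
    Summable fun b : (J : Ideal (𝓞 K)) => majorant B (J : Ideal (𝓞 K)) (b : 𝓞 K) := by
  have h0 : majorant B (J : Ideal (𝓞 K)) (0 : 𝓞 K) = 0 := if_neg fun h => h.1 (map_zero _)
  have hnn : ∀ b : 𝓞 K, 0 ≤ majorant B (J : Ideal (𝓞 K)) b := fun b => by
    unfold majorant
    split_ifs
    · exact Real.rpow_nonneg (Nat.cast_nonneg _) _
    · exact le_rfl
  rw [← (unitMul_injective J).summable_iff (Function.support_subset_iff'.mp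
    (support_subset_range J h0))]
  set S := (finite_units_bounded (K := K) (2 * B)).toFinset
  refine (summable_prod_of_nonneg fun p => hnn _).mpr ?_
  have hfin : ∀ X : InvClass J, ∃ T : Finset (𝓞 K)ˣ, T.card ≤ S.card ∧
      ∀ u ∉ T, majorant B (J : Ideal (𝓞 K)) ((unitMul J (X, u) : (J : Ideal (𝓞 K))) : 𝓞 K) = 0 := by
    intro X
    by_cases h : ∃ u₀ : (𝓞 K)ˣ, Comparable B ((u₀ : 𝓞 K) * genOf J X : K)
    · obtain ⟨u₀, hu₀⟩ := h
      refine ⟨S.image fun u => u * u₀, Finset.card_image_le, fun u hu => if_neg fun hc => hu ?_⟩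
      refine Finset.mem_image.mpr ⟨u * u₀⁻¹, ?_, by group⟩
      simp only [S, Set.Finite.mem_toFinset, Set.mem_setOf_eq]
      intro w
      have hg : ((genOf J X : 𝓞 K) : K) ≠ 0 := by simpa using genOf_ne_zero J X
      have hc' : Comparable B ((u : 𝓞 K) * genOf J X : K) := by simpa [unitMul] using hc
      have h1 := (abs_le.mp (hc'.2 w))
      have h2 := (abs_le.mp (hu₀.2 w))
      rw [bal_unit_mul _ _ hg] at h1 h2
      have hlog : Real.log (w (((u * u₀⁻¹ : (𝓞 K)ˣ) : 𝓞 K) : K)) =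
          Real.log (w ((u : 𝓞 K) : K)) - Real.log (w ((u₀ : 𝓞 K) : K)) := by
        have : ((u * u₀⁻¹ : (𝓞 K)ˣ) : 𝓞 K) * (u₀ : 𝓞 K) = (u : 𝓞 K) := by
          rw [← Units.val_mul, inv_mul_cancel_right]
        have h2 : w ((u : 𝓞 K) : K) =
            w (((u * u₀⁻¹ : (𝓞 K)ˣ) : 𝓞 K) : K) * w ((u₀ : 𝓞 K) : K) := by
          rw [← map_mul, ← map_mul, this]
        rw [h2, Real.log_mul (Units.pos_at_place _ w).ne' (Units.pos_at_place _ w).ne']
        ring
      rw [hlog]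
      exact abs_le.mpr ⟨by linarith, by linarith⟩
    · push Not at h
      exact ⟨∅, Nat.zero_le _, fun u _ => if_neg fun hc => h u (by simpa [unitMul] using hc)⟩
  choose T hT hT0 using hfin
  refine ⟨fun X => summable_of_ne_finset_zero (hT0 X), ?_⟩
  refine Summable.of_nonneg_of_le (fun X => tsum_nonneg fun u => hnn _) (fun X => ?_)
    (((summable_absNorm K (one_lt_tExp (K := K))).comp_injective
      (Subtype.val_injective.comp Subtype.val_injective :
        Function.Injective fun X : InvClass J => (X.1 : Ideal (𝓞 K)))).mul_left (S.card : ℝ))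
  simp only [Function.comp_apply]
  rw [tsum_eq_sum (hT0 X)]
  refine (Finset.sum_le_card_nsmul _ _ ((absNorm (X.1 : Ideal (𝓞 K)) : ℝ) ^ (-tExp K))
    fun u _ => ?_).trans ?_
  · simp only [majorant, qnorm_unitMul]
    split_ifs
    · exact le_rfl
    · exact Real.rpow_nonneg (Nat.cast_nonneg _) _
  · rw [nsmul_eq_mul]
    exact mul_le_mul_of_nonneg_right (by exact_mod_cast hT X) (Real.rpow_nonneg (Nat.cast_nonneg _) _)

/-! ### The class sums -/

theorem wTerm_zero (s : ℝ) : wTerm ψ (J : Ideal (𝓞 K)) s 0 = 0 := by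
  simp [wTerm, weight_zero]

theorem summable_wTerm_prod {s : ℝ} (hs : 1 < s) :
    Summable fun p : InvClass J × (𝓞 K)ˣ =>
      wTerm ψ (J : Ideal (𝓞 K)) s ((unitMul J p : (J : Ideal (𝓞 K))) : 𝓞 K) := by
  refine Summable.of_norm_bounded (g := fun p : InvClass J × (𝓞 K)ˣ =>
    weight (((p.2 : 𝓞 K) : K) * (genOf J p.1 : K)) * (absNorm (p.1.1 : Ideal (𝓞 K)) : ℝ) ^ (-s))
    ?_ fun p => ?_
  · refine (summable_prod_of_nonneg fun p => mul_nonneg (weight_nonneg _)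
      (Real.rpow_nonneg (Nat.cast_nonneg _) _)).mpr ?_
    have hg : ∀ X : InvClass J, ((genOf J X : 𝓞 K) : K) ≠ 0 := fun X => by
      simpa using genOf_ne_zero J X
    refine ⟨fun X => (hasSum_weight_units (hg X)).summable.mul_right
      ((absNorm (X.1 : Ideal (𝓞 K)) : ℝ) ^ (-s)), ?_⟩
    simp only [tsum_mul_right, fun X => (hasSum_weight_units (hg X)).tsum_eq, one_mul]
    exact (summable_absNorm K hs).comp_injective
      (Subtype.val_injective.comp Subtype.val_injective :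
        Function.Injective fun X : InvClass J => (X.1 : Ideal (𝓞 K)))
  · rw [wTerm, norm_mul, Complex.norm_real, Real.norm_of_nonneg (weight_nonneg _)]
    refine mul_le_mul (le_of_eq (by simp [unitMul])) ?_ (norm_nonneg _) (weight_nonneg _)
    rw [← qnorm_unitMul J p]
    exact norm_elemTerm_le ψ _ s _

theorem summable_wTerm {s : ℝ} (hs : 1 < s) :
    Summable fun b : (J : Ideal (𝓞 K)) => wTerm ψ (J : Ideal (𝓞 K)) s (b : 𝓞 K) := by
  rw [← (unitMul_injective J).summable_iff (Function.support_subset_iff'.mp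
    (support_subset_range J (wTerm_zero ψ J s)))]
  exact summable_wTerm_prod ψ J hs

/-- The smoothed sum over `J` is the sum over the inverse class. -/
theorem tsum_wTerm {s : ℝ} (hs : 1 < s) :
    ∑' b : (J : Ideal (𝓞 K)), wTerm ψ (J : Ideal (𝓞 K)) s (b : 𝓞 K) =
      ∑' X : InvClass J, idealTerm ψ s (X.1 : Ideal (𝓞 K)) := by
  rw [← (unitMul_injective J).tsum_eq (support_subset_range J (wTerm_zero ψ J s)),
    (summable_wTerm_prod ψ J hs).tsum_prod]
  refine tsum_congr fun X => ?_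
  have hg : ((genOf J X : 𝓞 K) : K) ≠ 0 := by simpa using genOf_ne_zero J X
  have h1 : ∀ u : (𝓞 K)ˣ, wTerm ψ (J : Ideal (𝓞 K)) s ((unitMul J (X, u) : (J : Ideal (𝓞 K))) : 𝓞 K) =
      ((weight (((u : 𝓞 K) : K) * (genOf J X : K)) : ℝ) : ℂ) *
        idealTerm ψ s (X.1 : Ideal (𝓞 K)) := by
    intro u
    rw [wTerm, elemTerm, qnorm_unitMul, idealTerm]
    simp [unitMul]
  simp only [h1, tsum_mul_right, ← Complex.ofReal_tsum, (hasSum_weight_units hg).tsum_eq,
    Complex.ofReal_one, one_mul]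

/-! ### The functional relation between classes -/

/-- The sum over the inverse class of `J`. -/
def classSum (s : ℝ) : ℂ := ∑' X : InvClass J, idealTerm ψ s (X.1 : Ideal (𝓞 K))

variable (P : (Ideal (𝓞 K))⁰)

/-- The multiples of `P` in `J`, as a subgroup of `J`. -/
def subMul : AddSubgroup (J : Ideal (𝓞 K)) :=
  ((J : Ideal (𝓞 K)) * (P : Ideal (𝓞 K))).toAddSubgroup.comap
    ((J : Ideal (𝓞 K)).subtype.toAddMonoidHom)

theorem mem_subMul {b : (J : Ideal (𝓞 K))} :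
    b ∈ subMul J P ↔ (b : 𝓞 K) ∈ (J : Ideal (𝓞 K)) * (P : Ideal (𝓞 K)) := Iff.rfl

theorem card_subMul_quotient :
    Nat.card ((J : Ideal (𝓞 K)) ⧸ subMul J P) = absNorm (P : Ideal (𝓞 K)) := by
  have h1 : Nat.card ((J : Ideal (𝓞 K)) ⧸ subMul J P) =
      ((J : Ideal (𝓞 K)) * (P : Ideal (𝓞 K))).toAddSubgroup.relIndex
        (J : Ideal (𝓞 K)).toAddSubgroup := rfl
  have hle : (J : Ideal (𝓞 K)) * (P : Ideal (𝓞 K)) ≤ (J : Ideal (𝓞 K)) := Ideal.mul_le_left
  have h2 := AddSubgroup.relIndex_mul_index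
    (H := ((J : Ideal (𝓞 K)) * (P : Ideal (𝓞 K))).toAddSubgroup)
    (K := (J : Ideal (𝓞 K)).toAddSubgroup) (fun z hz => hle hz)
  have h3 : ∀ I : Ideal (𝓞 K), I.toAddSubgroup.index = absNorm I := fun I => by
    rw [absNorm_apply, Submodule.cardQuot_apply]; rfl
  rw [h3, h3, map_mul] at h2
  rw [h1]
  exact Nat.eq_of_mul_eq_mul_left (absNorm_pos (J_ne_bot J)) (by rw [← h2]; ring)

theorem exists_rep_mul (hP : (absNorm (P : Ideal (𝓞 K))).Coprime m)
    (c : (J : Ideal (𝓞 K)) ⧸ subMul J P) : ∃ (x : 𝓞 K) (hx : x ∈ (J : Ideal (𝓞 K))),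
      (QuotientAddGroup.mk (⟨(m : 𝓞 K) * x, (J : Ideal (𝓞 K)).mul_mem_left _ hx⟩ :
        (J : Ideal (𝓞 K))) : (J : Ideal (𝓞 K)) ⧸ subMul J P) = c := by
  obtain ⟨a, rfl⟩ := QuotientAddGroup.mk_surjective c
  obtain ⟨u, v, huv⟩ := Int.isCoprime_iff_nat_coprime.mpr
    (by simpa using hP : (absNorm (P : Ideal (𝓞 K)) : ℤ).natAbs.Coprime (m : ℤ).natAbs)
  refine ⟨(v : 𝓞 K) * a, (J : Ideal (𝓞 K)).mul_mem_left _ a.2, QuotientAddGroup.eq.mpr ?_⟩
  rw [mem_subMul, Submodule.coe_add, Submodule.coe_neg]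
  have : -((m : 𝓞 K) * ((v : 𝓞 K) * a)) + (a : 𝓞 K) =
      (a : 𝓞 K) * ((u : 𝓞 K) * (absNorm (P : Ideal (𝓞 K)) : 𝓞 K)) := by
    have h1 : (u : 𝓞 K) * (absNorm (P : Ideal (𝓞 K)) : 𝓞 K) + (v : 𝓞 K) * (m : 𝓞 K) = 1 := by
      exact_mod_cast congrArg (Int.cast : ℤ → 𝓞 K) huv
    linear_combination (-(a : 𝓞 K)) * h1
  rw [this]
  exact Ideal.mul_mem_mul a.2 ((P : Ideal (𝓞 K)).mul_mem_left _ (absNorm_mem _))

theorem majorant_nonneg (B : ℝ) (J : Ideal (𝓞 K)) (z : 𝓞 K) : 0 ≤ majorant B J z := by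
  unfold majorant
  split_ifs
  · exact Real.rpow_nonneg (Nat.cast_nonneg _) _
  · exact le_rfl

/-- A translation by `m x` changes the smoothed sum over any subset by a bounded amount. -/
theorem exists_translate_bound {x : 𝓞 K} (hx : x ∈ (J : Ideal (𝓞 K))) :
    ∃ C : ℝ, ∀ s : ℝ, 1 < s → s ≤ 2 → ∀ S : AddSubgroup (J : Ideal (𝓞 K)),
      ‖∑' b : S, wTerm ψ (J : Ideal (𝓞 K)) s (((b : (J : Ideal (𝓞 K))) : 𝓞 K) + (m : 𝓞 K) * x) -
          ∑' b : S, wTerm ψ (J : Ideal (𝓞 K)) s ((b : (J : Ideal (𝓞 K))) : 𝓞 K)‖ ≤ C := by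
  obtain ⟨B, -, hB⟩ := exists_comparable_of_weight K
  obtain ⟨C, hC0, hC⟩ := exists_pointwise_bound K ψ (J_ne_bot J) B hx
  obtain ⟨C', hC0', hC'⟩ := exists_pointwise_bound K ψ (J_ne_bot J) B
    ((J : Ideal (𝓞 K)).neg_mem hx)
  set mj : ↥(J : Ideal (𝓞 K)) → ℝ := fun b => majorant B (J : Ideal (𝓞 K)) (b : 𝓞 K) with hmj
  set δ : (J : Ideal (𝓞 K)) := ⟨(m : 𝓞 K) * x, (J : Ideal (𝓞 K)).mul_mem_left _ hx⟩ with hδ
  refine ⟨(C + C') * ∑' b, mj b, fun s hs hs2 S => ?_⟩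
  set h : ↥(J : Ideal (𝓞 K)) → ℂ := fun b => wTerm ψ (J : Ideal (𝓞 K)) s (b : 𝓞 K) with hh
  have hpoint : ∀ b, ‖h (b + δ) - h b‖ ≤ C * mj b + C' * mj (b + δ) := by
    intro b
    have hz : ∀ z : 𝓞 K, ¬ Comparable B (z : K) → wTerm ψ (J : Ideal (𝓞 K)) s z = 0 := fun z hz => by
      rw [wTerm, (not_not.mp fun h => hz (hB _ h) : weight (z : K) = 0)]
      simp
    simp only [h, mj, hδ, Submodule.coe_add]
    by_cases hb : Comparable B ((b : 𝓞 K) : K)
    · refine (hC s hs hs2 b b.2 hb).trans ?_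
      rw [majorant, if_pos hb]
      exact le_add_of_nonneg_right (mul_nonneg hC0' (majorant_nonneg B _ _))
    by_cases hb' : Comparable B (((b : 𝓞 K) + (m : 𝓞 K) * x : 𝓞 K) : K)
    · have h := hC' s hs hs2 _ (add_mem b.2 ((J : Ideal (𝓞 K)).mul_mem_left _ hx)) hb'
      rw [mul_neg, add_neg_cancel_right, norm_sub_rev] at h
      refine h.trans ?_
      simp only [majorant, if_pos hb']
      exact le_add_of_nonneg_left (mul_nonneg hC0 (majorant_nonneg B _ _))
    rw [hz _ hb, hz _ hb', sub_zero, norm_zero]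
    exact add_nonneg (mul_nonneg hC0 (majorant_nonneg B _ _))
      (mul_nonneg hC0' (majorant_nonneg B _ _))
  have hsum : Summable h := summable_wTerm ψ J hs
  have hS : Function.Injective fun b : S => (b : (J : Ideal (𝓞 K))) := Subtype.val_injective
  have hsumS : Summable fun b : S => h (b : (J : Ideal (𝓞 K))) := hsum.comp_injective hS
  have hsumδ : Summable fun b : S => h ((b : (J : Ideal (𝓞 K))) + δ) :=
    hsum.comp_injective ((add_left_injective δ).comp hS)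
  have hm1 : Summable mj := summable_majorant J B
  have hm2 : Summable fun b => mj (b + δ) := hm1.comp_injective (add_left_injective δ)
  have hM : Summable fun b => C * mj b + C' * mj (b + δ) := (hm1.mul_left _).add (hm2.mul_left _)
  have hD : Summable fun b => ‖h (b + δ) - h b‖ :=
    Summable.of_nonneg_of_le (fun _ => norm_nonneg _) hpoint hM
  have hstep : ∑' b : S, ‖h ((b : (J : Ideal (𝓞 K))) + δ) - h b‖ ≤ (C + C') * ∑' b, mj b := by
    refine (tsum_comp_le_tsum_of_inj hD (fun _ => norm_nonneg _) hS).trans ?_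
    refine (hD.tsum_le_tsum hpoint hM).trans (le_of_eq ?_)
    rw [Summable.tsum_add (hm1.mul_left _) (hm2.mul_left _), tsum_mul_left, tsum_mul_left, add_mul,
      show ∑' b, mj (b + δ) = ∑' b, mj b from (Equiv.addRight δ).tsum_eq mj]
  show ‖∑' b : S, h ((b : (J : Ideal (𝓞 K))) + δ) - ∑' b : S, h b‖ ≤ _
  rw [← hsumδ.tsum_sub hsumS]
  exact (norm_tsum_le_tsum_norm (hD.comp_injective hS)).trans hstep

/-- The smoothed sum over the multiples of `P` in `J`. -/
theorem tsum_subMul {s : ℝ} (hs : 1 < s) :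
    ψ (absNorm (P : Ideal (𝓞 K)) : ZMod m) *
        (((absNorm (P : Ideal (𝓞 K)) : ℝ) ^ (1 - s) : ℝ) : ℂ) * classSum ψ (J * P) s =
      (absNorm (P : Ideal (𝓞 K)) : ℂ) *
        ∑' b : subMul J P, wTerm ψ (J : Ideal (𝓞 K)) s ((b : (J : Ideal (𝓞 K))) : 𝓞 K) := by
  have hJP : ((J * P : (Ideal (𝓞 K))⁰) : Ideal (𝓞 K)) =
      (J : Ideal (𝓞 K)) * (P : Ideal (𝓞 K)) := rfl
  have hle : (J : Ideal (𝓞 K)) * (P : Ideal (𝓞 K)) ≤ (J : Ideal (𝓞 K)) := Ideal.mul_le_left
  rw [classSum, ← tsum_wTerm ψ (J * P) hs]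
  let e : subMul J P ≃ ((J * P : (Ideal (𝓞 K))⁰) : Ideal (𝓞 K)) :=
    { toFun := fun b => ⟨((b : (J : Ideal (𝓞 K))) : 𝓞 K), b.2⟩
      invFun := fun b => ⟨⟨(b : 𝓞 K), hle b.2⟩, b.2⟩
      left_inv := fun b => rfl
      right_inv := fun b => rfl }
  rw [← e.tsum_eq, ← tsum_mul_left, ← tsum_mul_left]
  refine tsum_congr fun b => ?_
  have hPpos : (0 : ℝ) < absNorm (P : Ideal (𝓞 K)) := by
    exact_mod_cast absNorm_pos (nonZeroDivisors.coe_ne_zero P)
  have hq : qnorm (J : Ideal (𝓞 K)) ((b : (J : Ideal (𝓞 K))) : 𝓞 K) = absNorm (P : Ideal (𝓞 K)) *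
      qnorm ((J : Ideal (𝓞 K)) * (P : Ideal (𝓞 K))) ((b : (J : Ideal (𝓞 K))) : 𝓞 K) := by
    have hb : ((b : (J : Ideal (𝓞 K))) : 𝓞 K) ∈ (J : Ideal (𝓞 K)) * (P : Ideal (𝓞 K)) := b.2
    rw [qnorm, ← qnorm_mul_absNorm hb, map_mul,
      show ∀ a c d : ℕ, a * (c * d) = (d * a) * c from fun a c d => by ring,
      Nat.mul_div_cancel _ (absNorm_pos (J_ne_bot J))]
  simp only [e, Equiv.coe_fn_mk, wTerm, elemTerm, hJP, hq, Nat.cast_mul, map_mul,
    Real.mul_rpow hPpos.le (Nat.cast_nonneg _), Complex.ofReal_mul]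
  rw [show (1 : ℝ) - s = 1 + -s by ring, Real.rpow_add hPpos, Real.rpow_one, Complex.ofReal_mul,
    Complex.ofReal_natCast]
  ring

theorem exists_classSum_relation (hP : (absNorm (P : Ideal (𝓞 K))).Coprime m) :
    ∃ C : ℝ, ∀ s : ℝ, 1 < s → s ≤ 2 →
      ‖classSum ψ J s - ψ (absNorm (P : Ideal (𝓞 K)) : ZMod m) *
          (((absNorm (P : Ideal (𝓞 K)) : ℝ) ^ (1 - s) : ℝ) : ℂ) * classSum ψ (J * P) s‖ ≤ C := by
  choose x hxJ hx using exists_rep_mul J P hP
  haveI : Finite ((J : Ideal (𝓞 K)) ⧸ subMul J P) := Nat.finite_of_card_ne_zero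
    (by rw [card_subMul_quotient]; exact (absNorm_pos (nonZeroDivisors.coe_ne_zero P)).ne')
  haveI : Fintype ((J : Ideal (𝓞 K)) ⧸ subMul J P) := Fintype.ofFinite _
  choose C hC using fun c => exists_translate_bound ψ J (hxJ c)
  refine ⟨∑ c, C c, fun s hs hs2 => ?_⟩
  set h : ↥(J : Ideal (𝓞 K)) → ℂ := fun b => wTerm ψ (J : Ideal (𝓞 K)) s (b : 𝓞 K) with hh
  let δ : (J : Ideal (𝓞 K)) ⧸ subMul J P → (J : Ideal (𝓞 K)) := fun c =>
    ⟨(m : 𝓞 K) * x c, (J : Ideal (𝓞 K)).mul_mem_left _ (hxJ c)⟩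
  let Φ : ((J : Ideal (𝓞 K)) ⧸ subMul J P) × subMul J P → (J : Ideal (𝓞 K)) :=
    fun p => (p.2 : (J : Ideal (𝓞 K))) + δ p.1
  have hΦ : Function.Bijective Φ := by
    refine ⟨fun p q h => ?_, fun b => ?_⟩
    · have h1 := congrArg (QuotientAddGroup.mk' (subMul J P)) h
      simp only [Φ, map_add, QuotientAddGroup.mk'_apply,
        (QuotientAddGroup.eq_zero_iff _).mpr p.2.2, (QuotientAddGroup.eq_zero_iff _).mpr q.2.2,
        zero_add] at h1
      rw [show (QuotientAddGroup.mk (δ p.1) : _ ⧸ subMul J P) = p.1 from hx _,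
        show (QuotientAddGroup.mk (δ q.1) : _ ⧸ subMul J P) = q.1 from hx _] at h1
      refine Prod.ext h1 (Subtype.ext ?_)
      simp only [Φ, h1] at h
      exact add_right_cancel h
    · set c : (J : Ideal (𝓞 K)) ⧸ subMul J P := QuotientAddGroup.mk b
      refine ⟨(c, ⟨b - δ c, ?_⟩), by simp [Φ]⟩
      rw [← QuotientAddGroup.eq_zero_iff, QuotientAddGroup.mk_sub,
        show (QuotientAddGroup.mk (δ c) : _ ⧸ subMul J P) = c from hx _, sub_self]
  have hsum : Summable h := summable_wTerm ψ J hs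
  have hprod : Summable fun p => h (Φ p) := (Equiv.ofBijective Φ hΦ).summable_iff.mpr hsum
  have htot : classSum ψ J s = ∑ c, ∑' b : subMul J P, h ((b : (J : Ideal (𝓞 K))) + δ c) := by
    have h1 : ∑' p, h (Φ p) = ∑' b, h b := (Equiv.ofBijective Φ hΦ).tsum_eq h
    rw [classSum, ← tsum_wTerm ψ J hs]
    refine h1.symm.trans ?_
    rw [hprod.tsum_prod, tsum_fintype]
  have hsub : ψ (absNorm (P : Ideal (𝓞 K)) : ZMod m) *
      (((absNorm (P : Ideal (𝓞 K)) : ℝ) ^ (1 - s) : ℝ) : ℂ) * classSum ψ (J * P) s =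
      ∑ _c : (J : Ideal (𝓞 K)) ⧸ subMul J P, ∑' b : subMul J P, h (b : (J : Ideal (𝓞 K))) := by
    rw [Finset.sum_const, Finset.card_univ, ← Nat.card_eq_fintype_card, card_subMul_quotient,
      nsmul_eq_mul, tsum_subMul ψ J P hs]
  rw [hsub, htot, ← Finset.sum_sub_distrib]
  exact (norm_sum_le _ _).trans (Finset.sum_le_sum fun c _ => hC c s hs hs2 _)

/-- The sum over all ideals stays bounded. -/
theorem twisted_sum_bounded
    (hP : (absNorm (P : Ideal (𝓞 K))).Coprime m)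
    (hψ : ψ (absNorm (P : Ideal (𝓞 K)) : ZMod m) ≠ 1) :
    ∃ C : ℝ, ∀ᶠ s in 𝓝[>] (1 : ℝ), ‖∑' I : Ideal (𝓞 K), idealTerm ψ s I‖ ≤ C := by
  set z := ψ (absNorm (P : Ideal (𝓞 K)) : ZMod m) with hz
  choose C hC using fun g : ClassGroup (𝓞 K) =>
    exists_classSum_relation ψ (ClassGroup.mk0_surjective g).choose P hP
  set lam : ℝ → ℂ := fun s => z * (((absNorm (P : Ideal (𝓞 K)) : ℝ) ^ (1 - s) : ℝ) : ℂ) with hlam
  have hlim : Tendsto (fun s => ‖1 - lam s‖) (𝓝[>] (1 : ℝ)) (𝓝 ‖1 - z‖) := by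
    have hc : Continuous fun s => ‖1 - lam s‖ := by
      have hp : 0 < (absNorm (P : Ideal (𝓞 K)) : ℝ) := by
        exact_mod_cast absNorm_pos (nonZeroDivisors.coe_ne_zero P)
      simp only [hlam, Real.rpow_def_of_pos hp]
      fun_prop
    have h1 := (hc.tendsto 1).mono_left (nhdsWithin_le_nhds (s := Set.Ioi 1))
    simpa [hlam] using h1
  have hpos : 0 < ‖1 - z‖ := norm_pos_iff.mpr (sub_ne_zero.mpr (Ne.symm hψ))
  refine ⟨(∑ g, C g) / (‖1 - z‖ / 2), ?_⟩
  filter_upwards [hlim.eventually (eventually_gt_nhds (half_lt_self hpos)),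
    Ioo_mem_nhdsGT (show (1 : ℝ) < 2 by norm_num)] with s hs hs12
  obtain ⟨hs1, hs2⟩ := hs12
  set f := idealTerm (K := K) ψ s
  have hf := summable_idealTerm (K := K) ψ hs1
  -- the class sums
  set S : ClassGroup (𝓞 K) → ℂ :=
    fun g => ∑' I : {I : (Ideal (𝓞 K))⁰ // ClassGroup.mk0 I = g}, f (I.1 : Ideal (𝓞 K)) with hS
  have hclass : ∀ J : (Ideal (𝓞 K))⁰, classSum ψ J s = S (ClassGroup.mk0 J)⁻¹ := fun J => rfl
  have htotal : ∑ g, S g = ∑' I : Ideal (𝓞 K), f I := by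
    have hinj : Function.Injective fun I : (Ideal (𝓞 K))⁰ => (I : Ideal (𝓞 K)) :=
      Subtype.val_injective
    rw [← hinj.tsum_eq (f := f) ?_]
    · set e := Equiv.sigmaFiberEquiv fun I : (Ideal (𝓞 K))⁰ => ClassGroup.mk0 I
      have hsig : Summable fun q => f ((e q : (Ideal (𝓞 K))⁰) : Ideal (𝓞 K)) :=
        e.summable_iff.mpr (hf.comp_injective hinj)
      rw [← e.tsum_eq, hsig.tsum_sigma, tsum_fintype]
      rfl
    · intro I hI
      by_cases h : I = ⊥
      · exact absurd (by rw [h]; exact idealTerm_bot ψ (by linarith)) hI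
      · exact ⟨⟨I, mem_nonZeroDivisors_of_ne_zero h⟩, rfl⟩
  set T := ∑' I : Ideal (𝓞 K), f I
  have hrel : ‖(1 - lam s) * T‖ ≤ ∑ g, C g := by
    have h1 : ∀ g, ‖S g⁻¹ - lam s * S (g * ClassGroup.mk0 P)⁻¹‖ ≤ C g := by
      intro g
      have h := hC g s hs1 hs2.le
      rw [hclass, hclass, map_mul, (ClassGroup.mk0_surjective g).choose_spec] at h
      exact h
    have h2 : ∑ g, S g⁻¹ = T := (Equiv.sum_comp (Equiv.inv (ClassGroup (𝓞 K))) S).trans htotal
    have h3 : ∑ g, S (g * ClassGroup.mk0 P)⁻¹ = T :=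
      (Equiv.sum_comp ((Equiv.mulRight (ClassGroup.mk0 P)).trans (Equiv.inv _)) S).trans htotal
    rw [sub_mul, one_mul]
    conv_lhs => rw [show T - lam s * T = ∑ g, (S g⁻¹ - lam s * S (g * ClassGroup.mk0 P)⁻¹) by
      rw [Finset.sum_sub_distrib, h2, ← Finset.mul_sum, h3]]
    exact (norm_sum_le _ _).trans (Finset.sum_le_sum fun g _ => h1 g)
  rw [norm_mul] at hrel
  rw [le_div_iff₀ (by linarith), mul_comm]
  exact (mul_le_mul_of_nonneg_right hs.le (norm_nonneg _)).trans hrel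

end FLTAgent.DeligneSerre
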