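import Fermat.Agent.DeligneSerre.Interface
import Fermat.Agent.PeriodHecke.Equivariance
import Fermat.Prelude.Thm_UpperHalfPlane_qCoeff_heckeT
import Fermat.Prelude.Thm_UpperHalfPlane_qCoeff_heckeU
import Fermat.Prelude.Thm_UpperHalfPlane_eq_of_forall_qCoeff_eq
import Fermat.Prelude.Thm_ModularForm_periodic_heckeU_comp_ofComplex
import Fermat.Prelude.Thm_ModularForm_mdifferentiable_heckeU
import Fermat.Prelude.Thm_ModularForm_isBoundedAtImInfty_heckeU

/-!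
# The Hecke recursion determines the Nebentypus of a form of weight one

If the coefficients of `f` satisfy the recursion with character `ε` at `p`, then
`h = f|γ_p - ε(p) f` has the property that `h(pτ)` is again of level `Γ₁(N)`; then `h` is fixed by
a matrix contracting towards the cusp, hence vanishes.
-/

set_option autoImplicit false

noncomputable section

open UpperHalfPlane CongruenceSubgroup ModularForm Filter
open scoped MatrixGroups ModularForm Manifold Topology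

namespace FLTAgent.DeligneSerre

open FLTAgent.PeriodHecke
open ModularFormClass (qCoeff)

local notation "GLR" => GL (Fin 2) ℝ
local notation "M2" => Matrix (Fin 2) (Fin 2) ℤ

variable {N : ℕ} [NeZero N]

/-- A function on the upper half plane which is periodic, holomorphic and bounded at `∞`. -/
structure IsQSeries (F : ℍ → ℂ) : Prop where
  periodic : Function.Periodic (F ∘ ofComplex) 1
  holo : MDiff F
  bdd : IsBoundedAtImInfty F

namespace IsQSeries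

variable {F G : ℍ → ℂ}

theorem analyticAt (h : IsQSeries F) : AnalyticAt ℂ (cuspFunction 1 F) 0 :=
  analyticAt_cuspFunction_zero one_pos h.periodic h.holo h.bdd

theorem add (hF : IsQSeries F) (hG : IsQSeries G) : IsQSeries (F + G) where
  periodic z := by
    have h1 := hF.periodic z
    have h2 := hG.periodic z
    simp only [Function.comp_apply, Pi.add_apply] at h1 h2 ⊢
    rw [h1, h2]
  holo := hF.holo.add hG.holo
  bdd := hF.bdd.add hG.bdd

theorem smul (c : ℂ) (hF : IsQSeries F) : IsQSeries (c • F) where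
  periodic z := by
    have h1 := hF.periodic z
    simp only [Function.comp_apply, Pi.smul_apply] at h1 ⊢
    rw [h1]
  holo := hF.holo.const_smul c
  bdd := hF.bdd.smul c

theorem qCoeff_add (hF : IsQSeries F) (hG : IsQSeries G) (n : ℕ) :
    qCoeff (F + G) n = qCoeff F n + qCoeff G n := by
  simp only [qCoeff, qExpansion_add hF.analyticAt hG.analyticAt, map_add]

theorem qCoeff_smul (c : ℂ) (hF : IsQSeries F) (n : ℕ) : qCoeff (c • F) n = c * qCoeff F n := by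
  simp only [qCoeff, qExpansion_smul hF.analyticAt, map_smul, smul_eq_mul]

theorem slash_diag (k : ℤ) {p : ℕ} (hp : p ≠ 0) (hF : IsQSeries F) :
    IsQSeries (F ∣[k] heckeDiagMatrix p) where
  periodic z := by
    simp only [Function.comp_apply, slash_heckeDiagMatrix_apply k hp]
    by_cases hz : 0 < z.im
    · have hz1 : 0 < (z + 1).im := by simpa using hz
      congr 1
      have h1 := hF.periodic.nat_mul p
      have e : ∀ w : ℂ, 0 < w.im → heckeDiagMatrix p • ofComplex w = ofComplex ((p : ℂ) * w) := by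
        intro w hw
        ext
        rw [coe_heckeDiagMatrix_smul hp, ofComplex_apply_of_im_pos hw,
          ofComplex_apply_of_im_pos (show 0 < ((p : ℂ) * w).im by
            simpa using mul_pos (Nat.cast_pos.mpr (Nat.pos_of_ne_zero hp) : (0 : ℝ) < p) hw)]
      rw [e _ hz, e _ hz1, mul_add, mul_one]
      simpa [Function.comp_apply] using h1 ((p : ℂ) * z)
    · rw [ofComplex_apply_of_im_nonpos (not_lt.mp hz),
        ofComplex_apply_of_im_nonpos (by simpa using not_lt.mp hz)]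
  holo := hF.holo.slash k _
  bdd := by
    have ht : Tendsto (fun τ : ℍ => heckeDiagMatrix p • τ) atImInfty atImInfty := by
      rw [atImInfty, tendsto_comap_iff,
        show UpperHalfPlane.im ∘ (fun τ : ℍ => heckeDiagMatrix p • τ) = fun τ => (p : ℝ) * τ.im from
          funext fun τ => by
            show ((heckeDiagMatrix p • τ : ℍ) : ℂ).im = _
            rw [coe_heckeDiagMatrix_smul hp]
            simp]
      exact Tendsto.const_mul_atTop (Nat.cast_pos.mpr (Nat.pos_of_ne_zero hp)) tendsto_comap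
    have h1 : F ∣[k] heckeDiagMatrix p = ((p : ℂ) ^ (k - 1)) • fun τ => F (heckeDiagMatrix p • τ) :=
      funext fun τ => slash_heckeDiagMatrix_apply k hp F τ
    rw [h1]
    exact (show IsBoundedAtImInfty (fun τ => F (heckeDiagMatrix p • τ)) from
      hF.bdd.comp_tendsto ht).smul _

end IsQSeries

variable (f : CuspForm (Gamma1 N) 1)

theorem slash_gamma1 {γ : SL(2, ℤ)} (hγ : γ ∈ Gamma1 N) : (⇑f : ℍ → ℂ) ∣[(1 : ℤ)] γ = (⇑f : ℍ → ℂ) :=
  SlashInvariantFormClass.slash_action_eq f _ ⟨γ, hγ, rfl⟩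

theorem isQSeries_slash (γ : Gamma0 N) : IsQSeries ((⇑f : ℍ → ℂ) ∣[(1 : ℤ)] (γ : SL(2, ℤ))) where
  periodic z := by
    have hT : ModularGroup.T ∈ Gamma1 N := by simp [ModularGroup.coe_T]
    have hc := conj_mem_Gamma1 N γ ⟨_, hT⟩
    have hper : ((⇑f : ℍ → ℂ) ∣[(1 : ℤ)] (γ : SL(2, ℤ))) ∣[(1 : ℤ)] ModularGroup.T =
        (⇑f : ℍ → ℂ) ∣[(1 : ℤ)] (γ : SL(2, ℤ)) := by
      rw [← SlashAction.slash_mul,
        show (γ : SL(2, ℤ)) * ModularGroup.T =
          ((γ : SL(2, ℤ)) * ModularGroup.T * (γ : SL(2, ℤ))⁻¹) * γ by group,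
        SlashAction.slash_mul, slash_gamma1 f hc]
    by_cases hz : 0 < z.im
    · have := congrFun hper (ofComplex z)
      rw [ModularForm.SL_slash_apply] at this
      have hsm : ModularGroup.T • ofComplex z = ofComplex (z + 1) := by
        rw [modular_T_smul]
        ext
        simp [ofComplex_apply_of_im_pos hz, ofComplex_apply_of_im_pos
          (show 0 < (z + 1).im by simpa using hz), add_comm]
      have hd : denom ModularGroup.T (ofComplex z) = 1 := by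
        simp [denom, ModularGroup.coe_T]
      rw [hsm, hd] at this
      simpa using this
    · simp only [Function.comp_apply]
      rw [ofComplex_apply_of_im_nonpos (not_lt.mp hz),
        ofComplex_apply_of_im_nonpos (by simpa using not_lt.mp hz)]
  holo := (ModularFormClass.holo f).slash _ _
  bdd := ModularFormClass.bdd_at_infty_slash f _

theorem isQSeries_self : IsQSeries (⇑f : ℍ → ℂ) := by
  simpa using isQSeries_slash f 1

variable {p : ℕ} [hp : Fact p.Prime]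

theorem isQSeries_heckeU {F : ℍ → ℂ} (hF : IsQSeries F) : IsQSeries (heckeU 1 p F) where
  periodic := periodic_heckeU_comp_ofComplex hF.periodic 1 p
  holo := mdifferentiable_heckeU hF.holo 1 p
  bdd := isBoundedAtImInfty_heckeU hF.bdd 1 p

/-- The defect of the Nebentypus at `p`. -/
def defect (hpN : ¬ p ∣ N) (e : ℂ) : ℍ → ℂ :=
  (⇑f : ℍ → ℂ) ∣[(1 : ℤ)] (gammaLower p (coprime_of_not_dvd hpN) : SL(2, ℤ)) - e • (⇑f : ℍ → ℂ)

theorem heckeU_eq (hpN : ¬ p ∣ N) {e a : ℂ}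
    (hrec : ∀ n : ℕ, qCoeff (⇑f : ℍ → ℂ) (p * n) + e * (if p ∣ n then qCoeff (⇑f : ℍ → ℂ) (n / p) else 0) =
      a * qCoeff (⇑f : ℍ → ℂ) n) :
    heckeU 1 p (⇑f : ℍ → ℂ) + e • ((⇑f : ℍ → ℂ) ∣[(1 : ℤ)] heckeDiagMatrix p) = a • (⇑f : ℍ → ℂ) := by
  have hp0 := hp.out.ne_zero
  have hF := isQSeries_self f
  have hU := isQSeries_heckeU hF (p := p)
  have hD := hF.slash_diag 1 hp0
  have hL := hU.add (hD.smul e)
  have hR := hF.smul a
  refine eq_of_forall_qCoeff_eq hL.periodic hL.holo hL.bdd hR.periodic hR.holo hR.bdd fun n => ?_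
  rw [hU.qCoeff_add (hD.smul e), hD.qCoeff_smul, hF.qCoeff_smul]
  have hT := qCoeff_heckeT hF.periodic hF.holo hF.bdd 1 hp0 n
  have hU' := qCoeff_heckeU hF.periodic hF.holo hF.bdd 1 hp0 n
  rw [heckeT_eq_heckeU_add, hU.qCoeff_add hD, hU'] at hT
  simp only [coeffHeckeT, coeffHeckeU, sub_self, zpow_zero, one_mul] at hT hU'
  rw [hU', add_left_cancel hT]
  rw [mul_comm n p]
  exact hrec n

theorem heckeSum_slash (hpN : ¬ p ∣ N) {γ : SL(2, ℤ)} (hγ : γ ∈ Gamma1 N) :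
    (heckeU 1 p (⇑f : ℍ → ℂ) + ((⇑f : ℍ → ℂ) ∣[(1 : ℤ)] (gammaLower p (coprime_of_not_dvd hpN) : SL(2, ℤ)))
        ∣[(1 : ℤ)] heckeDiagMatrix p) ∣[(1 : ℤ)] γ =
      heckeU 1 p (⇑f : ℍ → ℂ) + ((⇑f : ℍ → ℂ) ∣[(1 : ℤ)] (gammaLower p (coprime_of_not_dvd hpN) : SL(2, ℤ)))
        ∣[(1 : ℤ)] heckeDiagMatrix p := by
  let rep : HeckeIdx N p → GLR := fun i =>
    Matrix.SpecialLinearGroup.mapGL ℝ (corr1 hpN i : SL(2, ℤ)) * glRep N p i
  have hsum : heckeU 1 p (⇑f : ℍ → ℂ) + ((⇑f : ℍ → ℂ) ∣[(1 : ℤ)] (gammaLower p (coprime_of_not_dvd hpN) : SL(2, ℤ)))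
      ∣[(1 : ℤ)] heckeDiagMatrix p = ∑ i, (⇑f : ℍ → ℂ) ∣[(1 : ℤ)] rep i := by
    rw [sum_idx_of_not_dvd N p hpN, heckeU_def, sum_range_zmod]
    congr 1
    · refine Finset.sum_congr rfl fun j _ => ?_
      simp [rep, corr1, idxSome, glRep]
    · simp only [rep, corr1, glRep]
      rw [SlashAction.slash_mul]
      rfl
  rw [hsum, SlashAction.sum_slash]
  set γ₁ : Gamma1 N := ⟨γ, hγ⟩
  refine (Finset.sum_congr rfl fun i _ => ?_).trans
    (Equiv.sum_comp ((heckeFam1 hpN).perm γ₁) fun i => (⇑f : ℍ → ℂ) ∣[(1 : ℤ)] rep i)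
  have hrel := congrArg (fun X : M2 => X.map (Int.cast : ℤ → ℝ)) ((heckeFam1 hpN).rel γ₁ i)
  rw [show (heckeFam1 hpN).α = heckeRep1 hpN from rfl] at hrel
  simp only [heckeRep1, Matrix.map_mul_intCast, ← val_glRep] at hrel
  have hgl : rep i * Matrix.SpecialLinearGroup.mapGL ℝ γ =
      Matrix.SpecialLinearGroup.mapGL ℝ ((heckeFam1 hpN).coc γ₁ i : SL(2, ℤ)) *
        rep ((heckeFam1 hpN).next γ₁ i) := by
    apply Units.ext
    simpa [rep, mat, mul_assoc] using hrel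
  show ((⇑f : ℍ → ℂ) ∣[(1 : ℤ)] rep i) ∣[(1 : ℤ)] Matrix.SpecialLinearGroup.mapGL ℝ γ =
    (⇑f : ℍ → ℂ) ∣[(1 : ℤ)] rep ((heckeFam1 hpN).next γ₁ i)
  rw [← SlashAction.slash_mul, hgl, SlashAction.slash_mul]
  exact congrArg (· ∣[(1 : ℤ)] rep ((heckeFam1 hpN).next γ₁ i))
    (slash_gamma1 f ((heckeFam1 hpN).coc γ₁ i).2)

theorem defect_diag_slash (hpN : ¬ p ∣ N) {e a : ℂ}
    (hrec : ∀ n : ℕ, qCoeff (⇑f : ℍ → ℂ) (p * n) + e * (if p ∣ n then qCoeff (⇑f : ℍ → ℂ) (n / p) else 0) =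
      a * qCoeff (⇑f : ℍ → ℂ) n) {γ : SL(2, ℤ)} (hγ : γ ∈ Gamma1 N) :
    (defect f hpN e ∣[(1 : ℤ)] heckeDiagMatrix p) ∣[(1 : ℤ)] γ =
      defect f hpN e ∣[(1 : ℤ)] heckeDiagMatrix p := by
  set γp := (gammaLower p (coprime_of_not_dvd hpN) : SL(2, ℤ))
  have hσ : UpperHalfPlane.σ (heckeDiagMatrix p) = .refl ℝ ℂ := σ_heckeDiagMatrix p
  have e1 : defect f hpN e ∣[(1 : ℤ)] heckeDiagMatrix p =
      (heckeU 1 p (⇑f : ℍ → ℂ) + ((⇑f : ℍ → ℂ) ∣[(1 : ℤ)] γp) ∣[(1 : ℤ)] heckeDiagMatrix p) - a • (⇑f : ℍ → ℂ) := by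
    rw [← heckeU_eq f hpN hrec, defect, sub_eq_add_neg, SlashAction.add_slash,
      SlashAction.neg_slash, ModularForm.smul_slash, hσ, ContinuousAlgEquiv.refl_apply]
    abel
  rw [e1, sub_eq_add_neg, SlashAction.add_slash, SlashAction.neg_slash, ModularForm.SL_smul_slash,
    heckeSum_slash f hpN hγ, slash_gamma1 f hγ]

theorem defect_gamma1 (hpN : ¬ p ∣ N) (e : ℂ) {γ : SL(2, ℤ)} (hγ : γ ∈ Gamma1 N) :
    defect f hpN e ∣[(1 : ℤ)] γ = defect f hpN e := by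
  set γp := gammaLower p (coprime_of_not_dvd hpN)
  rw [defect, sub_eq_add_neg, SlashAction.add_slash, SlashAction.neg_slash,
    ModularForm.SL_smul_slash, slash_gamma1 f hγ, ← SlashAction.slash_mul,
    show (γp : SL(2, ℤ)) * γ = ((γp : SL(2, ℤ)) * γ * (γp : SL(2, ℤ))⁻¹) * γp by group,
    SlashAction.slash_mul, slash_gamma1 f (conj_mem_Gamma1 N γp ⟨γ, hγ⟩)]

/-- The lower unipotent matrix with entry `N / p`. -/
def lowerFrac (N p : ℕ) : GLR :=
  Matrix.GeneralLinearGroup.mkOfDetNeZero !![1, 0; (N : ℝ) / p, 1] (by simp)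

theorem diag_mul_lower (p : ℕ) (hp0 : p ≠ 0) :
    heckeDiagMatrix p * Matrix.SpecialLinearGroup.mapGL ℝ
      (⟨!![1, 0; (N : ℤ), 1], by simp⟩ : SL(2, ℤ)) = lowerFrac N p * heckeDiagMatrix p := by
  apply Units.ext
  ext i j
  fin_cases i <;> fin_cases j <;>
    simp [lowerFrac, Matrix.GeneralLinearGroup.mkOfDetNeZero, val_heckeDiagMatrix hp0,
      Matrix.mul_apply, Fin.sum_univ_two]
  field_simp

theorem slash_lowerFrac {h : ℍ → ℂ}
    (hD : ∀ γ ∈ Gamma1 N, (h ∣[(1 : ℤ)] heckeDiagMatrix p) ∣[(1 : ℤ)] γ =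
      h ∣[(1 : ℤ)] heckeDiagMatrix p) : h ∣[(1 : ℤ)] lowerFrac N p = h := by
  set V : SL(2, ℤ) := ⟨!![1, 0; (N : ℤ), 1], by simp⟩
  have hmem : V ∈ Gamma1 N := (Gamma1_mem N _).mpr ⟨by simp [V], by simp [V], by simp [V]⟩
  have h1 := hD _ hmem
  change (h ∣[(1 : ℤ)] heckeDiagMatrix p) ∣[(1 : ℤ)] Matrix.SpecialLinearGroup.mapGL ℝ V = _ at h1
  rw [← SlashAction.slash_mul, diag_mul_lower p hp.out.ne_zero, SlashAction.slash_mul] at h1
  have h2 := congrArg (fun G : ℍ → ℂ => G ∣[(1 : ℤ)] (heckeDiagMatrix p)⁻¹) h1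
  simpa [← SlashAction.slash_mul] using h2

/-- Translates of `h` by `Γ₀(N)` are fixed by the lower unipotent matrix. -/
theorem slash_gamma0_lowerFrac {h : ℍ → ℂ}
    (hD : ∀ γ ∈ Gamma1 N, (h ∣[(1 : ℤ)] heckeDiagMatrix p) ∣[(1 : ℤ)] γ =
      h ∣[(1 : ℤ)] heckeDiagMatrix p)
    (h1 : ∀ γ ∈ Gamma1 N, h ∣[(1 : ℤ)] γ = h) (hpN : ¬ p ∣ N) (γ : Gamma0 N) :
    (h ∣[(1 : ℤ)] (γ : SL(2, ℤ))) ∣[(1 : ℤ)] lowerFrac N p = h ∣[(1 : ℤ)] (γ : SL(2, ℤ)) := by
  -- replace `γ` by a matrix of the same class with upper right entry divisible by `p`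
  obtain ⟨γ', hγ', hb⟩ : ∃ γ' : Gamma0 N,
      h ∣[(1 : ℤ)] (γ' : SL(2, ℤ)) = h ∣[(1 : ℤ)] (γ : SL(2, ℤ)) ∧
      ((mat γ' 0 1 : ℤ) : ZMod p) = 0 := by
    have hd : IsCoprime (mat γ 1 1) (N : ℤ) := by
      obtain ⟨c, hc⟩ := dvd_lower_left N γ
      have hdet := mat_det γ
      rw [Matrix.det_fin_two, hc] at hdet
      exact ⟨mat γ 0 0, -(mat γ 0 1) * c, by linear_combination hdet⟩
    obtain ⟨u, v, huv⟩ := (Int.isCoprime_iff_nat_coprime.mpr
      (by simpa using coprime_of_not_dvd hpN : (p : ℤ).natAbs.Coprime (N : ℤ).natAbs))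
    set d' : ℤ := mat γ 1 1 * (u * p) + v * N
    have h1N : ((d' : ℤ) : ZMod N) = (mat γ 1 1 : ZMod N) := by
      have := congrArg (fun z : ℤ => (z : ZMod N)) huv
      push_cast at this
      simp only [d']
      push_cast
      simp at this ⊢
      rw [this, mul_one]
    have hcop : IsCoprime d' ((p : ℤ) * N) := by
      refine IsCoprime.mul_right ?_ ?_
      · have h1 : IsCoprime (v * N) (p : ℤ) := ⟨1, u, by linear_combination huv⟩
        have h2 := h1.add_mul_right_left (mat γ 1 1 * u)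
        rwa [show v * (N : ℤ) + mat γ 1 1 * u * p = d' by
          show _ = mat γ 1 1 * (u * p) + v * N
          ring] at h2
      · have h1 : IsCoprime (mat γ 1 1 * (u * p)) (N : ℤ) :=
          hd.mul_left ⟨1, v, by linear_combination huv⟩
        exact h1.add_mul_right_left v
    obtain ⟨x, y, hxy⟩ := hcop
    refine ⟨gamma0Mk N x (-(p * y)) N d' (by linear_combination hxy) dvd_rfl, ?_, ?_⟩
    · set γ' := gamma0Mk N x (-(p * y)) N d' (by linear_combination hxy) dvd_rfl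
      have hmem : γ' * γ⁻¹ ∈ Gamma1' N := by
        rw [show Gamma1' N = (Gamma0Map N).ker from rfl, MonoidHom.mem_ker, map_mul]
        have e : Gamma0Map N γ' = Gamma0Map N γ := by
          show ((mat γ' 1 1 : ℤ) : ZMod N) = ((mat γ 1 1 : ℤ) : ZMod N)
          rw [mat_gamma0Mk]
          exact h1N
        rw [e, ← map_mul, mul_inv_cancel, map_one]
      rw [Gamma1_to_Gamma0_mem] at hmem
      rw [show (γ' : SL(2, ℤ)) = ((γ' * γ⁻¹ : Gamma0 N) : SL(2, ℤ)) * (γ : SL(2, ℤ)) by simp,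
        SlashAction.slash_mul, h1 _ ((Gamma1_mem N _).mpr hmem)]
    · rw [mat_gamma0Mk]
      simp
  rw [← hγ']
  obtain ⟨b', hb'⟩ := (ZMod.intCast_zmod_eq_zero_iff_dvd _ _).mp hb
  have hdet := mat_det γ'
  rw [Matrix.det_fin_two, hb'] at hdet
  obtain ⟨γs, hγs⟩ : ∃ γs : Gamma0 N, mat γs = !![mat γ' 0 0, b'; p * mat γ' 1 0, mat γ' 1 1] :=
    ⟨gamma0Mk N _ b' _ _ (by linear_combination hdet)
      (dvd_mul_of_dvd_right (dvd_lower_left N γ') _), mat_gamma0Mk ..⟩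
  have hcomm : Matrix.SpecialLinearGroup.mapGL ℝ (γ' : SL(2, ℤ)) * heckeDiagMatrix p =
      heckeDiagMatrix p * Matrix.SpecialLinearGroup.mapGL ℝ (γs : SL(2, ℤ)) := by
    apply Units.ext
    have e : ((γs : SL(2, ℤ)) : M2) = _ := hγs
    simp only [Units.val_mul, val_heckeDiagMatrix hp.out.ne_zero,
      Matrix.SpecialLinearGroup.mapGL_coe_matrix, Matrix.SpecialLinearGroup.map_apply_coe,
      RingHom.mapMatrix_apply, e]
    have hb'' : ((γ' : SL(2, ℤ)) : M2) 0 1 = p * b' := hb'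
    ext i j
    fin_cases i <;> fin_cases j <;> simp [Matrix.mul_apply, Fin.sum_univ_two, mat, hb''] <;> ring
  refine slash_lowerFrac fun δ hδ => ?_
  rw [show (h ∣[(1 : ℤ)] (γ' : SL(2, ℤ))) ∣[(1 : ℤ)] heckeDiagMatrix p =
    (h ∣[(1 : ℤ)] heckeDiagMatrix p) ∣[(1 : ℤ)] (γs : SL(2, ℤ)) by
      show (h ∣[(1 : ℤ)] Matrix.SpecialLinearGroup.mapGL ℝ (γ' : SL(2, ℤ))) ∣[(1 : ℤ)]
        heckeDiagMatrix p = (h ∣[(1 : ℤ)] heckeDiagMatrix p) ∣[(1 : ℤ)]
          Matrix.SpecialLinearGroup.mapGL ℝ (γs : SL(2, ℤ))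
      rw [← SlashAction.slash_mul, hcomm, SlashAction.slash_mul]]
  rw [← SlashAction.slash_mul _ (γs : SL(2, ℤ)) δ,
    show (γs : SL(2, ℤ)) * δ = ((γs : SL(2, ℤ)) * δ * (γs : SL(2, ℤ))⁻¹) * γs by group,
    SlashAction.slash_mul, hD _ (conj_mem_Gamma1 N γs ⟨δ, hδ⟩)]

/-- A function of level `Γ₁(N)`, zero at infinity, whose dilate by `p` is also of level `Γ₁(N)`,
vanishes. -/
theorem eq_zero_of_diag {h : ℍ → ℂ} (hh : IsQSeries h) (h0 : IsZeroAtImInfty h) (hpN : ¬ p ∣ N)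
    (hD : ∀ γ ∈ Gamma1 N, (h ∣[(1 : ℤ)] heckeDiagMatrix p) ∣[(1 : ℤ)] γ =
      h ∣[(1 : ℤ)] heckeDiagMatrix p)
    (h1 : ∀ γ ∈ Gamma1 N, h ∣[(1 : ℤ)] γ = h) : h = 0 := by
  have hp0 : (p : ℝ) ≠ 0 := Nat.cast_ne_zero.mpr hp.out.ne_zero
  obtain ⟨u, v, huv⟩ := Int.isCoprime_iff_nat_coprime.mpr
    (by simpa using coprime_of_not_dvd hpN : (p : ℤ).natAbs.Coprime (N : ℤ).natAbs)
  set γ₀ : Gamma0 N :=
    gamma0Mk N u v (-(N : ℤ)) p (by linear_combination huv) ((dvd_refl _).neg_right)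
  set g : GLR := Matrix.SpecialLinearGroup.mapGL ℝ (γ₀ : SL(2, ℤ)) * lowerFrac N p
  have hg : ∀ γ : Gamma0 N, (h ∣[(1 : ℤ)] (γ : SL(2, ℤ))) ∣[(1 : ℤ)] g =
      h ∣[(1 : ℤ)] ((γ * γ₀ : Gamma0 N) : SL(2, ℤ)) := fun γ => by
    rw [SlashAction.slash_mul]
    show ((h ∣[(1 : ℤ)] (γ : SL(2, ℤ))) ∣[(1 : ℤ)] (γ₀ : SL(2, ℤ))) ∣[(1 : ℤ)] lowerFrac N p = _
    rw [← SlashAction.slash_mul (1 : ℤ) (γ : SL(2, ℤ)) (γ₀ : SL(2, ℤ)) h, ← Subgroup.coe_mul,
      slash_gamma0_lowerFrac hD h1 hpN]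
  have hpow : ∀ n : ℕ, h ∣[(1 : ℤ)] (g ^ n) = h ∣[(1 : ℤ)] ((γ₀ ^ n : Gamma0 N) : SL(2, ℤ)) := by
    intro n
    induction n with
    | zero => simp
    | succ n ih => rw [pow_succ, SlashAction.slash_mul, ih, hg, ← pow_succ]
  set e := orderOf (ZMod.unitOfCoprime p (coprime_of_not_dvd hpN))
  have he : 0 < e := orderOf_pos _
  have hmem : ∀ n, ((γ₀ ^ (e * n) : Gamma0 N) : SL(2, ℤ)) ∈ Gamma1 N := by
    intro n
    have hm : γ₀ ^ (e * n) ∈ Gamma1' N := by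
      rw [show Gamma1' N = (Gamma0Map N).ker from rfl, MonoidHom.mem_ker, map_pow, pow_mul]
      suffices Gamma0Map N γ₀ ^ e = 1 by rw [this, one_pow]
      have hval : Gamma0Map N γ₀ = (p : ZMod N) := by
        show (((mat γ₀) 1 1 : ℤ) : ZMod N) = _
        rw [mat_gamma0Mk]; simp
      rw [hval, ← ZMod.coe_unitOfCoprime p (coprime_of_not_dvd hpN), ← Units.val_pow_eq_pow_val,
        pow_orderOf_eq_one, Units.val_one]
    rw [Gamma1_to_Gamma0_mem] at hm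
    exact (Gamma1_mem N _).mpr hm
  have hentries : ∀ n : ℕ, ((g⁻¹) ^ n : GLR).val 1 0 = 0 ∧ ((g⁻¹) ^ n : GLR).val 1 1 = ((p : ℝ)⁻¹) ^ n ∧
      ((g⁻¹) ^ n : GLR).val 0 0 = (p : ℝ) ^ n := by
    have hgv : (g : GLR).val = !![(u : ℝ) + v * ((N : ℝ) / p), v; 0, p] := by
      show ((Matrix.SpecialLinearGroup.mapGL ℝ (γ₀ : SL(2, ℤ))) : GLR).val * (lowerFrac N p).val = _
      have e0 : ((γ₀ : SL(2, ℤ)) : M2) = !![u, v; -(N : ℤ), p] := mat_gamma0Mk ..
      ext i j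
      fin_cases i <;> fin_cases j <;>
        simp [lowerFrac, Matrix.GeneralLinearGroup.mkOfDetNeZero, e0, Matrix.mul_apply,
          Fin.sum_univ_two] <;> field_simp <;> ring
    have ha : ((u : ℝ) + v * ((N : ℝ) / p)) = (p : ℝ)⁻¹ := by
      have := congrArg (fun z : ℤ => (z : ℝ)) huv
      push_cast at this
      field_simp
      linarith
    rw [ha] at hgv
    have hinv : (g⁻¹ : GLR).val = !![(p : ℝ), -v; 0, (p : ℝ)⁻¹] := by
      refine left_inv_eq_right_inv (a := g.val) (by rw [← Units.val_mul, inv_mul_cancel, Units.val_one]) ?_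
      rw [hgv]
      ext i j
      fin_cases i <;> fin_cases j <;> simp [Matrix.mul_apply, Fin.sum_univ_two, hp0] <;> ring
    intro n
    induction n with
    | zero => simp
    | succ n ih =>
      simp only [pow_succ, Units.val_mul, hinv, Matrix.mul_apply, Fin.sum_univ_two, ih.1, ih.2.1,
        ih.2.2]
      simp
  funext τ
  have hval : ∀ n : ℕ, ‖h τ‖ = (p : ℝ) ^ (e * n) * ‖h ((g⁻¹ ^ (e * n)) • τ)‖ := by
    intro n
    set M := g⁻¹ ^ (e * n)
    have hfix : h ∣[(1 : ℤ)] M = h := by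
      have h2 := hpow (e * n)
      rw [h1 _ (hmem n)] at h2
      conv_lhs => rw [← h2]
      rw [← SlashAction.slash_mul, show g ^ (e * n) * M = 1 by simp [M], SlashAction.slash_one]
    have hd : (M.val).det = 1 := by
      rw [Matrix.det_fin_two, (hentries _).1, (hentries _).2.1, (hentries _).2.2, mul_zero, sub_zero,
        ← mul_pow, mul_inv_cancel₀ hp0, one_pow]
    have h3 := congrArg norm (congrFun hfix τ)
    rw [ModularForm.slash_apply, norm_mul, norm_mul, σ, if_pos (by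
      rw [Matrix.GeneralLinearGroup.val_det_apply, hd]; norm_num)] at h3
    simp only [ContinuousAlgEquiv.refl_apply, sub_self, zpow_zero, norm_one, mul_one, denom] at h3
    rw [(hentries _).1, (hentries _).2.1] at h3
    simp only [Complex.ofReal_zero, zero_mul, zero_add, zpow_neg, zpow_one, norm_inv,
      Complex.norm_real, Real.norm_eq_abs, abs_pow, abs_inv, Nat.abs_cast, inv_pow, inv_inv] at h3
    rw [← h3, mul_comm]
  obtain ⟨C, hC⟩ := (h0.exp_decay_atImInfty one_pos hh.periodic hh.holo hh.bdd).bound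
  rw [Filter.Eventually, atImInfty, mem_comap] at hC
  obtain ⟨t, ht, hsub⟩ := hC
  obtain ⟨A, hA⟩ := mem_atTop_sets.mp ht
  have him : ∀ n, ((g⁻¹ ^ (e * n)) • τ).im = ((p : ℝ) ^ (e * n)) ^ 2 * τ.im := by
    intro n
    rw [UpperHalfPlane.im_smul_eq_div_normSq, Matrix.GeneralLinearGroup.val_det_apply,
      Matrix.det_fin_two, denom, (hentries _).1, (hentries _).2.1, (hentries _).2.2]
    simp [Complex.normSq_ofReal]
    field_simp
    rw [← pow_mul, ← pow_mul, mul_comm]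
  have hlim : Tendsto (fun x : ℝ => C * (x * Real.exp (-(2 * Real.pi * τ.im) * x))) atTop (𝓝 0) := by
    have := (tendsto_rpow_mul_exp_neg_mul_atTop_nhds_zero 1 (2 * Real.pi * τ.im)
      (by have := τ.im_pos; positivity)).const_mul C
    simpa using this
  have hp1 : (1 : ℝ) < p := by exact_mod_cast hp.out.one_lt
  have hx : Tendsto (fun n : ℕ => ((p : ℝ) ^ (e * n)) ^ 2) atTop atTop := by
    simp only [← pow_mul]
    exact (tendsto_pow_atTop_atTop_of_one_lt hp1).comp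
      (tendsto_atTop_mono (fun n => by show n ≤ e * n * 2; nlinarith [he]) tendsto_id)
  refine norm_le_zero_iff.mp (ge_of_tendsto (hlim.comp hx) ?_)
  filter_upwards [hx.eventually (eventually_ge_atTop (A / τ.im)), eventually_ge_atTop 0] with n hn _
  rw [hval n]
  have hmemt := hsub (a := (g⁻¹ ^ (e * n)) • τ) (by
    refine hA _ ?_
    rw [him]
    rwa [div_le_iff₀ τ.im_pos] at hn)
  simp only [Set.mem_ofPred_eq, him, Real.norm_eq_abs, abs_of_pos (Real.exp_pos _), div_one] at hmemt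
  have hC0 : 0 ≤ C := by
    by_contra hneg
    nlinarith [norm_nonneg (h ((g⁻¹ ^ (e * n)) • τ)), Real.exp_pos (-2 * Real.pi * (((p : ℝ) ^ (e * n)) ^ 2 * τ.im))]
  simp only [Function.comp_apply]
  have hple : (p : ℝ) ^ (e * n) ≤ ((p : ℝ) ^ (e * n)) ^ 2 :=
    le_self_pow₀ (one_le_pow₀ hp1.le) two_ne_zero
  calc (p : ℝ) ^ (e * n) * ‖h ((g⁻¹ ^ (e * n)) • τ)‖
      ≤ ((p : ℝ) ^ (e * n)) ^ 2 * (C * Real.exp (-2 * Real.pi * (((p : ℝ) ^ (e * n)) ^ 2 * τ.im))) :=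
        mul_le_mul hple hmemt (norm_nonneg _) (sq_nonneg _)
    _ = C * (((p : ℝ) ^ (e * n)) ^ 2 * Real.exp (-(2 * Real.pi * τ.im) * ((p : ℝ) ^ (e * n)) ^ 2)) := by
        rw [show -2 * Real.pi * (((p : ℝ) ^ (e * n)) ^ 2 * τ.im) =
          -(2 * Real.pi * τ.im) * ((p : ℝ) ^ (e * n)) ^ 2 by ring]
        ring

omit hp in
/-- **The Nebentypus.** The Hecke recursion with character `ε` forces `f|γ = ε(d) f`. -/
theorem nebentypus_of_recursion (ε : DirichletCharacter ℂ N)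
    (hT : ∀ p : ℕ, p.Prime → ¬ p ∣ N → ∀ n : ℕ,
      qCoeff (⇑f : ℍ → ℂ) (p * n) + ε (p : ZMod N) * (if p ∣ n then qCoeff (⇑f : ℍ → ℂ) (n / p) else 0) =
        qCoeff (⇑f : ℍ → ℂ) p * qCoeff (⇑f : ℍ → ℂ) n) (γ : Gamma0 N) :
    (⇑f : ℍ → ℂ) ∣[(1 : ℤ)] (γ : SL(2, ℤ)) = ε (((γ : SL(2, ℤ)) 1 1 : ℤ) : ZMod N) • (⇑f : ℍ → ℂ) := by
  have hu : IsUnit ((((γ : SL(2, ℤ)) 1 1 : ℤ) : ZMod N)) := by
    refine IsUnit.of_mul_eq_one ((((γ : SL(2, ℤ)) 0 0 : ℤ) : ZMod N)) ?_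
    have hdet := congrArg (fun z : ℤ => (z : ZMod N)) (mat_det γ)
    rw [Matrix.det_fin_two] at hdet
    push_cast at hdet
    rw [mat_low γ, mul_zero, sub_zero, mul_comm] at hdet
    exact hdet
  obtain ⟨p, hpgt, hprime, hpd⟩ := Nat.forall_exists_prime_gt_and_eq_mod hu N
  haveI : Fact p.Prime := ⟨hprime⟩
  have hpN : ¬ p ∣ N := fun hd => absurd (Nat.le_of_dvd (Nat.pos_of_ne_zero (NeZero.ne N)) hd) (by omega)
  set γp := gammaLower p (coprime_of_not_dvd hpN) with hγp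
  have hdef : defect f hpN (ε (p : ZMod N)) = 0 := by
    refine eq_zero_of_diag ?_ ?_ hpN (fun δ hδ => defect_diag_slash f hpN (hT p hprime hpN) hδ)
      fun δ hδ => defect_gamma1 f hpN _ hδ
    · rw [defect, sub_eq_add_neg, ← _root_.neg_smul]
      exact (isQSeries_slash f γp).add ((isQSeries_self f).smul _)
    · rw [defect, sub_eq_add_neg, ← _root_.neg_smul]
      have h0 := (CuspFormClass.zero_at_infty_slash f (γp : SL(2, ℤ))).add
        ((CuspFormClass.zero_at_infty f).smul (-(ε (p : ZMod N))))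
      simpa [IsZeroAtImInfty] using h0
  have hfp : (⇑f : ℍ → ℂ) ∣[(1 : ℤ)] (γp : SL(2, ℤ)) = ε (p : ZMod N) • (⇑f : ℍ → ℂ) := sub_eq_zero.mp hdef
  have hmem : γ * γp⁻¹ ∈ Gamma1' N := by
    rw [show Gamma1' N = (Gamma0Map N).ker from rfl, MonoidHom.mem_ker, map_mul]
    have h1 : Gamma0Map N γp = Gamma0Map N γ := by
      show ((((γp : SL(2, ℤ)) 1 1 : ℤ)) : ZMod N) = (((γ : SL(2, ℤ)) 1 1 : ℤ) : ZMod N)
      rw [gammaLower_entry, ← hpd, Int.cast_natCast]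
    rw [← h1, ← map_mul, mul_inv_cancel, map_one]
  rw [Gamma1_to_Gamma0_mem] at hmem
  have hfac : (γ : SL(2, ℤ)) = ((γ * γp⁻¹ : Gamma0 N) : SL(2, ℤ)) * (γp : SL(2, ℤ)) := by simp
  rw [hfac, SlashAction.slash_mul, slash_gamma1 f ((Gamma1_mem N _).mpr hmem), hfp, hpd, ← hfac]

end FLTAgent.DeligneSerre
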