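import Fermat.Agent.DeligneSerre.Nebentypus

/-!
# An Eisenstein series of weight three without constant term

For an odd character `ψ` modulo `N` the series `∑ ψ(c) (cτ + d)⁻³` has weight three and character
`ψ` on `Γ₀(N)`; normalised, its coefficients are `∑_{cr = n} ψ(c) r²`.
-/

set_option autoImplicit false

noncomputable section

open UpperHalfPlane CongruenceSubgroup Filter Complex
open EisensteinSeries (eisSummand)
open scoped MatrixGroups ModularForm Manifold Topology Matrix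

namespace FLTAgent.DeligneSerre

open FLTAgent.PeriodHecke (mat mat_det)
open ModularFormClass (qCoeff)

theorem support_subset_pnat {f : ℕ → ℂ} (h : f 0 = 0) :
    Function.support f ⊆ Set.range ((↑) : ℕ+ → ℕ) := fun n hn =>
  ⟨⟨n, Nat.pos_of_ne_zero fun e => hn (e ▸ h)⟩, rfl⟩

/-- A weighted lattice sum of weight three. -/
def latSum3 (w : (Fin 2 → ℤ) → ℂ) (z : ℍ) : ℂ := ∑' v, w v * eisSummand 3 v z

theorem norm_term3_le {w : (Fin 2 → ℤ) → ℂ} (hw : ∀ v, ‖w v‖ ≤ 1) (z : ℍ) (v : Fin 2 → ℤ) :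
    ‖w v * eisSummand 3 v z‖ ≤ ‖eisSummand 3 v z‖ := by
  rw [norm_mul]
  exact mul_le_of_le_one_left (norm_nonneg _) (hw v)

theorem summable_latSum3 {w : (Fin 2 → ℤ) → ℂ} (hw : ∀ v, ‖w v‖ ≤ 1) (z : ℍ) :
    Summable fun v => w v * eisSummand 3 v z :=
  Summable.of_norm_bounded (EisensteinSeries.summable_norm_eisSummand (k := 3) le_rfl z)
    (norm_term3_le hw z)

theorem latSum3_smul (w : (Fin 2 → ℤ) → ℂ) (g : SL(2, ℤ)) (z : ℍ) :
    latSum3 w (g • z) =
      denom g (z : ℂ) ^ (3 : ℤ) * latSum3 (fun v => w (v ᵥ* (g⁻¹ : SL(2, ℤ)))) z := by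
  let e : (Fin 2 → ℤ) ≃ (Fin 2 → ℤ) :=
    { toFun := fun v => v ᵥ* (g : Matrix (Fin 2) (Fin 2) ℤ)
      invFun := fun v => v ᵥ* ((g⁻¹ : SL(2, ℤ)) : Matrix (Fin 2) (Fin 2) ℤ)
      left_inv := fun v => by
        show (v ᵥ* (g : Matrix (Fin 2) (Fin 2) ℤ)) ᵥ*
          ((g⁻¹ : SL(2, ℤ)) : Matrix (Fin 2) (Fin 2) ℤ) = v
        rw [Matrix.vecMul_vecMul, ← Matrix.SpecialLinearGroup.coe_mul, mul_inv_cancel,
          Matrix.SpecialLinearGroup.coe_one, Matrix.vecMul_one]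
      right_inv := fun v => by
        show (v ᵥ* ((g⁻¹ : SL(2, ℤ)) : Matrix (Fin 2) (Fin 2) ℤ)) ᵥ*
          (g : Matrix (Fin 2) (Fin 2) ℤ) = v
        rw [Matrix.vecMul_vecMul, ← Matrix.SpecialLinearGroup.coe_mul, inv_mul_cancel,
          Matrix.SpecialLinearGroup.coe_one, Matrix.vecMul_one] }
  rw [latSum3, latSum3, ← e.tsum_eq (fun v => w (v ᵥ* ((g⁻¹ : SL(2, ℤ)) : Matrix (Fin 2) (Fin 2) ℤ)) *
    eisSummand 3 v z), ← tsum_mul_left]
  refine tsum_congr fun v => ?_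
  rw [EisensteinSeries.eisSummand_SL2_apply]
  show _ = _ * (w (e.symm (e v)) * _)
  rw [Equiv.symm_apply_apply, mul_left_comm]
  rfl

theorem latSum3_slash (w : (Fin 2 → ℤ) → ℂ) (g : SL(2, ℤ)) :
    latSum3 w ∣[(3 : ℤ)] g = latSum3 fun v => w (v ᵥ* (g⁻¹ : SL(2, ℤ))) := by
  funext z
  rw [ModularForm.SL_slash_apply, latSum3_smul, mul_comm, ← mul_assoc,
    ← zpow_add₀ (denom_ne_zero _ _)]
  simp

theorem mdiff_latSum3 {w : (Fin 2 → ℤ) → ℂ} (hw : ∀ v, ‖w v‖ ≤ 1) : MDiff (latSum3 w) := by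
  have hu : TendstoLocallyUniformly
      (fun (s : Finset (Fin 2 → ℤ)) z => ∑ v ∈ s, w v * eisSummand 3 v z) (latSum3 w) atTop := by
    rw [tendstoLocallyUniformly_iff_forall_isCompact]
    intro K hK
    obtain ⟨A, B, hB, hABK⟩ := subset_verticalStrip_of_isCompact hK
    have hsum : Summable fun v : Fin 2 → ℤ => ‖v‖ ^ (-((3 : ℤ) : ℝ)) :=
      EisensteinSeries.summable_one_div_norm_rpow (by norm_num)
    refine (tendstoUniformlyOn_tsum (hu := hsum.mul_left (EisensteinSeries.r ⟨⟨A, B⟩, hB⟩ ^ (-((3 : ℤ) : ℝ))))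
      (fun v z hz => (norm_term3_le hw z v).trans ?_)).mono hABK
    simpa only [eisSummand, one_div, ← zpow_neg, norm_zpow, ← Real.rpow_intCast, Int.cast_neg]
      using EisensteinSeries.summand_bound_of_mem_verticalStrip (by norm_num) v hB hz
  rw [UpperHalfPlane.mdifferentiable_iff]
  have h2 : TendstoLocallyUniformlyOn
      (fun (s : Finset (Fin 2 → ℤ)) => (fun z => ∑ v ∈ s, w v * eisSummand 3 v z) ∘ ofComplex)
      (latSum3 w ∘ ofComplex) atTop {z : ℂ | 0 < z.im} := by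
    rw [← upperHalfPlaneSet, ← range_coe, ← Set.image_univ]
    refine TendstoLocallyUniformlyOn.comp (s := ⊤) ?_ _ ?_
      (OpenPartialHomeomorph.continuousOn_symm _)
    · simpa only [Set.top_eq_univ, tendstoLocallyUniformlyOn_univ] using hu
    · exact Set.mapsTo_univ _ _
  refine h2.differentiableOn (Eventually.of_forall fun s => ?_) isOpen_upperHalfPlaneSet
  refine (DifferentiableOn.fun_sum (u := s) fun v _ =>
    ((EisensteinSeries.div_linear_zpow_differentiableOn 3 v).const_mul (w v))).congr fun z hz => ?_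
  simp [Function.comp_apply, ofComplex_apply_of_im_pos hz, eisSummand]

theorem bdd_latSum3 {w : (Fin 2 → ℤ) → ℂ} (hw : ∀ v, ‖w v‖ ≤ 1) :
    IsBoundedAtImInfty (latSum3 w) := by
  rw [UpperHalfPlane.isBoundedAtImInfty_iff]
  have hk : (2 : ℝ) < ((3 : ℤ) : ℝ) := by norm_num
  refine ⟨∑' v : Fin 2 → ℤ,
    EisensteinSeries.r ⟨⟨(1 : ℕ), 2⟩, Nat.ofNat_pos⟩ ^ (-(3 : ℤ)) * ‖v‖ ^ (-(3 : ℤ)), 2, fun z hz => ?_⟩
  obtain ⟨m, hm⟩ := ModularGroup_T_zpow_mem_verticalStrip z (Nat.one_pos)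
  have h1 : latSum3 w z =
      latSum3 (fun v => w (v ᵥ* ((((ModularGroup.T ^ ((1 : ℕ) * m))⁻¹)⁻¹ : SL(2, ℤ)) : Matrix (Fin 2) (Fin 2) ℤ)))
        (ModularGroup.T ^ ((1 : ℕ) * m) • z) := by
    have hT : denom ((ModularGroup.T ^ ((1 : ℕ) * m))⁻¹ : SL(2, ℤ))
        ((ModularGroup.T ^ ((1 : ℕ) * m) • z : ℍ) : ℂ) = 1 := by
      rw [← zpow_neg, ModularGroup.denom_apply, ModularGroup.coe_T_zpow]
      simp
    conv_lhs => rw [← inv_smul_smul (ModularGroup.T ^ ((1 : ℕ) * m)) z]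
    rw [latSum3_smul, hT, one_zpow, one_mul]
  rw [h1, latSum3]
  refine (norm_tsum_le_tsum_norm (Summable.of_nonneg_of_le (fun _ => norm_nonneg _)
    (norm_term3_le (fun v => hw _) _)
    (EisensteinSeries.summable_norm_eisSummand le_rfl _))).trans ?_
  refine (Summable.of_nonneg_of_le (fun _ => norm_nonneg _) (norm_term3_le (fun v => hw _) _)
    (EisensteinSeries.summable_norm_eisSummand le_rfl _)).tsum_le_tsum ?_ ?_
  · intro v
    refine (norm_term3_le (fun v => hw _) _ v).trans ?_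
    simp_rw [eisSummand, norm_zpow]
    exact_mod_cast EisensteinSeries.summand_bound_of_mem_verticalStrip
      (lt_trans two_pos hk).le v two_pos (verticalStrip_anti_right _ hz hm)
  · exact_mod_cast (EisensteinSeries.summable_one_div_norm_rpow hk).mul_left
      (EisensteinSeries.r ⟨⟨(1 : ℕ), 2⟩, Nat.ofNat_pos⟩ ^ (-(3 : ℤ)))

variable {N : ℕ} [NeZero N] (ψ : DirichletCharacter ℂ N)

/-- The weights. -/
def oddWeight (v : Fin 2 → ℤ) : ℂ := ψ (v 0 : ZMod N)

/-- The normalisation. -/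
def oddConst : ℂ := (-2 * Real.pi * Complex.I) ^ 3

/-- The Eisenstein series of weight three attached to an odd character, with linear coefficient
one. -/
def oddEis : ℍ → ℂ := oddConst⁻¹ • latSum3 (oddWeight ψ)

/-- Its coefficients. -/
def oddCoeff (n : ℕ) : ℂ := ∑ x ∈ n.divisorsAntidiagonal, ψ (x.1 : ZMod N) * (x.2 : ℂ) ^ 2

theorem norm_oddWeight (v : Fin 2 → ℤ) : ‖oddWeight ψ v‖ ≤ 1 := ψ.norm_le_one _

theorem oddConst_ne_zero : oddConst ≠ 0 := by simp [oddConst, Real.pi_ne_zero]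

theorem mdiff_oddEis : MDiff (oddEis ψ) := (mdiff_latSum3 (norm_oddWeight ψ)).const_smul _

theorem bdd_slash_oddEis (g : SL(2, ℤ)) : IsBoundedAtImInfty (oddEis ψ ∣[(3 : ℤ)] g) := by
  rw [oddEis, ModularForm.SL_smul_slash, latSum3_slash]
  exact (bdd_latSum3 fun v => norm_oddWeight ψ _).smul _

omit [NeZero N] in
/-- The character of the series on `Γ₀(N)`. -/
theorem oddEis_slash (γ : Gamma0 N) :
    oddEis ψ ∣[(3 : ℤ)] (γ : SL(2, ℤ)) =
      ψ (((γ : SL(2, ℤ)) 1 1 : ℤ) : ZMod N) • oddEis ψ := by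
  rw [oddEis, ModularForm.SL_smul_slash, latSum3_slash, smul_comm]
  congr 1
  funext z
  rw [Pi.smul_apply, smul_eq_mul, latSum3, latSum3, ← tsum_mul_left]
  refine tsum_congr fun v => ?_
  rw [← mul_assoc]
  congr 1
  have hc : (((γ : SL(2, ℤ)) 1 0 : ℤ) : ZMod N) = 0 := Gamma0_mem.mp γ.2
  simp only [oddWeight, Matrix.SpecialLinearGroup.coe_inv, Matrix.adjugate_fin_two, Matrix.vecMul,
    dotProduct, Fin.sum_univ_two]
  simp [hc, mul_comm]

theorem hasSum_oddEis (hψ : ψ (-1) = -1) (hN : 1 < N) (z : ℍ) :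
    HasSum (fun n : ℕ => oddCoeff ψ n • Function.Periodic.qParam 1 (z : ℂ) ^ n) (oddEis ψ z) := by
  haveI : Fact (1 < N) := ⟨hN⟩
  set q : ℂ := Function.Periodic.qParam 1 (z : ℂ) with hq
  have hqexp : q = cexp (2 * Real.pi * Complex.I * z) := by simp [hq, Function.Periodic.qParam]
  -- the sum by rows
  set g : ℤ → ℂ := fun c => ψ (c : ZMod N) * ∑' d : ℤ, (((c : ℂ) * z + d) ^ (3 : ℤ))⁻¹
  have hsum : Summable fun x : ℤ × ℤ => ψ (x.1 : ZMod N) * (((x.1 : ℂ) * z + x.2) ^ (3 : ℤ))⁻¹ := by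
    have h := (finTwoArrowEquiv ℤ).symm.summable_iff.mpr (summable_latSum3 (norm_oddWeight ψ) z)
    simpa [Function.comp_def, oddWeight, eisSummand, finTwoArrowEquiv] using h
  have hrows : HasSum g (latSum3 (oddWeight ψ) z) := by
    have h := hsum.hasSum.prod_fiberwise fun c => (hsum.prod_factor c).hasSum
    have e : ∑' x : ℤ × ℤ, ψ (x.1 : ZMod N) * (((x.1 : ℂ) * z + x.2) ^ (3 : ℤ))⁻¹ =
        latSum3 (oddWeight ψ) z := by
      rw [latSum3, ← (finTwoArrowEquiv ℤ).symm.tsum_eq]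
      exact tsum_congr fun x => by simp [oddWeight, eisSummand, finTwoArrowEquiv]
    rw [e] at h
    exact h.congr_fun fun c => (tsum_mul_left).symm
  have heven : Function.Even g := fun c => by
    simp only [g]
    rw [Int.cast_neg, ← neg_one_mul (c : ZMod N), map_mul, hψ, Int.cast_neg,
      ← (Equiv.neg ℤ).tsum_eq (fun d : ℤ => ((((-(c : ℂ))) * z + d) ^ (3 : ℤ))⁻¹)]
    rw [← tsum_mul_left, ← tsum_mul_left]
    refine tsum_congr fun d => ?_
    simp only [Equiv.neg_apply, Int.cast_neg]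
    rw [show -(c : ℂ) * z + -(d : ℂ) = -((c : ℂ) * z + d) by ring,
      show (3 : ℤ) = ((3 : ℕ) : ℤ) from rfl, zpow_natCast, zpow_natCast, Odd.neg_pow (by decide), inv_neg]
    ring
  have h0 : g 0 = 0 := by simp [g, MulChar.map_nonunit ψ (not_isUnit_zero : ¬IsUnit (0 : ZMod N))]
  have htot : latSum3 (oddWeight ψ) z = 2 • ∑' c : ℕ+, g c := by
    rw [← hrows.tsum_eq, tsum_int_eq_zero_add_two_mul_tsum_pnat heven hrows.summable, h0, zero_add]
  -- each row
  have hrow : ∀ c : ℕ+, g c =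
      oddConst / 2 * ∑' r : ℕ+, ψ ((c : ℕ) : ZMod N) * ((r : ℕ) : ℂ) ^ 2 * q ^ ((c : ℕ) * r) := by
    intro c
    have hc : 0 < ((c : ℕ) : ℂ).re := by simp
    set w : ℍ := ⟨(c : ℕ) * (z : ℂ), by simpa using mul_pos (Nat.cast_pos.mpr c.pos) z.im_pos⟩
    have h := EisensteinSeries.qExpansion_identity (k := 2) one_le_two w
    simp only [g, Int.cast_natCast]
    have e : ∀ d : ℤ, (((c : ℕ) : ℂ) * z + d) ^ (3 : ℤ) = ((w : ℂ) + d) ^ (2 + 1) := fun d => by
      rw [show (3 : ℤ) = ((2 + 1 : ℕ) : ℤ) from rfl, zpow_natCast]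
    simp only [e, one_div] at h ⊢
    rw [h, Nat.factorial_two, ← PNat.coe_injective.tsum_eq (support_subset_pnat (by simp))]
    rw [oddConst, ← tsum_mul_left, ← tsum_mul_left, ← tsum_mul_left]
    refine tsum_congr fun r => ?_
    simp only [hqexp, ← Complex.exp_nat_mul]
    push_cast
    simp only [w]
    ring_nf
  -- regroup
  have hF : Summable fun x : ℕ+ × ℕ+ =>
      ψ ((x.1 : ℕ) : ZMod N) * ((x.2 : ℕ) : ℂ) ^ 2 * q ^ ((x.1 : ℕ) * x.2) := by
    have hq1 : ‖q‖ < 1 := by rw [hqexp]; exact norm_exp_two_pi_I_lt_one z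
    rw [← sigmaAntidiagonalEquivProd.summable_iff]
    refine Summable.of_norm ((summable_sigma_of_nonneg fun _ => norm_nonneg _).mpr
      ⟨fun n => (hasSum_fintype _).summable, ?_⟩)
    refine Summable.of_nonneg_of_le (fun n => tsum_nonneg fun _ => norm_nonneg _) (fun n => ?_)
      ((summable_pow_mul_geometric_of_norm_lt_one 3 (show ‖(‖q‖ : ℝ)‖ < 1 by
        rwa [Real.norm_of_nonneg (norm_nonneg q)])).comp_injective PNat.coe_injective)
    rw [tsum_fintype]
    refine (Finset.sum_le_card_nsmul _ _ (((n : ℕ) : ℝ) ^ 2 * ‖q‖ ^ (n : ℕ)) fun x _ => ?_).trans ?_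
    · obtain ⟨⟨a, b⟩, hab⟩ := x
      have hab' := (Nat.mem_divisorsAntidiagonal.mp hab).1
      simp only [Function.comp_apply, sigmaAntidiagonalEquivProd, divisorsAntidiagonalFactors,
        Equiv.coe_fn_mk, PNat.mk_coe, norm_mul, norm_pow, Complex.norm_natCast, hab']
      refine mul_le_mul_of_nonneg_right ((mul_le_of_le_one_left (by positivity) (ψ.norm_le_one _)).trans
        (pow_le_pow_left₀ (Nat.cast_nonneg _) (Nat.cast_le.mpr (Nat.le_of_dvd n.pos
          (Dvd.intro_left a hab'))) 2)) (by positivity)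
    · rw [nsmul_eq_mul, Finset.card_univ, Fintype.card_coe, Function.comp_apply]
      rw [show ((n : ℕ) : ℝ) ^ 3 * ‖q‖ ^ (n : ℕ) = (n : ℕ) * (((n : ℕ) : ℝ) ^ 2 * ‖q‖ ^ (n : ℕ)) by ring]
      refine mul_le_mul_of_nonneg_right (Nat.cast_le.mpr ?_) (by positivity)
      rw [← Nat.map_div_right_divisors, Finset.card_map]
      exact Nat.card_divisors_le_self _
  have hval : oddEis ψ z =
      ∑' x : ℕ+ × ℕ+, ψ ((x.1 : ℕ) : ZMod N) * ((x.2 : ℕ) : ℂ) ^ 2 * q ^ ((x.1 : ℕ) * x.2) := by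
    rw [oddEis, Pi.smul_apply, smul_eq_mul, htot, tsum_congr hrow, tsum_mul_left,
      ← hF.tsum_prod' fun c => hF.prod_factor c, nsmul_eq_mul]
    push_cast
    field_simp [oddConst_ne_zero]
  have hh : HasSum (fun x : ℕ+ × ℕ+ =>
      ψ ((x.1 : ℕ) : ZMod N) * ((x.2 : ℕ) : ℂ) ^ 2 * q ^ ((x.1 : ℕ) * x.2)) (oddEis ψ z) :=
    hval ▸ hF.hasSum
  rw [← sigmaAntidiagonalEquivProd.hasSum_iff] at hh
  have hn := hh.sigma fun n => hasSum_fintype _
  refine (Function.Injective.hasSum_iff PNat.coe_injective fun n hn0 => ?_).mp (hn.congr_fun fun n => ?_)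
  · have : n = 0 := by
      by_contra h
      exact hn0 ⟨⟨n, Nat.pos_of_ne_zero h⟩, rfl⟩
    simp [this, oddCoeff]
  · simp only [Function.comp_apply, smul_eq_mul, oddCoeff, Finset.sum_mul]
    rw [← Finset.sum_coe_sort]
    refine Finset.sum_congr rfl fun x _ => ?_
    obtain ⟨⟨a, b⟩, hab⟩ := x
    have hab' := (Nat.mem_divisorsAntidiagonal.mp hab).1
    simp [sigmaAntidiagonalEquivProd, divisorsAntidiagonalFactors, hab']

omit [NeZero N] in
theorem oddCoeff_zero : oddCoeff ψ 0 = 0 := by simp [oddCoeff]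

omit [NeZero N] in
theorem oddCoeff_one : oddCoeff ψ 1 = 1 := by simp [oddCoeff]

theorem isQSeries_oddEis : IsQSeries (oddEis ψ) where
  periodic z := by
    simp only [Function.comp_apply]
    by_cases hz : 0 < z.im
    · have hT : ModularGroup.T ∈ Gamma0 N := Gamma1_in_Gamma0 N (by simp [ModularGroup.coe_T])
      have := congrFun (oddEis_slash ψ ⟨_, hT⟩) (ofComplex z)
      rw [ModularForm.SL_slash_apply] at this
      have hsm : ModularGroup.T • ofComplex z = ofComplex (z + 1) := by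
        rw [modular_T_smul]
        ext
        simp [ofComplex_apply_of_im_pos hz, ofComplex_apply_of_im_pos
          (show 0 < (z + 1).im by simpa using hz), add_comm]
      have hd : denom ModularGroup.T (ofComplex z) = 1 := by simp [denom, ModularGroup.coe_T]
      rw [hsm, hd] at this
      simpa [ModularGroup.coe_T] using this
    · rw [ofComplex_apply_of_im_nonpos (not_lt.mp hz),
        ofComplex_apply_of_im_nonpos (by simpa using not_lt.mp hz)]
  holo := mdiff_oddEis ψ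
  bdd := by simpa using bdd_slash_oddEis ψ 1

/-- The series as a modular form on `Γ₁(N)`. -/
def oddEisForm : ModularForm (Gamma1 N) 3 where
  toFun := oddEis ψ
  slash_action_eq' := by
    rintro _ ⟨γ, hγ, rfl⟩
    show oddEis ψ ∣[(3 : ℤ)] γ = oddEis ψ
    refine (oddEis_slash ψ ⟨γ, Gamma1_in_Gamma0 N hγ⟩).trans ?_
    rw [((Gamma1_mem N γ).mp hγ).2.1, map_one, one_smul]
  holo' := mdiff_oddEis ψ
  bdd_at_cusps' hc := by
    rw [Subgroup.IsArithmetic.isCusp_iff_isCusp_SL2Z] at hc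
    rw [OnePoint.isBoundedAt_iff_forall_SL2Z hc]
    exact fun γ _ => bdd_slash_oddEis ψ γ

theorem qCoeff_oddEis (hψ : ψ (-1) = -1) (hN : 1 < N) (n : ℕ) :
    qCoeff (oddEis ψ) n = oddCoeff ψ n :=
  (ModularFormClass.qExpansion_coeff_unique (f := oddEisForm ψ) one_pos
    (by simp [strictPeriods_Gamma1]) (hasSum_oddEis ψ hψ hN) n).symm

end FLTAgent.DeligneSerre
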