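import Fermat.Agent.DeligneSerre.TorsionGroup

/-!
Roots of invariant functions and their characters.
-/

set_option autoImplicit false

noncomputable section

open UpperHalfPlane Complex Function
open scoped MatrixGroups Manifold

namespace FLTAgent.DeligneSerre.Tors

open FLTAgent.X0Fn (Hol PerL comp_smul_mdiff iota iota_injective)
open FLTAgent.TorsionHom (eq_smul_of_pow_eq)

variable {N : ℕ} [NeZero N] {Γ : Subgroup SL(2, ℤ)}

local notation "Cx" => Additive ℂˣ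

/-- The multiplier of a character. -/
def mult (χ : Additive Γ →+ Cx) (γ : Γ) : ℂ := ((χ (Additive.ofMul γ)).toMul : ℂˣ)

@[simp] theorem mult_zero (γ : Γ) : mult (0 : Additive Γ →+ Cx) γ = 1 := rfl

theorem mult_add (χ χ' : Additive Γ →+ Cx) (γ : Γ) :
    mult (χ + χ') γ = mult χ γ * mult χ' γ := rfl

theorem mult_nsmul (χ : Additive Γ →+ Cx) (m : ℕ) (γ : Γ) :
    mult (m • χ) γ = mult χ γ ^ m := by
  simp [mult]

theorem mult_ne_zero (χ : Additive Γ →+ Cx) (γ : Γ) : mult χ γ ≠ 0 := Units.ne_zero _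

theorem mult_mul (χ : Additive Γ →+ Cx) (γ δ : Γ) :
    mult χ (γ * δ) = mult χ γ * mult χ δ := by
  rw [mult, mult, mult, ofMul_mul, map_add, toMul_add, Units.val_mul]

theorem mult_injective {χ χ' : Additive Γ →+ Cx} (h : ∀ γ, mult χ γ = mult χ' γ) : χ = χ' :=
  AddMonoidHom.ext fun γ => Additive.toMul.injective (Units.ext (h γ.toMul))

/-- A function transforming by a character. -/
def HasChar (R : ℍ → ℂ) (χ : Additive Γ →+ Cx) : Prop :=
  ∀ (γ : Γ) (τ : ℍ), R ((γ : SL(2, ℤ)) • τ) = mult χ γ * R τ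

theorem HasChar.mul {R R' : ℍ → ℂ} {χ χ' : Additive Γ →+ Cx} (h : HasChar R χ)
    (h' : HasChar R' χ') : HasChar (R * R') (χ + χ') := fun γ τ => by
  rw [Pi.mul_apply, Pi.mul_apply, h, h', mult_add]; ring

theorem HasChar.pow {R : ℍ → ℂ} {χ : Additive Γ →+ Cx} (h : HasChar R χ) (m : ℕ) :
    HasChar (R ^ m) (m • χ) := fun γ τ => by
  rw [Pi.pow_apply, Pi.pow_apply, h, mult_nsmul, mul_pow]

theorem HasChar.mul_W {R : ℍ → ℂ} {χ : Additive Γ →+ Cx} (h : HasChar R χ) (f : W N Γ) :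
    HasChar (R * (f : ℍ → ℂ)) χ := fun γ τ => by
  rw [Pi.mul_apply, Pi.mul_apply, h, f.2.2.1 _ γ.2 τ, mul_assoc]

theorem HasChar.const_mul {R : ℍ → ℂ} {χ : Additive Γ →+ Cx} (h : HasChar R χ) (c : ℂ) :
    HasChar (fun τ => c * R τ) χ := fun γ τ => by
  show c * R _ = _
  rw [h, mul_left_comm]

theorem hasChar_W (f : W N Γ) : HasChar (f : ℍ → ℂ) (0 : Additive Γ →+ Cx) :=
  fun γ τ => by rw [mult_zero, one_mul]; exact f.2.2.1 _ γ.2 τ

theorem hasChar_const (c : ℂ) : HasChar (fun _ => c) (0 : Additive Γ →+ Cx) :=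
  fun γ τ => by simp

theorem HasChar.unique {R : Hol} (hR : R ≠ 0) {χ χ' : Additive Γ →+ Cx}
    (h : HasChar (R : ℍ → ℂ) χ) (h' : HasChar (R : ℍ → ℂ) χ') : χ = χ' := by
  obtain ⟨τ, hτ⟩ : ∃ τ, (R : ℍ → ℂ) τ ≠ 0 := by
    by_contra hne
    exact hR (Subtype.ext (funext fun τ => not_not.1 fun h0 => hne ⟨τ, h0⟩))
  exact mult_injective fun γ => mul_right_cancel₀ hτ ((h γ τ).symm.trans (h' γ τ))

/-- A holomorphic function with invariant power has a character. -/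
theorem exists_hasChar {n : ℕ} (hn : n ≠ 0) {R : Hol} (hR : R ≠ 0) {G : W N Γ}
    (hG : R ^ n = toHol G) :
    ∃ χ : Additive Γ →+ Cx, HasChar (R : ℍ → ℂ) χ ∧ n • χ = 0 := by
  obtain ⟨τ, hτ⟩ : ∃ τ, (R : ℍ → ℂ) τ ≠ 0 := by
    by_contra hne
    exact hR (Subtype.ext (funext fun τ => not_not.1 fun h0 => hne ⟨τ, h0⟩))
  have hζ : ∀ γ : Γ, ∃ ζ : ℂ, ζ ^ n = 1 ∧
      ∀ τ, (R : ℍ → ℂ) ((γ : SL(2, ℤ)) • τ) = ζ * (R : ℍ → ℂ) τ := fun γ => by
    let R' : Hol := ⟨fun τ => (R : ℍ → ℂ) ((γ : SL(2, ℤ)) • τ), comp_smul_mdiff R.2 _⟩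
    have hp : R' ^ n = R ^ n := by
      rw [hG]
      apply Subtype.ext
      funext τ
      have := congrFun (congrArg Subtype.val hG) ((γ : SL(2, ℤ)) • τ)
      simp only [SubmonoidClass.coe_pow, Pi.pow_apply, coe_toHol] at this ⊢
      rw [this, G.2.2.1 _ γ.2]
    obtain ⟨ζ, h1, h2⟩ := eq_smul_of_pow_eq hn hp
    exact ⟨ζ, h1, fun τ => congrFun (congrArg Subtype.val h2) τ⟩
  choose c hc hmul using hζ
  have hne : ∀ γ, c γ ≠ 0 := fun γ h0 => by
    have := hc γ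
    rw [h0, zero_pow hn] at this
    exact zero_ne_one this
  have hhom : ∀ γ δ : Γ, c (γ * δ) = c γ * c δ := fun γ δ => by
    refine mul_right_cancel₀ hτ ?_
    rw [← hmul, Subgroup.coe_mul, mul_smul, hmul, hmul, mul_assoc]
  let u : Γ →* ℂˣ := MonoidHom.mk' (fun γ => Units.mk0 (c γ) (hne γ))
    fun γ δ => Units.ext (hhom γ δ)
  refine ⟨MonoidHom.toAdditive u, fun γ τ => hmul γ τ, mult_injective fun γ => ?_⟩
  rw [mult_nsmul, mult_zero]
  exact hc γ

variable {K : Type*} [Field K] [Algebra ℚ K] (κ : K →+* ℂ)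

/-- A holomorphic root of a modular function, after clearing a denominator. -/
def IsRoot (n : ℕ) (x : LaurentSeries K) (R : Hol) : Prop :=
  ∃ A B : W N Γ, B ≠ 0 ∧ iota (N := N) κ x * expW N Γ B = expW N Γ A ∧
    R ^ n = toHol (A * B ^ (n - 1))

variable (N) in
/-- The character of a modular function. -/
def IsCharFn (n : ℕ) (x : LaurentSeries K) (χ : Additive Γ →+ Cx) : Prop :=
  ∃ R : Hol, IsRoot (N := N) (Γ := Γ) κ n x R ∧ HasChar (R : ℍ → ℂ) χ

variable {κ} {n : ℕ} {x y : LaurentSeries K}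

theorem IsRoot.ne_zero {R : Hol} (hn : n ≠ 0) (hx : x ≠ 0) (h : IsRoot (N := N) (Γ := Γ) κ n x R) :
    R ≠ 0 := by
  obtain ⟨A, B, hB, hAB, hR⟩ := h
  have hA : A ≠ 0 := fun h0 => by
    rw [h0, map_zero, mul_eq_zero] at hAB
    exact hAB.elim (fun e => hx (iota_injective κ (e.trans (map_zero _).symm)))
      fun e => hB (expW_injective (e.trans (map_zero _).symm))
  have hne : ∀ f : W N Γ, f ≠ 0 → toHol f ≠ 0 := fun f hf => (map_ne_zero_iff _ toHol_injective).2 hf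
  rintro rfl
  rw [zero_pow hn, map_mul, map_pow, eq_comm, mul_eq_zero] at hR
  exact hR.elim (hne A hA) fun e => hne B hB (pow_eq_zero_iff'.1 e).1

/-- The character does not depend on the choices. -/
theorem IsCharFn.unique (hn : n ≠ 0) (hx : x ≠ 0) {χ χ' : Additive Γ →+ Cx}
    (h : IsCharFn N κ n x χ) (h' : IsCharFn N κ n x χ') : χ = χ' := by
  obtain ⟨R, hroot, hc⟩ := h
  obtain ⟨R', hroot', hc'⟩ := h'
  have hR := hroot.ne_zero hn hx
  obtain ⟨A, B, hB, hAB, hR1⟩ := hroot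
  obtain ⟨A', B', hB', hAB', hR2⟩ := hroot'
  have hcross : A * B' = A' * B := expW_injective (by
    rw [map_mul, map_mul, ← hAB, ← hAB']; ring)
  have hpow : (R * toHol B') ^ n = (R' * toHol B) ^ n := by
    rw [mul_pow, mul_pow, hR1, hR2, ← map_pow, ← map_pow, ← map_mul, ← map_mul]
    congr 1
    obtain ⟨m, rfl⟩ := Nat.exists_eq_succ_of_ne_zero hn
    rw [Nat.succ_sub_one, pow_succ, pow_succ]
    linear_combination (B ^ m * B' ^ m) * hcross
  obtain ⟨ζ, -, hζ⟩ := eq_smul_of_pow_eq hn hpow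
  have h1 : HasChar ((R * toHol B' : Hol) : ℍ → ℂ) χ := by
    exact hc.mul_W B'
  have h2 : HasChar ((R * toHol B' : Hol) : ℍ → ℂ) χ' := by
    rw [hζ]
    exact (hc'.mul_W B).const_mul ζ
  exact h1.unique (mul_ne_zero hR ((map_ne_zero_iff _ toHol_injective).2 hB')) h2

theorem IsCharFn.mul {χ χ' : Additive Γ →+ Cx} (h : IsCharFn N κ n x χ)
    (h' : IsCharFn N κ n y χ') : IsCharFn N κ n (x * y) (χ + χ') := by
  obtain ⟨R, ⟨A, B, hB, hAB, hR1⟩, hc⟩ := h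
  obtain ⟨R', ⟨A', B', hB', hAB', hR2⟩, hc'⟩ := h'
  refine ⟨R * R', ⟨A * A', B * B', ?_, ?_, ?_⟩, hc.mul hc'⟩
  · intro h0
    have := congrArg toHol h0
    rw [map_mul, map_zero, mul_eq_zero, map_eq_zero_iff _ toHol_injective,
      map_eq_zero_iff _ toHol_injective] at this
    exact this.elim hB hB'
  · rw [map_mul, map_mul, map_mul, ← hAB, ← hAB']; ring
  · rw [mul_pow, hR1, hR2, ← map_mul]; congr 1; ring

/-- Powers in the function field have trivial character. -/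
theorem isCharFn_pow {a b : W N Γ} (hb : b ≠ 0) (hy : iota (N := N) κ y * expW N Γ b = expW N Γ a)
    (hn : n ≠ 0) : IsCharFn N κ n (y ^ n) (0 : Additive Γ →+ Cx) := by
  refine ⟨toHol (a * b ^ (n - 1)), ⟨a ^ n, b ^ n, W_pow_ne_zero hb n, ?_, ?_⟩, fun γ τ => hasChar_W (a * b ^ (n - 1)) γ τ⟩
  · rw [map_pow, map_pow, map_pow, ← mul_pow, hy]
  · rw [← map_pow]; congr 1; ring

/-- Changing the exponent keeps the character. -/
theorem IsCharFn.pow {χ : Additive Γ →+ Cx} (hn : n ≠ 0) (h : IsCharFn N κ n x χ) (m : ℕ)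
    (hm : m ≠ 0) : IsCharFn N κ (n * m) (x ^ m) χ := by
  obtain ⟨R, ⟨A, B, hB, hAB, hR⟩, hc⟩ := h
  refine ⟨R * toHol (B ^ (m - 1)), ⟨A ^ m, B ^ m, W_pow_ne_zero hB m, ?_, ?_⟩, ?_⟩
  · rw [map_pow, map_pow, map_pow, ← mul_pow, hAB]
  · rw [mul_pow, pow_mul, hR, ← map_pow, ← map_pow, ← map_mul, mul_pow, ← pow_mul, ← pow_mul,
      ← pow_mul]
    congr 1
    rw [mul_assoc, ← pow_add]
    congr 2
    obtain ⟨k, rfl⟩ := Nat.exists_eq_succ_of_ne_zero hn
    obtain ⟨l, rfl⟩ := Nat.exists_eq_succ_of_ne_zero hm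
    have h1 : (k + 1) * (l + 1) - 1 = (k * l + k) + l :=
      Nat.sub_eq_of_eq_add (by ring)
    simp only [Nat.succ_eq_add_one, Nat.add_sub_cancel, h1]
    ring
  · exact hc.mul_W (B ^ (m - 1))

end FLTAgent.DeligneSerre.Tors
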