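import Fermat.Agent.DeligneSerre.TorsionModel
import Fermat.Prelude.Def_AlgebraicCurve_BaseChangeGalois

/-!
The complex quotients of invariant functions: a model, stable under the automorphisms of `ℂ`
fixing the constants of a given model.
-/

set_option autoImplicit false

noncomputable section

open UpperHalfPlane Complex Function IntermediateField
open scoped MatrixGroups Manifold

set_option synthInstance.maxHeartbeats 400000
set_option maxHeartbeats 1600000

namespace FLTAgent.DeligneSerre.Tors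

open FLTAgent.X0Fn (iota iota_injective)
open ModularCurve (coeffEmb coeffMap jq)
open AlgebraicCurve (SemilinearAut)

variable {K : Type*} [Field K] [Algebra ℚ K] {N : ℕ} [NeZero N] {Γ : Subgroup SL(2, ℤ)}
  [Γ.FiniteIndex] {κ : K →+* ℂ} {F : IntermediateField K (LaurentSeries K)}

theorem iota_id_coeffMap (κ : K →+* ℂ) (z : LaurentSeries K) :
    iota (N := N) (RingHom.id ℂ) (coeffMap κ z) = iota (N := N) κ z := by
  rw [iota, iota, RingHom.comp_apply, RingHom.comp_apply, ModularCurve.coeffMap_id]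

theorem complex_spec (h : IsModel N Γ κ F) :
    Module.finrank ℂ⟮(⟨coeffEmb ℂ jq, jq_mem_ratField (RingHom.id ℂ)⟩ :
        ratField N Γ (RingHom.id ℂ))⟯ (ratField N Γ (RingHom.id ℂ)) = Nat.card (Cos Γ) ∧
      ∃ z : LaurentSeries K, coeffMap κ z ∈ ratField N Γ (RingHom.id ℂ) ∧
        ∀ x ∈ ratField N Γ (RingHom.id ℂ), x ∈ IntermediateField.adjoin ℂ ({coeffEmb ℂ jq, coeffMap κ z} : Set (LaurentSeries ℂ)) := by
  classical
  haveI := Fintype.ofFinite (Cos Γ)
  obtain ⟨θ, p, A, hp, hrep, hstab⟩ := h.exists_separating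
  set P : W N Γ := Polynomial.aeval (jW N Γ) p
  have hP0 : P ≠ 0 := aeval_jW_ne_zero hp
  set FC := ratField N Γ (RingHom.id ℂ)
  have hθ : coeffMap κ (θ : LaurentSeries K) ∈ FC :=
    ⟨A, P, hP0, by rw [iota_id_coeffMap]; exact hrep⟩
  set θC : FC := ⟨_, hθ⟩
  set jC : FC := ⟨coeffEmb ℂ jq, jq_mem_ratField (RingHom.id ℂ)⟩
  set E := ℂ⟮jC⟯
  have hb : ∀ z : FC, IsIntegral E z ∧ (minpoly E z).natDegree ≤ Nat.card (Cos Γ) := fun z => by
    obtain ⟨A', B', hB', h'⟩ := z.2
    exact natDegree_minpoly_le (RingHom.id ℂ) (F := FC) (jq_mem_ratField _) hB' h'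
  -- the embeddings over the rational functions in `j`
  let φ : Cos Γ → FC →+* LaurentSeries ℂ := fun q => extHom (RingHom.id ℂ) (psiCusp_injective q)
  have hφ : ∀ q, ∀ x ∈ E, φ q x = φ ((1 : SL(2, ℤ)) : Cos Γ) x := fun q x hx => by
    induction hx using IntermediateField.adjoin_induction with
    | mem y hy =>
      rw [Set.mem_singleton_iff] at hy
      subst hy
      have hj : ∀ q : Cos Γ, φ q jC = psiCusp q (jW N Γ) := fun q => by
        have e := extHom_mul (psiCusp q) (psiCusp_injective q) jC (A := jW N Γ) (B := 1)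
          (by rw [map_one, mul_one, expW_jW (RingHom.id ℂ)])
        rwa [map_one, mul_one] at e
      rw [hj, hj, psiCusp_jW, psiCusp_jW]
    | algebraMap c =>
      have hc : ∀ q : Cos Γ, φ q (algebraMap ℂ FC c) = HahnSeries.C c := fun q => by
        have e := extHom_mul (psiCusp q) (psiCusp_injective q) (algebraMap ℂ FC c)
          (A := algebraMap ℂ _ c) (B := 1)
          (by rw [map_one, mul_one, AlgHom.commutes]
              exact X0Fn.iota_algebraMap (N := N) (RingHom.id ℂ) c)
        rwa [map_one, mul_one, psiCusp_algebraMap] at e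
      rw [hc, hc]
    | add a b _ _ ha hb => rw [map_add, map_add, ha, hb]
    | inv a _ ha => rw [map_inv₀, map_inv₀, ha]
    | mul a b _ _ ha hb => rw [map_mul, map_mul, ha, hb]
  have hne : Injective fun q => φ q θC := by
    intro q q' hq
    have e1 := extHom_mul (psiCusp q) (psiCusp_injective q) θC (A := A) (B := P)
      (by rw [iota_id_coeffMap]; exact hrep)
    have e2 := extHom_mul (psiCusp q') (psiCusp_injective q') θC (A := A) (B := P)
      (by rw [iota_id_coeffMap]; exact hrep)
    have hP : trans q P = trans q' P := by rw [trans_aeval_jW, trans_aeval_jW]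
    have key : trans q A = trans q' A := by
      refine (psiCusp_sep q q' A A).1 ?_
      rw [← e1, ← e2, (psiCusp_sep q q' P P).2 hP]
      exact congrArg (· * psiCusp q' P) hq
    obtain ⟨g, rfl⟩ := QuotientGroup.mk_surjective q
    obtain ⟨g', rfl⟩ := QuotientGroup.mk_surjective q'
    rw [QuotientGroup.eq]
    refine hstab _ fun τ => ?_
    have := congrFun key (g' • τ)
    rw [trans_mk, trans_mk, inv_smul_smul, ← mul_smul] at this
    exact this
  -- the degree of the separating element
  let ψ : E →+* LaurentSeries ℂ := (φ ((1 : SL(2, ℤ)) : Cos Γ)).comp (algebraMap E FC)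
  set M := minpoly E θC
  have hM : M ≠ 0 := minpoly.ne_zero (hb θC).1
  have hroot : ∀ q, φ q θC ∈ (M.map ψ).roots := fun q => by
    rw [Polynomial.mem_roots_map hM,
      show ψ = (φ q).comp (algebraMap E FC) from RingHom.ext fun x => (hφ q x.1 x.2).symm,
      ← Polynomial.hom_eval₂]
    rw [← Polynomial.aeval_def, minpoly.aeval, map_zero]
  have hdeg : M.natDegree = Nat.card (Cos Γ) := by
    refine le_antisymm (hb θC).2 ?_
    have h1 := Polynomial.card_le_degree_of_subset_roots (p := M.map ψ)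
      (Z := Finset.univ.image fun q => φ q θC) (fun y hy => by
        rw [Finset.mem_val] at hy
        obtain ⟨q, -, rfl⟩ := Finset.mem_image.1 hy
        exact hroot q)
    rw [Finset.card_image_of_injective _ hne, Finset.card_univ, Polynomial.natDegree_map] at h1
    rwa [Nat.card_eq_fintype_card]
  haveI : CharZero E := charZero_of_injective_algebraMap (algebraMap ℂ E).injective
  let F' : IntermediateField E FC := E⟮θC⟯
  have hF' : Module.finrank E F' = Nat.card (Cos Γ) := by
    rw [IntermediateField.adjoin.finrank (hb θC).1]; exact hdeg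
  have htop : F' = ⊤ := eq_top_iff.2 fun z _ =>
    TorsionHom.mem_of_bounded_degree F' ⊤ Nat.card_pos hF' le_top (fun w _ => hb w)
      (IntermediateField.mem_top (x := z))
  refine ⟨by rw [← hF', htop, IntermediateField.finrank_top'], θ, hθ, fun x hx => ?_⟩
  let G : IntermediateField ℂ FC :=
    (IntermediateField.adjoin ℂ ({coeffEmb ℂ jq, coeffMap κ (θ : LaurentSeries K)} :
      Set (LaurentSeries ℂ))).comap FC.val
  have hmem : (⟨x, hx⟩ : FC) ∈ F' := htop ▸ IntermediateField.mem_top
  show (⟨x, hx⟩ : FC) ∈ G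
  have hEG : E ≤ G := IntermediateField.adjoin_simple_le_iff.2
    (IntermediateField.subset_adjoin ℂ _ (Set.mem_insert _ _))
  suffices ∀ w, w ∈ F' → w ∈ G from this _ hmem
  intro w hw
  induction hw using IntermediateField.adjoin_induction with
  | mem y hy =>
    rw [Set.mem_singleton_iff] at hy
    subst hy
    exact IntermediateField.subset_adjoin ℂ _ (Set.mem_insert_of_mem _ rfl)
  | algebraMap c => exact hEG c.2
  | add a b _ _ ha hb => exact add_mem ha hb
  | inv a _ ha => exact inv_mem ha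
  | mul a b _ _ ha hb => exact mul_mem ha hb

theorem isModel_complex (h : IsModel N Γ κ F) :
    IsModel N Γ (RingHom.id ℂ) (ratField N Γ (RingHom.id ℂ)) :=
  ⟨le_rfl, jq_mem_ratField _, (complex_spec h).1⟩

theorem coeffMap_mem_complex (h : IsModel N Γ κ F) {e : ℂ ≃ₐ[ℚ] ℂ}
    (he : ∀ a ∈ κ.fieldRange, e a = a) {x : LaurentSeries ℂ}
    (hx : x ∈ ratField N Γ (RingHom.id ℂ)) :
    coeffMap (e : ℂ →+* ℂ) x ∈ ratField N Γ (RingHom.id ℂ) := by
  obtain ⟨z, hzm, hz⟩ := (complex_spec h).2
  have hgen : ∀ y ∈ ({coeffEmb ℂ jq, coeffMap κ z} : Set (LaurentSeries ℂ)),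
      coeffMap (e : ℂ →+* ℂ) y = y := by
    rintro y (rfl | rfl)
    · rw [coeffEmb, ModularCurve.coeffMap_coeffMap]
      exact ModularCurve.coeffMap_congr (Subsingleton.elim _ _) _
    · rw [ModularCurve.coeffMap_coeffMap]
      exact ModularCurve.coeffMap_congr (RingHom.ext fun a => he _ ⟨a, rfl⟩) _
  have key : ∀ y ∈ IntermediateField.adjoin ℂ ({coeffEmb ℂ jq, coeffMap κ z} : Set (LaurentSeries ℂ)),
      coeffMap (e : ℂ →+* ℂ) y ∈
        IntermediateField.adjoin ℂ ({coeffEmb ℂ jq, coeffMap κ z} : Set (LaurentSeries ℂ)) := by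
    intro y hy
    induction hy using IntermediateField.adjoin_induction with
    | mem w hw => rw [hgen w hw]; exact IntermediateField.subset_adjoin ℂ _ hw
    | algebraMap c =>
      rw [ModularCurve.coeffMap_algebraMap]
      exact IntermediateField.algebraMap_mem _ _
    | add a b _ _ ha hb => rw [map_add]; exact add_mem ha hb
    | inv a _ ha => rw [map_inv₀]; exact inv_mem ha
    | mul a b _ _ ha hb => rw [map_mul]; exact mul_mem ha hb
  refine IntermediateField.adjoin_le_iff.2 ?_ (key x (hz x hx))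
  rintro y (rfl | rfl)
  · exact jq_mem_ratField _
  · exact hzm

/-- An automorphism of `ℂ` fixing the constants of a model, on the complex quotients. -/
def galRing (h : IsModel N Γ κ F) (e : ℂ ≃ₐ[ℚ] ℂ) (he : ∀ a ∈ κ.fieldRange, e a = a) :
    ratField N Γ (RingHom.id ℂ) ≃+* ratField N Γ (RingHom.id ℂ) where
  toFun x := ⟨coeffMap (e : ℂ →+* ℂ) (x : LaurentSeries ℂ), coeffMap_mem_complex h he x.2⟩
  invFun x := ⟨coeffMap (e.symm : ℂ →+* ℂ) (x : LaurentSeries ℂ),
    coeffMap_mem_complex h (fun a ha => by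
      conv_lhs => rw [← he a ha]
      exact e.symm_apply_apply a) x.2⟩
  left_inv x := Subtype.ext <| by
    show coeffMap (e.symm : ℂ →+* ℂ) (coeffMap (e : ℂ →+* ℂ) (x : LaurentSeries ℂ)) = _
    rw [ModularCurve.coeffMap_coeffMap, ModularCurve.coeffMap_congr (g := RingHom.id ℂ)
      (RingHom.ext fun a => e.symm_apply_apply a) (x : LaurentSeries ℂ), ModularCurve.coeffMap_id]
  right_inv x := Subtype.ext <| by
    show coeffMap (e : ℂ →+* ℂ) (coeffMap (e.symm : ℂ →+* ℂ) (x : LaurentSeries ℂ)) = _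
    rw [ModularCurve.coeffMap_coeffMap, ModularCurve.coeffMap_congr (g := RingHom.id ℂ)
      (RingHom.ext fun a => e.apply_symm_apply a) (x : LaurentSeries ℂ), ModularCurve.coeffMap_id]
  map_mul' x y := Subtype.ext (map_mul (coeffMap (e : ℂ →+* ℂ)) _ _)
  map_add' x y := Subtype.ext (map_add (coeffMap (e : ℂ →+* ℂ)) _ _)

/-- The semilinear automorphism attached to an automorphism of `ℂ`. -/
def gal (h : IsModel N Γ κ F) (e : ℂ ≃ₐ[ℚ] ℂ) (he : ∀ a ∈ κ.fieldRange, e a = a) :
    SemilinearAut ℂ (ratField N Γ (RingHom.id ℂ)) :=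
  ⟨(galRing h e he, e.toRingEquiv), fun a => Subtype.ext
    (ModularCurve.coeffMap_algebraMap (e : ℂ →+* ℂ) a)⟩

theorem coe_gal_smul (h : IsModel N Γ κ F) (e : ℂ ≃ₐ[ℚ] ℂ) (he : ∀ a ∈ κ.fieldRange, e a = a)
    (x : ratField N Γ (RingHom.id ℂ)) :
    ((gal h e he • x : ratField N Γ (RingHom.id ℂ)) : LaurentSeries ℂ) =
      coeffMap (e : ℂ →+* ℂ) (x : LaurentSeries ℂ) := rfl

end FLTAgent.DeligneSerre.Tors
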