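import Fermat.Agent.DeligneSerre.TorsionOrders
import Fermat.Agent.TorsionHom.Converse

/-!
A function whose root has a character killing parabolic and elliptic elements has divisor
divisible by `n`.
-/

set_option autoImplicit false

noncomputable section

open UpperHalfPlane CongruenceSubgroup Complex Function Filter
open scoped MatrixGroups Manifold Topology

set_option synthInstance.maxHeartbeats 400000
set_option maxHeartbeats 1600000

namespace FLTAgent.DeligneSerre.Tors

open FLTAgent.X0Fn (Hol PerL qh expL taylorAt iota comp_smul_mdiff order_iota_jq order_ofPowerSeries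
  denom_pow_fixed jShift)
open FLTAgent.TorsionHom (exists_point root_mem_PerL dvd_of_relation mult_one_of_fix hol_order
  order_root shift_dvd_order exists_place_cover)
open FLTAgent.Curves (lord_inv exists_residue ordGE_of_le transcendental_sub transcendental_inv
  adjoin_simple_sub_eq adjoin_simple_inv_eq)
open FLTAgent.PeriodHecke (Hpar mat)
open AlgebraicCurve
open Matrix (trace)
open scoped IntermediateField

variable {N : ℕ} [NeZero N] {Γ : Subgroup SL(2, ℤ)} [Γ.FiniteIndex] [IsLevel N Γ]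
variable {K : Type*} [Field K] [Algebra ℚ K] {κ : K →+* ℂ}
  {F : IntermediateField K (LaurentSeries K)}

local notation "Cx" => Additive ℂˣ

theorem IsModel.finrank_shift (h : IsModel N Γ κ F) (a : K) [Fintype (Cos Γ)] :
    Fintype.card (Cos Γ) = Module.finrank K⟮h.j - algebraMap K F a⟯ F := by
  rw [adjoin_simple_sub_eq, ← Nat.card_eq_fintype_card]
  exact h.degree.symm

theorem IsModel.point_T (h : IsModel N Γ κ F) (τ : ℍ) (q : Cos Γ) (a : K) :
    h.pointEmb τ q (h.j - algebraMap K F a) =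
      HahnSeries.ofPowerSeries ℤ ℂ (taylorAt τ (jShift (κ a))) := by
  have e := h.pointEmb_mul τ q (x := h.j - algebraMap K F a)
    (A := jW N Γ - algebraMap ℂ _ (κ a)) (B := 1) (by
      rw [map_one, mul_one, map_sub, AlgHom.commutes, expW_jW κ, ← X0Fn.iota_algebraMap (N := N) κ a,
        ← map_sub]
      rfl)
  rw [map_one, mul_one] at e
  rw [e, psiPoint_apply]
  refine congrArg (fun f : Hol => HahnSeries.ofPowerSeries ℤ ℂ (taylorAt τ f)) (Subtype.ext ?_)
  show trans q (jW N Γ - algebraMap ℂ _ (κ a)) = ES.jfun - algebraMap ℂ (ℍ → ℂ) (κ a)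
  rw [map_sub, AlgHom.commutes, trans_jW]

/-- Translates of a function with a character are invariant under the stabiliser of the coset. -/
theorem char_trans_invariant {R : ℍ → ℂ} {χ : Additive Γ →+ Cx} (hc : HasChar R χ)
    (hχ : χ ∈ Hpar Γ Cx) {q : Cos Γ} {h : SL(2, ℤ)} (hq : h • q = q)
    (htr : (h : Matrix (Fin 2) (Fin 2) ℤ).trace ^ 2 ≤ 4) (τ : ℍ) :
    R (q.out⁻¹ • h • τ) = R (q.out⁻¹ • τ) := by
  have hmem : q.out⁻¹ * h * q.out ∈ Γ := by
    have h1 : ((h * q.out : SL(2, ℤ)) : Cos Γ) = ((q.out : SL(2, ℤ)) : Cos Γ) := by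
      rw [← smul_eq_mul, ← MulAction.Quotient.smul_coe, QuotientGroup.out_eq']
      exact hq
    rw [eq_comm, QuotientGroup.eq, ← mul_assoc] at h1
    exact h1
  have h2 := hc ⟨_, hmem⟩ (q.out⁻¹ • τ)
  rw [mult, hχ ⟨_, hmem⟩ (le_of_eq_of_le (congrArg (fun x : ℤ => x ^ 2) ?_) htr)] at h2
  · simpa [← mul_smul, mul_assoc] using h2
  · show ((q.out⁻¹ * h * q.out : SL(2, ℤ)) : Matrix (Fin 2) (Fin 2) ℤ).trace = _
    rw [Matrix.SpecialLinearGroup.coe_mul, Matrix.SpecialLinearGroup.coe_mul, Matrix.trace_mul_comm,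
      ← mul_assoc, ← Matrix.SpecialLinearGroup.coe_mul, mul_inv_cancel,
      Matrix.SpecialLinearGroup.coe_one, one_mul]

theorem trans_root_pow {A B : W N Γ} {R : Hol} {n : ℕ} (hP : R ^ n = toHol (A * B ^ (n - 1)))
    (q : Cos Γ) (τ : ℍ) :
    (R : ℍ → ℂ) (q.out⁻¹ • τ) ^ n = trans q (A * B ^ (n - 1)) τ :=
  congrFun (congrArg Subtype.val hP) (q.out⁻¹ • τ)

variable [IsAlgClosed K]

theorem IsModel.dvd_ord_finite (h : IsModel N Γ κ F) {x : F} (hx : x ≠ 0) {n : ℕ} (hn : n ≠ 0) {R : Hol}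
    {χ : Additive Γ →+ Cx} (hroot : IsRoot (N := N) (Γ := Γ) κ n (x : LaurentSeries K) R)
    (hc : HasChar (R : ℍ → ℂ) χ) (hχ : χ ∈ Hpar Γ Cx) {v : Place K F}
    (hv : 0 ≤ v.ord (h.j)) : (n : ℤ) ∣ v.ord x := by
  classical
  haveI := Fintype.ofFinite (Cos Γ)
  haveI := h.isFunctionField
  have hR := hroot.ne_zero hn fun e => hx (Subtype.ext e)
  obtain ⟨A, B, hB, hAB, hP⟩ := hroot
  obtain ⟨a, ha⟩ := exists_residue v (ordGE_of_le hv)
  have ht := transcendental_sub h.transcendental_j a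
  have hvt : 0 < v.ord (h.j - algebraMap K (F) a) :=
    lt_of_lt_of_le one_pos (ha.le_ord (Curves.ne_zero_of_transcendental ht))
  obtain ⟨τ, g, m, hm, hg, hord, hμ, htr⟩ := exists_point κ a
  obtain ⟨P, c, hcpos, hordc, hsurj, hd⟩ := exists_place_cover (h.pointEmb τ)
    (fun q b => h.pointEmb_algebraMap τ q b) (h.pointEmb_injective τ)
    (t := h.j - algebraMap K (F) a) (h.finrank_shift a) (fun q => h.point_T τ q a)
    (by rw [order_ofPowerSeries hord]; exact_mod_cast hm) (MulAction.toPerm g)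
    (fun q f => h.point_order_smul hg q f) (fun q d hd f => by
      rw [order_ofPowerSeries hord]
      refine h.point_dvd_order hg hμ ?_ f
      rwa [← MulAction.toPermHom_apply, ← map_pow, MulAction.toPermHom_apply,
        MulAction.toPerm_apply] at hd)
  obtain ⟨q, hq⟩ := hsurj v hvt
  obtain ⟨d, hd0, hdq, hcd⟩ := hd q
  rw [← MulAction.toPermHom_apply, ← map_pow, MulAction.toPermHom_apply, MulAction.toPerm_apply]
    at hdq
  rw [order_ofPowerSeries hord] at hcd
  let Rq : Hol := ⟨fun z => (R : ℍ → ℂ) (q.out⁻¹ • z), comp_smul_mdiff R.2 _⟩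
  have hRq : Rq ≠ 0 := fun e => hR (Subtype.ext (funext fun z => by
    have := congrFun (congrArg Subtype.val e) (q.out • z)
    simpa [Rq] using this))
  have hBq : (⟨trans q B, trans_mem_Hol q B⟩ : Hol) ≠ 0 := fun e =>
    hB (trans_injective q ((congrArg Subtype.val e).trans (map_zero _).symm))
  obtain ⟨hfix, hden⟩ := denom_pow_fixed g hg d
  have htr' := PeriodHecke.trace_pow_le _ g.2 htr d
  rw [← Matrix.SpecialLinearGroup.coe_pow] at htr'
  have hinvR : ∀ z, (Rq : ℍ → ℂ) (g ^ d • z) = (Rq : ℍ → ℂ) z := fun z =>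
    char_trans_invariant hc hχ hdq htr' z
  have hinvB : ∀ z, trans q B (g ^ d • z) = trans q B z := fun z =>
    char_trans_invariant (hasChar_W B) (zero_mem _) hdq htr' z
  have hwR := mult_one_of_fix hRq hfix hinvR
  have hwB := mult_one_of_fix hBq hfix hinvB
  have hdvd : ∀ k : ℕ, ((denom (g ^ d : SL(2, ℤ)) (τ : ℂ)) ^ (-2 : ℤ)) ^ k = 1 →
      (m : ℤ) ∣ (d : ℤ) * k := fun k hk => by
    rw [hden, ← zpow_natCast _ d, ← zpow_mul, mul_comm, zpow_mul, zpow_natCast, ← pow_mul,
      hμ.pow_eq_one_iff_dvd] at hk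
    exact_mod_cast hk
  have h1 := h.pointEmb_mul τ q hAB
  have hpow : HahnSeries.ofPowerSeries ℤ ℂ (taylorAt τ Rq) ^ n =
      psiPoint τ q A * psiPoint τ q B ^ (n - 1) := by
    rw [← map_pow, ← map_pow, ← map_pow, ← map_mul, psiPoint_apply]
    congr 2
    exact Subtype.ext (funext fun z => trans_root_pow hP q z)
  have h2 := order_root hn ((map_ne_zero _).2 hx)
    ((map_ne_zero_iff _ (psiPoint_injective τ q)).2 hB) h1 hpow
  rw [hol_order τ hRq, psiPoint_apply, hol_order τ hBq, hordc, hq] at h2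
  refine dvd_of_relation (by exact_mod_cast hd0.ne') hcd ?_ (hcpos q).ne' h2
  rw [mul_sub]
  exact dvd_sub (hdvd _ hwR) (hdvd _ hwB)

theorem IsModel.dvd_ord_infty (h : IsModel N Γ κ F) {x : F} (hx : x ≠ 0) {n : ℕ} (hn : n ≠ 0) {R : Hol}
    {χ : Additive Γ →+ Cx} (hroot : IsRoot (N := N) (Γ := Γ) κ n (x : LaurentSeries K) R)
    (hc : HasChar (R : ℍ → ℂ) χ) (hχ : χ ∈ Hpar Γ Cx) {v : Place K F}
    (hv : v.ord (h.j) < 0) : (n : ℤ) ∣ v.ord x := by
  classical
  haveI := Fintype.ofFinite (Cos Γ)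
  haveI := h.isFunctionField
  have hR := hroot.ne_zero hn fun e => hx (Subtype.ext e)
  obtain ⟨A, B, hB, hAB, hP⟩ := hroot
  have hvt : 0 < v.ord (h.j)⁻¹ := by rw [v.ord_inv]; omega
  have hT : ∀ q, h.cuspEmb q (h.j)⁻¹ =
      (iota (N := N) κ (ModularCurve.coeffEmb K ModularCurve.jq))⁻¹ :=
    fun q => by rw [map_inv₀, h.cuspEmb_j]
  have ho : ((iota (N := N) κ (ModularCurve.coeffEmb K ModularCurve.jq))⁻¹).order = (N : ℤ) := by
    rw [lord_inv, order_iota_jq, neg_neg]
  obtain ⟨P, c, hcpos, hordc, hsurj, hd⟩ := exists_place_cover h.cuspEmb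
    (fun q b => h.cuspEmb_algebraMap q b) h.cuspEmb_injective (t := (h.j)⁻¹)
    (by rw [adjoin_simple_inv_eq, ← Nat.card_eq_fintype_card]; exact h.degree.symm) hT
    (by rw [ho]; exact_mod_cast Nat.pos_of_ne_zero (NeZero.ne N)) (MulAction.toPerm ModularGroup.T)
    (fun q f => h.cusp_order_smul_T q f) (fun q d hd f => by
      rw [ho]
      refine h.cusp_dvd_order ?_ f
      rwa [← MulAction.toPermHom_apply, ← map_pow, MulAction.toPermHom_apply,
        MulAction.toPerm_apply] at hd)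
  obtain ⟨q, hq⟩ := hsurj v hvt
  obtain ⟨d, hd0, hdq, hcd⟩ := hd q
  rw [← MulAction.toPermHom_apply, ← map_pow, MulAction.toPermHom_apply, MulAction.toPerm_apply]
    at hdq
  rw [ho] at hcd
  have htrT : ∀ k : ℤ, ((ModularGroup.T ^ k : SL(2, ℤ)) : Matrix (Fin 2) (Fin 2) ℤ).trace ^ 2 ≤ 4 := by
    intro k
    rw [ModularGroup.coe_T_zpow, Matrix.trace_fin_two]
    simp
  have hTN : ModularGroup.T ^ (N : ℤ) • q = q := by
    induction q using QuotientGroup.induction_on with
    | H z =>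
      rw [MulAction.Quotient.smul_coe, QuotientGroup.eq, smul_eq_mul]
      have hmem := inv_mem (conj_T_pow_mem N Γ z⁻¹)
      rw [mul_inv_rev]
      simpa [mul_assoc] using hmem
  have hRmd : MDiff fun z => (R : ℍ → ℂ) (q.out⁻¹ • z) := comp_smul_mdiff R.2 _
  have hmem : (fun z => (R : ℍ → ℂ) (q.out⁻¹ • z)) ∈ PerL (N : ℝ) := by
    refine root_mem_PerL hRmd (fun z => char_trans_invariant hc hχ hTN (htrT _) z) hn ?_
    rw [show (fun z => (R : ℍ → ℂ) (q.out⁻¹ • z) ^ n) = trans q (A * B ^ (n - 1)) from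
      funext fun z => trans_root_pow hP q z]
    exact trans_mem_PerL q _
  have hdR : (N : ℤ) ∣ (d : ℤ) * (expL (N : ℝ) ⟨_, hmem⟩).order := shift_dvd_order _ fun z => by
    rw [zpow_natCast]
    exact char_trans_invariant hc hχ hdq (by simpa using htrT d) z
  have hdB : (N : ℤ) ∣ (d : ℤ) * (psiCusp q B).order := shift_dvd_order _ fun z => by
    rw [zpow_natCast]
    exact char_trans_invariant (hasChar_W B) (zero_mem _) hdq (by simpa using htrT d) z
  have h1 := h.cuspEmb_mul q hAB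
  have hpow : expL (N : ℝ) ⟨_, hmem⟩ ^ n = psiCusp q A * psiCusp q B ^ (n - 1) := by
    rw [← map_pow, ← map_pow, ← map_mul, psiCusp_apply]
    congr 1
    exact Subtype.ext (funext fun z => trans_root_pow hP q z)
  have h2 := order_root hn ((map_ne_zero _).2 hx)
    ((map_ne_zero_iff _ (psiCusp_injective q)).2 hB) h1 hpow
  rw [hordc, hq] at h2
  refine dvd_of_relation (by exact_mod_cast hd0.ne') hcd ?_ (hcpos q).ne' h2
  rw [mul_sub]
  exact dvd_sub hdR hdB

/-- A character killing parabolic and elliptic elements forces divisibility of the divisor. -/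
theorem IsModel.dvd_ord_of_isCharFn (h : IsModel N Γ κ F) {x : F} (hx : x ≠ 0) {n : ℕ} (hn : n ≠ 0)
    {χ : Additive Γ →+ Cx} (hx' : IsCharFn N κ n (x : LaurentSeries K) χ) (hχ : χ ∈ Hpar Γ Cx)
    (v : Place K F) : (n : ℤ) ∣ v.ord x := by
  obtain ⟨R, hroot, hc⟩ := hx'
  rcases le_or_gt 0 (v.ord (h.j)) with hv | hv
  · exact h.dvd_ord_finite hx hn hroot hc hχ hv
  · exact h.dvd_ord_infty hx hn hroot hc hχ hv

end FLTAgent.DeligneSerre.Tors
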