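import Fermat.Agent.DeligneSerre.TorsionChar

/-!
A function of weight zero with a given finite order multiplier, from a twisted Eisenstein series.
-/

set_option autoImplicit false

noncomputable section

open UpperHalfPlane CongruenceSubgroup Complex Function Filter
open EisensteinSeries (eisSummand)
open scoped MatrixGroups Manifold Topology Matrix

namespace FLTAgent.DeligneSerre.Tors

open FLTAgent.X0Fn (Hol PerL qh qh_ne_zero periodic_qh mdiff_qh comp_smul_mdiff eulerH dlt_eq_euler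
  eulerH_ne_zero)
open FLTAgent.ES (e4 dlt)
open FLTAgent.TorsionHom (latSum latSum_smul mdiff_latSum bdd_latSum bdd_pow bdd_mul_div highPt
  norm_term_le)
open FLTAgent.PeriodHecke (mat Hpar)

variable {N : ℕ} [NeZero N] {Γ : Subgroup SL(2, ℤ)} [IsLevel N Γ]

local notation "Cx" => Additive ℂˣ

/-- Bottom rows of elements of the group. -/
def IsRow (Γ : Subgroup SL(2, ℤ)) (v : Fin 2 → ℤ) : Prop := ∃ γ : Γ, mat γ 1 = v

open scoped Classical in
/-- The weights of the twisted Eisenstein series. -/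
def eisWeight (χ : Additive Γ →+ Cx) (v : Fin 2 → ℤ) : ℂ :=
  if h : IsRow Γ v then (mult χ h.choose)⁻¹ else 0

theorem mult_of_tr {χ : Additive Γ →+ Cx} (hχ : χ ∈ Hpar Γ Cx) {γ : Γ}
    (h : (mat γ).trace ^ 2 ≤ 4) : mult χ γ = 1 := by
  rw [mult, hχ γ h]
  rfl

theorem eisWeight_row {χ : Additive Γ →+ Cx} (hχ : χ ∈ Hpar Γ Cx) (γ : Γ) :
    eisWeight χ (mat γ 1) = (mult χ γ)⁻¹ := by
  have h : IsRow Γ (mat γ 1) := ⟨γ, rfl⟩
  rw [eisWeight, dif_pos h]
  congr 1
  set δ := h.choose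
  have hδ : mat δ 1 = mat γ 1 := h.choose_spec
  have hd1 := PeriodHecke.mat_det γ
  have hd2 := PeriodHecke.mat_det δ
  rw [Matrix.det_fin_two] at hd1 hd2
  have e0 : mat δ 1 0 = mat γ 1 0 := congrFun hδ 0
  have e1 : mat δ 1 1 = mat γ 1 1 := congrFun hδ 1
  have h3 : mat (δ * γ⁻¹) 1 0 = 0 ∧ mat (δ * γ⁻¹) 1 1 = 1 ∧ mat (δ * γ⁻¹) 0 0 = 1 := by
    have hinv : mat γ⁻¹ = (mat γ).adjugate := by
      simp [mat, Matrix.SpecialLinearGroup.coe_inv]
    rw [PeriodHecke.mat_mul, hinv, Matrix.adjugate_fin_two]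
    simp only [Matrix.mul_apply, Fin.sum_univ_two, Matrix.of_apply, Matrix.cons_val',
      Matrix.cons_val_zero, Matrix.cons_val_one, Matrix.cons_val_fin_one, Matrix.empty_val']
    refine ⟨?_, ?_, ?_⟩
    · rw [e0, e1]; ring
    · rw [e0, e1]; linear_combination hd1
    · rw [e0, e1] at hd2; linear_combination hd2
  have h4 : mult χ (δ * γ⁻¹) = 1 := mult_of_tr hχ (by
    rw [Matrix.trace_fin_two, h3.2.1, h3.2.2]; norm_num)
  have h5 := mult_mul χ (δ * γ⁻¹) γ
  rw [inv_mul_cancel_right, h4, one_mul] at h5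
  exact h5

theorem norm_eisWeight {χ : Additive Γ →+ Cx} {n : ℕ} (hn : n ≠ 0) (hnχ : n • χ = 0)
    (v : Fin 2 → ℤ) : ‖eisWeight χ v‖ ≤ 1 := by
  rw [eisWeight]
  split_ifs with h
  · have h1 : mult χ h.choose ^ n = 1 := by rw [← mult_nsmul, hnχ, mult_zero]
    rw [norm_inv, Complex.norm_eq_one_of_pow_eq_one h1 hn, inv_one]
  · simp

theorem row_mul (γ δ : Γ) : mat (γ * δ) 1 = mat γ 1 ᵥ* mat δ := by
  rw [PeriodHecke.mat_mul]
  rfl

theorem eisWeight_vecMul {χ : Additive Γ →+ Cx} (hχ : χ ∈ Hpar Γ Cx) (γ : Γ) (v : Fin 2 → ℤ) :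
    eisWeight χ (v ᵥ* mat γ⁻¹) = mult χ γ * eisWeight χ v := by
  by_cases h : IsRow Γ v
  · obtain ⟨δ, rfl⟩ := h
    rw [← row_mul, eisWeight_row hχ, eisWeight_row hχ]
    have h1 := mult_mul χ (δ * γ⁻¹) γ
    rw [inv_mul_cancel_right] at h1
    rw [h1, mul_inv]
    field_simp [mult_ne_zero]
  · have h' : ¬ IsRow Γ (v ᵥ* mat γ⁻¹) := fun ⟨δ, hδ⟩ => h ⟨δ * γ, by
      rw [row_mul, hδ, Matrix.vecMul_vecMul, ← PeriodHecke.mat_mul, inv_mul_cancel,
        PeriodHecke.mat_one, Matrix.vecMul_one]⟩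
    rw [eisWeight, dif_neg h', eisWeight, dif_neg h, mul_zero]

/-- The twisted Eisenstein series. -/
def eisChi (χ : Additive Γ →+ Cx) : ℍ → ℂ := latSum (eisWeight χ)

theorem eisChi_smul {χ : Additive Γ →+ Cx} (hχ : χ ∈ Hpar Γ Cx) (γ : Γ) (z : ℍ) :
    eisChi χ ((γ : SL(2, ℤ)) • z) =
      mult χ γ * denom (γ : SL(2, ℤ)) (z : ℂ) ^ (4 : ℤ) * eisChi χ z := by
  rw [eisChi, latSum_smul]
  have h : (fun v => eisWeight χ (v ᵥ* (((γ : SL(2, ℤ))⁻¹ : SL(2, ℤ)) : Matrix (Fin 2) (Fin 2) ℤ))) =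
      fun v => mult χ γ * eisWeight χ v := funext fun v => eisWeight_vecMul hχ γ v
  rw [h, latSum, latSum]
  simp only [mul_assoc]
  rw [tsum_mul_left]
  ring

/-- The point `i (m + 2)`. -/
def highPt (m : ℕ) : ℍ := ⟨((m : ℂ) + 2) * Complex.I, by simp; positivity⟩

theorem eisChi_ne_zero (N : ℕ) [IsLevel N Γ] {χ : Additive Γ →+ Cx} (hχ : χ ∈ Hpar Γ Cx) {n : ℕ} (hn : n ≠ 0)
    (hnχ : n • χ = 0) : eisChi χ ≠ 0 := by
  intro h0
  set w := eisWeight χ
  let lim : (Fin 2 → ℤ) → ℂ := fun v => if v 0 = 0 then w v * ((v 1 : ℂ)) ^ (-(4 : ℤ)) else 0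
  have hk : (2 : ℝ) < ((4 : ℤ) : ℝ) := by norm_num
  have hT : Tendsto (fun m => latSum w (highPt m)) atTop (𝓝 (∑' v, lim v)) := by
    refine tendsto_tsum_of_dominated_convergence
      (bound := fun v : Fin 2 → ℤ =>
        EisensteinSeries.r ⟨⟨(0 : ℝ), 2⟩, Nat.ofNat_pos⟩ ^ (-(4 : ℤ)) * ‖v‖ ^ (-(4 : ℤ))) ?_ ?_ ?_
    · exact_mod_cast (EisensteinSeries.summable_one_div_norm_rpow hk).mul_left
        (EisensteinSeries.r ⟨⟨(0 : ℝ), 2⟩, Nat.ofNat_pos⟩ ^ (-(4 : ℤ)))
    · intro v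
      simp only [lim]
      split_ifs with hv
      · refine tendsto_const_nhds.congr fun m => ?_
        simp [eisSummand, highPt, hv]
      · have hsmall : Tendsto (fun m : ℕ => eisSummand 4 v (highPt m)) atTop (𝓝 0) := by
          rw [tendsto_zero_iff_norm_tendsto_zero]
          have hb : ∀ m : ℕ, ‖eisSummand 4 v (highPt m)‖ ≤ ((|(v 0 : ℝ)| * ((m : ℝ) + 2)) ^ 4)⁻¹ := by
            intro m
            rw [eisSummand, norm_zpow, zpow_neg, zpow_ofNat]
            refine inv_anti₀ (by positivity) (pow_le_pow_left₀ (by positivity) ?_ _)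
            have h1 := Complex.abs_im_le_norm ((v 0 : ℂ) * (highPt m : ℂ) + v 1)
            simpa [highPt, abs_mul, abs_of_nonneg (show (0 : ℝ) ≤ (m : ℝ) + 2 by positivity)] using h1
          refine squeeze_zero (fun _ => norm_nonneg _) hb ?_
          have h2 : Tendsto (fun m : ℕ => |(v 0 : ℝ)| * ((m : ℝ) + 2)) atTop atTop :=
            (tendsto_atTop_add_const_right atTop 2 tendsto_natCast_atTop_atTop).const_mul_atTop
              (by positivity)
          exact tendsto_inv_atTop_zero.comp ((tendsto_pow_atTop (by norm_num)).comp h2)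
        simpa using hsmall.const_mul (w v)
    · refine Eventually.of_forall fun m v => (norm_term_le (norm_eisWeight hn hnχ) _ v).trans ?_
      simp_rw [eisSummand, norm_zpow]
      exact_mod_cast EisensteinSeries.summand_bound_of_mem_verticalStrip
        (lt_trans two_pos hk).le v two_pos
        ⟨by simp [highPt], by
          show (2 : ℝ) ≤ (((m : ℂ) + 2) * Complex.I).im
          simp⟩
  rw [show latSum w = eisChi χ from rfl, h0] at hT
  have h1 : ∑' v, lim v = 0 := (tendsto_nhds_unique hT tendsto_const_nhds)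
  have hrow : ∀ v : Fin 2 → ℤ, v 0 = 0 → IsRow Γ v → v 1 = 1 ∨ v 1 = -1 := fun v h0 ⟨γ, hγ⟩ => by
    have hd := PeriodHecke.mat_det γ
    rw [Matrix.det_fin_two, congrFun hγ 0, congrFun hγ 1, h0, mul_zero, sub_zero] at hd
    exact Int.isUnit_iff.1 (IsUnit.of_mul_eq_one_right _ hd)
  have hone : ∀ γ : Γ, mat γ 1 0 = 0 → eisWeight χ (mat γ 1) = 1 := fun γ h0 => by
    rw [eisWeight_row hχ, mult_of_tr hχ, inv_one]
    have hd := PeriodHecke.mat_det γ
    rw [Matrix.det_fin_two, h0, mul_zero, sub_zero] at hd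
    rw [Matrix.trace_fin_two]
    rcases Int.mul_eq_one_iff_eq_one_or_neg_one.1 hd with ⟨a, b⟩ | ⟨a, b⟩ <;> rw [a, b] <;> norm_num
  have h01 : eisWeight χ ![0, 1] = 1 := by
    have := hone 1 (by simp [PeriodHecke.mat_one])
    rwa [show mat (1 : Γ) 1 = ![0, 1] from funext fun i => by
      rw [PeriodHecke.mat_one]; fin_cases i <;> rfl] at this
  have h0m : eisWeight χ ![0, -1] = 1 := by
    let ε : Γ := ⟨-1, IsLevel.neg_one_mem (N := N)⟩
    have hε : mat ε 1 = ![0, -1] := funext fun i => by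
      fin_cases i <;> simp [ε, mat]
    have := hone ε (by rw [hε]; rfl)
    rwa [hε] at this
  have hne : (![0, 1] : Fin 2 → ℤ) ≠ ![0, -1] := fun h => by simpa using congrFun h 1
  have e : lim = fun v => (if v = ![0, 1] then (1 : ℂ) else 0) + if v = ![0, -1] then (1 : ℂ) else 0 := by
    funext v
    rcases eq_or_ne v ![0, 1] with rfl | ha
    · simp [lim, w, h01, hne]
    rcases eq_or_ne v ![0, -1] with rfl | hb
    · simp [lim, w, h0m, hne.symm]; norm_num
    simp only [lim, if_neg ha, if_neg hb, add_zero]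
    split_ifs with hv
    · by_cases hr : IsRow Γ v
      · rcases hrow v hv hr with h | h
        · exact absurd (funext fun i => by fin_cases i <;> simp [hv, h]) ha
        · exact absurd (funext fun i => by fin_cases i <;> simp [hv, h]) hb
      · simp only [w, eisWeight, dif_neg hr, zero_mul]
    · rfl
  have h3 : ∑' v, lim v = 1 + 1 := by
    rw [e, Summable.tsum_add ⟨_, hasSum_ite_eq ![0, 1] (1 : ℂ)⟩ ⟨_, hasSum_ite_eq ![0, -1] (1 : ℂ)⟩,
      tsum_ite_eq, tsum_ite_eq]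
  rw [h3] at h1
  norm_num at h1

/-- A function of weight zero with the given multiplier, an `n`-th root of a function of level
`N`. -/
theorem exists_root_fun {χ : Additive Γ →+ Cx} (hχ : χ ∈ Hpar Γ Cx) {n : ℕ} (hn : n ≠ 0)
    (hnχ : n • χ = 0) :
    ∃ (R : Hol) (A : W N Γ), R ≠ 0 ∧ HasChar (R : ℍ → ℂ) χ ∧ R ^ n = toHol A := by
  set w := eisWeight χ
  have hw : ∀ v, ‖w v‖ ≤ 1 := norm_eisWeight hn hnχ
  set R : ℍ → ℂ := fun τ => eisChi χ τ * e4 τ ^ 2 / dlt τ with hR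
  have hRmd : MDiff R := by
    rw [UpperHalfPlane.mdifferentiable_iff]
    exact ((UpperHalfPlane.mdifferentiable_iff.1 (mdiff_latSum hw)).mul
      ((UpperHalfPlane.mdifferentiable_iff.1 (ES.e4_mem (Γ := ⊤)).2.1).pow 2)).div
      (UpperHalfPlane.mdifferentiable_iff.1 (ES.dlt_mem (Γ := ⊤)).2.1) fun z _ => ES.dlt_ne_zero _
  have hgen : ∀ (g : SL(2, ℤ)) τ, R (g • τ) =
      latSum (fun v => w (v ᵥ* ((g⁻¹ : SL(2, ℤ)) : Matrix (Fin 2) (Fin 2) ℤ))) τ * e4 τ ^ 2 / dlt τ := by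
    intro g τ
    simp only [hR, eisChi]
    rw [latSum_smul, ES.top_apply_smul (ES.e4_mem (Γ := ⊤)), ES.top_apply_smul (ES.dlt_mem (Γ := ⊤))]
    have hd : denom g (τ : ℂ) ≠ 0 := UpperHalfPlane.denom_ne_zero _ _
    have := ES.dlt_ne_zero τ
    simp only [zpow_ofNat]
    field_simp
    ring
  have hchar : HasChar R χ := fun γ τ => by
    simp only [hR, eisChi_smul hχ, ES.top_apply_smul (ES.e4_mem (Γ := ⊤)),
      ES.top_apply_smul (ES.dlt_mem (Γ := ⊤))]
    have hd : denom (γ : SL(2, ℤ)) (τ : ℂ) ≠ 0 := UpperHalfPlane.denom_ne_zero _ _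
    have := ES.dlt_ne_zero τ
    simp only [zpow_ofNat]
    field_simp
  have hne : R ≠ 0 := fun h0 => by
    have h1 : (⟨eisChi χ, mdiff_latSum hw⟩ : Hol) * ⟨e4, (ES.e4_mem (Γ := ⊤)).2.1⟩ ^ 2 = 0 :=
      Subtype.ext (funext fun τ => by
        have := congrFun h0 τ
        simp only [hR, Pi.zero_apply, div_eq_zero_iff] at this
        simpa using this.resolve_right (ES.dlt_ne_zero τ))
    rcases mul_eq_zero.1 h1 with h | h
    · exact eisChi_ne_zero N hχ hn hnχ (congrArg Subtype.val h)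
    · have h4 : e4 = 0 := congrArg Subtype.val (pow_eq_zero_iff'.1 h).1
      have := ES.e4_tendsto
      rw [h4] at this
      exact zero_ne_one (tendsto_nhds_unique tendsto_const_nhds this)
  have hinv : ∀ γ ∈ Γ, ∀ τ, R (γ • τ) ^ n = R τ ^ n := fun γ hγ τ => by
    rw [hchar ⟨γ, hγ⟩ τ, mul_pow, ← mult_nsmul, hnχ, mult_zero, one_mul]
  have hA : (fun τ => R τ ^ n) ∈ W N Γ := by
    refine ⟨hRmd.pow n, hinv, fun g => ?_⟩
    refine ⟨N * n, ?_, ?_, ?_⟩
    · exact ((comp_smul_mdiff hRmd g).pow n).mul (mdiff_qh.pow _)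
    · intro z
      have hq := periodic_qh (h := (N : ℝ)) z
      simp only [comp_apply] at hq
      simp only [comp_apply, Pi.mul_apply, Pi.pow_apply, hq]
      by_cases hz : 0 < z.im
      · have hz1 : 0 < (z + ((N : ℝ) : ℂ)).im := by simpa using hz
        rw [ofComplex_apply_of_im_pos hz, ofComplex_apply_of_im_pos hz1]
        congr 1
        have hmem : g * ModularGroup.T ^ (N : ℤ) * g⁻¹ ∈ Γ := conj_T_pow_mem N Γ g
        have he : (⟨z + ((N : ℝ) : ℂ), hz1⟩ : ℍ) = ModularGroup.T ^ (N : ℤ) • ⟨z, hz⟩ := by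
          apply UpperHalfPlane.ext
          rw [UpperHalfPlane.modular_T_zpow_smul]
          simp [add_comm]
        rw [he, show g • ModularGroup.T ^ (N : ℤ) • (⟨z, hz⟩ : ℍ) =
          (g * ModularGroup.T ^ (N : ℤ) * g⁻¹) • g • (⟨z, hz⟩ : ℍ) by
            rw [← mul_smul, ← mul_smul, inv_mul_cancel_right]]
        exact hinv _ hmem _
      · have hz1 : (z + ((N : ℝ) : ℂ)).im ≤ 0 := by simpa using not_lt.mp hz
        rw [ofComplex_apply_of_im_nonpos hz1, ofComplex_apply_of_im_nonpos (not_lt.mp hz)]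
    · set w' : (Fin 2 → ℤ) → ℂ := fun v => w (v ᵥ* ((g⁻¹ : SL(2, ℤ)) : Matrix (Fin 2) (Fin 2) ℤ))
      have hlim : Tendsto (fun τ : ℍ => eulerH τ ^ 24) atImInfty (𝓝 1) := by
        refine ModularForm.tendsto_atImInfty_tprod_one_sub_eta_q_pow.congr fun τ => ?_
        have h := dlt_eq_euler τ
        rw [dlt, ModularForm.discriminant_eq_q_prod, qh] at h
        exact mul_left_cancel₀ (Periodic.qParam_ne_zero _) h
      have hq1 : ∀ τ : ℍ, qh 1 τ = qh (N : ℝ) τ ^ N := fun τ => by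
        simp only [qh, Periodic.qParam, ← Complex.exp_nat_mul]
        congr 1
        have : (N : ℂ) ≠ 0 := Nat.cast_ne_zero.2 (NeZero.ne N)
        push_cast
        field_simp
      have h1 : (fun τ => R (g • τ) ^ n) * qh (N : ℝ) ^ (N * n) =
          fun τ => (latSum w' τ * e4 τ ^ 2 / eulerH τ ^ 24) ^ n := by
        funext τ
        simp only [Pi.mul_apply, Pi.pow_apply, hgen, w', pow_mul, ← mul_pow, ← hq1]
        congr 1
        rw [dlt_eq_euler]
        have := eulerH_ne_zero τ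
        have := qh_ne_zero (h := 1) τ
        field_simp
      show IsBoundedAtImInfty ((fun τ => R (g • τ) ^ n) * qh (N : ℝ) ^ (N * n))
      rw [h1]
      have h2 : IsBoundedAtImInfty (fun τ => latSum w' τ * e4 τ ^ 2 / eulerH τ ^ 24) :=
        bdd_mul_div (bdd_latSum (w := w') fun v => hw _) (ES.e4_tendsto.pow 2) hlim
      exact bdd_pow h2 n
  exact ⟨⟨R, hRmd⟩, ⟨_, hA⟩, fun h0 => hne (congrArg Subtype.val h0), hchar, Subtype.ext rfl⟩

end FLTAgent.DeligneSerre.Tors
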