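import Fermat.Agent.DeligneSerre.TorsionConverse
import Fermat.Agent.TorsionHom.GoodRep

/-!
A function with trivial character is a power; normalised representatives.
-/

set_option autoImplicit false

noncomputable section

open UpperHalfPlane CongruenceSubgroup Complex Function
open scoped MatrixGroups Manifold

set_option synthInstance.maxHeartbeats 400000
set_option maxHeartbeats 1600000

namespace FLTAgent.DeligneSerre.Tors

open FLTAgent.X0Fn (Hol PerL iota iota_injective order_iota_jq comp_smul_mdiff)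
open FLTAgent.TorsionHom (shift_dvd_order root_mem_PerL order_iota exists_pow_eq_series
  exists_const_of_pow_eq)
open FLTAgent.Curves (lord_inv ordGE_of_le)
open FLTAgent.PeriodHecke (Hpar)
open AlgebraicCurve

variable {N : ℕ} [NeZero N] {Γ : Subgroup SL(2, ℤ)} [Γ.FiniteIndex] [IsLevel N Γ]
variable {K : Type*} [Field K] [Algebra ℚ K] [IsAlgClosed K] {κ : K →+* ℂ}
  {F : IntermediateField K (LaurentSeries K)}

local notation "Cx" => Additive ℂˣ

/-- The expansion of an invariant function lives in `q`. -/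
theorem dvd_order_expW (f : W N Γ) : (N : ℤ) ∣ (expW N Γ f).order := by
  have h := shift_dvd_order (⟨f, W_le_PerL f.2⟩ : PerL (N : ℝ)) (b := 1) fun τ =>
    f.2.2.1 _ (IsLevel.T_mem (N := N)) τ
  rwa [one_mul] at h

/-- An invariant root lies in `W0`. -/
theorem mem_W_of_root {R : Hol} (hc : HasChar (R : ℍ → ℂ) (0 : Additive Γ →+ Cx)) {n : ℕ}
    (hn : n ≠ 0) {G : W N Γ} (hG : R ^ n = toHol G) : (R : ℍ → ℂ) ∈ W N Γ := by
  refine ⟨R.2, fun γ hγ τ => by simpa using hc ⟨γ, hγ⟩ τ, fun g => ?_⟩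
  refine root_mem_PerL (comp_smul_mdiff R.2 g) (fun τ => ?_) hn ?_
  · have hmem : g * ModularGroup.T ^ (N : ℤ) * g⁻¹ ∈ Γ := conj_T_pow_mem N Γ g
    have h := hc ⟨_, hmem⟩ (g • τ)
    rw [mult_zero, one_mul] at h
    rw [← h]
    simp [← mul_smul, mul_assoc]
  · have : (fun τ => (R : ℍ → ℂ) (g • τ) ^ n) = fun τ => (G : ℍ → ℂ) (g • τ) :=
      funext fun τ => congrFun (congrArg Subtype.val hG) (g • τ)
    rw [this]
    exact G.2.2.2 g


/-- A function with trivial character is a power. -/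
theorem IsModel.exists_pow_eq (hF : IsModel N Γ κ F) {x : LaurentSeries K} (hx : x ≠ 0) {n : ℕ} (hn : n ≠ 0)
    (h : IsCharFn N κ n x (0 : Additive Γ →+ Cx)) :
    ∃ y : LaurentSeries K, y ∈ F ∧ y ^ n = x := by
  obtain ⟨R, ⟨A, B, hB, hAB, hR⟩, hc⟩ := h
  set Rw : W N Γ := ⟨R, mem_W_of_root hc hn hR⟩
  have hRw : Rw ^ n = A * B ^ (n - 1) := toHol_injective (by
    rw [map_pow]; exact hR)
  have hb : expW N Γ B ≠ 0 := (map_ne_zero_iff _ expW_injective).2 hB
  have hA : A ≠ 0 := fun h0 => by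
    rw [h0, map_zero, mul_eq_zero, map_eq_zero_iff _ (iota_injective κ)] at hAB
    exact hAB.elim hx hb
  have hRw0 : Rw ≠ 0 := fun h0 => by
    rw [h0, zero_pow hn, eq_comm] at hRw
    exact W_mul_ne_zero hA (W_pow_ne_zero hB _) hRw
  set z := expW N Γ Rw / expW N Γ B with hz
  have hzn : z ^ n = iota (N := N) κ x := by
    rw [hz, div_pow, div_eq_iff (pow_ne_zero _ hb), ← map_pow, hRw, map_mul, ← hAB, map_pow,
      mul_assoc, ← pow_succ', Nat.sub_add_cancel (Nat.pos_of_ne_zero hn)]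
  have hz0 : z ≠ 0 := div_ne_zero ((map_ne_zero_iff _ expW_injective).2 hRw0) hb
  have hdvd : (n : ℤ) ∣ x.order := by
    obtain ⟨r, hr⟩ := dvd_order_expW Rw
    obtain ⟨s, hs⟩ := dvd_order_expW B
    have h1 := congrArg HahnSeries.order hzn
    rw [order_iota κ hx, Curves.lord_pow, hz, div_eq_mul_inv,
      Curves.lord_mul ((map_ne_zero_iff _ expW_injective).2 hRw0) (inv_ne_zero hb),
      Curves.lord_inv, hr, hs] at h1
    refine ⟨r - s, mul_left_cancel₀ (Nat.cast_ne_zero.2 (NeZero.ne N) : (N : ℤ) ≠ 0) ?_⟩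
    linear_combination -h1
  obtain ⟨y, hy⟩ := exists_pow_eq_series hx hn hdvd
  obtain ⟨ζ, hζ⟩ := exists_const_of_pow_eq (f := iota (N := N) κ y) hn hz0
    (by rw [← map_pow, hy, hzn])
  refine ⟨y, hF.mem_of_mem_ratField ⟨algebraMap ℂ (W N Γ) ζ * Rw, B, hB, ?_⟩, hy⟩
  rw [hζ, hz, map_mul, AlgHom.commutes, mul_assoc, div_mul_cancel₀ _ hb]

theorem IsModel.exists_infPlace (hF : IsModel N Γ κ F) : ∃ v : Place K F, ∀ x : F,
    (x : LaurentSeries K).order = v.ord x := by
  haveI := hF.isFunctionField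
  haveI : CharZero K := charZero_of_injective_algebraMap (algebraMap ℚ K).injective
  have hj0 : ((hF.j : F) : LaurentSeries K).order = -1 := by
    have h1 := order_iota_jq (N := N) κ
    have hne : (ModularCurve.coeffEmb K ModularCurve.jq) ≠ 0 := fun h => by
      rw [h, map_zero, HahnSeries.order_zero] at h1
      exact NeZero.ne N (by omega)
    rw [order_iota κ hne] at h1
    have hN : (N : ℤ) ≠ 0 := Nat.cast_ne_zero.2 (NeZero.ne N)
    exact mul_left_cancel₀ hN (h1.trans (by ring))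
  obtain ⟨v, c, hc, hv⟩ := Curves.exists_place (C := K) (κ := RingHom.id K)
    (F.val : F →+* LaurentSeries K)
    (fun a => by simp [HahnSeries.C_apply, ModularCurve.algebraMap_laurentSeries_eq_single])
    (t := (hF.j)⁻¹) (by
      show 0 < (((hF.j)⁻¹ : F) : LaurentSeries K).order
      rw [IntermediateField.coe_inv, lord_inv, hj0]; norm_num)
  have h1 := hv (hF.j)⁻¹
  change (((hF.j)⁻¹ : F) : LaurentSeries K).order = _ at h1
  rw [IntermediateField.coe_inv, lord_inv, hj0, neg_neg] at h1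
  have hc1 : c = 1 := Int.eq_one_of_dvd_one hc.le ⟨_, h1⟩
  exact ⟨v, fun x => (hv x).trans (by rw [hc1, one_mul])⟩

/-- The place at infinity. -/
def IsModel.infPlace (hF : IsModel N Γ κ F) : Place K F := hF.exists_infPlace.choose

variable (hF : IsModel N Γ κ F)

theorem order_coe (x : F) : (x : LaurentSeries K).order = (hF.infPlace).ord x :=
  hF.exists_infPlace.choose_spec x

/-- Divisor divisible by `n` and effective away from infinity. -/
def Good (n : ℕ) (x : F) : Prop :=
  x ≠ 0 ∧ ∀ v : Place K F, (n : ℤ) ∣ v.ord x ∧ (v ≠ hF.infPlace → 0 ≤ v.ord x)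

/-- The normalised representative. -/
def Reduced (n : ℕ) (x : F) : Prop :=
  Good hF n x ∧ (x : LaurentSeries K).leadingCoeff = 1 ∧
    ∀ y : F, y ≠ 0 → Good hF n (x * y ^ n) →
      (hF.infPlace).ord (x * y ^ n) ≤ (hF.infPlace).ord x

variable {hF} {n : ℕ}

theorem Good.ord_nonpos {x : F} (h : Good hF n x) : (hF.infPlace).ord x ≤ 0 := by
  classical
  haveI := hF.isFunctionField
  set s := insert (hF.infPlace) (Curves.divOf K x).support
  have h0 := Curves.degree_divOf (K := K) x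
  rw [Curves.degree_eq_sum (s := s) (Finset.subset_insert _ _),
    ← Finset.add_sum_erase _ _ (Finset.mem_insert_self _ _)] at h0
  have h1 : 0 ≤ ∑ v ∈ s.erase (hF.infPlace), Curves.divOf K x v :=
    Finset.sum_nonneg fun v hv => (h.2 v).2 (Finset.ne_of_mem_erase hv)
  rw [Curves.divOf_apply] at h0
  linarith

theorem exists_good (hn : n ≠ 0) {x : F} (hx : x ≠ 0) (hd : ∀ v : Place K F, (n : ℤ) ∣ v.ord x) :
    ∃ y : F, y ≠ 0 ∧ Good hF n (x * y ^ n) := by
  classical
  haveI := hF.isFunctionField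
  haveI : CharZero K := charZero_of_injective_algebraMap (algebraMap ℚ K).injective
  have ht := hF.transcendental_j
  obtain ⟨B⟩ := Curves.nonempty_reducedBasis (K := K) ht
  set E : Divisor K F := (Curves.divOf K x).mapRange (· / (n : ℤ)) (Int.zero_ediv _) with hE
  set m : ℤ := |Divisor.degree E| + ∑ i, (B.k i : ℤ) + 1 with hm
  set D := E + Finsupp.single (hF.infPlace) m with hD
  have hdeg : Divisor.degree D = Divisor.degree E + m := by
    rw [hD, map_add, Divisor.degree_single, Curves.deg_eq_one]; simp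
  have hr := Curves.riemann_le B ht D
  rw [hdeg] at hr
  have hpos : 0 < Module.finrank K (riemannRochSpace D) := by
    have := neg_abs_le (Divisor.degree E)
    omega
  obtain ⟨f, hf, hf0'⟩ := (Submodule.ne_bot_iff (riemannRochSpace D)).1 fun h => by
    rw [h, finrank_bot] at hpos
    omega
  refine ⟨f, hf0', mul_ne_zero hx (pow_ne_zero _ hf0'), fun v => ?_⟩
  obtain ⟨k, hk⟩ := hd v
  have hord : v.ord (x * f ^ n) = n * (k + v.ord f) := by
    rw [v.ord_mul hx (pow_ne_zero _ hf0'), Curves.ord_pow, hk]; ring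
  refine ⟨⟨_, hord⟩, fun hv => ?_⟩
  have h1 := (Curves.mem_rrSpace.1 hf v).le_ord hf0'
  rw [hD, Finsupp.add_apply, Finsupp.single_eq_of_ne hv, add_zero, hE, Finsupp.mapRange_apply,
    Curves.divOf_apply, hk, Int.mul_ediv_cancel_left _ (by exact_mod_cast hn)] at h1
  rw [hord]
  exact mul_nonneg (by positivity) (by linarith)

theorem exists_reduced (hn : n ≠ 0) {x : F} (hx : x ≠ 0)
    (hd : ∀ v : Place K F, (n : ℤ) ∣ v.ord x) :
    ∃ y : F, y ≠ 0 ∧ Reduced hF n (x * y ^ n) := by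
  classical
  haveI := hF.isFunctionField
  let P : ℤ → Prop := fun k => ∃ y : F, y ≠ 0 ∧ Good hF n (x * y ^ n) ∧
    (hF.infPlace).ord (x * y ^ n) = k
  obtain ⟨k, ⟨y, hy, hg, hk⟩, hmax⟩ := Int.exists_greatest_of_bdd (P := P)
    ⟨0, fun k ⟨_, _, hg, hk⟩ => hk ▸ hg.ord_nonpos⟩
    (let ⟨y, hy, hg⟩ := exists_good hn hx hd; ⟨_, y, hy, hg, rfl⟩)
  set c := ((x * y ^ n : F) : LaurentSeries K).leadingCoeff with hc
  have hc0 : c ≠ 0 := HahnSeries.leadingCoeff_ne_zero.2 fun h => hg.1 (Subtype.ext h)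
  obtain ⟨d, hd'⟩ := IsAlgClosed.exists_pow_nat_eq c⁻¹ (Nat.pos_of_ne_zero hn)
  have hd0 : d ≠ 0 := fun h => inv_ne_zero hc0 (by rw [← hd', h, zero_pow hn])
  have hdF : algebraMap K F d ≠ 0 := (map_ne_zero _).2 hd0
  have hsame : ∀ v : Place K F,
      v.ord (x * (y * algebraMap K F d) ^ n) = v.ord (x * y ^ n) := fun v => by
    rw [mul_pow, ← mul_assoc, v.ord_mul hg.1 (pow_ne_zero _ hdF), Curves.ord_pow, Curves.ord_algebraMap,
      mul_zero, add_zero]
  refine ⟨y * algebraMap K F d, mul_ne_zero hy hdF, ⟨?_, fun v => hsame v ▸ hg.2 v⟩, ?_, ?_⟩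
  · exact mul_ne_zero hx (pow_ne_zero _ (mul_ne_zero hy hdF))
  · rw [show x * (y * algebraMap K F d) ^ n = (x * y ^ n) * algebraMap K F (d ^ n) by
        rw [map_pow]; ring, IntermediateField.coe_mul, HahnSeries.leadingCoeff_mul, ← hc, hd',
      IntermediateField.coe_algebraMap_apply, ModularCurve.algebraMap_laurentSeries_eq_single,
      HahnSeries.leadingCoeff_of_single, mul_inv_cancel₀ hc0]
  · intro z hz hgz
    rw [hsame, hk]
    exact hmax _ ⟨y * algebraMap K F d * z, mul_ne_zero (mul_ne_zero hy hdF) hz,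
      by rwa [mul_pow _ z, ← mul_assoc],
      by rw [mul_pow _ z, ← mul_assoc]⟩

/-- Reduced functions congruent modulo powers are equal. -/
theorem Reduced.eq_of_pow (hn : n ≠ 0) {x x' w : F} (hx : Reduced hF n x)
    (hx' : Reduced hF n x') (hw : w ≠ 0) (h : x = x' * w ^ n) : x = x' := by
  haveI := hF.isFunctionField
  set v₀ := hF.infPlace
  have h' : x * w⁻¹ ^ n = x' := by
    rw [h, mul_assoc, inv_pow, mul_inv_cancel₀ (pow_ne_zero _ hw), mul_one]
  have e1 := hx'.2.2 w hw (h ▸ hx.1)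
  have e2 := hx.2.2 w⁻¹ (inv_ne_zero hw) (h'.symm ▸ hx'.1)
  rw [h'] at e2
  rw [← h] at e1
  have hw0 : v₀.ord w = 0 := by
    have h3 := le_antisymm e1 e2
    rw [h, v₀.ord_mul hx'.1.1 (pow_ne_zero _ hw), Curves.ord_pow] at h3
    have : (n : ℤ) * v₀.ord w = 0 := by linarith
    exact (mul_eq_zero.1 this).resolve_left (by exact_mod_cast hn)
  set c := (w : LaurentSeries K).leadingCoeff with hcdef
  have hc : c ^ n = 1 := by
    have h2 := congrArg HahnSeries.leadingCoeff (congrArg Subtype.val h)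
    rwa [IntermediateField.coe_mul, HahnSeries.leadingCoeff_mul, IntermediateField.coe_pow,
      Curves.leadingCoeff_pow', hx.2.1, hx'.2.1, one_mul, eq_comm] at h2
  by_cases hwc : w = algebraMap K F c
  · rw [h, hwc, ← map_pow, hc, map_one, mul_one]
  exfalso
  set w' := w - algebraMap K F c
  have hw' : w' ≠ 0 := sub_ne_zero.2 hwc
  have hpos : 0 < v₀.ord w' := by
    rw [← order_coe hF]
    have ho : (w : LaurentSeries K).order = 0 := by rw [order_coe hF]; exact hw0
    refine lt_of_not_ge fun hle => ?_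
    have hne : (w' : LaurentSeries K) ≠ 0 := fun e => hw' (Subtype.ext e)
    have h4 := HahnSeries.coeff_order_eq_zero.not.2 hne
    apply h4
    rw [show (w' : LaurentSeries K) = (w : LaurentSeries K) - HahnSeries.single 0 c by
      rw [← ModularCurve.algebraMap_laurentSeries_eq_single]; rfl, HahnSeries.coeff_sub]
    rw [show (w' : LaurentSeries K) = (w : LaurentSeries K) - HahnSeries.single 0 c by
      rw [← ModularCurve.algebraMap_laurentSeries_eq_single]; rfl] at hle
    rcases hle.lt_or_eq with hlt | heq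
    · rw [HahnSeries.coeff_eq_zero_of_lt_order (lt_of_lt_of_eq hlt ho.symm),
        HahnSeries.coeff_single_of_ne hlt.ne, sub_zero]
    · rw [heq, HahnSeries.coeff_single_same, hcdef, HahnSeries.leadingCoeff_eq, ho, sub_self]
  have hg : Good hF n (x' * w' ^ n) := by
    refine ⟨mul_ne_zero hx'.1.1 (pow_ne_zero _ hw'), fun v => ?_⟩
    rw [v.ord_mul hx'.1.1 (pow_ne_zero _ hw'), Curves.ord_pow]
    refine ⟨dvd_add (hx'.1.2 v).1 (dvd_mul_right _ _), fun hv => ?_⟩
    have h5 : min (v.ord w) 0 ≤ v.ord w' :=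
      (((ordGE_of_le (le_refl (v.ord w))).mono (min_le_left _ 0)).sub
        ((Curves.ordGE_algebraMap v c).mono (min_le_right _ 0))).le_ord hw'
    have h6 : v.ord x = v.ord x' + n * v.ord w := by
      rw [h, v.ord_mul hx'.1.1 (pow_ne_zero _ hw), Curves.ord_pow]
    have h7 := (hx.1.2 v).2 hv
    have h8 := (hx'.1.2 v).2 hv
    have h9 : (n : ℤ) * min (v.ord w) 0 ≤ n * v.ord w' := mul_le_mul_of_nonneg_left h5 (by positivity)
    rcases le_total (v.ord w) 0 with hle | hle
    · rw [min_eq_left hle] at h9; linarith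
    · rw [min_eq_right hle] at h9; linarith
  have e3 := hx'.2.2 w' hw' hg
  rw [v₀.ord_mul hx'.1.1 (pow_ne_zero _ hw'), Curves.ord_pow] at e3
  nlinarith [Nat.pos_of_ne_zero hn]

theorem isCharFn_one (hn : n ≠ 0) :
    IsCharFn N κ n (1 : LaurentSeries K) (0 : Additive Γ →+ Cx) := by
  simpa using isCharFn_pow (κ := κ) (a := (1 : W N Γ)) (b := 1) (y := 1)
    one_ne_zero_W (by simp) hn

theorem isCharFn_natPow {x : LaurentSeries K} {χ : Additive Γ →+ Cx} (hn : n ≠ 0)
    (h : IsCharFn N κ n x χ) (m : ℕ) : IsCharFn N κ n (x ^ m) (m • χ) := by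
  induction m with
  | zero =>
    rw [pow_zero, show (0 : ℕ) • χ = 0 from mult_injective fun γ => by
      rw [mult_nsmul, mult_zero, pow_zero]]
    exact isCharFn_one hn
  | succ m ih =>
    rw [pow_succ, show (m + 1) • χ = m • χ + χ from mult_injective fun γ => by
      rw [mult_add, mult_nsmul, mult_nsmul, pow_succ]]
    exact ih.mul h

/-- Functions with equal characters differ by a power. -/
theorem exists_pow_ratio (hF : IsModel N Γ κ F) (hn : n ≠ 0) {x x' : F} (hx : x ≠ 0) (hx' : x' ≠ 0)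
    {χ : Additive Γ →+ Cx} (hχ : n • χ = 0) (h : IsCharFn N κ n (x : LaurentSeries K) χ)
    (h' : IsCharFn N κ n (x' : LaurentSeries K) χ) : ∃ w : F, w ≠ 0 ∧ x = x' * w ^ n := by
  have h1 := h.mul (isCharFn_natPow hn h' (n - 1))
  rw [show χ + (n - 1) • χ = 0 from hχ ▸ mult_injective fun γ => by
    rw [mult_add, mult_nsmul, mult_nsmul, ← pow_succ', Nat.sub_add_cancel (Nat.pos_of_ne_zero hn)]]
    at h1
  obtain ⟨y, hy, hyn⟩ := hF.exists_pow_eq (mul_ne_zero (fun e => hx (Subtype.ext e))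
    (pow_ne_zero _ fun e => hx' (Subtype.ext e))) hn h1
  have e : (⟨y, hy⟩ : F) ^ n = x * x' ^ (n - 1) := Subtype.ext (by simpa using hyn)
  refine ⟨⟨y, hy⟩ / x', div_ne_zero (fun h0 => ?_) hx', ?_⟩
  · rw [h0, zero_pow hn, eq_comm] at e
    exact mul_ne_zero hx (pow_ne_zero _ hx') e
  · rw [div_pow, e]
    field_simp
    rw [mul_comm, ← pow_succ, Nat.sub_add_cancel (Nat.pos_of_ne_zero hn)]


end FLTAgent.DeligneSerre.Tors
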