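import Fermat.Agent.DeligneSerre.TorsionComplex
import Fermat.Agent.DeligneSerre.TorsionKernel
import Fermat.Agent.DeligneSerre.TorsionEis
import Fermat.Agent.DeligneSerre.TorsionRoot
import Fermat.Agent.TorsionHom.Translation
import Fermat.Agent.TorsionHom.Descent

/-!
Every character of exponent `n` killing parabolic and elliptic elements comes from a function in
a model over an algebraically closed field.
-/

set_option autoImplicit false

noncomputable section

open CongruenceSubgroup Function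
open scoped MatrixGroups

set_option synthInstance.maxHeartbeats 400000
set_option maxHeartbeats 1600000

namespace FLTAgent.DeligneSerre.Tors

open FLTAgent.X0Fn (Hol PerL iota coeff_expL_shift)
open FLTAgent.TorsionHom (order_coeffMap exists_translation)
open FLTAgent.PeriodHecke (Hpar)
open AlgebraicCurve
open ModularCurve (coeffMap)

variable {N : ℕ} [NeZero N] {Γ : Subgroup SL(2, ℤ)} [Γ.FiniteIndex] [IsLevel N Γ]
variable {K : Type*} [Field K] [Algebra ℚ K] {κ : K →+* ℂ}
  {F : IntermediateField K (LaurentSeries K)}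

local notation "Cx" => Additive ℂˣ
local notation "FC" => ratField N Γ (RingHom.id ℂ)

/-- The expansion of an invariant function as a series in `q`. -/
theorem exists_q_series (f : W N Γ) :
    ∃ z : LaurentSeries ℂ, iota (N := N) (RingHom.id ℂ) z = expW N Γ f := by
  have hN : (N : ℤ) ≠ 0 := Nat.cast_ne_zero.2 (NeZero.ne N)
  set g := expW N Γ f
  have hvan : ∀ k : ℤ, ¬ (N : ℤ) ∣ k → g.coeff k = 0 := fun k hk => by
    by_contra h0
    have h1 := coeff_expL_shift (⟨f, W_le_PerL f.2⟩ : PerL (N : ℝ)) ⟨f, W_le_PerL f.2⟩ 1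
      (fun τ => (f.2.2.1 _ (by simpa using IsLevel.T_mem (N := N) (Γ := Γ)) τ).symm) k
    change g.coeff k = _ * g.coeff k at h1
    have h2 := mul_right_cancel₀ h0 ((one_mul _).trans h1)
    rw [← Complex.exp_int_mul, eq_comm, Complex.exp_eq_one_iff] at h2
    obtain ⟨m, hm⟩ := h2
    refine hk ⟨m, ?_⟩
    have hNC : (N : ℂ) ≠ 0 := Nat.cast_ne_zero.2 (NeZero.ne N)
    have h3 : (k : ℂ) = (N : ℂ) * m := by
      have := Complex.two_pi_I_ne_zero
      push_cast at hm
      field_simp at hm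
      linear_combination hm
    exact_mod_cast h3
  refine ⟨HahnSeries.ofSuppBddBelow (fun k => g.coeff (N * k)) ⟨min g.order 0, fun k hk => ?_⟩, ?_⟩
  · have h1 : g.order ≤ N * k := HahnSeries.order_le_of_coeff_ne_zero hk
    have h2 : (1 : ℤ) ≤ N := Int.natCast_pos.2 (Nat.pos_of_ne_zero (NeZero.ne N))
    rcases le_or_gt 0 k with h | h
    · exact (min_le_right _ _).trans h
    · exact (min_le_left _ _).trans (h1.trans (by nlinarith))
  · refine HahnSeries.ext (funext fun k => ?_)
    rw [iota, RingHom.comp_apply, ModularCurve.coeffMap_id]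
    by_cases hk : (N : ℤ) ∣ k
    · obtain ⟨m, rfl⟩ := hk
      rw [ModularCurve.qExpand_coeff_mul]
      rfl
    · rw [ModularCurve.qExpand_coeff_of_not_dvd _ _ hk, hvan k hk]

/-- Over the complex numbers every character comes from a function. -/
theorem exists_fn_complex {χ : Additive Γ →+ Cx} (hχ : χ ∈ Hpar Γ Cx) {n : ℕ} (hn : n ≠ 0)
    (hnχ : n • χ = 0) :
    ∃ x : FC, x ≠ 0 ∧ IsCharFn N (RingHom.id ℂ) n (x : LaurentSeries ℂ) χ := by
  obtain ⟨R, A, hR, hc, hA⟩ := exists_root_fun (N := N) hχ hn hnχ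
  obtain ⟨z, hz⟩ := exists_q_series A
  have hz1 : iota (N := N) (RingHom.id ℂ) z * expW N Γ 1 = expW N Γ A := by rw [map_one, mul_one, hz]
  refine ⟨⟨z, A, 1, one_ne_zero_W, hz1⟩, fun h0 => hR ?_,
    R, ⟨A, 1, one_ne_zero_W, hz1, by rw [one_pow, mul_one]; exact hA⟩, hc⟩
  have hz0 : z = 0 := congrArg Subtype.val h0
  rw [hz0, map_zero, eq_comm, map_eq_zero_iff _ expW_injective] at hz
  rw [hz, map_zero] at hA
  exact (pow_eq_zero_iff'.1 hA).1

section Galois

variable (hF : IsModel N Γ κ F) (e : ℂ ≃ₐ[ℚ] ℂ) (he : ∀ a ∈ κ.fieldRange, e a = a)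

include hF he in
theorem gal_infPlace : gal hF e he • (isModel_complex hF).infPlace = (isModel_complex hF).infPlace := by
  refine Curves.place_eq_of_le fun f hf => ?_
  rw [← Curves.ordGE_zero_iff_mem] at hf ⊢
  rcases hf with rfl | hf
  · exact Curves.ordGE_zero _ _
  refine Or.inr ?_
  have h1 : f = gal hF e he • ((gal hF e he)⁻¹ • f) := (smul_inv_smul _ f).symm
  have h2 : (f : LaurentSeries ℂ).order = ((gal hF e he)⁻¹ • f : FC).1.order := by
    conv_lhs => rw [h1]
    exact order_coeffMap e _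
  rw [h1, AlgebraicCurve.SemilinearAut.ord_smul] at hf
  rw [← order_coe, h2, order_coe (isModel_complex hF)]
  exact hf

include hF he in
theorem good_gal {n : ℕ} {x : FC} (h : Good (isModel_complex hF) n x) :
    Good (isModel_complex hF) n (gal hF e he • x) := by
  refine ⟨fun h0 => h.1 ((smul_eq_zero_iff_eq (gal hF e he)).1 h0), fun v => ?_⟩
  rw [show v = gal hF e he • ((gal hF e he)⁻¹ • v) from (smul_inv_smul _ v).symm,
    AlgebraicCurve.SemilinearAut.ord_smul]
  refine ⟨(h.2 _).1, fun hv => (h.2 _).2 fun he' => hv ?_⟩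
  rw [he', gal_infPlace]

include hF he in
theorem reduced_gal {n : ℕ} {x : FC} (h : Reduced (isModel_complex hF) n x) :
    Reduced (isModel_complex hF) n (gal hF e he • x) := by
  set g := gal hF e he with hg0
  refine ⟨good_gal hF e he h.1, ?_, fun y hy hg => ?_⟩
  · show HahnSeries.leadingCoeff (coeffMap (e : ℂ →+* ℂ) (x : LaurentSeries ℂ)) = 1
    rw [HahnSeries.leadingCoeff_eq, order_coeffMap, ModularCurve.coeffMap_coeff,
      ← HahnSeries.leadingCoeff_eq, h.2.1, map_one]
  have he' : ∀ a ∈ κ.fieldRange, e.symm a = a := fun a ha => by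
    conv_lhs => rw [← he a ha]
    exact e.symm_apply_apply a
  have hy' : g⁻¹ • y ≠ 0 := fun h0 => hy ((smul_eq_zero_iff_eq g⁻¹).1 h0)
  have hxy : g⁻¹ • ((g • x) * y ^ n) = x * (g⁻¹ • y) ^ n := by
    rw [smul_mul', inv_smul_smul, smul_pow']
  have h1 : Good (isModel_complex hF) n (g⁻¹ • ((g • x) * y ^ n)) := by
    rw [show g⁻¹ = gal hF e.symm he' from Subtype.ext (Prod.ext (RingEquiv.ext fun _ => rfl) rfl)]
    exact good_gal hF _ he' hg
  rw [hxy] at h1
  have h2 := h.2.2 _ hy' h1
  rw [← AlgebraicCurve.SemilinearAut.ord_smul g, hg0, gal_infPlace, ← hg0, ← hxy, smul_inv_smul,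
    ← AlgebraicCurve.SemilinearAut.ord_smul g (v := (isModel_complex hF).infPlace) (f := x),
    hg0, gal_infPlace, ← hg0] at h2
  exact h2

end Galois

theorem finite_reduced (hC : IsModel N Γ (RingHom.id ℂ) FC) {n : ℕ} (hn : n ≠ 0) :
    {x : FC | Reduced hC n x}.Finite := by
  haveI : NeZero n := ⟨hn⟩
  choose c hc hcn hchar using fun x : {x : FC // Reduced hC n x} =>
    hC.exists_isCharFn x.2.1.1 hn fun v => (x.2.1.2 v).1
  haveI : Finite {χ : Additive Γ →+ Cx // χ ∈ Hpar Γ Cx ∧ n • χ = 0} :=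
    (finite_killed n).to_subtype
  refine Set.finite_coe_iff.1 (Finite.of_injective
    (fun x : {x : FC // Reduced hC n x} =>
      (⟨c x, hc x, hcn x⟩ : {χ : Additive Γ →+ Cx // χ ∈ Hpar Γ Cx ∧ n • χ = 0}))
    fun x y hxy => ?_)
  have he : c x = c y := congrArg Subtype.val hxy
  obtain ⟨w, hw, hxw⟩ := exists_pow_ratio hC hn x.2.1.1 y.2.1.1 (hcn y) (he ▸ hchar x) (hchar y)
  exact Subtype.ext (x.2.eq_of_pow hn y.2 hw hxw)

variable [IsAlgClosed K]

/-- Coefficients of normalised representatives lie in the constants of the model. -/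
theorem coeff_mem_range (hF : IsModel N Γ κ F) {n : ℕ} (hn : n ≠ 0) {x : FC}
    (hx : Reduced (isModel_complex hF) n x)
    (i : ℤ) : (x : LaurentSeries ℂ).coeff i ∈ κ.fieldRange := by
  by_contra hz
  set z := (x : LaurentSeries ℂ).coeff i
  haveI : IsAlgClosed κ.fieldRange := IsAlgClosed.of_exists_root _ fun p _ hp => by
    obtain ⟨a, ha⟩ := IsAlgClosed.exists_root (p.map κ.rangeRestrictFieldEquiv.symm.toRingHom) (by
      rw [Polynomial.degree_map]
      exact hp.degree_pos.ne')
    refine ⟨κ.rangeRestrictFieldEquiv a, ?_⟩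
    rw [Polynomial.IsRoot, Polynomial.eval_map] at ha
    have h1 := congrArg κ.rangeRestrictFieldEquiv.toRingHom ha
    rw [Polynomial.hom_eval₂, map_zero, RingEquiv.toRingHom_comp_symm_toRingHom,
      Polynomial.eval₂_id] at h1
    exact h1
  obtain ⟨e, hfix, he⟩ := exists_translation κ.fieldRange hz
  have hmem : ∀ k : ℕ, ∃ y : FC, Reduced (isModel_complex hF) n y ∧
      (y : LaurentSeries ℂ).coeff i = z + k := by
    intro k
    induction k with
    | zero => exact ⟨x, hx, by simp [z]⟩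
    | succ k ih =>
      obtain ⟨y, hy, hk⟩ := ih
      refine ⟨_, reduced_gal hF e hfix hy, ?_⟩
      show (coeffMap (e : ℂ →+* ℂ) (y : LaurentSeries ℂ)).coeff i = _
      rw [ModularCurve.coeffMap_coeff, hk]
      show e (z + k) = _
      rw [map_add, he, map_natCast]
      push_cast
      ring
  have hfin := (finite_reduced (isModel_complex hF) hn).image
    fun y : FC => (y : LaurentSeries ℂ).coeff i
  refine Set.infinite_of_injective_forall_mem (s := _) (f := fun k : ℕ => z + k) ?_ (fun k => ?_) hfin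
  · intro a b hab
    exact_mod_cast add_left_cancel hab
  · obtain ⟨y, hy, hk⟩ := hmem k
    exact ⟨y, hy, hk⟩

/-- Every character of exponent `n` comes from a function of the model. -/
theorem IsModel.exists_fn_of_char (hF : IsModel N Γ κ F) {χ : Additive Γ →+ Cx}
    (hχ : χ ∈ Hpar Γ Cx) {n : ℕ} (hn : n ≠ 0) (hnχ : n • χ = 0) :
    ∃ x : F, x ≠ 0 ∧ IsCharFn N κ n (x : LaurentSeries K) χ := by
  have hC := isModel_complex hF
  obtain ⟨z, hz0, hz⟩ := exists_fn_complex (N := N) hχ hn hnχ
  obtain ⟨y, hy, hred⟩ := exists_reduced (hF := hC) hn hz0 (hC.dvd_ord_of_isCharFn hz0 hn hz hχ)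
  obtain ⟨a, b, hb, hab⟩ := y.2
  have hchar : IsCharFn N (RingHom.id ℂ) n ((z * y ^ n : FC) : LaurentSeries ℂ) χ := by
    have h := hz.mul (isCharFn_pow hb hab hn)
    rw [show χ + 0 = χ from mult_injective fun γ => by rw [mult_add, mult_zero, mul_one]] at h
    simpa using h
  set u : FC := z * y ^ n
  choose c hc using coeff_mem_range hF hn hred
  have hsupp : BddBelow (Function.support c) := ⟨(u : LaurentSeries ℂ).order, fun k hk =>
    HahnSeries.order_le_of_coeff_ne_zero (by rw [← hc]; exact (map_ne_zero κ).2 hk)⟩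
  set w : LaurentSeries K := HahnSeries.ofSuppBddBelow c hsupp
  have hw : coeffMap κ w = (u : LaurentSeries ℂ) :=
    HahnSeries.ext (funext fun k => (ModularCurve.coeffMap_coeff κ w k).trans (hc k))
  have hiota : iota (N := N) κ w = iota (N := N) (RingHom.id ℂ) (u : LaurentSeries ℂ) := by
    rw [← iota_id_coeffMap, hw]
  obtain ⟨R, ⟨A, B, hB, hAB, hR⟩, hchi⟩ := hchar
  rw [← hiota] at hAB
  refine ⟨⟨w, hF.mem_of_mem_ratField ⟨A, B, hB, hAB⟩⟩, fun h0 => hred.1.1 (Subtype.ext ?_),
    R, ⟨A, B, hB, hAB, hR⟩, hchi⟩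
  show (u : LaurentSeries ℂ) = 0
  rw [← hw, show w = 0 from congrArg Subtype.val h0, map_zero]

end FLTAgent.DeligneSerre.Tors
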