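import Fermat.Agent.TorsionHom.Eis
import Fermat.Agent.TorsionHom.GoodRep

/-!
Functions invariant under a congruence group containing `Γ(N)`, the translation by one and `-1`.
-/

set_option autoImplicit false

noncomputable section

open UpperHalfPlane CongruenceSubgroup Complex Function
open scoped MatrixGroups Manifold

namespace FLTAgent.DeligneSerre.Tors

open FLTAgent.X0Fn (Hol PerL qh expL expL_injective comp_smul_mdiff iota iota_injective
  exists_poly_of_invariant mem_PerL_one)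
open FLTAgent.ES (jfun)

/-- A group between `±Γ(N)` and `SL(2, ℤ)` containing the translation by one. -/
class IsLevel (N : ℕ) (Γ : Subgroup SL(2, ℤ)) : Prop where
  gamma_le : CongruenceSubgroup.Gamma N ≤ Γ
  T_mem : ModularGroup.T ∈ Γ
  neg_one_mem : (-1 : SL(2, ℤ)) ∈ Γ

variable {N : ℕ} {Γ : Subgroup SL(2, ℤ)}

theorem finiteIndex_of_isLevel (N : ℕ) [NeZero N] (Γ : Subgroup SL(2, ℤ)) [IsLevel N Γ] :
    Γ.FiniteIndex :=
  Subgroup.finiteIndex_of_le (IsLevel.gamma_le (N := N) (Γ := Γ))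

theorem conj_T_pow_mem (N : ℕ) (Γ : Subgroup SL(2, ℤ)) [IsLevel N Γ] (g : SL(2, ℤ)) :
    g * ModularGroup.T ^ (N : ℤ) * g⁻¹ ∈ Γ :=
  IsLevel.gamma_le (N := N)
    ((Gamma_normal N).conj_mem _ (ModularGroup_T_pow_mem_Gamma N N dvd_rfl) g)

variable [NeZero N]

variable (N Γ) in
/-- Holomorphic invariant functions meromorphic at all cusps. -/
def W : Subalgebra ℂ (ℍ → ℂ) where
  carrier := {f | MDiff f ∧ (∀ γ ∈ Γ, ∀ τ, f (γ • τ) = f τ) ∧
    ∀ g : SL(2, ℤ), (fun τ => f (g • τ)) ∈ PerL (N : ℝ)}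
  mul_mem' := by
    rintro f f' ⟨h1, h2, h3⟩ ⟨k1, k2, k3⟩
    exact ⟨h1.mul k1, fun γ hγ τ => by simp only [Pi.mul_apply, h2 γ hγ, k2 γ hγ],
      fun g => mul_mem (h3 g) (k3 g)⟩
  add_mem' := by
    rintro f f' ⟨h1, h2, h3⟩ ⟨k1, k2, k3⟩
    exact ⟨h1.add k1, fun γ hγ τ => by simp only [Pi.add_apply, h2 γ hγ, k2 γ hγ],
      fun g => add_mem (h3 g) (k3 g)⟩
  algebraMap_mem' c :=
    ⟨mdifferentiable_const, fun _ _ _ => rfl, fun _ => (PerL (N : ℝ)).algebraMap_mem c⟩

theorem W_le_PerL : W N Γ ≤ PerL (N : ℝ) := fun f hf => by simpa using hf.2.2 1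

theorem W_mono {Δ : Subgroup SL(2, ℤ)} (h : Γ ≤ Δ) : W N Δ ≤ W N Γ :=
  fun _ hf => ⟨hf.1, fun γ hγ => hf.2.1 γ (h hγ), hf.2.2⟩

section Expansion

variable (N Γ) in
/-- Expansion at infinity. -/
def expW : W N Γ →ₐ[ℂ] LaurentSeries ℂ :=
  (expL (N : ℝ)).comp (Subalgebra.inclusion W_le_PerL)

theorem expW_apply (f : W N Γ) : expW N Γ f = expL (N : ℝ) ⟨f, W_le_PerL f.2⟩ := rfl

theorem expW_injective : Injective (expW N Γ) :=
  expL_injective.comp (Subalgebra.inclusion_injective W_le_PerL)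

/-- A function of level `N` as a holomorphic function. -/
def toHol : W N Γ →ₐ[ℂ] Hol := Subalgebra.inclusion fun _ hf => hf.1

@[simp] theorem coe_toHol (f : W N Γ) : (toHol f : ℍ → ℂ) = (f : ℍ → ℂ) := rfl

theorem toHol_injective : Injective (toHol (N := N) (Γ := Γ)) :=
  Subalgebra.inclusion_injective _

theorem one_ne_zero_W : (1 : W N Γ) ≠ 0 := fun h =>
  one_ne_zero (congrFun (congrArg Subtype.val h) UpperHalfPlane.I)

theorem W_mul_ne_zero {A B : W N Γ} (hA : A ≠ 0) (hB : B ≠ 0) : A * B ≠ 0 := fun h0 => by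
  have := congrArg toHol h0
  rw [map_mul, map_zero, mul_eq_zero, map_eq_zero_iff _ toHol_injective,
    map_eq_zero_iff _ toHol_injective] at this
  exact this.elim hA hB

theorem W_pow_ne_zero {A : W N Γ} (hA : A ≠ 0) (m : ℕ) : A ^ m ≠ 0 := fun h0 => by
  have := congrArg toHol h0
  rw [map_pow, map_zero] at this
  exact (map_ne_zero_iff _ toHol_injective).2 hA (pow_eq_zero_iff'.1 this).1

theorem expW_ne_zero {A : W N Γ} (hA : A ≠ 0) : expW N Γ A ≠ 0 :=
  (map_ne_zero_iff _ expW_injective).2 hA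

/-! ### Translates -/

variable (Γ) in
/-- Cosets. -/
abbrev Cos : Type := SL(2, ℤ) ⧸ Γ

/-- `f ↦ f ∘ g⁻¹` for the coset of `g`. -/
def trans (q : Cos Γ) : W N Γ →ₐ[ℂ] (ℍ → ℂ) where
  toFun f τ := (f : ℍ → ℂ) (q.out⁻¹ • τ)
  map_one' := rfl
  map_mul' _ _ := rfl
  map_zero' := rfl
  map_add' _ _ := rfl
  commutes' _ := rfl

theorem trans_mk (f : W N Γ) (g : SL(2, ℤ)) (τ : ℍ) :
    trans (g : Cos Γ) f τ = (f : ℍ → ℂ) (g⁻¹ • τ) := by
  obtain ⟨γ, hγ⟩ := QuotientGroup.mk_out_eq_mul Γ g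
  show (f : ℍ → ℂ) (_ • τ) = _
  rw [hγ, mul_inv_rev, mul_smul]
  exact f.2.2.1 _ (inv_mem γ.2) _

theorem trans_smul (f : W N Γ) (h : SL(2, ℤ)) (q : Cos Γ) (τ : ℍ) :
    trans (h • q) f τ = trans q f (h⁻¹ • τ) := by
  induction q using QuotientGroup.induction_on with
  | H g =>
    rw [show h • (g : Cos Γ) = ((h * g : SL(2, ℤ)) : Cos Γ) from rfl, trans_mk, trans_mk,
      mul_inv_rev, mul_smul]

theorem trans_one (f : W N Γ) : trans ((1 : SL(2, ℤ)) : Cos Γ) f = (f : ℍ → ℂ) := by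
  funext τ
  rw [trans_mk, inv_one, one_smul]

theorem trans_mem_Hol (q : Cos Γ) (f : W N Γ) : trans q f ∈ Hol := comp_smul_mdiff f.2.1 _

theorem trans_mem_PerL (q : Cos Γ) (f : W N Γ) : trans q f ∈ PerL (N : ℝ) := f.2.2.2 _

theorem trans_injective (q : Cos Γ) : Injective (trans (N := N) q) := by
  intro f f' h
  apply Subtype.ext
  funext τ
  have := congrFun h (q.out • τ)
  simpa [trans] using this

/-! ### The invariant `j` -/

theorem jfun_mem_W : jfun ∈ W N Γ := by
  have h := X0Fn.jd_mem_W0 (N := N) (one_dvd N)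
  rw [X0Fn.jd_one] at h
  exact ⟨h.1, fun γ _ τ => FLTAgent.ES.jfun_smul γ τ, h.2.2⟩

variable (N Γ) in
/-- `j` as an invariant function. -/
def jW : W N Γ := ⟨jfun, jfun_mem_W⟩

theorem expW_jW {K : Type*} [Field K] [Algebra ℚ K] (κ : K →+* ℂ) :
    expW N Γ (jW N Γ) = iota (N := N) κ (ModularCurve.coeffEmb K ModularCurve.jq) := by
  rw [show ModularCurve.coeffEmb K ModularCurve.jq = (X0Fn.jA K N : LaurentSeries K) from rfl,
    ← X0Fn.expW_toW κ (X0Fn.jA K N), expW_apply, X0Fn.expW_apply]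
  congr 1
  exact Subtype.ext (X0Fn.toW_jA κ).symm

theorem trans_jW (q : Cos Γ) : trans q (jW N Γ) = jfun :=
  funext fun τ => FLTAgent.ES.jfun_smul _ _

theorem aeval_jW_apply (p : Polynomial ℂ) (τ : ℍ) :
    ((Polynomial.aeval (jW N Γ) p : W N Γ) : ℍ → ℂ) τ = p.eval (jfun τ) := by
  rw [Polynomial.aeval_subalgebra_coe]
  have : ((Polynomial.aeval ((jW N Γ : W N Γ) : ℍ → ℂ) p) : ℍ → ℂ) τ =
      Polynomial.aeval (((jW N Γ : W N Γ) : ℍ → ℂ) τ) p :=
    (Polynomial.aeval_algHom_apply (Pi.evalAlgHom ℂ (fun _ : ℍ => ℂ) τ) _ _).symm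
  rw [this, Polynomial.coe_aeval_eq_eval]
  rfl

theorem exists_poly_of_level_one {f : ℍ → ℂ} (hf : f ∈ W N Γ)
    (hinv : ∀ (g : SL(2, ℤ)) τ, f (g • τ) = f τ) :
    ∃ p : Polynomial ℂ, ∀ τ, f τ = p.eval (jfun τ) :=
  X0Fn.exists_poly_of_level_one (N := N) ⟨hf.1, fun γ _ τ => hinv γ τ, hf.2.2⟩ hinv

variable [Γ.FiniteIndex]

/-- An integral relation over the polynomials in `j`. -/
theorem exists_monic_relation (f : W N Γ) :
    ∃ p : Fin (Nat.card (Cos Γ)) → Polynomial ℂ,
      f ^ Nat.card (Cos Γ) +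
        ∑ m, Polynomial.aeval (jW N Γ) (p m) * f ^ (m : ℕ) = 0 := by
  classical
  haveI := Fintype.ofFinite (Cos Γ)
  rw [Nat.card_eq_fintype_card]
  set n := Fintype.card (Cos Γ) with hn
  set x : Cos Γ → ℍ → ℂ := fun q => trans q f with hx
  set c : ℕ → ℍ → ℂ := fun m => FLTAgent.CuspForms.symCoeff x m with hc
  have hev : ∀ m τ, c m τ = FLTAgent.CuspForms.symCoeff (fun q => x q τ) m := fun m τ => by
    simp [hc, FLTAgent.CuspForms.symCoeff, Finset.sum_apply, Finset.prod_apply]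
  have hinv : ∀ m (g : SL(2, ℤ)) τ, c m (g • τ) = c m τ := fun m g τ => by
    rw [hev, hev]
    have : (fun q => x q (g • τ)) = (fun q => x q τ) ∘ MulAction.toPerm g⁻¹ := by
      funext q
      simp only [hx, comp_apply, MulAction.toPerm_apply, trans_smul, inv_inv]
    rw [this, FLTAgent.CuspForms.symCoeff_comp_perm]
  have hmem : ∀ (S : Subalgebra ℂ (ℍ → ℂ)), (∀ q, x q ∈ S) → ∀ m, c m ∈ S := fun S hS m => by
    simp only [hc, FLTAgent.CuspForms.symCoeff]
    exact S.sum_mem fun t _ => S.prod_mem fun q _ => S.neg_mem (hS q)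
  have hW : ∀ m, c m ∈ W N Γ := fun m => by
    refine ⟨hmem Hol (fun q => trans_mem_Hol q _) m, fun γ _ τ => hinv m γ τ, fun g => ?_⟩
    rw [funext (hinv m g)]
    exact hmem _ (fun q => trans_mem_PerL q _) m
  choose p hp using fun m => exists_poly_of_level_one (hW m) (hinv m)
  refine ⟨fun m => p m, Subtype.ext (funext fun τ => ?_)⟩
  have h0 := congrArg (fun P : Polynomial ℂ => P.eval (x ((1 : SL(2, ℤ)) : Cos Γ) τ))
    (FLTAgent.CuspForms.prod_X_sub_C_eq fun q => x q τ)
  rw [Polynomial.eval_prod, Finset.prod_eq_zero (Finset.mem_univ ((1 : SL(2, ℤ)) : Cos Γ))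
    (by simp), Polynomial.eval_finsetSum, Finset.sum_range_succ,
    FLTAgent.CuspForms.symCoeff_card] at h0
  have hx1 : x ((1 : SL(2, ℤ)) : Cos Γ) τ = (f : ℍ → ℂ) τ := congrFun (trans_one f) τ
  simp only [Polynomial.eval_mul, Polynomial.eval_C, Polynomial.eval_pow, Polynomial.eval_X, hx1,
    one_mul, ← hev, hp] at h0
  rw [Finset.sum_range] at h0
  simp only [AddMemClass.coe_add, SubmonoidClass.coe_pow, AddSubmonoidClass.coe_finsetSum,
    MulMemClass.coe_mul, Pi.add_apply, Pi.pow_apply, Finset.sum_apply, Pi.mul_apply,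
    aeval_jW_apply, ZeroMemClass.coe_zero, Pi.zero_apply]
  rw [h0, add_comm]

/-- A quotient has a denominator which is a polynomial in `j`. -/
theorem exists_poly_den (A : W N Γ) {B : W N Γ} (hB : B ≠ 0) :
    ∃ (p : Polynomial ℂ) (A' : W N Γ), p ≠ 0 ∧
      A * Polynomial.aeval (jW N Γ) p = B * A' := by
  classical
  haveI := Fintype.ofFinite (Cos Γ)
  set q₁ : Cos Γ := ((1 : SL(2, ℤ)) : Cos Γ) with hq₁
  let P : ℍ → ℂ := fun τ => ∏ q, trans q B τ
  let A'f : ℍ → ℂ := fun τ => (A : ℍ → ℂ) τ * ∏ q ∈ Finset.univ.erase q₁, trans q B τ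
  have hperm : ∀ (g : SL(2, ℤ)) τ, P (g • τ) = P τ := fun g τ => by
    simp only [P]
    exact Equiv.prod_comp (MulAction.toPerm g⁻¹) (fun q => trans q B τ) ▸
      Finset.prod_congr rfl fun q _ => by
        rw [MulAction.toPerm_apply, trans_smul, inv_inv]
  have hprodmem : ∀ (S : Subalgebra ℂ (ℍ → ℂ)) (s : Finset (Cos Γ)), (∀ q, trans q B ∈ S) →
      (fun τ => ∏ q ∈ s, trans q B τ) ∈ S := fun S s h => by
    rw [show (fun τ => ∏ q ∈ s, trans q B τ) = ∏ q ∈ s, trans q B from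
      funext fun τ => (Finset.prod_apply τ _ _).symm]
    exact S.prod_mem fun q _ => h q
  have hPW : P ∈ W N Γ := by
    refine ⟨hprodmem Hol _ fun q => trans_mem_Hol q _, fun γ _ τ => hperm γ τ, fun g => ?_⟩
    rw [funext (hperm g)]
    exact hprodmem _ _ fun q => trans_mem_PerL q _
  obtain ⟨p, hp⟩ := exists_poly_of_level_one hPW hperm
  have hA' : A'f ∈ W N Γ := by
    refine ⟨MDifferentiable.mul A.2.1 (hprodmem Hol _ fun q => trans_mem_Hol q _),
      fun γ hγ τ => ?_, fun g => ?_⟩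
    · simp only [A'f, A.2.2.1 γ hγ]
      congr 1
      refine Finset.prod_equiv (MulAction.toPerm γ⁻¹) (fun q => ?_) fun q _ => ?_
      · simp only [Finset.mem_erase, Finset.mem_univ, and_true, MulAction.toPerm_apply, ne_eq,
          inv_smul_eq_iff]
        rw [show γ • q₁ = q₁ from by
          rw [hq₁, MulAction.Quotient.smul_coe, smul_eq_mul, mul_one, QuotientGroup.eq]
          simpa using inv_mem hγ]
      · rw [MulAction.toPerm_apply, trans_smul, inv_inv]
    · have h1 : (fun τ => A'f (g • τ)) = (fun τ => (A : ℍ → ℂ) (g • τ)) *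
          fun τ => ∏ q ∈ Finset.univ.erase q₁, trans q B (g • τ) := rfl
      rw [h1]
      refine mul_mem (A.2.2.2 g) ?_
      rw [show (fun τ => ∏ q ∈ Finset.univ.erase q₁, trans q B (g • τ)) =
        ∏ q ∈ Finset.univ.erase q₁, trans (g⁻¹ • q) B from funext fun τ => by
          rw [Finset.prod_apply]
          exact Finset.prod_congr rfl fun q _ => by rw [trans_smul, inv_inv]]
      exact Subalgebra.prod_mem _ fun q _ => trans_mem_PerL _ _
  refine ⟨p, ⟨A'f, hA'⟩, fun h0 => ?_, Subtype.ext (funext fun τ => ?_)⟩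
  · have h1 : (∏ q, ⟨trans q B, trans_mem_Hol q B⟩ : Hol) = 0 := Subtype.ext (funext fun τ => by
      simp only [SubmonoidClass.coe_finsetProd, Finset.prod_apply, ZeroMemClass.coe_zero,
        Pi.zero_apply]
      have := hp τ
      rwa [h0, Polynomial.eval_zero] at this)
    obtain ⟨q, -, hq⟩ := Finset.prod_eq_zero_iff.1 h1
    exact hB (trans_injective q (by rw [map_zero]; exact congrArg Subtype.val hq))
  · simp only [MulMemClass.coe_mul, Pi.mul_apply, aeval_jW_apply, A'f, ← hp]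
    simp only [P]
    rw [← Finset.mul_prod_erase Finset.univ (fun q => trans q B τ) (Finset.mem_univ q₁), hq₁,
      congrFun (trans_one B) τ]
    ring

theorem expW_aeval {K : Type*} [Field K] [Algebra ℚ K] (κ : K →+* ℂ) (P : Polynomial ℂ) :
    expW N Γ (Polynomial.aeval (jW N Γ) P) =
      Polynomial.aeval (iota (N := N) κ (ModularCurve.coeffEmb K ModularCurve.jq)) P :=
  (Polynomial.aeval_algHom_apply (expW N Γ) (jW N Γ) P).symm.trans
    (congrArg (fun z => Polynomial.aeval z P) (expW_jW κ))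

/-- A quotient with coefficients in `K` satisfies a relation over `K[j]` of degree the index. -/
theorem exists_relation_of_W {K : Type*} [Field K] [Algebra ℚ K] (κ : K →+* ℂ)
    {z : LaurentSeries K} {A B : W N Γ} (hB : B ≠ 0)
    (h : iota (N := N) κ z * expW N Γ B = expW N Γ A) :
    ∃ Q : Polynomial (Polynomial K), Q ≠ 0 ∧ Q.natDegree ≤ Nat.card (Cos Γ) ∧
      (Q.map (Polynomial.aeval (ModularCurve.coeffEmb K ModularCurve.jq)).toRingHom).eval z = 0 := by
  classical
  obtain ⟨p, A', hp, hA'⟩ := exists_poly_den A hB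
  set J := iota (N := N) κ (ModularCurve.coeffEmb K ModularCurve.jq)
  have he : ∀ P : Polynomial ℂ, expW N Γ (Polynomial.aeval (jW N Γ) P) = Polynomial.aeval J P :=
    expW_aeval κ
  have hz : expW N Γ A' = iota (N := N) κ z * Polynomial.aeval J p := by
    refine mul_left_cancel₀ (expW_ne_zero hB) ?_
    rw [← map_mul, ← hA', map_mul, ← h, he]; ring
  obtain ⟨r, hr⟩ := exists_monic_relation A'
  let n := Nat.card (Cos Γ)
  -- coefficients of the relation
  let P : ℕ → Polynomial ℂ := fun m => if hm : m < n then r ⟨m, hm⟩ * p ^ m else p ^ n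
  have h1 : ∑ m ∈ Finset.range (n + 1), Polynomial.aeval J (P m) * iota (N := N) κ z ^ m = 0 := by
    have h2 := congrArg (expW N Γ) hr
    simp only [map_add, map_sum, map_mul, map_pow, map_zero, he, hz] at h2
    rw [Finset.sum_range_succ, add_comm, Finset.sum_range, ← h2]
    congr 1
    · simp only [P, dif_neg (lt_irrefl n), map_pow]; ring
    · refine Finset.sum_congr rfl fun m _ => ?_
      simp only [P, dif_pos m.2, map_mul, map_pow, Fin.eta]
      ring
  -- descend
  letI : Algebra K ℂ := κ.toAlgebra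
  obtain ⟨i₀, hi₀⟩ : ∃ i, (P n).coeff i ≠ 0 := by
    by_contra hne
    simp only [not_exists, not_not] at hne
    have : P n = 0 := Polynomial.ext fun i => by rw [hne, Polynomial.coeff_zero]
    simp only [P, dif_neg (lt_irrefl n)] at this
    exact hp (pow_eq_zero_iff'.1 this).1
  obtain ⟨l, hl⟩ := Module.Projective.exists_dual_ne_zero K hi₀
  let Q : ℕ → Polynomial K := fun m => ∑ i ∈ Finset.range ((P m).natDegree + 1),
    Polynomial.C (l ((P m).coeff i)) * Polynomial.X ^ i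
  have hD : ∀ (c : ℂ) (b : LaurentSeries K),
      X0Fn.descend (N := N) l (algebraMap ℂ (LaurentSeries ℂ) c * iota (N := N) κ b) =
        algebraMap K (LaurentSeries K) (l c) * b := fun c b => by
    ext k
    show l ((algebraMap ℂ (LaurentSeries ℂ) c * iota (N := N) κ b).coeff ((N : ℤ) * k)) =
      (algebraMap K (LaurentSeries K) (l c) * b).coeff k
    rw [ModularCurve.algebraMap_laurentSeries_eq_single,
      ModularCurve.algebraMap_laurentSeries_eq_single,
      HahnSeries.coeff_single_mul, HahnSeries.coeff_single_mul, sub_zero, sub_zero, iota,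
      RingHom.comp_apply, ModularCurve.qExpand_coeff_mul,
      ModularCurve.coeffMap_coeff, mul_comm c, show κ (b.coeff k) * c = (b.coeff k) • c from rfl,
      map_smul, smul_eq_mul, mul_comm]
  have h3 : ∑ m ∈ Finset.range (n + 1),
      Polynomial.aeval (ModularCurve.coeffEmb K ModularCurve.jq) (Q m) * z ^ m = 0 := by
    have h4 := congrArg (X0Fn.descend (N := N) l) h1
    simp only [Polynomial.aeval_eq_sum_range, Finset.sum_mul, Algebra.smul_def, mul_assoc,
      ← map_pow, ← map_mul, map_sum, map_zero, hD, J] at h4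
    refine (Finset.sum_congr rfl fun m _ => ?_).trans h4
    simp only [Q, map_sum, map_mul, Polynomial.aeval_C, map_pow, Polynomial.aeval_X,
      Finset.sum_mul, mul_assoc]
  refine ⟨∑ m ∈ Finset.range (n + 1), Polynomial.C (Q m) * Polynomial.X ^ m, fun h0 => ?_, ?_, ?_⟩
  · have h5 := congrArg (fun R => Polynomial.coeff (Polynomial.coeff R n) i₀) h0
    simp only [Polynomial.finsetSum_coeff, Polynomial.coeff_C_mul_X_pow, Finset.sum_ite_eq,
      Finset.mem_range, Nat.lt_succ_self, if_true, Q, Polynomial.coeff_zero] at h5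
    rw [if_pos (Nat.lt_succ_of_le (Polynomial.le_natDegree_of_ne_zero hi₀))] at h5
    exact hl h5
  · refine Polynomial.natDegree_sum_le_of_forall_le _ _ fun m hm => ?_
    exact (Polynomial.natDegree_C_mul_X_pow_le _ _).trans (Nat.lt_succ_iff.1 (Finset.mem_range.1 hm))
  · simp only [Polynomial.map_sum, Polynomial.map_mul, Polynomial.map_C, Polynomial.map_pow,
      Polynomial.map_X, Polynomial.eval_finsetSum, Polynomial.eval_mul, Polynomial.eval_C,
      Polynomial.eval_pow, Polynomial.eval_X, AlgHom.toRingHom_eq_coe, RingHom.coe_coe]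
    exact h3

end Expansion

end FLTAgent.DeligneSerre.Tors
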