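import Fermat.Agent.DeligneSerre.TorsionGroup

/-!
Fields of Laurent series which model the invariant functions of a congruence group: quotients of
invariant functions containing `j`, of degree the index over the rational functions in `j`.
-/

set_option autoImplicit false

noncomputable section

open UpperHalfPlane Complex Function IntermediateField
open scoped MatrixGroups Manifold

set_option synthInstance.maxHeartbeats 400000
set_option maxHeartbeats 1600000

namespace FLTAgent.DeligneSerre.Tors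

open FLTAgent.X0Fn (Hol PerL qh expL expL_injective taylorAt taylorAt_injective iota iota_injective
  iota_algebraMap)
open ModularCurve (coeffEmb coeffMap jq)

variable {K : Type*} [Field K] [Algebra ℚ K] {N : ℕ} [NeZero N] {Γ : Subgroup SL(2, ℤ)}

variable (N Γ) in
/-- Quotients of invariant functions with coefficients in `K`. -/
def ratField (κ : K →+* ℂ) : IntermediateField K (LaurentSeries K) where
  carrier := {z | ∃ A B : W N Γ, B ≠ 0 ∧ iota (N := N) κ z * expW N Γ B = expW N Γ A}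
  mul_mem' := by
    rintro x y ⟨A, B, hB, h⟩ ⟨A', B', hB', h'⟩
    exact ⟨A * A', B * B', W_mul_ne_zero hB hB', by rw [map_mul, map_mul, map_mul, ← h, ← h']; ring⟩
  add_mem' := by
    rintro x y ⟨A, B, hB, h⟩ ⟨A', B', hB', h'⟩
    exact ⟨A * B' + A' * B, B * B', W_mul_ne_zero hB hB', by
      rw [map_add, map_add, map_mul, map_mul, map_mul, ← h, ← h']; ring⟩
  algebraMap_mem' c := ⟨algebraMap ℂ _ (κ c), 1, one_ne_zero_W, by
    rw [map_one, mul_one, AlgHom.commutes, iota_algebraMap]⟩
  inv_mem' := by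
    rintro x ⟨A, B, hB, h⟩
    rcases eq_or_ne x 0 with rfl | hx
    · exact ⟨0, B, hB, by simp⟩
    refine ⟨B, A, fun hA => ?_, ?_⟩
    · rw [hA, map_zero, mul_eq_zero, map_eq_zero_iff _ (iota_injective κ),
        map_eq_zero_iff _ expW_injective] at h
      exact h.elim hx hB
    · rw [← h, ← mul_assoc, ← map_mul, inv_mul_cancel₀ hx, map_one, one_mul]

theorem mem_ratField {κ : K →+* ℂ} {z : LaurentSeries K} : z ∈ ratField N Γ κ ↔
    ∃ A B : W N Γ, B ≠ 0 ∧ iota (N := N) κ z * expW N Γ B = expW N Γ A := Iff.rfl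

theorem jq_mem_ratField (κ : K →+* ℂ) : coeffEmb K jq ∈ ratField N Γ κ :=
  ⟨jW N Γ, 1, one_ne_zero_W, by rw [map_one, mul_one, expW_jW κ]⟩

theorem transcendental_jq (N : ℕ) [NeZero N] (κ : K →+* ℂ) :
    Transcendental K (coeffEmb K jq) := fun halg =>
  X0Fn.transcendental_jF (N := N) κ
    ((isAlgebraic_algHom_iff (X0Fn.XF K N).val Subtype.val_injective).1 halg)

/-! ### Extension of expansions to quotients -/

section Ext

variable {κ : K →+* ℂ} {L : Type*} [Field L] (Ψ : W N Γ →+* L)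

theorem ext_cross {z : LaurentSeries K} {A B A' B' : W N Γ}
    (h : iota (N := N) κ z * expW N Γ B = expW N Γ A)
    (h' : iota (N := N) κ z * expW N Γ B' = expW N Γ A') : A * B' = A' * B :=
  expW_injective (by rw [map_mul, map_mul, ← h, ← h']; ring)

variable (κ) in
/-- The value of the extension. -/
def extFun (z : ratField N Γ κ) : L :=
  Ψ z.2.choose / Ψ z.2.choose_spec.choose

variable {Ψ} in
theorem extFun_mul (hΨ : Injective Ψ) (z : ratField N Γ κ) {A B : W N Γ}
    (h : iota (N := N) κ (z : LaurentSeries K) * expW N Γ B = expW N Γ A) :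
    extFun κ Ψ z * Ψ B = Ψ A := by
  obtain ⟨hB0, h0⟩ := z.2.choose_spec.choose_spec
  have hne : Ψ z.2.choose_spec.choose ≠ 0 := (map_ne_zero_iff _ hΨ).2 hB0
  rw [extFun, div_mul_eq_mul_div, div_eq_iff hne, ← map_mul, ← map_mul, ext_cross h0 h]

variable {Ψ} in
theorem extFun_eq (hΨ : Injective Ψ) (z : ratField N Γ κ) {A B : W N Γ} (hB : B ≠ 0)
    (h : iota (N := N) κ (z : LaurentSeries K) * expW N Γ B = expW N Γ A) :
    extFun κ Ψ z = Ψ A / Ψ B :=
  eq_div_of_mul_eq ((map_ne_zero_iff _ hΨ).2 hB) (extFun_mul hΨ z h)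

variable (κ) {Ψ} in
/-- The extension of an injective homomorphism to quotients. -/
def extHom (hΨ : Injective Ψ) : ratField N Γ κ →+* L where
  toFun := extFun κ Ψ
  map_one' := by
    rw [extFun_eq hΨ 1 (A := 1) (B := 1) one_ne_zero_W (by simp), map_one, div_one]
  map_zero' := by
    rw [extFun_eq hΨ 0 (A := 0) (B := 1) one_ne_zero_W (by simp), map_zero, zero_div]
  map_add' x y := by
    obtain ⟨A, B, hB, h⟩ := x.2
    obtain ⟨A', B', hB', h'⟩ := y.2
    rw [extFun_eq hΨ x hB h, extFun_eq hΨ y hB' h',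
      extFun_eq hΨ (x + y) (A := A * B' + A' * B) (W_mul_ne_zero hB hB') (by
        rw [IntermediateField.coe_add, map_add, map_add, map_mul, map_mul, map_mul, ← h, ← h']
        ring), map_add, map_mul, map_mul, map_mul,
      div_add_div _ _ ((map_ne_zero_iff _ hΨ).2 hB) ((map_ne_zero_iff _ hΨ).2 hB')]
    ring_nf
  map_mul' x y := by
    obtain ⟨A, B, hB, h⟩ := x.2
    obtain ⟨A', B', hB', h'⟩ := y.2
    rw [extFun_eq hΨ x hB h, extFun_eq hΨ y hB' h',
      extFun_eq hΨ (x * y) (A := A * A') (W_mul_ne_zero hB hB') (by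
        rw [IntermediateField.coe_mul, map_mul, map_mul, map_mul, ← h, ← h']
        ring), map_mul, map_mul, div_mul_div_comm]

theorem extHom_mul (hΨ : Injective Ψ) (z : ratField N Γ κ) {A B : W N Γ}
    (h : iota (N := N) κ (z : LaurentSeries K) * expW N Γ B = expW N Γ A) :
    extHom κ hΨ z * Ψ B = Ψ A := extFun_mul hΨ z h

end Ext

/-- Expansion of a translate at a point. -/
def psiPoint (τ₀ : ℍ) (q : Cos Γ) : W N Γ →+* LaurentSeries ℂ :=
  (HahnSeries.ofPowerSeries ℤ ℂ).comp
    ((taylorAt τ₀).comp ((trans q).codRestrict Hol (trans_mem_Hol q))).toRingHom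

/-- Expansion of a translate at infinity. -/
def psiCusp (q : Cos Γ) : W N Γ →+* LaurentSeries ℂ :=
  ((expL (N : ℝ)).comp ((trans q).codRestrict (PerL (N : ℝ)) (trans_mem_PerL q))).toRingHom

theorem psiPoint_apply (τ₀ : ℍ) (q : Cos Γ) (f : W N Γ) :
    psiPoint τ₀ q f =
      HahnSeries.ofPowerSeries ℤ ℂ (taylorAt τ₀ ⟨trans q f, trans_mem_Hol q f⟩) := rfl

theorem psiPoint_injective (τ₀ : ℍ) (q : Cos Γ) : Injective (psiPoint (N := N) τ₀ q) :=
  fun _ _ h => trans_injective q (congrArg Subtype.val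
    (taylorAt_injective τ₀ (HahnSeries.ofPowerSeries_injective h)))

theorem psiCusp_apply (q : Cos Γ) (f : W N Γ) :
    psiCusp q f = expL (N : ℝ) ⟨trans q f, trans_mem_PerL q f⟩ := rfl

theorem psiCusp_injective (q : Cos Γ) : Injective (psiCusp (N := N) q) := fun _ _ h =>
  trans_injective q (congrArg Subtype.val (expL_injective h))

theorem psiPoint_algebraMap (τ₀ : ℍ) (q : Cos Γ) (c : ℂ) :
    psiPoint (N := N) τ₀ q (algebraMap ℂ (W N Γ) c) = HahnSeries.C c := by
  rw [psiPoint, RingHom.comp_apply, AlgHom.toRingHom_eq_coe, RingHom.coe_coe, AlgHom.commutes,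
    PowerSeries.algebraMap_apply, Algebra.algebraMap_self, RingHom.id_apply,
    HahnSeries.ofPowerSeries_C]

theorem psiCusp_algebraMap (q : Cos Γ) (c : ℂ) :
    psiCusp (N := N) q (algebraMap ℂ (W N Γ) c) = HahnSeries.C c := by
  rw [psiCusp, AlgHom.toRingHom_eq_coe, RingHom.coe_coe, AlgHom.commutes,
    ModularCurve.algebraMap_laurentSeries_eq_single]
  rfl

theorem psiCusp_jW (q : Cos Γ) :
    psiCusp q (jW N Γ) = iota (N := N) (RingHom.id ℂ) (coeffEmb ℂ jq) := by
  rw [← expW_jW (N := N) (Γ := Γ) (RingHom.id ℂ), expW_apply, psiCusp_apply]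
  congr 1
  exact Subtype.ext (trans_jW q)

theorem trans_aeval_jW (q : Cos Γ) (p : Polynomial ℂ) :
    trans q (Polynomial.aeval (jW N Γ) p) = fun τ => p.eval (ES.jfun τ) :=
  funext fun τ => by
    show ((Polynomial.aeval (jW N Γ) p : W N Γ) : ℍ → ℂ) (q.out⁻¹ • τ) = _
    rw [aeval_jW_apply, FLTAgent.ES.jfun_smul]

theorem aeval_jW_ne_zero {p : Polynomial ℂ} (hp : p ≠ 0) :
    Polynomial.aeval (jW N Γ) p ≠ 0 := by
  intro h0
  obtain ⟨c, hc⟩ : ∃ c, p.eval c ≠ 0 := by
    by_contra hne
    simp only [not_exists, not_not] at hne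
    exact hp (Polynomial.zero_of_eval_zero p hne)
  obtain ⟨τ, hτ⟩ := X0Fn.exists_jfun_eq c
  apply hc
  rw [← hτ, ← aeval_jW_apply (N := N) (Γ := Γ), h0]
  rfl

/-! ### Models -/

variable (N Γ) in
/-- The hypotheses on a field of Laurent series to model the group. -/
structure IsModel (κ : K →+* ℂ) (F : IntermediateField K (LaurentSeries K)) : Prop where
  le_rat : F ≤ ratField N Γ κ
  jq_mem : coeffEmb K jq ∈ F
  degree : Module.finrank K⟮(⟨coeffEmb K jq, jq_mem⟩ : F)⟯ F = Nat.card (Cos Γ)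

variable {κ : K →+* ℂ} {F : IntermediateField K (LaurentSeries K)}

/-- `j` in a model. -/
abbrev IsModel.j (h : IsModel N Γ κ F) : F := ⟨coeffEmb K jq, h.jq_mem⟩

theorem IsModel.transcendental_j (h : IsModel N Γ κ F) : Transcendental K h.j := fun ha =>
  transcendental_jq N κ ((isAlgebraic_algHom_iff F.val Subtype.val_injective).2 ha)

variable [Γ.FiniteIndex]

theorem IsModel.isFunctionField (h : IsModel N Γ κ F) : Curves.IsFunctionField K F :=
  Curves.IsFunctionField.mk_of h.j h.transcendental_j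
    (Module.finite_of_finrank_pos (h.degree ▸ Nat.card_pos))

/-- The degree bound from a relation over `K[j]`. -/
theorem natDegree_minpoly_le (κ : K →+* ℂ) (hjF : coeffEmb K jq ∈ F) {θ : F} {A B : W N Γ}
    (hB : B ≠ 0) (hAB : iota (N := N) κ (θ : LaurentSeries K) * expW N Γ B = expW N Γ A) :
    IsIntegral K⟮(⟨coeffEmb K jq, hjF⟩ : F)⟯ θ ∧
      (minpoly K⟮(⟨coeffEmb K jq, hjF⟩ : F)⟯ θ).natDegree ≤ Nat.card (Cos Γ) := by
  obtain ⟨Q, hQ, hQd, hQ0⟩ := exists_relation_of_W κ hB hAB
  set jF : F := ⟨coeffEmb K jq, hjF⟩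
  set E := K⟮jF⟯
  let φ : Polynomial K →+* E := (Polynomial.aeval (AdjoinSimple.gen K jF)).toRingHom
  have hj : Transcendental K jF := fun ha =>
    transcendental_jq N κ ((isAlgebraic_algHom_iff F.val Subtype.val_injective).2 ha)
  have hφ : Injective φ := by
    have : Transcendental K (AdjoinSimple.gen K jF) := fun ha =>
      hj ((isAlgebraic_algHom_iff E.val Subtype.val_injective).2 ha)
    exact transcendental_iff_injective.1 this
  have hmap0 : Q.map φ ≠ 0 := (Polynomial.map_ne_zero_iff hφ).2 hQ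
  have hroot : Polynomial.aeval θ (Q.map φ) = 0 := by
    apply Subtype.val_injective
    show F.val.toRingHom _ = F.val.toRingHom 0
    rw [map_zero, Polynomial.aeval_def, Polynomial.eval₂_map, Polynomial.hom_eval₂,
      show F.val.toRingHom.comp ((algebraMap E F).comp φ) =
        (Polynomial.aeval (coeffEmb K jq)).toRingHom from
        Polynomial.ringHom_ext (fun a => by simp [φ]) (by simp [φ, jF]),
      ← Polynomial.eval_map]
    exact hQ0
  exact ⟨IsAlgebraic.isIntegral ⟨_, hmap0, hroot⟩,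
    ((Polynomial.natDegree_le_of_dvd (minpoly.dvd E θ hroot) hmap0).trans
      Polynomial.natDegree_map_le).trans hQd⟩

/-- An element of the model whose translates separate the cosets. -/
theorem IsModel.exists_separating (h : IsModel N Γ κ F) :
    ∃ (θ : F) (p : Polynomial ℂ) (A : W N Γ), p ≠ 0 ∧
      iota (N := N) κ (θ : LaurentSeries K) * expW N Γ (Polynomial.aeval (jW N Γ) p) =
        expW N Γ A ∧
      ∀ g : SL(2, ℤ), (∀ τ, (A : ℍ → ℂ) (g • τ) = (A : ℍ → ℂ) τ) → g ∈ Γ := by
  haveI : CharZero K := charZero_of_injective_algebraMap (algebraMap ℚ K).injective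
  haveI := h.isFunctionField
  haveI : FiniteDimensional K⟮h.j⟯ F := Curves.finiteDimensional_adjoin h.transcendental_j
  haveI : CharZero K⟮h.j⟯ := charZero_of_injective_algebraMap (algebraMap K K⟮h.j⟯).injective
  obtain ⟨θ, hθ⟩ := Field.exists_primitive_element K⟮h.j⟯ F
  obtain ⟨A₀, B₀, hB₀, h₀⟩ := h.le_rat θ.2
  obtain ⟨p, A, hp, hA⟩ := exists_poly_den A₀ hB₀
  have hrep : iota (N := N) κ (θ : LaurentSeries K) * expW N Γ (Polynomial.aeval (jW N Γ) p) =
      expW N Γ A := by
    refine mul_right_cancel₀ (expW_ne_zero hB₀) ?_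
    rw [mul_right_comm, h₀, ← map_mul, ← map_mul, hA, mul_comm]
  refine ⟨θ, p, A, hp, hrep, fun g hg => ?_⟩
  let Δ : Subgroup SL(2, ℤ) :=
    { carrier := {g | ∀ τ, (A : ℍ → ℂ) (g • τ) = (A : ℍ → ℂ) τ}
      mul_mem' := fun {a b} ha hb τ => by rw [mul_smul, ha, hb]
      one_mem' := fun τ => by rw [one_smul]
      inv_mem' := fun {a} ha τ => by
        have := ha (a⁻¹ • τ)
        rw [smul_inv_smul] at this
        exact this.symm }
  have hle : Γ ≤ Δ := fun γ hγ τ => A.2.2.1 γ hγ τ
  haveI : Δ.FiniteIndex := Subgroup.finiteIndex_of_le hle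
  let A' : W N Δ := ⟨A, A.2.1, fun γ hγ τ => hγ τ, A.2.2.2⟩
  let P' : W N Δ := Polynomial.aeval (jW N Δ) p
  have hP : (P' : ℍ → ℂ) = ((Polynomial.aeval (jW N Γ) p : W N Γ) : ℍ → ℂ) :=
    funext fun τ => by rw [aeval_jW_apply, aeval_jW_apply]
  have hP0 : P' ≠ 0 := aeval_jW_ne_zero hp
  have e : ∀ (f : W N Δ) (f' : W N Γ), (f : ℍ → ℂ) = f' → expW N Δ f = expW N Γ f' :=
    fun f f' hf => by
      rw [expW_apply, expW_apply]
      exact congrArg _ (Subtype.ext hf)
  have hrep' : iota (N := N) κ (θ : LaurentSeries K) * expW N Δ P' = expW N Δ A' := by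
    rw [e P' _ hP, e A' A rfl, hrep]
  have h1 := (natDegree_minpoly_le κ h.jq_mem hP0 hrep').2
  have h2 : (minpoly K⟮h.j⟯ θ).natDegree = Nat.card (Cos Γ) := by
    rw [← IntermediateField.adjoin.finrank (Algebra.IsIntegral.isIntegral θ), hθ, ← h.degree,
      IntermediateField.finrank_top']
  rw [h2] at h1
  have h3 := Subgroup.relIndex_mul_index hle
  rw [Subgroup.index, Subgroup.index] at h3
  change _ * Nat.card (Cos Δ) = Nat.card (Cos Γ) at h3
  have h4 : Γ.relIndex Δ = 1 := by
    have hΔ : 0 < Nat.card (Cos Δ) := Nat.card_pos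
    have hΓ : 0 < Nat.card (Cos Γ) := Nat.card_pos
    rcases Nat.lt_or_ge (Γ.relIndex Δ) 2 with h5 | h5
    · rcases Nat.eq_zero_or_pos (Γ.relIndex Δ) with h6 | h6
      · rw [h6, zero_mul] at h3; omega
      · omega
    · have := Nat.mul_le_mul_right (Nat.card (Cos Δ)) h5
      omega
  exact Subgroup.relIndex_eq_one.1 h4 hg

/-- A family of expansions of translates extended to a model is injective. -/
theorem IsModel.emb_injective (h : IsModel N Γ κ F) (Ψ : Cos Γ → W N Γ →+* LaurentSeries ℂ)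
    (hΨ : ∀ q, Injective (Ψ q))
    (hsep : ∀ q q' f f', Ψ q f = Ψ q' f' ↔ trans q f = trans q' f') :
    Injective fun q => (extHom κ (hΨ q)).comp (IntermediateField.inclusion h.le_rat).toRingHom := by
  intro q q' hq
  obtain ⟨θ, p, A, hp, hrep, hstab⟩ := h.exists_separating
  let P : W N Γ := Polynomial.aeval (jW N Γ) p
  let θ' : ratField N Γ κ := IntermediateField.inclusion h.le_rat θ
  have h1 : extHom κ (hΨ q) θ' = extHom κ (hΨ q') θ' := RingHom.congr_fun hq θ
  have e1 := extHom_mul (Ψ q) (hΨ q) θ' (A := A) (B := P) hrep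
  have e2 := extHom_mul (Ψ q') (hΨ q') θ' (A := A) (B := P) hrep
  have hP : trans q P = trans q' P := by rw [trans_aeval_jW, trans_aeval_jW]
  obtain ⟨g, rfl⟩ := QuotientGroup.mk_surjective q
  obtain ⟨g', rfl⟩ := QuotientGroup.mk_surjective q'
  -- the translates of the numerator agree
  have key : trans (g : Cos Γ) A = trans (g' : Cos Γ) A := by
    refine (hsep _ _ _ _).1 ?_
    rw [← e1, ← e2, h1, (hsep _ _ _ _).2 hP]
  rw [QuotientGroup.eq]
  refine hstab _ fun τ => ?_
  have := congrFun key (g' • τ)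
  rw [trans_mk, trans_mk, inv_smul_smul, ← mul_smul] at this
  exact this

theorem psiPoint_sep (τ₀ : ℍ) (q q' : Cos Γ) (f f' : W N Γ) :
    psiPoint τ₀ q f = psiPoint τ₀ q' f' ↔ trans q f = trans q' f' := by
  rw [psiPoint_apply, psiPoint_apply, HahnSeries.ofPowerSeries_injective.eq_iff,
    (taylorAt_injective τ₀).eq_iff, Subtype.ext_iff]

theorem psiCusp_sep (q q' : Cos Γ) (f f' : W N Γ) :
    psiCusp q f = psiCusp q' f' ↔ trans q f = trans q' f' := by
  rw [psiCusp_apply, psiCusp_apply, expL_injective.eq_iff, Subtype.ext_iff]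

/-- The embedding of a model at a point. -/
def IsModel.pointEmb (h : IsModel N Γ κ F) (τ₀ : ℍ) (q : Cos Γ) : F →+* LaurentSeries ℂ :=
  (extHom κ (psiPoint_injective τ₀ q)).comp (IntermediateField.inclusion h.le_rat).toRingHom

/-- The embedding of a model at infinity. -/
def IsModel.cuspEmb (h : IsModel N Γ κ F) (q : Cos Γ) : F →+* LaurentSeries ℂ :=
  (extHom κ (psiCusp_injective q)).comp (IntermediateField.inclusion h.le_rat).toRingHom

theorem IsModel.pointEmb_injective (h : IsModel N Γ κ F) (τ₀ : ℍ) :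
    Injective (h.pointEmb τ₀) :=
  h.emb_injective _ (psiPoint_injective τ₀) (psiPoint_sep τ₀)

theorem IsModel.cuspEmb_injective (h : IsModel N Γ κ F) : Injective h.cuspEmb :=
  h.emb_injective _ psiCusp_injective psiCusp_sep

theorem IsModel.pointEmb_mul (h : IsModel N Γ κ F) (τ₀ : ℍ) (q : Cos Γ) {x : F} {A B : W N Γ}
    (hx : iota (N := N) κ (x : LaurentSeries K) * expW N Γ B = expW N Γ A) :
    h.pointEmb τ₀ q x * psiPoint τ₀ q B = psiPoint τ₀ q A :=
  extHom_mul (psiPoint τ₀ q) (psiPoint_injective τ₀ q) _ hx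

theorem IsModel.cuspEmb_mul (h : IsModel N Γ κ F) (q : Cos Γ) {x : F} {A B : W N Γ}
    (hx : iota (N := N) κ (x : LaurentSeries K) * expW N Γ B = expW N Γ A) :
    h.cuspEmb q x * psiCusp q B = psiCusp q A :=
  extHom_mul (psiCusp q) (psiCusp_injective q) _ hx

theorem IsModel.pointEmb_algebraMap (h : IsModel N Γ κ F) (τ₀ : ℍ) (q : Cos Γ) (c : K) :
    h.pointEmb τ₀ q (algebraMap K F c) = HahnSeries.C (κ c) := by
  have e := h.pointEmb_mul τ₀ q (x := algebraMap K F c) (A := algebraMap ℂ _ (κ c)) (B := 1)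
    (by rw [map_one, mul_one, AlgHom.commutes]; exact iota_algebraMap κ c)
  rwa [map_one, mul_one, psiPoint_algebraMap] at e

theorem IsModel.cuspEmb_algebraMap (h : IsModel N Γ κ F) (q : Cos Γ) (c : K) :
    h.cuspEmb q (algebraMap K F c) = HahnSeries.C (κ c) := by
  have e := h.cuspEmb_mul q (x := algebraMap K F c) (A := algebraMap ℂ _ (κ c)) (B := 1)
    (by rw [map_one, mul_one, AlgHom.commutes]; exact iota_algebraMap κ c)
  rwa [map_one, mul_one, psiCusp_algebraMap] at e

theorem IsModel.cuspEmb_j (h : IsModel N Γ κ F) (q : Cos Γ) :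
    h.cuspEmb q h.j = iota (N := N) κ (coeffEmb K jq) := by
  have e := h.cuspEmb_mul q (x := h.j) (A := jW N Γ) (B := 1)
    (by rw [map_one, mul_one, expW_jW κ])
  rw [map_one, mul_one] at e
  rw [e, psiCusp_jW, ← expW_jW (N := N) (Γ := Γ) (RingHom.id ℂ), ← expW_jW κ]

/-- A quotient of invariant functions with coefficients in `K` lies in the model. -/
theorem IsModel.mem_of_mem_ratField (h : IsModel N Γ κ F) {z : LaurentSeries K}
    (hz : z ∈ ratField N Γ κ) : z ∈ F := by
  haveI : CharZero K := charZero_of_injective_algebraMap (algebraMap ℚ K).injective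
  set J : LaurentSeries K := coeffEmb K jq
  let E : IntermediateField K (LaurentSeries K) := K⟮J⟯
  have hEF : E ≤ F := IntermediateField.adjoin_simple_le_iff.2 h.jq_mem
  let F' : IntermediateField E (LaurentSeries K) := IntermediateField.extendScalars hEF
  have hmap : (K⟮h.j⟯).map F.val = E := by
    rw [IntermediateField.adjoin_map, Set.image_singleton]; rfl
  have hi1 : ∀ x : F, x ∈ K⟮h.j⟯ → (x : LaurentSeries K) ∈ E := fun x hx => by
    rw [← hmap]; exact ⟨x, hx, rfl⟩
  have hi2 : ∀ (x : F), (x : LaurentSeries K) ∈ E → x ∈ K⟮h.j⟯ := fun x hx => by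
    rw [← hmap] at hx
    obtain ⟨y, hy, e⟩ := hx
    exact (Subtype.ext e : y = x) ▸ hy
  let i : K⟮h.j⟯ ≃+* E :=
    { toFun := fun x => ⟨x.1.1, hi1 x.1 x.2⟩
      invFun := fun y => ⟨⟨y.1, hEF y.2⟩, hi2 _ y.2⟩
      map_mul' := fun _ _ => rfl, map_add' := fun _ _ => rfl }
  let j : F ≃+* F' :=
    { toFun := fun x => ⟨x.1, x.2⟩, invFun := fun x => ⟨x.1, x.2⟩
      map_mul' := fun _ _ => rfl, map_add' := fun _ _ => rfl }
  have hdeg : Module.finrank E F' = Nat.card (Cos Γ) := by
    rw [← h.degree]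
    refine (Algebra.finrank_eq_of_equiv_equiv i j ?_).symm
    ext x
    rfl
  have hbound : ∀ θ : LaurentSeries K, θ ∈ ratField N Γ κ →
      IsIntegral E θ ∧ (minpoly E θ).natDegree ≤ Nat.card (Cos Γ) := by
    intro θ hθ
    obtain ⟨A', B', hB', h'⟩ := hθ
    obtain ⟨Q, hQ, hQd, hQ0⟩ := exists_relation_of_W κ hB' h'
    let φ : Polynomial K →+* E := (Polynomial.aeval (AdjoinSimple.gen K J)).toRingHom
    have hφ : Injective φ := by
      have : Transcendental K (AdjoinSimple.gen K J) := fun ha =>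
        transcendental_jq N κ ((isAlgebraic_algHom_iff E.val Subtype.val_injective).2 ha)
      exact transcendental_iff_injective.1 this
    have hmap0 : Q.map φ ≠ 0 := (Polynomial.map_ne_zero_iff hφ).2 hQ
    have hroot : Polynomial.aeval θ (Q.map φ) = 0 := by
      rw [Polynomial.aeval_def, Polynomial.eval₂_map, ← Polynomial.eval_map]
      rw [show (algebraMap E (LaurentSeries K)).comp φ = (Polynomial.aeval J).toRingHom from
        Polynomial.ringHom_ext (fun a => by simp [φ]) (by simp [φ])]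
      exact hQ0
    exact ⟨IsAlgebraic.isIntegral ⟨_, hmap0, hroot⟩,
      ((Polynomial.natDegree_le_of_dvd (minpoly.dvd E θ hroot) hmap0).trans
        Polynomial.natDegree_map_le).trans hQd⟩
  haveI : CharZero E := charZero_of_injective_algebraMap (algebraMap K E).injective
  exact TorsionHom.mem_of_bounded_degree F'
    (IntermediateField.extendScalars (hEF.trans h.le_rat))
    Nat.card_pos hdeg (fun x hx => h.le_rat hx) hbound hz

end FLTAgent.DeligneSerre.Tors
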