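import Fermat.Agent.DeligneSerre.TorsionModel
import Fermat.Agent.DeligneSerre.TorsionChar

/-!
Orders of the expansions in a model; functions with divisor divisible by `n` are those whose
roots have characters killing parabolic and elliptic elements.
-/

set_option autoImplicit false

noncomputable section

open UpperHalfPlane CongruenceSubgroup Complex Function Filter
open scoped MatrixGroups Manifold Topology

set_option synthInstance.maxHeartbeats 400000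
set_option maxHeartbeats 1600000

namespace FLTAgent.DeligneSerre.Tors

open FLTAgent.X0Fn (Hol PerL qh expL expL_injective taylorAt iota iota_injective comp_smul_mdiff
  order_eq_of_support_eq coeff_expL_shift coeff_order_ne taylor_comp_smul order_ofPowerSeries
  order_ofPowerSeries_congr denom_pow_fixed denom_mul_fixed)
open FLTAgent.TorsionHom (exists_root exists_fixed_point mult_one_of_fix mult_eq_of_fixed
  exists_ord_dvd taylor_order_eq hol_order order_root shift_dvd_order mult_eq_one_of_shift upper_smul)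
open FLTAgent.Curves (lord_mul lord_pow lord_inv IsFunctionField exists_residue ordGE_of_le)
open FLTAgent.PeriodHecke (Hpar mat)
open AlgebraicCurve

variable {N : ℕ} [NeZero N] {Γ : Subgroup SL(2, ℤ)} [Γ.FiniteIndex]
variable {K : Type*} [Field K] [Algebra ℚ K] {κ : K →+* ℂ}
  {F : IntermediateField K (LaurentSeries K)}

local notation "Cx" => Additive ℂˣ

theorem emb_order {Ψ : W N Γ →+* LaurentSeries ℂ} (hΨ : Injective Ψ) {φ : F →+* LaurentSeries ℂ}
    {x : F} (hx : x ≠ 0) {A B : W N Γ} (hB : B ≠ 0) (h : φ x * Ψ B = Ψ A) :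
    (φ x).order = (Ψ A).order - (Ψ B).order := by
  rw [← h, lord_mul ((map_ne_zero φ).2 hx) ((map_ne_zero_iff _ hΨ).2 hB)]
  ring

/-- Divisibility of the orders passes to quotients. -/
theorem IsModel.dvd_order_of_psi (h : IsModel N Γ κ F) {Ψ : W N Γ →+* LaurentSeries ℂ}
    (hΨ : Injective Ψ) {φ : F →+* LaurentSeries ℂ}
    (hφ : ∀ (x : F) (A B : W N Γ),
      iota (N := N) κ (x : LaurentSeries K) * expW N Γ B = expW N Γ A → φ x * Ψ B = Ψ A)
    {m d : ℤ} (hd : ∀ f, m ∣ d * (Ψ f).order) (x : F) : m ∣ d * (φ x).order := by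
  rcases eq_or_ne x 0 with rfl | hx
  · simp
  obtain ⟨A, B, hB, hAB⟩ := h.le_rat x.2
  rw [emb_order hΨ hx hB (hφ x A B hAB), mul_sub]
  exact dvd_sub (hd A) (hd B)

/-- Equality of orders passes to quotients. -/
theorem IsModel.order_eq_of_psi (h : IsModel N Γ κ F) {Ψ Ψ' : W N Γ →+* LaurentSeries ℂ}
    (hΨ : Injective Ψ) (hΨ' : Injective Ψ') {φ φ' : F →+* LaurentSeries ℂ}
    (hφ : ∀ (x : F) (A B : W N Γ),
      iota (N := N) κ (x : LaurentSeries K) * expW N Γ B = expW N Γ A → φ x * Ψ B = Ψ A)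
    (hφ' : ∀ (x : F) (A B : W N Γ),
      iota (N := N) κ (x : LaurentSeries K) * expW N Γ B = expW N Γ A → φ' x * Ψ' B = Ψ' A)
    (hd : ∀ f, (Ψ' f).order = (Ψ f).order) (x : F) : (φ' x).order = (φ x).order := by
  rcases eq_or_ne x 0 with rfl | hx
  · simp
  obtain ⟨A, B, hB, hAB⟩ := h.le_rat x.2
  rw [emb_order hΨ hx hB (hφ x A B hAB), emb_order hΨ' hx hB (hφ' x A B hAB), hd, hd]

theorem IsModel.cusp_order_smul_T (h : IsModel N Γ κ F) (q : Cos Γ) (x : F) :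
    (h.cuspEmb (ModularGroup.T • q) x).order = (h.cuspEmb q x).order := by
  refine h.order_eq_of_psi (psiCusp_injective q) (psiCusp_injective _)
    (fun x A B e => h.cuspEmb_mul q e) (fun x A B e => h.cuspEmb_mul _ e) (fun f => ?_) x
  rw [psiCusp_apply, psiCusp_apply]
  apply order_eq_of_support_eq
  ext n
  rw [HahnSeries.mem_support, HahnSeries.mem_support,
    coeff_expL_shift ⟨trans q f, trans_mem_PerL q _⟩
      ⟨trans (ModularGroup.T • q) f, trans_mem_PerL _ _⟩ (-1) (fun τ => by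
      show trans (ModularGroup.T • q) f τ = trans q f _
      rw [trans_smul, zpow_neg_one]) n]
  simp [Complex.exp_ne_zero, zpow_ne_zero]

theorem psiCusp_dvd_order {q : Cos Γ} {d : ℕ} (hq : ModularGroup.T ^ d • q = q) (f : W N Γ) :
    (N : ℤ) ∣ (d : ℤ) * (psiCusp q f).order := by
  rw [psiCusp_apply]
  refine shift_dvd_order _ fun τ => ?_
  show trans q f _ = trans q f τ
  conv_rhs => rw [← inv_smul_smul (ModularGroup.T ^ d) τ, ← trans_smul, hq]
  rw [zpow_natCast]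

theorem IsModel.cusp_dvd_order (h : IsModel N Γ κ F) {q : Cos Γ} {d : ℕ}
    (hq : ModularGroup.T ^ d • q = q) (x : F) : (N : ℤ) ∣ (d : ℤ) * (h.cuspEmb q x).order :=
  h.dvd_order_of_psi (psiCusp_injective q) (fun x A B e => h.cuspEmb_mul q e)
    (psiCusp_dvd_order hq) x

theorem IsModel.point_order_smul (h : IsModel N Γ κ F) {τ₀ : ℍ} {g : SL(2, ℤ)}
    (hg : g • τ₀ = τ₀) (q : Cos Γ) (x : F) :
    (h.pointEmb τ₀ (g • q) x).order = (h.pointEmb τ₀ q x).order := by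
  refine h.order_eq_of_psi (psiPoint_injective τ₀ q) (psiPoint_injective τ₀ _)
    (fun x A B e => h.pointEmb_mul τ₀ q e) (fun x A B e => h.pointEmb_mul τ₀ _ e) (fun f => ?_) x
  rw [psiPoint_apply, psiPoint_apply]
  have hg' : g⁻¹ • τ₀ = τ₀ := by rw [inv_smul_eq_iff, hg]
  exact order_ofPowerSeries_congr (taylor_comp_smul hg'
    (f := ⟨trans q f, trans_mem_Hol q _⟩)
    (fg := ⟨trans (g • q) f, trans_mem_Hol _ _⟩) (fun τ => trans_smul _ _ _ _)).1

theorem IsModel.point_dvd_order (h : IsModel N Γ κ F) {τ₀ : ℍ} {g : SL(2, ℤ)}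
    (hg : g • τ₀ = τ₀) {m : ℕ}
    (hμ : IsPrimitiveRoot (denom g (τ₀ : ℂ) ^ (-2 : ℤ)) m) {q : Cos Γ} {d : ℕ}
    (hq : g ^ d • q = q) (x : F) :
    (m : ℤ) ∣ (d : ℤ) * (h.pointEmb τ₀ q x).order := by
  refine h.dvd_order_of_psi (psiPoint_injective τ₀ q) (fun x A B e => h.pointEmb_mul τ₀ q e)
    (fun f => ?_) x
  rw [psiPoint_apply]
  set Ff : Hol := ⟨trans q f, trans_mem_Hol q _⟩ with hF
  rcases eq_or_ne (taylorAt τ₀ Ff) 0 with h0 | h0
  · rw [h0, map_zero, HahnSeries.order_zero, mul_zero]; exact dvd_zero _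
  obtain ⟨k, hk⟩ := ENat.ne_top_iff_exists.1 fun h => h0 (PowerSeries.order_eq_top.1 h)
  rw [order_ofPowerSeries hk.symm]
  have hg' : g⁻¹ • τ₀ = τ₀ := by rw [inv_smul_eq_iff, hg]
  obtain ⟨hfix, hden⟩ := denom_pow_fixed g⁻¹ hg' d
  have h1 := (taylor_comp_smul hfix (f := Ff) (fg := Ff) (fun τ => by
    show trans q f τ = trans q f _
    conv_lhs => rw [← hq, trans_smul, ← inv_pow])).2 k hk.symm rfl
  have hinv : denom (g⁻¹ : SL(2, ℤ)) (τ₀ : ℂ) = (denom g (τ₀ : ℂ))⁻¹ := by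
    refine eq_inv_of_mul_eq_one_left ?_
    rw [← denom_mul_fixed g⁻¹ g hg, inv_mul_cancel]
    simp [ModularGroup.denom_apply]
  rw [hden, hinv, inv_pow, inv_zpow, inv_pow, inv_eq_one, ← zpow_natCast _ d, ← zpow_mul, mul_comm,
    zpow_mul, zpow_natCast, ← pow_mul, hμ.pow_eq_one_iff_dvd] at h1
  exact_mod_cast h1

theorem psiPoint_one (τ₀ : ℍ) (f : W N Γ) :
    psiPoint τ₀ ((1 : SL(2, ℤ)) : Cos Γ) f =
      HahnSeries.ofPowerSeries ℤ ℂ (taylorAt τ₀ (toHol f)) := by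
  rw [psiPoint_apply]
  congr 2
  exact Subtype.ext (trans_one f)

theorem W_ne_zero_left {A B : W N Γ} (hB : B ≠ 0) {x : LaurentSeries K} (hx : x ≠ 0)
    (h : iota (N := N) κ x * expW N Γ B = expW N Γ A) : A ≠ 0 := fun h0 => by
  rw [h0, map_zero, mul_eq_zero] at h
  exact h.elim (fun e => hx (iota_injective κ (e.trans (map_zero _).symm)))
    fun e => hB (expW_injective (e.trans (map_zero _).symm))

theorem smul_one_coset (γ : Γ) :
    (γ : SL(2, ℤ)) • ((1 : SL(2, ℤ)) : Cos Γ) = ((1 : SL(2, ℤ)) : Cos Γ) := by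
  rw [MulAction.Quotient.smul_coe, smul_eq_mul, mul_one, QuotientGroup.eq]
  simpa using inv_mem γ.2

variable [IsAlgClosed K]

/-- A quotient with divisor divisible by `n` has a holomorphic root. -/
theorem IsModel.exists_root_rep (h : IsModel N Γ κ F) {x : F} (hx : x ≠ 0) {n : ℕ} (hn : n ≠ 0)
    (hdiv : ∀ v : Place K F, (n : ℤ) ∣ v.ord x) {A B : W N Γ} (hB : B ≠ 0)
    (hAB : iota (N := N) κ (x : LaurentSeries K) * expW N Γ B = expW N Γ A) :
    ∃ R : Hol, R ^ n = toHol (A * B ^ (n - 1)) := by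
  haveI := h.isFunctionField
  have hx' : (x : LaurentSeries K) ≠ 0 := fun e => hx (Subtype.ext e)
  have hA := W_ne_zero_left hB hx' hAB
  set G := A * B ^ (n - 1)
  have hG : toHol G ≠ 0 :=
    (map_ne_zero_iff _ toHol_injective).2 (W_mul_ne_zero hA (W_pow_ne_zero hB _))
  obtain ⟨R, hR⟩ := exists_root hn hG fun τ => by
    set q₁ : Cos Γ := ((1 : SL(2, ℤ)) : Cos Γ)
    obtain ⟨l, hl, -⟩ := exists_ord_dvd (h.pointEmb τ q₁)
      (fun a => h.pointEmb_algebraMap τ q₁ a) (n := (n : ℤ)) hdiv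
    have h1 := h.pointEmb_mul τ q₁ hAB
    have hx1 : h.pointEmb τ q₁ x ≠ 0 := (map_ne_zero _).2 hx
    have hB1 : psiPoint τ q₁ B ≠ 0 := (map_ne_zero_iff _ (psiPoint_injective τ q₁)).2 hB
    have h2 : (psiPoint τ q₁ G).order = n * (l + (psiPoint τ q₁ B).order) := by
      obtain ⟨m, rfl⟩ := Nat.exists_eq_succ_of_ne_zero hn
      rw [map_mul, map_pow, ← h1, mul_assoc, ← pow_succ', lord_mul hx1 (pow_ne_zero _ hB1), lord_pow,
        hl, Nat.succ_eq_add_one, Nat.add_sub_cancel]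
      push_cast; ring
    rw [psiPoint_one, hol_order τ hG] at h2
    exact Int.natCast_dvd_natCast.1 ⟨_, h2⟩
  exact ⟨R, hR⟩

/-- A function with divisor divisible by `n` has a holomorphic root. -/
theorem IsModel.exists_isRoot (h : IsModel N Γ κ F) {x : F} (hx : x ≠ 0) {n : ℕ} (hn : n ≠ 0)
    (hdiv : ∀ v : Place K F, (n : ℤ) ∣ v.ord x) :
    ∃ R : Hol, IsRoot (N := N) (Γ := Γ) κ n (x : LaurentSeries K) R := by
  obtain ⟨A, B, hB, hAB⟩ := h.le_rat x.2
  obtain ⟨R, hR⟩ := h.exists_root_rep hx hn hdiv hB hAB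
  exact ⟨R, A, B, hB, hAB, hR⟩

omit [IsAlgClosed K] in
theorem root_pow_point {A B : W N Γ} {R : Hol} {n : ℕ} (hP : R ^ n = toHol (A * B ^ (n - 1)))
    (τ : ℍ) :
    HahnSeries.ofPowerSeries ℤ ℂ (taylorAt τ R) ^ n =
      psiPoint τ ((1 : SL(2, ℤ)) : Cos Γ) A * psiPoint τ ((1 : SL(2, ℤ)) : Cos Γ) B ^ (n - 1) := by
  rw [psiPoint_one, psiPoint_one, ← map_pow, ← map_pow, hP, map_mul, map_pow, map_mul, map_pow,
    map_mul, map_pow]

omit [IsAlgClosed K] in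
theorem IsModel.root_order_one (h : IsModel N Γ κ F) {x : F} (hx : x ≠ 0) {n : ℕ} (hn : n ≠ 0) {A B : W N Γ} (hB : B ≠ 0)
    (hAB : iota (N := N) κ (x : LaurentSeries K) * expW N Γ B = expW N Γ A) {R : Hol} (hR : R ≠ 0)
    (hP : R ^ n = toHol (A * B ^ (n - 1))) (τ : ℍ) {l : ℤ}
    (hl : (h.pointEmb τ ((1 : SL(2, ℤ)) : Cos Γ) x).order = (n : ℤ) * l) :
    (analyticOrderNatAt ((R : ℍ → ℂ) ∘ ofComplex) τ : ℤ) =
      l + (analyticOrderNatAt ((toHol B : ℍ → ℂ) ∘ ofComplex) τ : ℕ) := by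
  have h1 := h.pointEmb_mul τ ((1 : SL(2, ℤ)) : Cos Γ) hAB
  have hx1 : h.pointEmb τ ((1 : SL(2, ℤ)) : Cos Γ) x ≠ 0 := (map_ne_zero _).2 hx
  have hB1 : psiPoint τ ((1 : SL(2, ℤ)) : Cos Γ) B ≠ 0 :=
    (map_ne_zero_iff _ (psiPoint_injective τ _)).2 hB
  have h2 := order_root hn hx1 hB1 h1 (root_pow_point hP τ)
  rw [hl, psiPoint_one, hol_order τ hR,
    hol_order τ ((map_ne_zero_iff _ toHol_injective).2 hB)] at h2
  have h3 := mul_left_cancel₀ (Int.natCast_ne_zero.2 hn) h2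
  omega

theorem IsModel.mult_elliptic (h : IsModel N Γ κ F) {x : F} (hx : x ≠ 0) {n : ℕ} (hn : n ≠ 0)
    (hdiv : ∀ v : Place K F, (n : ℤ) ∣ v.ord x) {R : Hol} {χ : Additive Γ →+ Cx}
    (hroot : IsRoot (N := N) (Γ := Γ) κ n (x : LaurentSeries K) R) (hc : HasChar (R : ℍ → ℂ) χ) {γ : Γ}
    (ht : (mat γ).trace ^ 2 < 4) : mult χ γ = 1 := by
  haveI := h.isFunctionField
  have hR := hroot.ne_zero hn fun e => hx (Subtype.ext e)
  obtain ⟨A, B, hB, hAB, hP⟩ := hroot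
  obtain ⟨τ, hfix⟩ := exists_fixed_point (γ : SL(2, ℤ)) ht
  obtain ⟨l, hl, hlm⟩ := exists_ord_dvd (h.pointEmb τ ((1 : SL(2, ℤ)) : Cos Γ))
    (fun a => h.pointEmb_algebraMap τ ((1 : SL(2, ℤ)) : Cos Γ) a) (n := (n : ℤ)) hdiv
  have hord := h.root_order_one hx hn hB hAB hR hP τ hl
  have hml := hlm _ 1 (h.point_dvd_order hfix (IsPrimitiveRoot.orderOf _) (d := 1)
    (by rw [pow_one]; exact smul_one_coset γ))
  rw [one_mul] at hml
  have hwb := mult_one_of_fix ((map_ne_zero_iff _ toHol_injective).2 hB) hfix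
    fun z => B.2.2.1 _ γ.2 z
  have hw0 : (denom (γ : SL(2, ℤ)) (τ : ℂ)) ^ (-2 : ℤ) ≠ 0 :=
    zpow_ne_zero _ (UpperHalfPlane.denom_ne_zero _ _)
  rw [mult_eq_of_fixed hR hfix (hc γ), ← zpow_natCast, hord, zpow_add₀ hw0, zpow_natCast, hwb,
    mul_one]
  obtain ⟨e, he⟩ := hml
  rw [he, zpow_mul, zpow_natCast, pow_orderOf_eq_one, one_zpow]

theorem IsModel.mult_parabolic (h : IsModel N Γ κ F) {x : F} (hx : x ≠ 0) {n : ℕ} (hn : n ≠ 0)
    (hdiv : ∀ v : Place K F, (n : ℤ) ∣ v.ord x) {R : Hol} {χ : Additive Γ →+ Cx}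
    (hroot : IsRoot (N := N) (Γ := Γ) κ n (x : LaurentSeries K) R) (hc : HasChar (R : ℍ → ℂ) χ)
    (hnχ : n • χ = 0) {γ : Γ} (ht : (mat γ).trace ^ 2 = 4) : mult χ γ = 1 := by
  haveI := h.isFunctionField
  have hx' : (x : LaurentSeries K) ≠ 0 := fun e => hx (Subtype.ext e)
  obtain ⟨A, B, hB, hAB, hP⟩ := hroot
  obtain ⟨σ, hσ⟩ := ES.exists_conj_upper (γ := (γ : SL(2, ℤ))) ht
  set u := σ⁻¹ * (γ : SL(2, ℤ)) * σ
  set b := u 0 0 * u 0 1
  set q : Cos Γ := ((σ⁻¹ : SL(2, ℤ)) : Cos Γ)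
  have hmove : ∀ τ : ℍ, σ • (ModularGroup.T ^ b • τ) = (γ : SL(2, ℤ)) • σ • τ := fun τ => by
    rw [← upper_smul u hσ τ, ← mul_smul, ← mul_smul]
    congr 1
    simp [u, mul_assoc]
  have htr : ∀ (f : W N Γ) τ, trans q f τ = (f : ℍ → ℂ) (σ • τ) := fun f τ => by
    rw [trans_mk, inv_inv]
  have hshift : ∀ (f : W N Γ),
      (N : ℤ) ∣ b * (psiCusp q f).order := fun f => by
    rw [psiCusp_apply]
    refine shift_dvd_order _ fun τ => ?_
    show trans q f _ = trans q f τ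
    rw [htr, htr, hmove, f.2.2.1 _ γ.2]
  obtain ⟨l, hl, hlm⟩ := exists_ord_dvd (h.cuspEmb q)
    (fun a => h.cuspEmb_algebraMap q a) (n := (n : ℤ)) hdiv
  have hNl : (N : ℤ) ∣ b * l := hlm N b fun f => h.dvd_order_of_psi (psiCusp_injective q)
    (fun x A B e => h.cuspEmb_mul q e) hshift f
  set G : PerL (N : ℝ) := ⟨trans q (A * B ^ (n - 1)), trans_mem_PerL q _⟩
  have h1 := h.cuspEmb_mul q hAB
  have hx1 : h.cuspEmb q x ≠ 0 := (map_ne_zero _).2 hx
  have hB1 : psiCusp q B ≠ 0 := (map_ne_zero_iff _ (psiCusp_injective q)).2 hB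
  have hA := W_ne_zero_left hB hx' hAB
  have hG0 : G ≠ 0 := fun e => W_mul_ne_zero hA (W_pow_ne_zero hB (n - 1))
    (trans_injective q ((congrArg Subtype.val e).trans (map_zero _).symm))
  have hord : (expL (N : ℝ) G).order = n * (l + (psiCusp q B).order) := by
    obtain ⟨m, rfl⟩ := Nat.exists_eq_succ_of_ne_zero hn
    show (psiCusp q (A * B ^ _)).order = _
    rw [map_mul, map_pow, ← h1, mul_assoc, ← pow_succ', lord_mul hx1 (pow_ne_zero _ hB1), lord_pow,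
      hl, Nat.succ_eq_add_one, Nat.add_sub_cancel]
    push_cast; ring
  refine mult_eq_one_of_shift hn (comp_smul_mdiff R.2 σ) G hG0 (fun τ => ?_) hord
    (by rw [mul_add]; exact dvd_add hNl (hshift B)) (c := mult χ γ)
    (by rw [← mult_nsmul, hnχ, mult_zero]) fun τ => ?_
  · show (R : ℍ → ℂ) (σ • τ) ^ n = trans q _ τ
    rw [htr]
    exact congrFun (congrArg Subtype.val hP) (σ • τ)
  · show (R : ℍ → ℂ) (σ • ModularGroup.T ^ b • τ) = _
    rw [hmove, hc]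

/-- The character of a function with divisor divisible by `n`. -/
theorem IsModel.exists_isCharFn (h : IsModel N Γ κ F) {x : F} (hx : x ≠ 0) {n : ℕ} (hn : n ≠ 0)
    (hdiv : ∀ v : Place K F, (n : ℤ) ∣ v.ord x) :
    ∃ χ ∈ Hpar Γ Cx, n • χ = 0 ∧ IsCharFn N κ n (x : LaurentSeries K) χ := by
  obtain ⟨R, hroot⟩ := h.exists_isRoot hx hn hdiv
  have hx' : (x : LaurentSeries K) ≠ 0 := fun e => hx (Subtype.ext e)
  have hR := hroot.ne_zero hn hx'
  obtain ⟨A, B, hB, hAB, hP⟩ := hroot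
  obtain ⟨χ, hc, hnχ⟩ := exists_hasChar hn hR hP
  refine ⟨χ, fun γ hγ => Additive.toMul.injective (Units.ext ?_), hnχ, R, ⟨A, B, hB, hAB, hP⟩, hc⟩
  show mult χ γ = 1
  rcases hγ.lt_or_eq with ht | ht
  · exact h.mult_elliptic hx hn hdiv ⟨A, B, hB, hAB, hP⟩ hc ht
  · exact h.mult_parabolic hx hn hdiv ⟨A, B, hB, hAB, hP⟩ hc hnχ ht


end FLTAgent.DeligneSerre.Tors
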