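import Fermat.Agent.DeligneSerre.UnitPartition
import Fermat.Agent.Frobenius.Zeta

/-!
# Almost invariance of smoothed sums over an ideal under translations

For an element `b` of an ideal `J` let `q(b)` be the norm of `(b) J⁻¹`. The function
`b ↦ weight b · ψ(q b) · q(b)^{-s}` changes by an absolutely summable amount, uniformly in
`s ∈ (1, 2]`, when `b` is translated by an element of `m J`.
-/

set_option autoImplicit false

noncomputable section

namespace FLTAgent.DeligneSerre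

open NumberField Module Ideal FLTAgent.Frobenius
open scoped Classical

variable {K : Type} [Field K] [NumberField K]

/-! ### The quotient norm -/

/-- The norm of the ideal `(b) J⁻¹`. -/
def qnorm (J : Ideal (𝓞 K)) (b : 𝓞 K) : ℕ := (Algebra.norm ℤ b).natAbs / absNorm J

variable {J : Ideal (𝓞 K)}

theorem absNorm_pos (hJ : J ≠ ⊥) : 0 < absNorm J :=
  Nat.pos_of_ne_zero (by simpa [Ideal.absNorm_eq_zero_iff] using hJ)

theorem qnorm_mul_absNorm {b : 𝓞 K} (hb : b ∈ J) :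
    qnorm J b * absNorm J = (Algebra.norm ℤ b).natAbs := by
  rw [qnorm, Nat.div_mul_cancel]
  rw [← Ideal.absNorm_span_singleton]
  exact absNorm_dvd_absNorm_of_le ((span_singleton_le_iff_mem _).mpr hb)

theorem qnorm_pos (hJ : J ≠ ⊥) {b : 𝓞 K} (hb : b ∈ J) (hb0 : b ≠ 0) : 0 < qnorm J b := by
  refine Nat.pos_of_ne_zero fun h => ?_
  have h1 := qnorm_mul_absNorm hb
  rw [h, zero_mul, eq_comm, Int.natAbs_eq_zero, Algebra.norm_eq_zero_iff] at h1
  exact hb0 h1

theorem qnorm_zero (J : Ideal (𝓞 K)) : qnorm J 0 = 0 := by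
  simp [qnorm]

theorem qnorm_eq_of_span (hJ : J ≠ ⊥) {b : 𝓞 K} {I : Ideal (𝓞 K)}
    (h : span {b} = J * I) : qnorm J b = absNorm I := by
  rw [qnorm, ← Ideal.absNorm_span_singleton, h, map_mul, Nat.mul_div_cancel_left _ (absNorm_pos hJ)]

theorem nm_coe (b : 𝓞 K) : nm (b : K) = ((Algebra.norm ℤ b).natAbs : ℝ) := by
  rw [nm, ← Algebra.coe_norm_int, Nat.cast_natAbs]
  push_cast
  rfl

theorem qnorm_cast (hJ : J ≠ ⊥) {b : 𝓞 K} (hb : b ∈ J) :
    (qnorm J b : ℝ) * (absNorm J : ℝ) = nm (b : K) := by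
  rw [nm_coe, ← qnorm_mul_absNorm hb, Nat.cast_mul]

/-- The norm of `(b) J⁻¹` modulo `m` does not change under translation by `m J`, if the sign of
the norm does not change. -/
theorem qnorm_cast_add (hJ : J ≠ ⊥) (m : ℕ) {b x : 𝓞 K} (hb : b ∈ J) (hx : x ∈ J)
    (hpos : 0 < Algebra.norm ℤ (b + (m : 𝓞 K) * x) * Algebra.norm ℤ b) :
    (qnorm J (b + (m : 𝓞 K) * x) : ZMod m) = qnorm J b := by
  set e := RingOfIntegers.basis K
  set f := Ideal.selfBasis e J hJ
  have hb' : b + (m : 𝓞 K) * x ∈ J := add_mem hb (J.mul_mem_left _ hx)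
  let M : J → Matrix _ _ ℤ := fun c =>
    f.toMatrix fun i => (⟨(c : 𝓞 K) * e i, J.mul_mem_right _ c.2⟩ : J)
  set c := e.toMatrix ((↑) ∘ f : _ → 𝓞 K) with hc
  have hcdet : c.det.natAbs = absNorm J := by
    rw [hc, ← Basis.det_apply]
    exact Ideal.natAbs_det_basis_change e J f
  have hdet : ∀ a : J, Algebra.norm ℤ (a : 𝓞 K) = c.det * (M a).det := by
    intro a
    rw [← Matrix.det_mul, Algebra.norm_eq_matrix_det e]
    congr 1
    ext i j
    rw [Algebra.leftMulMatrix_eq_repr_mul]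
    have h := f.sum_repr (⟨(a : 𝓞 K) * e j, J.mul_mem_right _ a.2⟩ : J)
    replace h := congrArg (fun v : J => e.repr (v : 𝓞 K) i) h
    simp only [Submodule.coe_sum, map_sum, Finsupp.coe_finset_sum, Finset.sum_apply] at h
    rw [← h, Matrix.mul_apply]
    exact Finset.sum_congr rfl fun k _ => by
      rw [Submodule.coe_smul_of_tower, map_zsmul, Finsupp.smul_apply, smul_eq_mul]
      simp [hc, M, Basis.toMatrix_apply, mul_comm]
  set B : J := ⟨b, hb⟩
  set B' : J := ⟨b + (m : 𝓞 K) * x, hb'⟩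
  have hcong : ((M B').det : ZMod m) = ((M B).det : ZMod m) := by
    have hh : ∀ A : Matrix (Free.ChooseBasisIndex ℤ (𝓞 K)) (Free.ChooseBasisIndex ℤ (𝓞 K)) ℤ,
        ((A.det : ℤ) : ZMod m) = ((Int.castRingHom (ZMod m)).mapMatrix A).det :=
      fun A => (Int.castRingHom (ZMod m)).map_det A
    rw [hh, hh]
    congr 1
    ext i j
    have h : (⟨(B' : 𝓞 K) * e j, J.mul_mem_right _ B'.2⟩ : J) =
        ⟨(B : 𝓞 K) * e j, J.mul_mem_right _ B.2⟩ +
          (m : ℤ) • (⟨x * e j, J.mul_mem_right _ hx⟩ : J) := by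
      refine Subtype.ext ?_
      simp only [Submodule.coe_add, Submodule.coe_smul_of_tower, B, B']
      rw [zsmul_eq_mul, Int.cast_natCast]
      ring
    simp only [M, Basis.toMatrix_apply, RingHom.mapMatrix_apply, Matrix.map_apply, h, map_add,
      map_zsmul, Finsupp.add_apply, Finsupp.smul_apply, smul_eq_mul]
    simp
  have hq : ∀ a : J, qnorm J (a : 𝓞 K) = ((M a).det).natAbs := by
    intro a
    rw [qnorm, hdet, Int.natAbs_mul, hcdet, Nat.mul_div_cancel_left _ (absNorm_pos hJ)]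
  rw [hdet B', hdet B] at hpos
  have hprod : 0 < (M B').det * (M B).det := by
    have h2 : 0 < c.det ^ 2 := by
      have : c.det ≠ 0 := fun h => (absNorm_pos hJ).ne' (by rw [← hcdet, h]; rfl)
      positivity
    nlinarith
  rw [hq B', hq B]
  rcases mul_pos_iff.mp hprod with ⟨h1, h2⟩ | ⟨h1, h2⟩
  · rw [← Int.cast_natCast (M B').det.natAbs, ← Int.cast_natCast (M B).det.natAbs,
      Int.natAbs_of_nonneg h1.le, Int.natAbs_of_nonneg h2.le, hcong]
  · rw [← Int.cast_natCast (M B').det.natAbs, ← Int.cast_natCast (M B).det.natAbs,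
      Int.ofNat_natAbs_of_nonpos h1.le,
      Int.ofNat_natAbs_of_nonpos h2.le, Int.cast_neg, Int.cast_neg, hcong]

/-! ### The summand -/

variable {m : ℕ} [NeZero m]

/-- The term attached to an element of an ideal. -/
def elemTerm (ψ : DirichletCharacter ℂ m) (J : Ideal (𝓞 K)) (s : ℝ) (b : 𝓞 K) : ℂ :=
  ψ (qnorm J b : ZMod m) * (((qnorm J b : ℝ) ^ (-s) : ℝ) : ℂ)

/-- The weighted term. -/
def wTerm (ψ : DirichletCharacter ℂ m) (J : Ideal (𝓞 K)) (s : ℝ) (b : 𝓞 K) : ℂ :=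
  (weight (b : K) : ℂ) * elemTerm ψ J s b

theorem norm_char_mul_rpow_le (ψ : DirichletCharacter ℂ m) (n : ℕ) (s : ℝ) :
    ‖ψ (n : ZMod m) * (((n : ℝ) ^ (-s) : ℝ) : ℂ)‖ ≤ (n : ℝ) ^ (-s) := by
  rw [norm_mul, Complex.norm_real, Real.norm_of_nonneg (Real.rpow_nonneg (Nat.cast_nonneg _) _)]
  exact mul_le_of_le_one_left (Real.rpow_nonneg (Nat.cast_nonneg _) _) (ψ.norm_le_one _)

theorem norm_elemTerm_le (ψ : DirichletCharacter ℂ m) (J : Ideal (𝓞 K)) (s : ℝ) (b : 𝓞 K) :
    ‖elemTerm ψ J s b‖ ≤ (qnorm J b : ℝ) ^ (-s) := norm_char_mul_rpow_le ψ _ _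

theorem natCast_rpow_neg_le_one (n : ℕ) {s : ℝ} (hs : 0 < s) : (n : ℝ) ^ (-s) ≤ 1 := by
  rcases Nat.eq_zero_or_pos n with rfl | hn
  · rw [Nat.cast_zero, Real.zero_rpow (by linarith)]
    exact zero_le_one
  · exact Real.rpow_le_one_of_one_le_of_nonpos (by exact_mod_cast hn) (by linarith)

theorem norm_wTerm_le (ψ : DirichletCharacter ℂ m) (J : Ideal (𝓞 K)) {s : ℝ} (hs : 0 < s)
    (b : 𝓞 K) : ‖wTerm ψ J s b‖ ≤ 1 := by
  rw [wTerm, norm_mul, Complex.norm_real, Real.norm_of_nonneg (weight_nonneg _)]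
  exact mul_le_one₀ (weight_le_one _) (norm_nonneg _)
    ((norm_elemTerm_le ψ J s b).trans (natCast_rpow_neg_le_one _ hs))

/-- The exponent of the majorant. -/
def tExp (K : Type) [Field K] [NumberField K] : ℝ := 1 + 1 / deg K

theorem one_lt_tExp : 1 < tExp K := by
  have := deg_pos (K := K)
  simp only [tExp, lt_add_iff_pos_right]
  positivity

omit [NeZero m] in
theorem norm_ratio_sub_one_le {x : K} {η : ℝ} (hη : ∀ w : InfinitePlace K, w x ≤ η) :
    |((Algebra.norm ℚ (1 + x) : ℚ) : ℝ) - 1| ≤ Real.exp (deg K * η) - 1 := by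
  have h := (Finset.univ : Finset (K →ₐ[ℚ] ℂ)).norm_prod_one_add_sub_one_le (fun φ => φ x)
  rw [show ∏ φ : K →ₐ[ℚ] ℂ, (1 + φ x) = ((Algebra.norm ℚ (1 + x) : ℚ) : ℂ) by
    rw [← eq_ratCast (algebraMap ℚ ℂ), Algebra.norm_eq_prod_embeddings]
    simp] at h
  rw [← Complex.ofReal_ratCast, ← Complex.ofReal_one, ← Complex.ofReal_sub, Complex.norm_real,
    Real.norm_eq_abs] at h
  refine h.trans (sub_le_sub_right (Real.exp_le_exp.mpr ?_) _)
  refine (Finset.sum_le_card_nsmul _ _ η fun φ _ => ?_).trans (le_of_eq ?_)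
  · exact (le_of_eq (InfinitePlace.apply φ.toRingHom x).symm).trans (hη _)
  · rw [nsmul_eq_mul, Finset.card_univ, AlgHom.card, deg]

theorem log_ratio_bound {a a' η : ℝ} (ha : 0 < a) (h : |a' - a| ≤ η * a) (hη : η ≤ 1 / 2) :
    0 < a' ∧ |Real.log a' - Real.log a| ≤ 2 * η := by
  have h1 := abs_le.mp h
  have ha' : 0 < a' := by nlinarith
  refine ⟨ha', ?_⟩
  rw [← Real.log_div ha'.ne' ha.ne']
  have hlo : 1 - η ≤ a' / a := by rw [le_div_iff₀ ha]; nlinarith
  have hhi : a' / a ≤ 1 + η := by rw [div_le_iff₀ ha]; nlinarith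
  have hη0 : 0 ≤ η := by nlinarith [abs_nonneg (a' - a)]
  refine abs_le.mpr ⟨?_, ?_⟩
  · have h2 := Real.one_sub_inv_le_log_of_pos (div_pos ha' ha)
    have h3 : (a' / a)⁻¹ ≤ 1 + 2 * η := by
      rw [inv_le_comm₀ (div_pos ha' ha) (by linarith)]
      refine le_trans ?_ hlo
      rw [inv_le_iff_one_le_mul₀ (by linarith)]
      nlinarith
    linarith
  · linarith [Real.log_le_sub_one_of_pos (div_pos ha' ha)]

variable (K) in
/-- The pointwise estimate. -/
theorem exists_pointwise_bound (ψ : DirichletCharacter ℂ m) {J : Ideal (𝓞 K)} (hJ : J ≠ ⊥)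
    (B : ℝ) {x : 𝓞 K} (hx : x ∈ J) :
    ∃ C : ℝ, 0 ≤ C ∧ ∀ s : ℝ, 1 < s → s ≤ 2 → ∀ b ∈ J, Comparable B (b : K) →
      ‖wTerm ψ J s (b + (m : 𝓞 K) * x) - wTerm ψ J s b‖ ≤ C * (qnorm J b : ℝ) ^ (-tExp K) := by
  obtain ⟨Cw, hCw0, hCw⟩ := exists_weight_sub_le K
  set d := deg K with hd
  have hd1 : 1 ≤ d := one_le_deg
  set δ : 𝓞 K := (m : 𝓞 K) * x with hδ
  set D : ℝ := (∑ w : InfinitePlace K, w (δ : K)) * Real.exp B with hD
  have hD0 : 0 ≤ D := mul_nonneg (Finset.sum_nonneg fun w _ => apply_nonneg w _) (Real.exp_pos B).le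
  set M : ℝ := (8 * d * D) ^ d with hM
  have hM0 : 0 ≤ M := Real.rpow_nonneg (by positivity) _
  refine ⟨2 * M ^ tExp K + (4 * Cw + 8 * d) * D, by positivity, fun s hs hs2 b hb hB => ?_⟩
  obtain ⟨hb0, hbal⟩ := hB
  have hb00 : b ≠ 0 := fun h => hb0 (by simp [h])
  have hN : 0 < nm (b : K) := nm_pos hb0
  set R := nm (b : K) ^ (1 / d) with hR
  have hR0 : 0 < R := Real.rpow_pos_of_pos hN _
  have hq : 0 < (qnorm J b : ℝ) := by exact_mod_cast qnorm_pos hJ hb hb00
  have hqnm : (qnorm J b : ℝ) ≤ nm (b : K) := by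
    rw [← qnorm_cast hJ hb]
    exact le_mul_of_one_le_right hq.le (by exact_mod_cast absNorm_pos hJ)
  have hqt : 0 ≤ (qnorm J b : ℝ) ^ (-tExp K) := Real.rpow_nonneg hq.le _
  set η := D / R with hη
  have hη0 : 0 ≤ η := div_nonneg hD0 hR0.le
  by_cases hbig : 8 * d * η ≤ 1
  swap
  · have hlt : R < 8 * d * D := by
      rw [hη, mul_div_assoc', not_le, lt_div_iff₀ hR0, one_mul] at hbig
      exact hbig
    have hNM : nm (b : K) ≤ M := by
      have := Real.rpow_le_rpow hR0.le hlt.le (by linarith : (0 : ℝ) ≤ d)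
      rwa [hR, ← Real.rpow_mul hN.le, one_div_mul_cancel (by linarith), Real.rpow_one] at this
    have h1 : 1 ≤ M ^ tExp K * (qnorm J b : ℝ) ^ (-tExp K) := by
      rw [Real.rpow_neg hq.le, ← div_eq_mul_inv, one_le_div (Real.rpow_pos_of_pos hq _)]
      exact Real.rpow_le_rpow hq.le (hqnm.trans hNM) (zero_lt_one.trans one_lt_tExp).le
    refine (norm_sub_le _ _).trans ?_
    have h2 : 0 ≤ (4 * Cw + 8 * d) * D * (qnorm J b : ℝ) ^ (-tExp K) := by positivity
    nlinarith [norm_wTerm_le ψ J (zero_lt_one.trans hs) (b + δ),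
      norm_wTerm_le ψ J (zero_lt_one.trans hs) b]
  have hη2 : η ≤ 1 / 2 := by nlinarith
  have hwb : ∀ w : InfinitePlace K, w (δ : K) ≤ η * w (b : K) := by
    intro w
    have h1 : R * Real.exp (-B) ≤ w (b : K) := by
      rw [← Real.exp_log (InfinitePlace.pos_iff.mpr hb0 : 0 < w (b : K)), hR,
        Real.rpow_def_of_pos hN, ← Real.exp_add, Real.exp_le_exp]
      have := (abs_le.mp (hbal w)).1
      rw [bal, ← hd] at this
      rw [mul_one_div]
      linarith
    have h2 : w (δ : K) ≤ ∑ v : InfinitePlace K, v (δ : K) :=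
      Finset.single_le_sum (f := fun v : InfinitePlace K => v (δ : K))
        (fun v _ => apply_nonneg v _) (Finset.mem_univ w)
    refine h2.trans ?_
    calc ∑ v : InfinitePlace K, v (δ : K) = η * (R * Real.exp (-B)) := by
          rw [hη, hD, Real.exp_neg]
          field_simp
      _ ≤ η * w (b : K) := mul_le_mul_of_nonneg_left h1 hη0
  have hlogw : ∀ w : InfinitePlace K, 0 < w ((b : K) + (δ : K)) ∧
      |Real.log (w ((b : K) + (δ : K))) - Real.log (w (b : K))| ≤ 2 * η := by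
    intro w
    refine log_ratio_bound (InfinitePlace.pos_iff.mpr hb0) (le_trans ?_ (hwb w)) hη2
    have h := abs_norm_sub_norm_le (w.embedding ((b : K) + δ)) (w.embedding (b : K))
    simpa only [← map_sub, InfinitePlace.norm_embedding_eq, add_sub_cancel_left] using h
  have hbd0 : (b : K) + (δ : K) ≠ 0 := fun h => by
    obtain ⟨w⟩ := (inferInstance : Nonempty (InfinitePlace K))
    exact absurd (hlogw w).1 (by rw [h, map_zero]; exact lt_irrefl 0)
  have hcoe : ((b + δ : 𝓞 K) : K) = (b : K) + (δ : K) := map_add _ _ _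
  have hlnm : |Real.log (nm ((b : K) + δ)) - Real.log (nm (b : K))| ≤ d * (2 * η) := by
    rw [log_nm hbd0, log_nm hb0, ← Finset.sum_sub_distrib, hd, ← sum_mult, Finset.sum_mul]
    refine (Finset.abs_sum_le_sum_abs _ _).trans (Finset.sum_le_sum fun w _ => ?_)
    rw [← mul_sub, abs_mul, Nat.abs_cast]
    exact mul_le_mul_of_nonneg_left (hlogw w).2 (Nat.cast_nonneg _)
  have hweight : |weight ((b : K) + δ) - weight (b : K)| ≤ Cw * (4 * η) := by
    refine hCw _ _ hbd0 hb0 _ fun w => ?_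
    have h1 := (hlogw w).2
    have h2 : |Real.log (nm ((b : K) + δ)) / d - Real.log (nm (b : K)) / d| ≤ 2 * η := by
      rw [← sub_div, abs_div, abs_of_pos (by linarith : (0 : ℝ) < d), div_le_iff₀ (by linarith)]
      linarith
    rw [bal, bal, ← hd]
    have h3 := abs_le.mp h1
    have h4 := abs_le.mp h2
    exact abs_le.mpr ⟨by linarith, by linarith⟩
  -- the sign of the norm
  have hpos : 0 < Algebra.norm ℤ (b + δ) * Algebra.norm ℤ b := by
    have hr : |((Algebra.norm ℚ (1 + (δ : K) / (b : K)) : ℚ) : ℝ) - 1| < 1 := by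
      refine (norm_ratio_sub_one_le (η := η) fun w => ?_).trans_lt ?_
      · rw [map_div₀, div_le_iff₀ (InfinitePlace.pos_iff.mpr hb0)]
        exact hwb w
      · have h1 : |deg K * η| ≤ 1 := by rw [abs_of_nonneg (by positivity)]; nlinarith
        have h2 := Real.abs_exp_sub_one_le h1
        rw [abs_of_nonneg (by positivity : 0 ≤ deg K * η)] at h2
        have h3 := (abs_le.mp h2).2
        nlinarith
    have hratio : (0 : ℚ) < Algebra.norm ℚ (1 + (δ : K) / (b : K)) := by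
      exact_mod_cast (by linarith [(abs_lt.mp hr).1] :
        (0 : ℝ) < ((Algebra.norm ℚ (1 + (δ : K) / (b : K)) : ℚ) : ℝ))
    have hfac : (b : K) + δ = (b : K) * (1 + (δ : K) / (b : K)) := by
      field_simp
    have hq2 : (0 : ℚ) < Algebra.norm ℚ ((b + δ : 𝓞 K) : K) * Algebra.norm ℚ (b : K) := by
      rw [hcoe, hfac, map_mul, mul_right_comm]
      exact mul_pos (mul_self_pos.mpr (Algebra.norm_ne_zero_iff.mpr hb0)) hratio
    rw [← Algebra.coe_norm_int, ← Algebra.coe_norm_int] at hq2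
    exact_mod_cast hq2
  have hmem : b + δ ∈ J := add_mem hb (J.mul_mem_left _ hx)
  have hchar : ψ (qnorm J (b + δ) : ZMod m) = ψ (qnorm J b : ZMod m) := by
    rw [qnorm_cast_add hJ m hb hx hpos]
  set q : ℝ := (qnorm J b : ℝ) with hqd
  set q' : ℝ := (qnorm J (b + δ) : ℝ) with hq'd
  have hN' : 0 < nm ((b : K) + δ) := nm_pos hbd0
  have hq' : q' = q * Real.exp (Real.log (nm ((b : K) + δ)) - Real.log (nm (b : K))) := by
    rw [Real.exp_sub, Real.exp_log hN', Real.exp_log hN, ← hcoe, ← qnorm_cast hJ hmem,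
      ← qnorm_cast hJ hb]
    have : (absNorm J : ℝ) ≠ 0 := by exact_mod_cast (absNorm_pos hJ).ne'
    simp only [hqd, hq'd]
    field_simp [(by exact_mod_cast (qnorm_pos hJ hb hb00).ne' : (qnorm J b : ℝ) ≠ 0)]
  have hpow : |q' ^ (-s) - q ^ (-s)| ≤ 8 * d * η * q ^ (-s) := by
    rw [hq', Real.mul_rpow hq.le (Real.exp_pos _).le, ← Real.exp_mul, ← mul_sub_one, abs_mul,
      abs_of_nonneg (Real.rpow_nonneg hq.le _), mul_comm _ (q ^ (-s))]
    refine mul_le_mul_of_nonneg_left ?_ (Real.rpow_nonneg hq.le _)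
    have h1 : |(Real.log (nm ((b : K) + δ)) - Real.log (nm (b : K))) * -s| ≤ 4 * d * η := by
      rw [abs_mul, abs_neg, abs_of_pos (zero_lt_one.trans hs)]
      nlinarith [abs_nonneg (Real.log (nm ((b : K) + δ)) - Real.log (nm (b : K)))]
    refine (Real.abs_exp_sub_one_le (h1.trans (by linarith))).trans ?_
    linarith
  have hqs : q ^ (-s) ≤ q ^ (-1 : ℝ) :=
    Real.rpow_le_rpow_of_exponent_le (by rw [hqd]; exact_mod_cast qnorm_pos hJ hb hb00) (by linarith)
  have hηq : η * q ^ (-1 : ℝ) ≤ D * q ^ (-tExp K) := by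
    rw [show -tExp K = -(1 / d) + (-1) by rw [tExp, hd]; ring, Real.rpow_add hq, hη,
      Real.rpow_neg hq.le (1 / d), ← mul_assoc, ← div_eq_mul_inv]
    refine mul_le_mul_of_nonneg_right ?_ (Real.rpow_nonneg hq.le _)
    exact div_le_div_of_nonneg_left hD0 (Real.rpow_pos_of_pos hq _)
      (Real.rpow_le_rpow hq.le hqnm (by positivity))
  rw [wTerm, wTerm, elemTerm, elemTerm, hchar, ← hqd, ← hq'd, hcoe,
    show ((weight ((b : K) + δ) : ℝ) : ℂ) * (ψ (qnorm J b : ZMod m) * ((q' ^ (-s) : ℝ) : ℂ)) -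
      ((weight (b : K) : ℝ) : ℂ) * (ψ (qnorm J b : ZMod m) * ((q ^ (-s) : ℝ) : ℂ)) =
      ψ (qnorm J b : ZMod m) * (((weight ((b : K) + δ) * q' ^ (-s) - weight (b : K) * q ^ (-s)) : ℝ) :
        ℂ) by push_cast; ring, norm_mul, Complex.norm_real, Real.norm_eq_abs]
  refine (mul_le_of_le_one_left (abs_nonneg _) (ψ.norm_le_one _)).trans ?_
  have hexp : |weight ((b : K) + δ) * q' ^ (-s) - weight (b : K) * q ^ (-s)| ≤
      (4 * Cw + 8 * d) * (η * q ^ (-s)) := by
    rw [show weight ((b : K) + δ) * q' ^ (-s) - weight (b : K) * q ^ (-s) =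
      weight ((b : K) + δ) * (q' ^ (-s) - q ^ (-s)) +
        (weight ((b : K) + δ) - weight (b : K)) * q ^ (-s) by ring]
    refine (abs_add_le _ _).trans ?_
    rw [abs_mul, abs_mul, abs_of_nonneg (weight_nonneg _),
      abs_of_nonneg (Real.rpow_nonneg hq.le (-s))]
    nlinarith [weight_le_one ((b : K) + δ), abs_nonneg (q' ^ (-s) - q ^ (-s)),
      Real.rpow_nonneg hq.le (-s)]
  refine hexp.trans ?_
  have h2 : 0 ≤ 2 * M ^ tExp K * q ^ (-tExp K) := by positivity
  have h3 : η * q ^ (-s) ≤ D * q ^ (-tExp K) := (mul_le_mul_of_nonneg_left hqs hη0).trans hηq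
  have h4 : 0 ≤ 4 * Cw + 8 * d := by positivity
  nlinarith [mul_le_mul_of_nonneg_left h3 h4]

end FLTAgent.DeligneSerre
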