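import Mathlib

/-!
# A partition of unity for the action of the units of a number field

The weight is a product of tent functions in the coordinates of the logarithmic embedding with
respect to a fundamental system of units, so that the weights of the translates by units sum to one.
-/

set_option autoImplicit false

noncomputable section

namespace FLTAgent.DeligneSerre

open NumberField NumberField.Units NumberField.Units.dirichletUnitTheorem
open Module
open scoped Classical

/-- The tent function. -/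
def tent (t : ℝ) : ℝ := max 0 (1 - |t|)

theorem tent_nonneg (t : ℝ) : 0 ≤ tent t := le_max_left _ _

theorem tent_le_one (t : ℝ) : tent t ≤ 1 := max_le zero_le_one (sub_le_self _ (abs_nonneg t))

theorem abs_lt_one_of_tent_ne_zero {t : ℝ} (h : tent t ≠ 0) : |t| < 1 := by
  by_contra hle
  exact h (max_eq_left (by linarith))

theorem abs_tent_sub_le (s t : ℝ) : |tent s - tent t| ≤ |s - t| := by
  have h1 : |(1 - |s|) - (1 - |t|)| ≤ |s - t| := by
    rw [show (1 - |s|) - (1 - |t|) = |t| - |s| by ring, abs_sub_comm s t]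
    exact abs_abs_sub_abs_le_abs_sub t s
  refine le_trans ?_ h1
  unfold tent
  rw [max_comm 0, max_comm 0]
  exact abs_max_sub_max_le_abs _ _ _

/-- The integral translates of the tent function sum to one. -/
theorem sum_tent {c : ℝ} {S : Finset ℤ} (h : -⌊c⌋ ∈ S) (h' : -⌊c⌋ - 1 ∈ S) :
    ∑ k ∈ S, tent ((k : ℝ) + c) = 1 := by
  have h0 := Int.floor_le c
  have h1 := Int.lt_floor_add_one c
  rw [← Finset.sum_subset (s₁ := {-⌊c⌋, -⌊c⌋ - 1}) (by
    intro x hx
    rcases Finset.mem_insert.mp hx with rfl | hx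
    · exact h
    · rw [Finset.mem_singleton.mp hx]; exact h') ?_, Finset.sum_pair (by omega)]
  · unfold tent
    push_cast
    rw [abs_of_nonneg (by linarith : 0 ≤ -(⌊c⌋ : ℝ) + c),
      abs_of_nonpos (by linarith : -(⌊c⌋ : ℝ) - 1 + c ≤ 0), max_eq_right (by linarith),
      max_eq_right (by linarith)]
    ring
  · intro k _ hk
    simp only [Finset.mem_insert, Finset.mem_singleton, not_or] at hk
    refine max_eq_left ?_
    rcases lt_or_gt_of_ne hk.1 with hlt | hgt
    · have : (k : ℝ) ≤ -(⌊c⌋ : ℝ) - 2 := by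
        exact_mod_cast (by omega : k ≤ -⌊c⌋ - 2)
      rw [abs_of_nonpos (by linarith)]
      linarith
    · have : -(⌊c⌋ : ℝ) + 1 ≤ (k : ℝ) := by
        exact_mod_cast (by omega : -⌊c⌋ + 1 ≤ k)
      rw [abs_of_nonneg (by linarith)]
      linarith

variable {K : Type} [Field K] [NumberField K]

variable (K) in
/-- The degree of `K`, as a real number. -/
def deg : ℝ := (Module.finrank ℚ K : ℝ)

theorem deg_pos : 0 < deg K := Nat.cast_pos.mpr Module.finrank_pos

theorem one_le_deg : 1 ≤ deg K := Nat.one_le_cast.mpr Module.finrank_pos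

/-- The absolute value of the norm. -/
def nm (x : K) : ℝ := ((|Algebra.norm ℚ x| : ℚ) : ℝ)

theorem nm_mul (x y : K) : nm (x * y) = nm x * nm y := by
  simp [nm, abs_mul]

theorem nm_pos {x : K} (hx : x ≠ 0) : 0 < nm x := by
  simpa [nm] using (Algebra.norm_ne_zero_iff (R := ℚ).mpr hx)

theorem nm_neg (x : K) : nm (-x) = nm x := by
  rw [← neg_one_mul, nm_mul]
  have : nm (-1 : K) * nm (-1 : K) = 1 := by rw [← nm_mul]; simp [nm]
  have h0 : 0 ≤ nm (-1 : K) := by simp [nm]
  rw [show nm (-1 : K) = 1 by nlinarith, one_mul]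

theorem nm_unit (u : (𝓞 K)ˣ) : nm ((u : 𝓞 K) : K) = 1 := by
  have h := NumberField.Units.norm K u
  have h' : |Algebra.norm ℚ ((u : 𝓞 K) : K)| = 1 := h
  rw [nm, h', Rat.cast_one]

theorem log_nm {x : K} (hx : x ≠ 0) :
    Real.log (nm x) = ∑ w : InfinitePlace K, (w.mult : ℝ) * Real.log (w x) := by
  rw [nm, Rat.cast_abs, ← Rat.cast_abs, ← NumberField.InfinitePlace.prod_eq_abs_norm,
    Real.log_prod fun w _ => pow_ne_zero _ (by simpa using hx)]
  simp [Real.log_pow]

theorem sum_mult : ∑ w : InfinitePlace K, (w.mult : ℝ) = deg K := by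
  rw [deg, ← NumberField.InfinitePlace.sum_mult_eq (K := K)]
  push_cast
  rfl

/-- The logarithm of the absolute value at `w`, normalised by the norm. -/
def bal (w : InfinitePlace K) (x : K) : ℝ := Real.log (w x) - Real.log (nm x) / deg K

theorem sum_bal {x : K} (hx : x ≠ 0) : ∑ w : InfinitePlace K, (w.mult : ℝ) * bal w x = 0 := by
  simp only [bal, mul_sub, Finset.sum_sub_distrib, ← Finset.sum_mul, ← log_nm hx, sum_mult]
  field_simp [(deg_pos (K := K)).ne']
  ring

theorem bal_unit_mul (w : InfinitePlace K) (u : (𝓞 K)ˣ) {x : K} (hx : x ≠ 0) :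
    bal w (((u : 𝓞 K) : K) * x) = Real.log (w ((u : 𝓞 K) : K)) + bal w x := by
  rw [bal, bal, nm_mul, nm_unit, one_mul, map_mul,
    Real.log_mul (Units.pos_at_place u w).ne' (by simpa using hx)]
  ring

/-- All normalised absolute values lie in `[-B, B]`. -/
def Comparable (B : ℝ) (x : K) : Prop := x ≠ 0 ∧ ∀ w : InfinitePlace K, |bal w x| ≤ B

/-- The normalised logarithmic vector. -/
def lvec (x : K) : logSpace K := fun w => (w.val.mult : ℝ) * bal w.val x

theorem lvec_unit_mul (u : (𝓞 K)ˣ) {x : K} (hx : x ≠ 0) :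
    lvec (((u : 𝓞 K) : K) * x) = logEmbedding K (Additive.ofMul u) + lvec x := by
  funext w
  simp only [lvec, Pi.add_apply, bal_unit_mul _ _ hx, logEmbedding_component]
  ring

variable (K) in
/-- The coordinates with respect to the unit lattice. -/
def coordL : logSpace K →ₗ[ℝ] (Fin (rank K) → ℝ) :=
  ((basisUnitLattice K).ofZLatticeBasis ℝ (unitLattice K)).equivFun.toLinearMap

variable (K) in
/-- The unit attached to a root of unity and exponents. -/
def unitOf (p : torsion K × (Fin (rank K) → ℤ)) : (𝓞 K)ˣ :=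
  (p.1 : (𝓞 K)ˣ) * ∏ i, (fundSystem K i) ^ (p.2 i)

theorem unitOf_bijective : Function.Bijective (unitOf K) := by
  refine ⟨fun p q h => ?_, fun u => ?_⟩
  · obtain ⟨r, -, hr⟩ := exist_unique_eq_mul_prod K (unitOf K p)
    exact (hr p rfl).trans (hr q h).symm
  · obtain ⟨r, hr, -⟩ := exist_unique_eq_mul_prod K u
    exact ⟨r, hr.symm⟩

/-- The exponents of a unit on the fundamental system. -/
def expo (u : (𝓞 K)ˣ) : Fin (rank K) → ℤ :=
  ((Equiv.ofBijective _ (unitOf_bijective (K := K))).symm u).2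

theorem expo_unitOf (p : torsion K × (Fin (rank K) → ℤ)) : expo (unitOf K p) = p.2 :=
  congrArg Prod.snd ((Equiv.ofBijective _ (unitOf_bijective (K := K))).symm_apply_apply p)

theorem coordL_logEmbedding (u : (𝓞 K)ˣ) (i : Fin (rank K)) :
    coordL K (logEmbedding K (Additive.ofMul u)) i = (expo u i : ℝ) := by
  obtain ⟨p, rfl⟩ := unitOf_bijective.2 u
  have h : logEmbedding K (Additive.ofMul (unitOf K p)) =
      ∑ j, (p.2 j : ℝ) • ((basisUnitLattice K).ofZLatticeBasis ℝ (unitLattice K) j) := by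
    rw [unitOf, ofMul_mul, map_add, logEmbedding_eq_zero_iff.mpr p.1.2, zero_add, ofMul_prod,
      map_sum]
    exact Finset.sum_congr rfl fun j _ => by
      rw [ofMul_zpow, map_zsmul, logEmbedding_fundSystem, Basis.ofZLatticeBasis_apply,
        Int.cast_smul_eq_zsmul]
  rw [h, expo_unitOf, coordL, LinearEquiv.coe_coe, ← Basis.equivFun_symm_apply,
    LinearEquiv.apply_symm_apply]

theorem coordL_unit_mul (u : (𝓞 K)ˣ) {x : K} (hx : x ≠ 0) (i : Fin (rank K)) :
    coordL K (lvec (((u : 𝓞 K) : K) * x)) i = (expo u i : ℝ) + coordL K (lvec x) i := by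
  rw [lvec_unit_mul u hx, map_add, Pi.add_apply, coordL_logEmbedding]

theorem finite_units_bounded (B : ℝ) :
    {u : (𝓞 K)ˣ | ∀ w : InfinitePlace K, |Real.log (w ((u : 𝓞 K) : K))| ≤ B}.Finite := by
  classical
  obtain ⟨C, hC⟩ : ∃ C : ℝ, ∀ u : (𝓞 K)ˣ, (∀ w : InfinitePlace K,
      |Real.log (w ((u : 𝓞 K) : K))| ≤ B) → ∀ i, |(expo u i : ℝ)| ≤ C := by
    refine ⟨‖LinearMap.toContinuousLinearMap (coordL K)‖ * (deg K * |B|), fun u hu i => ?_⟩
    have h1 : ‖logEmbedding K (Additive.ofMul u)‖ ≤ deg K * |B| := by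
      refine (pi_norm_le_iff_of_nonneg (mul_nonneg deg_pos.le (abs_nonneg B))).mpr fun w => ?_
      rw [logEmbedding_component, Real.norm_eq_abs, abs_mul, abs_of_nonneg (Nat.cast_nonneg _)]
      refine mul_le_mul ?_ ((hu w).trans (le_abs_self B)) (abs_nonneg _) deg_pos.le
      rw [← sum_mult]
      exact Finset.single_le_sum (f := fun w : InfinitePlace K => (w.mult : ℝ))
        (fun w _ => Nat.cast_nonneg _) (Finset.mem_univ _)
    rw [← coordL_logEmbedding, ← Real.norm_eq_abs]
    refine (norm_le_pi_norm _ i).trans ?_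
    exact ((LinearMap.toContinuousLinearMap (coordL K)).le_opNorm _).trans
      (mul_le_mul_of_nonneg_left h1 (norm_nonneg _))
  obtain ⟨N, hN⟩ := exists_nat_ge C
  refine ((Set.finite_univ.prod (Set.Finite.pi' (ι := Fin (rank K)) (κ := fun _ => ℤ)
    fun _ => Set.finite_Icc (-(N : ℤ)) N)).image (unitOf K)).subset fun u hu => ?_
  obtain ⟨p, rfl⟩ := unitOf_bijective.2 u
  refine ⟨p, ⟨Set.mem_univ _, fun i => ?_⟩, rfl⟩
  have h := (hC _ hu i).trans hN
  rw [expo_unitOf] at h
  exact Set.mem_Icc.mpr (abs_le.mp (by exact_mod_cast h))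

/-- The weight of an element. -/
def weight (x : K) : ℝ :=
  if x = 0 then 0 else (∏ i, tent (coordL K (lvec x) i)) / Nat.card (torsion K)

theorem weight_zero : weight (0 : K) = 0 := if_pos rfl

theorem weight_nonneg (x : K) : 0 ≤ weight x := by
  unfold weight
  split_ifs
  · exact le_rfl
  · exact div_nonneg (Finset.prod_nonneg fun i _ => tent_nonneg _) (Nat.cast_nonneg _)

theorem card_torsion_pos : 0 < (Nat.card (torsion K) : ℝ) := by
  exact_mod_cast Nat.card_pos

theorem weight_le_one (x : K) : weight x ≤ 1 := by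
  unfold weight
  split_ifs
  · exact zero_le_one
  · refine div_le_one_of_le₀ ((Finset.prod_le_one (fun i _ => tent_nonneg _)
      fun i _ => tent_le_one _).trans ?_) (Nat.cast_nonneg _)
    exact_mod_cast Nat.card_pos (α := torsion K)

theorem weight_unit_mul (p : torsion K × (Fin (rank K) → ℤ)) {x : K} (hx : x ≠ 0) :
    weight ((((unitOf K p : (𝓞 K)ˣ) : 𝓞 K) : K) * x) =
      (∏ i, tent ((p.2 i : ℝ) + coordL K (lvec x) i)) / Nat.card (torsion K) := by
  rw [weight, if_neg (mul_ne_zero (by simp) hx)]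
  simp only [coordL_unit_mul _ hx, expo_unitOf]

/-- The weights of the multiples of an element by units sum to one. -/
theorem hasSum_weight_units {x : K} (hx : x ≠ 0) :
    HasSum (fun u : (𝓞 K)ˣ => weight (((u : 𝓞 K) : K) * x)) 1 := by
  classical
  rw [← (Equiv.ofBijective _ (unitOf_bijective (K := K))).hasSum_iff]
  set c : Fin (rank K) → ℝ := coordL K (lvec x) with hc
  set S : Fin (rank K) → Finset ℤ := fun i => {-⌊c i⌋, -⌊c i⌋ - 1} with hS
  have : Fintype (torsion K) := Fintype.ofFinite _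
  set T : Finset (torsion K × (Fin (rank K) → ℤ)) :=
    (Finset.univ : Finset (torsion K)) ×ˢ Fintype.piFinset S with hT
  have hfin := hasSum_sum_of_ne_finset_zero (s := T) (L := SummationFilter.unconditional _)
    (f := fun p => weight ((((unitOf K p : (𝓞 K)ˣ) : 𝓞 K) : K) * x)) ?_
  · refine cast (congrArg (HasSum _) ?_) hfin
    simp only [weight_unit_mul _ hx, hT, Finset.sum_product, ← Finset.sum_div, Finset.sum_const,
      Finset.card_univ, ← hc]
    rw [← Finset.prod_univ_sum (fun i => S i) (fun i k => tent ((k : ℝ) + c i)),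
      Finset.prod_eq_one fun i _ => sum_tent (c := c i) (by simp [hS]) (by simp [hS]),
      nsmul_eq_mul, mul_one, ← Nat.card_eq_fintype_card, div_self card_torsion_pos.ne']
  · intro p hp
    simp only [hT, Finset.mem_product, Finset.mem_univ, true_and, Fintype.mem_piFinset,
      not_forall] at hp
    obtain ⟨i, hi⟩ := hp
    rw [weight_unit_mul _ hx, Finset.prod_eq_zero (Finset.mem_univ i), zero_div]
    by_contra h
    have h1 := abs_lt.mp (abs_lt_one_of_tent_ne_zero h)
    simp only [hS, Finset.mem_insert, Finset.mem_singleton, not_or] at hi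
    have h2 := Int.floor_le (c i)
    have h3 := Int.lt_floor_add_one (c i)
    rw [← hc] at h1
    have h4 : (-(⌊c i⌋ : ℝ) - 2) < (p.2 i : ℝ) := by linarith [h1.1]
    have h5 : (p.2 i : ℝ) < -(⌊c i⌋ : ℝ) + 1 := by linarith [h1.2]
    have h6 : -⌊c i⌋ - 2 < p.2 i := by exact_mod_cast h4
    have h7 : p.2 i < -⌊c i⌋ + 1 := by exact_mod_cast h5
    omega

variable (K) in
/-- A bound for the normalised absolute values on the support of the weight. -/
theorem exists_comparable_of_weight : ∃ B : ℝ, 0 ≤ B ∧ ∀ x : K, weight x ≠ 0 → Comparable B x := by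
  classical
  let Φ := ((basisUnitLattice K).ofZLatticeBasis ℝ (unitLattice K)).equivFun.symm
  let A : ℝ := ‖LinearMap.toContinuousLinearMap Φ.toLinearMap‖
  refine ⟨A * deg K + A, by positivity [deg_pos (K := K)], fun x hx => ?_⟩
  have hx0 : x ≠ 0 := fun h => hx (by rw [h, weight_zero])
  refine ⟨hx0, ?_⟩
  rw [weight, if_neg hx0] at hx
  have hc : ∀ i, |coordL K (lvec x) i| ≤ 1 := fun i => (abs_lt_one_of_tent_ne_zero fun h => hx
    (by rw [Finset.prod_eq_zero (Finset.mem_univ i) h, zero_div])).le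
  have hA : ‖lvec x‖ ≤ A := by
    have h1 : lvec x = Φ (coordL K (lvec x)) := by
      simp only [Φ, coordL, LinearEquiv.coe_coe, LinearEquiv.symm_apply_apply]
    rw [h1]
    refine ((LinearMap.toContinuousLinearMap Φ.toLinearMap).le_opNorm _).trans ?_
    refine mul_le_of_le_one_right (norm_nonneg _) ?_
    exact (pi_norm_le_iff_of_nonneg zero_le_one).mpr fun i => hc i
  have hne : ∀ w : InfinitePlace K, w ≠ w₀ → |bal w x| ≤ A := fun w hw => by
    have h1 := (norm_le_pi_norm (lvec x) ⟨w, hw⟩).trans hA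
    simp only [lvec, Real.norm_eq_abs, abs_mul, Nat.abs_cast] at h1
    have h2 : (1 : ℝ) ≤ (w.mult : ℝ) := by exact_mod_cast InfinitePlace.one_le_mult
    nlinarith [abs_nonneg (bal w x)]
  intro w
  have hA0 : 0 ≤ A := norm_nonneg _
  by_cases hw : w = w₀
  · subst hw
    have h0 := sum_bal hx0
    rw [← Finset.add_sum_erase _ _ (Finset.mem_univ (w₀ : InfinitePlace K))] at h0
    have h1 : |(w₀ : InfinitePlace K).mult * bal w₀ x| ≤ A * deg K := by
      rw [eq_neg_of_add_eq_zero_left h0, abs_neg]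
      refine (Finset.abs_sum_le_sum_abs _ _).trans ?_
      rw [← sum_mult, Finset.mul_sum]
      refine (Finset.sum_le_sum fun v hv => ?_).trans (Finset.sum_le_univ_sum_of_nonneg fun v =>
        mul_nonneg hA0 (Nat.cast_nonneg _))
      rw [abs_mul, Nat.abs_cast, mul_comm A]
      exact mul_le_mul_of_nonneg_left (hne v (Finset.mem_erase.mp hv).1) (Nat.cast_nonneg _)
    rw [abs_mul, Nat.abs_cast] at h1
    have h2 : (1 : ℝ) ≤ ((w₀ : InfinitePlace K).mult : ℝ) := by
      exact_mod_cast InfinitePlace.one_le_mult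
    nlinarith [abs_nonneg (bal (w₀ : InfinitePlace K) x)]
  · nlinarith [hne w hw, mul_nonneg hA0 (deg_pos (K := K)).le]

theorem abs_prod_sub_prod_le {ι : Type*} (s : Finset ι) {f g : ι → ℝ}
    (hf : ∀ i ∈ s, f i ∈ Set.Icc (0 : ℝ) 1) (hg : ∀ i ∈ s, g i ∈ Set.Icc (0 : ℝ) 1) :
    |∏ i ∈ s, f i - ∏ i ∈ s, g i| ≤ ∑ i ∈ s, |f i - g i| := by
  classical
  induction s using Finset.induction with
  | empty => simp
  | insert a t ha ih =>
    rw [Finset.prod_insert ha, Finset.prod_insert ha, Finset.sum_insert ha]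
    have hf' : ∀ i ∈ t, f i ∈ Set.Icc (0 : ℝ) 1 := fun i hi => hf i (Finset.mem_insert_of_mem hi)
    have hg' : ∀ i ∈ t, g i ∈ Set.Icc (0 : ℝ) 1 := fun i hi => hg i (Finset.mem_insert_of_mem hi)
    have h1 : 0 ≤ ∏ i ∈ t, f i := Finset.prod_nonneg fun i hi => (hf' i hi).1
    have h2 : ∏ i ∈ t, f i ≤ 1 :=
      Finset.prod_le_one (fun i hi => (hf' i hi).1) fun i hi => (hf' i hi).2
    have hga := hg a (Finset.mem_insert_self a t)
    rw [show f a * ∏ i ∈ t, f i - g a * ∏ i ∈ t, g i =
      (f a - g a) * ∏ i ∈ t, f i + g a * (∏ i ∈ t, f i - ∏ i ∈ t, g i) by ring]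
    refine (abs_add_le _ _).trans (add_le_add ?_ ?_)
    · rw [abs_mul, abs_of_nonneg h1]
      exact mul_le_of_le_one_right (abs_nonneg _) h2
    · rw [abs_mul, abs_of_nonneg hga.1]
      exact (mul_le_of_le_one_left (abs_nonneg _) hga.2).trans (ih hf' hg')

variable (K) in
/-- The weight varies slowly. -/
theorem exists_weight_sub_le : ∃ C : ℝ, 0 ≤ C ∧ ∀ x y : K, x ≠ 0 → y ≠ 0 → ∀ e : ℝ,
    (∀ w : InfinitePlace K, |bal w x - bal w y| ≤ e) → |weight x - weight y| ≤ C * e := by
  classical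
  let A : ℝ := ‖LinearMap.toContinuousLinearMap (coordL K)‖
  refine ⟨rank K * (A * deg K), by positivity [deg_pos (K := K)], fun x y hx hy e he => ?_⟩
  have he0 : 0 ≤ e := (abs_nonneg _).trans (he w₀)
  have hA0 : 0 ≤ A := norm_nonneg _
  have hl : ‖lvec x - lvec y‖ ≤ deg K * e := by
    refine (pi_norm_le_iff_of_nonneg (mul_nonneg deg_pos.le he0)).mpr fun w => ?_
    simp only [lvec, Pi.sub_apply, ← mul_sub, Real.norm_eq_abs, abs_mul, Nat.abs_cast]
    refine mul_le_mul ?_ (he w) (abs_nonneg _) deg_pos.le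
    rw [← sum_mult]
    exact Finset.single_le_sum (f := fun w : InfinitePlace K => (w.mult : ℝ))
      (fun w _ => Nat.cast_nonneg _) (Finset.mem_univ _)
  rw [weight, weight, if_neg hx, if_neg hy, ← sub_div, abs_div, Nat.abs_cast]
  refine (div_le_self (abs_nonneg _) (Nat.one_le_cast.mpr Nat.card_pos)).trans ?_
  refine (abs_prod_sub_prod_le _ (fun i _ => ⟨tent_nonneg _, tent_le_one _⟩)
    (fun i _ => ⟨tent_nonneg _, tent_le_one _⟩)).trans ?_
  refine (Finset.sum_le_sum fun i _ => (abs_tent_sub_le _ _).trans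
    (?_ : _ ≤ A * (deg K * e))).trans ?_
  · rw [← Pi.sub_apply, ← map_sub, ← Real.norm_eq_abs]
    refine (norm_le_pi_norm _ i).trans ?_
    exact ((LinearMap.toContinuousLinearMap (coordL K)).le_opNorm _).trans
      (mul_le_mul_of_nonneg_left hl hA0)
  · simp [mul_assoc]

end FLTAgent.DeligneSerre
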